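/-
Blue-sky programme S58, comparison step (helper20): **the trivial bound `1 ≤ #W(F) ≤ 2 #F + 1`** for a
Weierstrass curve over a finite field (the point at infinity; at most two points above each `x`, the
Weierstrass equation being monic quadratic in `y`), hence `a_r(W) ≠ ±(r + 1)` for the Prelude's
`WeierstrassCurve.apOfModel` — the input of `QuadNonRes20.exists_prime_no_root`; `exists_aux_prime` combines
the two.  No Hasse bound.
-/
import Mathlib
import Fermat.Prelude.Def_FLTPrelim_Modularity
import Fermat.Agent.ES.Q58.QuadNonRes20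

set_option autoImplicit false

namespace Fermat.Agent.ES.Q58.CardBound20

open Polynomial WeierstrassCurve

variable {F : Type*} [Field F]

/-- the Weierstrass equation at a fixed `x`, as a monic quadratic polynomial in `y`. -/
noncomputable def quad (W : WeierstrassCurve.Affine F) (x : F) : F[X] :=
  X ^ 2 + C (W.a₁ * x + W.a₃) * X - C (x ^ 3 + W.a₂ * x ^ 2 + W.a₄ * x + W.a₆)

theorem quad_natDegree (W : WeierstrassCurve.Affine F) (x : F) : (quad W x).natDegree = 2 := by
  unfold quad
  compute_degree!

theorem quad_ne_zero (W : WeierstrassCurve.Affine F) (x : F) : quad W x ≠ 0 := by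
  intro h
  have := quad_natDegree W x
  rw [h, natDegree_zero] at this
  omega

theorem isRoot_quad_iff (W : WeierstrassCurve.Affine F) (x y : F) :
    (quad W x).IsRoot y ↔ W.Equation x y := by
  rw [WeierstrassCurve.Affine.equation_iff, IsRoot.def]
  unfold quad
  simp only [eval_sub, eval_add, eval_pow, eval_X, eval_mul, eval_C]
  constructor
  · intro h; linear_combination h
  · intro h; linear_combination h

/-- **`#W(F) ≤ 2 #F + 1`.** -/
theorem card_point_le [Fintype F] (W : WeierstrassCurve.Affine F) :
    Nat.card W.Point ≤ 2 * Fintype.card F + 1 := by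
  classical
  -- the finite set of affine solutions
  let S : Finset (F × F) :=
    Finset.univ.biUnion fun x : F => (quad W x).roots.toFinset.image fun y => (x, y)
  have hS : S.card ≤ 2 * Fintype.card F := by
    calc S.card ≤ ∑ x : F, ((quad W x).roots.toFinset.image fun y => (x, y)).card :=
          Finset.card_biUnion_le
      _ ≤ ∑ _x : F, 2 := by
          refine Finset.sum_le_sum fun x _ => ?_
          calc ((quad W x).roots.toFinset.image fun y => (x, y)).card
              ≤ (quad W x).roots.toFinset.card := Finset.card_image_le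
            _ ≤ Multiset.card (quad W x).roots := Multiset.toFinset_card_le _
            _ ≤ (quad W x).natDegree := card_roots' _
            _ = 2 := quad_natDegree W x
      _ = 2 * Fintype.card F := by
          rw [Finset.sum_const, Finset.card_univ, smul_eq_mul, mul_comm]
  -- the injection `Point → Option S`
  let f : W.Point → Option S := fun P =>
    match P with
    | .zero => none
    | .some (x := x) (y := y) h => some ⟨(x, y), by
        refine Finset.mem_biUnion.mpr ⟨x, Finset.mem_univ _, Finset.mem_image.mpr ⟨y, ?_, rfl⟩⟩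
        rw [Multiset.mem_toFinset, mem_roots (quad_ne_zero W x), isRoot_quad_iff]
        exact h.1⟩
  have hf : Function.Injective f := by
    rintro (_ | ⟨h₁⟩) (_ | ⟨h₂⟩) h
    · rfl
    · simp [f] at h
    · simp [f] at h
    · simp only [f, Option.some.injEq, Subtype.mk.injEq, Prod.mk.injEq] at h
      obtain ⟨rfl, rfl⟩ := h
      rfl
  calc Nat.card W.Point ≤ Nat.card (Option S) := Nat.card_le_card_of_injective f hf
    _ = S.card + 1 := by
        rw [Nat.card_eq_fintype_card, Fintype.card_option, Fintype.card_coe]
    _ ≤ 2 * Fintype.card F + 1 := by omega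

/-- **`1 ≤ #W(F)`** (the point at infinity). -/
theorem one_le_card_point [Finite F] (W : WeierstrassCurve.Affine F) : 1 ≤ Nat.card W.Point :=
  Nat.card_pos_iff.mpr ⟨⟨WeierstrassCurve.Affine.Point.zero⟩, inferInstance⟩

/-- **`a(W) ≠ ±(#F + 1)`** for the Prelude's trace of Frobenius. -/
theorem traceOfFrobenius_ne [Fintype F] (W : WeierstrassCurve F) :
    W.traceOfFrobenius ≠ (Nat.card F : ℤ) + 1 ∧ W.traceOfFrobenius ≠ -((Nat.card F : ℤ) + 1) := by
  have h1 : 1 ≤ W.card := one_le_card_point W.toAffine
  have h2 : W.card ≤ 2 * Nat.card F + 1 := by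
    rw [Nat.card_eq_fintype_card]; exact card_point_le W.toAffine
  unfold WeierstrassCurve.traceOfFrobenius
  constructor
  · intro h
    have : (W.card : ℤ) = 0 := by linarith
    omega
  · intro h
    have : (W.card : ℤ) = 2 * (Nat.card F : ℤ) + 2 := by linarith
    omega

/-- **`a_r(W) ≠ ±(r + 1)`** for the reduction of an integral model modulo a prime `r`. -/
theorem apOfModel_ne (W : WeierstrassCurve ℤ) {r : ℕ} (hr : r.Prime) :
    W.apOfModel r ≠ (r : ℤ) + 1 ∧ W.apOfModel r ≠ -((r : ℤ) + 1) := by
  have : Fact r.Prime := ⟨hr⟩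
  have h := traceOfFrobenius_ne (W.reductionMod r)
  rw [Nat.card_zmod] at h
  exact h

/-- **The auxiliary prime of the comparison step**: for an integral model `W`, a prime `r` and `K ≠ 0` there
is an odd prime `l ∤ K` such that `X² − a_r(W) X + r` has no root modulo `l`. -/
theorem exists_aux_prime (W : WeierstrassCurve ℤ) {r : ℕ} (hr : r.Prime) (K : ℕ) (hK : K ≠ 0) :
    ∃ l : ℕ, l.Prime ∧ l ≠ 2 ∧ ¬ l ∣ K ∧
      ∀ c : ZMod l, c ^ 2 - ((W.apOfModel r : ℤ) : ZMod l) * c + (r : ZMod l) ≠ 0 :=
  Fermat.Agent.ES.Q58.QuadNonRes20.exists_prime_no_root hr (apOfModel_ne W hr).1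
    (apOfModel_ne W hr).2 K hK

end Fermat.Agent.ES.Q58.CardBound20
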