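/-
Program Q (S58), TOP-B (helper12): the two-sided generator form of Chebotarev at finite level.

For a finite `L ⊂ ℚ̄`, `g ∈ G_ℚ` and a finite set `T` of primes there are a prime `p ∉ T`, a
Frobenius element `φ` at a place over `p` and exponents `i j` with `φ ^ j = g` AND `g ^ i = φ`
on `L`.  (`ChebQbar23.exists_frobenius_pow_eq_on` records only the first half.)
-/
import Mathlib
import Fermat.Agent.ES.GAL.ChebQbar23

set_option autoImplicit false

namespace Fermat.Agent.ES.Q58.Cheb2Sided12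

open Fermat.Agent.Lib.FrobeniusExists

attribute [local instance] isGalois_Qbar isIntegral_Qbar

local notation "GQ" => (AlgebraicClosure ℚ ≃ₐ[ℚ] AlgebraicClosure ℚ)

theorem restrict_eq_on {N : IntermediateField ℚ Qbar} [Normal ℚ N] {g h : GQ}
    (hgh : AlgEquiv.restrictNormalHom N g = AlgEquiv.restrictNormalHom N h) {x : Qbar}
    (hx : x ∈ N) : g x = h x := by
  have h1 : algebraMap N Qbar ((AlgEquiv.restrictNormalHom N g) ⟨x, hx⟩) =
      g (algebraMap N Qbar ⟨x, hx⟩) := AlgEquiv.restrictNormal_commutes g N ⟨x, hx⟩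
  have h2 : algebraMap N Qbar ((AlgEquiv.restrictNormalHom N h) ⟨x, hx⟩) =
      h (algebraMap N Qbar ⟨x, hx⟩) := AlgEquiv.restrictNormal_commutes h N ⟨x, hx⟩
  rw [hgh] at h1
  exact h1.symm.trans h2

/-- **Two-sided generator Chebotarev at finite level.** -/
theorem exists_frobenius_pow_eq_on_both (L : IntermediateField ℚ Qbar) [FiniteDimensional ℚ L]
    (g : GQ) (T : Finset ℕ) :
    ∃ (p : ℕ) (A : ValuationSubring Qbar) (φ : GQ) (i j : ℕ), p.Prime ∧ p ∉ T ∧
      A.LiesOverPrime p ∧ A.IsFrobeniusAt φ p ∧ (∀ x ∈ L, (φ ^ j) x = g x) ∧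
      (∀ x ∈ L, (g ^ i) x = φ x) := by
  classical
  obtain ⟨N, hfin, hnorm, hLN⟩ : ∃ N : IntermediateField ℚ Qbar,
      FiniteDimensional ℚ N ∧ Normal ℚ N ∧ L ≤ N :=
    ⟨IntermediateField.normalClosure ℚ L Qbar, normalClosure.is_finiteDimensional ℚ L Qbar,
      normalClosure.normal ℚ L Qbar, IntermediateField.le_normalClosure L⟩
  have hgal : IsGalois ℚ N := ⟨⟩
  obtain ⟨p, A, φ, hp, hpT, hAp, hφ, hgen⟩ :=
    Fermat.Agent.ES.GAL.ChebQbar23.exists_frobenius_zpowers_eq N
      (AlgEquiv.restrictNormalHom N g) T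
  have hmem1 : AlgEquiv.restrictNormalHom N g ∈
      Subgroup.zpowers (AlgEquiv.restrictNormalHom N φ) := by
    rw [hgen]
    exact Subgroup.mem_zpowers _
  have hmem2 : AlgEquiv.restrictNormalHom N φ ∈
      Subgroup.zpowers (AlgEquiv.restrictNormalHom N g) := by
    rw [← hgen]
    exact Subgroup.mem_zpowers _
  rw [← mem_powers_iff_mem_zpowers] at hmem1 hmem2
  obtain ⟨j, hj⟩ := hmem1
  obtain ⟨i, hi⟩ := hmem2
  refine ⟨p, A, φ, i, j, hp, hpT, hAp, hφ, fun x hx => ?_, fun x hx => ?_⟩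
  · exact restrict_eq_on (N := N) (by rw [map_pow]; exact hj) (hLN hx)
  · exact restrict_eq_on (N := N) (by rw [map_pow]; exact hi) (hLN hx)

end Fermat.Agent.ES.Q58.Cheb2Sided12
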