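import Fermat.Agent.ES.Q58.PLForms2

/-!
# The exact parallelogram law for heights on the projective line over `k(t)`
-/

set_option autoImplicit false

namespace Fermat.Agent.ES.Q58.PLPoly2

open Polynomial Fermat.Agent.ES.Q58.PLForms2

variable {k : Type*} [Field k]

/-! ### top coefficients -/

/-- `P` has degree at most `n` and `c` is its coefficient of degree `n`. -/
def TopCoeff (P : k[X]) (n : ℕ) (c : k) : Prop := P.natDegree ≤ n ∧ P.coeff n = c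

theorem TopCoeff.mul {P Q : k[X]} {n m : ℕ} {c d : k} (hP : TopCoeff P n c) (hQ : TopCoeff Q m d) :
    TopCoeff (P * Q) (n + m) (c * d) := by
  refine ⟨natDegree_mul_le_of_le hP.1 hQ.1, ?_⟩
  rw [coeff_mul_add_eq_of_natDegree_le hP.1 hQ.1, hP.2, hQ.2]

theorem TopCoeff.add {P Q : k[X]} {n : ℕ} {c d : k} (hP : TopCoeff P n c) (hQ : TopCoeff Q n d) :
    TopCoeff (P + Q) n (c + d) := by
  refine ⟨natDegree_add_le_of_degree_le hP.1 hQ.1, ?_⟩
  rw [coeff_add, hP.2, hQ.2]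

theorem TopCoeff.sub {P Q : k[X]} {n : ℕ} {c d : k} (hP : TopCoeff P n c) (hQ : TopCoeff Q n d) :
    TopCoeff (P - Q) n (c - d) := by
  refine ⟨(natDegree_sub_le_of_le hP.1 hQ.1).trans (by simp), ?_⟩
  rw [coeff_sub, hP.2, hQ.2]

theorem TopCoeff.const (b : k) : TopCoeff (C b) 0 b := by
  refine ⟨by simp, by simp⟩

theorem TopCoeff.pow {P : k[X]} {n : ℕ} {c : k} (hP : TopCoeff P n c) (r : ℕ) :
    TopCoeff (P ^ r) (r * n) (c ^ r) := by
  induction r with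
  | zero => simpa using TopCoeff.const (1 : k)
  | succ r ih =>
    have := ih.mul hP
    rw [pow_succ, pow_succ]
    convert this using 1
    ring

theorem TopCoeff.cast {P : k[X]} {n m : ℕ} {c d : k} (hP : TopCoeff P n c) (hn : n = m)
    (hc : c = d) : TopCoeff P m d := by
  subst hn hc; exact hP

theorem topCoeff_self (P : k[X]) (n : ℕ) (h : P.natDegree ≤ n) : TopCoeff P n (P.coeff n) :=
  ⟨h, rfl⟩

theorem TopCoeff.natDegree_eq {P : k[X]} {n : ℕ} {c : k} (hP : TopCoeff P n c) (hc : c ≠ 0) :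
    P.natDegree = n := by
  refine le_antisymm hP.1 ?_
  exact le_natDegree_of_ne_zero (by rw [hP.2]; exact hc)

/-! ### heights of pairs -/

/-- the height of a pair of polynomials -/
def ht (U V : k[X]) : ℕ := max U.natDegree V.natDegree

theorem natDegree_le_ht_left (U V : k[X]) : U.natDegree ≤ ht U V := le_max_left _ _
theorem natDegree_le_ht_right (U V : k[X]) : V.natDegree ≤ ht U V := le_max_right _ _

/-- the top coefficients of a nonzero pair are not both zero -/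
theorem top_ne_zero {U V : k[X]} (h : U ≠ 0 ∨ V ≠ 0) :
    U.coeff (ht U V) ≠ 0 ∨ V.coeff (ht U V) ≠ 0 := by
  rcases le_total U.natDegree V.natDegree with hle | hle
  · have hh : ht U V = V.natDegree := max_eq_right hle
    by_cases hV : V = 0
    · subst hV
      have hU : U ≠ 0 := by simpa using h
      have : U.natDegree = 0 := by simpa using hle
      left
      rw [hh]; simp only [natDegree_zero]
      rw [← this]; exact leadingCoeff_ne_zero.mpr hU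
    · right; rw [hh]; exact leadingCoeff_ne_zero.mpr hV
  · have hh : ht U V = U.natDegree := max_eq_left hle
    by_cases hU : U = 0
    · subst hU
      have hV : V ≠ 0 := by simpa using h
      have : V.natDegree = 0 := by simpa using hle
      right
      rw [hh]; simp only [natDegree_zero]
      rw [← this]; exact leadingCoeff_ne_zero.mpr hV
    · left; rw [hh]; exact leadingCoeff_ne_zero.mpr hU

theorem ne_zero_of_isCoprime {U V : k[X]} (h : IsCoprime U V) : U ≠ 0 ∨ V ≠ 0 := by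
  by_contra hcon
  push Not at hcon
  obtain ⟨a, b, hab⟩ := h
  rw [hcon.1, hcon.2] at hab
  simp at hab

/-! ### primitive triples -/

/-- no prime divides all three -/
def Prim3 (A B D : k[X]) : Prop := ∀ π : k[X], Prime π → π ∣ A → π ∣ B → π ∣ D → False

/-- height of a triple -/
def ht3 (A B D : k[X]) : ℕ := max (max A.natDegree B.natDegree) D.natDegree

theorem Prim3.exists_bezout {A B D : k[X]} (h : Prim3 A B D) :
    ∃ a b d : k[X], a * A + b * B + d * D = 1 := by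
  classical
  set g := EuclideanDomain.gcd (EuclideanDomain.gcd A B) D with hg
  have hgA : g ∣ A := (EuclideanDomain.gcd_dvd_left _ _).trans (EuclideanDomain.gcd_dvd_left _ _)
  have hgB : g ∣ B := (EuclideanDomain.gcd_dvd_left _ _).trans (EuclideanDomain.gcd_dvd_right _ _)
  have hgD : g ∣ D := EuclideanDomain.gcd_dvd_right _ _
  have hg0 : g ≠ 0 := by
    intro h0
    rw [h0] at hgA hgB hgD
    have hA : A = 0 := zero_dvd_iff.mp hgA
    have hB : B = 0 := zero_dvd_iff.mp hgB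
    have hD : D = 0 := zero_dvd_iff.mp hgD
    exact h X prime_X (hA ▸ dvd_zero _) (hB ▸ dvd_zero _) (hD ▸ dvd_zero _)
  have hunit : IsUnit g := by
    by_contra hnu
    obtain ⟨π, hπ, hπg⟩ := WfDvdMonoid.exists_irreducible_factor hnu hg0
    exact h π hπ.prime (hπg.trans hgA) (hπg.trans hgB) (hπg.trans hgD)
  obtain ⟨u, hu⟩ := hunit
  -- bezout
  have h1 : g = EuclideanDomain.gcd A B * EuclideanDomain.gcdA (EuclideanDomain.gcd A B) D
      + D * EuclideanDomain.gcdB (EuclideanDomain.gcd A B) D := EuclideanDomain.gcd_eq_gcd_ab _ _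
  have h2 : EuclideanDomain.gcd A B = A * EuclideanDomain.gcdA A B + B * EuclideanDomain.gcdB A B :=
    EuclideanDomain.gcd_eq_gcd_ab _ _
  refine ⟨↑u⁻¹ * EuclideanDomain.gcdA A B * EuclideanDomain.gcdA (EuclideanDomain.gcd A B) D,
    ↑u⁻¹ * EuclideanDomain.gcdB A B * EuclideanDomain.gcdA (EuclideanDomain.gcd A B) D,
    ↑u⁻¹ * EuclideanDomain.gcdB (EuclideanDomain.gcd A B) D, ?_⟩
  have : (↑u⁻¹ : k[X]) * g = 1 := by rw [← hu]; simp
  calc _ = ↑u⁻¹ * ((A * EuclideanDomain.gcdA A B + B * EuclideanDomain.gcdB A B)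
          * EuclideanDomain.gcdA (EuclideanDomain.gcd A B) D
          + D * EuclideanDomain.gcdB (EuclideanDomain.gcd A B) D) := by ring
    _ = ↑u⁻¹ * g := by rw [← h2, ← h1]
    _ = 1 := this

/-- Two proportional primitive triples have the same height. -/
theorem ht3_eq_of_proportional {A B D A' B' D' : k[X]} (h : Prim3 A B D) (h' : Prim3 A' B' D')
    {e e' : k[X]} (he : e ≠ 0)
    (hA : e * A = e' * A') (hB : e * B = e' * B') (hD : e * D = e' * D') :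
    ht3 A B D = ht3 A' B' D' := by
  obtain ⟨a, b, d, hab⟩ := h.exists_bezout
  obtain ⟨a', b', d', hab'⟩ := h'.exists_bezout
  have h1 : e' ∣ e := by
    refine ⟨a * A' + b * B' + d * D', ?_⟩
    calc e = e * (a * A + b * B + d * D) := by rw [hab, mul_one]
      _ = a * (e * A) + b * (e * B) + d * (e * D) := by ring
      _ = _ := by rw [hA, hB, hD]; ring
  have h2 : e ∣ e' := by
    refine ⟨a' * A + b' * B + d' * D, ?_⟩
    calc e' = e' * (a' * A' + b' * B' + d' * D') := by rw [hab', mul_one]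
      _ = a' * (e' * A') + b' * (e' * B') + d' * (e' * D') := by ring
      _ = _ := by rw [← hA, ← hB, ← hD]; ring
  obtain ⟨u, hu⟩ : ∃ u : k[X]ˣ, e' = e * u := by
    have := associated_of_dvd_dvd h2 h1
    obtain ⟨u, hu⟩ := this
    exact ⟨u, hu.symm⟩
  have key : ∀ P P' : k[X], e * P = e' * P' → P.natDegree = P'.natDegree := by
    intro P P' hPP
    rw [hu, mul_assoc] at hPP
    have : P = ↑u * P' := mul_left_cancel₀ he hPP
    rw [this]
    obtain ⟨c, hc, hcu⟩ : ∃ c : k, c ≠ 0 ∧ (↑u : k[X]) = C c := by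
      have := Polynomial.isUnit_iff.mp u.isUnit
      obtain ⟨c, hc, hcu⟩ := this
      exact ⟨c, hc.ne_zero, hcu.symm⟩
    rw [hcu, natDegree_C_mul hc]
  simp only [ht3, key A A' hA, key B B' hB, key D D' hD]


theorem ht3_eq_of_topCoeff {A B D : k[X]} {n : ℕ} {a b d : k} (hA : TopCoeff A n a)
    (hB : TopCoeff B n b) (hD : TopCoeff D n d) (h : a ≠ 0 ∨ b ≠ 0 ∨ d ≠ 0) :
    ht3 A B D = n := by
  refine le_antisymm (max_le (max_le hA.1 hB.1) hD.1) ?_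
  rcases h with h | h | h
  · rw [← hA.natDegree_eq h]; exact (le_max_left _ _).trans (le_max_left _ _)
  · rw [← hB.natDegree_eq h]; exact (le_max_right _ _).trans (le_max_left _ _)
  · rw [← hD.natDegree_eq h]; exact le_max_right _ _

theorem not_dvd_both {U V π : k[X]} (h : IsCoprime U V) (hπ : Prime π) (hU : π ∣ U) (hV : π ∣ V) :
    False := by
  obtain ⟨a, b, hab⟩ := h
  have : π ∣ 1 := by
    rw [← hab]
    exact dvd_add (dvd_mul_of_dvd_right hU _) (dvd_mul_of_dvd_right hV _)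
  exact hπ.not_isUnit (isUnit_of_dvd_one this)

/-! ### Lemma A: the symmetric functions of two points -/

theorem prim3_sym {U₃ V₃ U₄ V₄ : k[X]} (h₃ : IsCoprime U₃ V₃) (h₄ : IsCoprime U₄ V₄) :
    Prim3 (V₃ * V₄) (U₃ * V₄ + U₄ * V₃) (U₃ * U₄) := by
  intro π hπ hA hB hD
  rcases hπ.dvd_or_dvd hA with hV₃ | hV₄
  · rcases hπ.dvd_or_dvd hD with hU₃ | hU₄
    · exact not_dvd_both h₃ hπ hU₃ hV₃
    · have : π ∣ U₃ * V₄ := by
        have := dvd_sub hB (dvd_mul_of_dvd_right hV₃ U₄)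
        simpa using this
      rcases hπ.dvd_or_dvd this with hU₃ | hV₄
      · exact not_dvd_both h₃ hπ hU₃ hV₃
      · exact not_dvd_both h₄ hπ hU₄ hV₄
  · rcases hπ.dvd_or_dvd hD with hU₃ | hU₄
    · have : π ∣ U₄ * V₃ := by
        have := dvd_sub hB (dvd_mul_of_dvd_right hV₄ U₃)
        simpa using this
      rcases hπ.dvd_or_dvd this with hU₄ | hV₃
      · exact not_dvd_both h₄ hπ hU₄ hV₄
      · exact not_dvd_both h₃ hπ hU₃ hV₃
    · exact not_dvd_both h₄ hπ hU₄ hV₄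

theorem ht3_sym {U₃ V₃ U₄ V₄ : k[X]} (h₃ : U₃ ≠ 0 ∨ V₃ ≠ 0) (h₄ : U₄ ≠ 0 ∨ V₄ ≠ 0) :
    ht3 (V₃ * V₄) (U₃ * V₄ + U₄ * V₃) (U₃ * U₄) = ht U₃ V₃ + ht U₄ V₄ := by
  have hU₃ := topCoeff_self U₃ _ (natDegree_le_ht_left U₃ V₃)
  have hV₃ := topCoeff_self V₃ _ (natDegree_le_ht_right U₃ V₃)
  have hU₄ := topCoeff_self U₄ _ (natDegree_le_ht_left U₄ V₄)
  have hV₄ := topCoeff_self V₄ _ (natDegree_le_ht_right U₄ V₄)
  have t₃ := top_ne_zero h₃
  have t₄ := top_ne_zero h₄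
  set u₃ := U₃.coeff (ht U₃ V₃)
  set v₃ := V₃.coeff (ht U₃ V₃)
  set u₄ := U₄.coeff (ht U₄ V₄)
  set v₄ := V₄.coeff (ht U₄ V₄)
  refine ht3_eq_of_topCoeff (hV₃.mul hV₄)
    ((hU₃.mul hV₄).add ((hU₄.mul hV₃).cast (add_comm _ _) rfl)) (hU₃.mul hU₄) ?_
  by_contra hcon
  push Not at hcon
  obtain ⟨hA, hB, hD⟩ := hcon
  rcases mul_eq_zero.mp hA with hv₃ | hv₄
  · have hu₃ : u₃ ≠ 0 := t₃.resolve_right (not_not.mpr hv₃)
    have hu₄ : u₄ = 0 := (mul_eq_zero.mp hD).resolve_left hu₃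
    have hv₄ : v₄ ≠ 0 := t₄.resolve_left (not_not.mpr hu₄)
    rw [hv₃, hu₄] at hB
    simp at hB
    exact hB.elim hu₃ hv₄
  · have hu₄ : u₄ ≠ 0 := t₄.resolve_right (not_not.mpr hv₄)
    have hu₃ : u₃ = 0 := (mul_eq_zero.mp hD).resolve_right hu₄
    have hv₃ : v₃ ≠ 0 := t₃.resolve_left (not_not.mpr hu₃)
    rw [hv₄, hu₃] at hB
    simp at hB
    exact hB.elim hu₄ hv₃

/-! ### Lemma B: the biquadratic forms at two points -/

section FormsMap

variable {R S : Type*} [CommRing R] [CommRing S] (φ : R →+* S) (W : WeierstrassCurve R)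

theorem map_G0 (u₁ v₁ u₂ v₂ : R) : φ (G0 u₁ v₁ u₂ v₂) = G0 (φ u₁) (φ v₁) (φ u₂) (φ v₂) := by
  simp [G0]

theorem map_G1 (u₁ v₁ u₂ v₂ : R) :
    φ (G1 W u₁ v₁ u₂ v₂) = G1 (W.map φ) (φ u₁) (φ v₁) (φ u₂) (φ v₂) := by
  simp [G1, map_ofNat]

theorem map_G2 (u₁ v₁ u₂ v₂ : R) :
    φ (G2 W u₁ v₁ u₂ v₂) = G2 (W.map φ) (φ u₁) (φ v₁) (φ u₂) (φ v₂) := by
  simp [G2]

end FormsMap

variable (W : WeierstrassCurve k)

/-- the curve with constant coefficients over `k[X]` -/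
noncomputable abbrev Wt : WeierstrassCurve k[X] := W.map C

theorem prim3_forms (hΔ : W.Δ ≠ 0) {U₁ V₁ U₂ V₂ : k[X]} (h₁ : IsCoprime U₁ V₁)
    (h₂ : IsCoprime U₂ V₂) :
    Prim3 (G0 U₁ V₁ U₂ V₂) (G1 (Wt W) U₁ V₁ U₂ V₂) (G2 (Wt W) U₁ V₁ U₂ V₂) := by
  intro π hπ hA hB hD
  have : Fact (Irreducible π) := ⟨hπ.irreducible⟩
  let φ : k[X] →+* AdjoinRoot π := AdjoinRoot.mk π
  have hφ : ∀ P : k[X], φ P = 0 ↔ π ∣ P := fun P => AdjoinRoot.mk_eq_zero
  have e0 := (hφ _).mpr hA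
  have e1 := (hφ _).mpr hB
  have e2 := (hφ _).mpr hD
  rw [map_G0] at e0
  rw [map_G1] at e1
  rw [map_G2] at e2
  have hΔ' : ((Wt W).map φ).Δ ≠ 0 := by
    rw [WeierstrassCurve.map_Δ, WeierstrassCurve.map_Δ]
    intro h
    have h' : (AdjoinRoot.of π) W.Δ = 0 := h
    exact hΔ ((map_eq_zero _).mp h')
  have n₁ : φ U₁ ≠ 0 ∨ φ V₁ ≠ 0 := by
    by_contra hcon
    push Not at hcon
    exact not_dvd_both h₁ hπ ((hφ _).mp hcon.1) ((hφ _).mp hcon.2)
  have n₂ : φ U₂ ≠ 0 ∨ φ V₂ ≠ 0 := by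
    by_contra hcon
    push Not at hcon
    exact not_dvd_both h₂ hπ ((hφ _).mp hcon.1) ((hφ _).mp hcon.2)
  exact no_common_zero _ hΔ' n₁ n₂ e0 e1 e2

theorem ht3_forms (hΔ : W.Δ ≠ 0) {U₁ V₁ U₂ V₂ : k[X]} (h₁ : U₁ ≠ 0 ∨ V₁ ≠ 0)
    (h₂ : U₂ ≠ 0 ∨ V₂ ≠ 0) :
    ht3 (G0 U₁ V₁ U₂ V₂) (G1 (Wt W) U₁ V₁ U₂ V₂) (G2 (Wt W) U₁ V₁ U₂ V₂)
      = 2 * ht U₁ V₁ + 2 * ht U₂ V₂ := by
  have hU₁ := topCoeff_self U₁ _ (natDegree_le_ht_left U₁ V₁)
  have hV₁ := topCoeff_self V₁ _ (natDegree_le_ht_right U₁ V₁)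
  have hU₂ := topCoeff_self U₂ _ (natDegree_le_ht_left U₂ V₂)
  have hV₂ := topCoeff_self V₂ _ (natDegree_le_ht_right U₂ V₂)
  have t₁ := top_ne_zero h₁
  have t₂ := top_ne_zero h₂
  set n₁ := ht U₁ V₁
  set n₂ := ht U₂ V₂
  set u₁ := U₁.coeff n₁
  set v₁ := V₁.coeff n₁
  set u₂ := U₂.coeff n₂
  set v₂ := V₂.coeff n₂
  have two : TopCoeff (2 : k[X]) 0 (2 : k) := by
    have := TopCoeff.const (2 : k)
    rwa [show (C (2 : k) : k[X]) = 2 from C_ofNat 2] at this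
  have b2 : TopCoeff (Wt W).b₂ 0 W.b₂ := by
    have := TopCoeff.const W.b₂
    simpa [Wt] using this
  have b4 : TopCoeff (Wt W).b₄ 0 W.b₄ := by
    have := TopCoeff.const W.b₄
    simpa [Wt] using this
  have b6 : TopCoeff (Wt W).b₆ 0 W.b₆ := by
    have := TopCoeff.const W.b₆
    simpa [Wt] using this
  have b8 : TopCoeff (Wt W).b₈ 0 W.b₈ := by
    have := TopCoeff.const W.b₈
    simpa [Wt] using this
  have s12 : TopCoeff (U₁ * V₂ + U₂ * V₁) (n₁ + n₂) (u₁ * v₂ + u₂ * v₁) :=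
    (hU₁.mul hV₂).add ((hU₂.mul hV₁).cast (add_comm _ _) rfl)
  have d12 : TopCoeff (U₁ * V₂ - U₂ * V₁) (n₁ + n₂) (u₁ * v₂ - u₂ * v₁) :=
    (hU₁.mul hV₂).sub ((hU₂.mul hV₁).cast (add_comm _ _) rfl)
  have T0 : TopCoeff (G0 U₁ V₁ U₂ V₂) (2 * n₁ + 2 * n₂) (G0 u₁ v₁ u₂ v₂) := by
    have := d12.pow 2
    exact this.cast (by ring) rfl
  have T1 : TopCoeff (G1 (Wt W) U₁ V₁ U₂ V₂) (2 * n₁ + 2 * n₂) (G1 W u₁ v₁ u₂ v₂) := by
    have a1 := ((two.mul hU₁).mul hU₂).mul s12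
    have a2 := (((b2.mul hU₁).mul hU₂).mul hV₁).mul hV₂
    have a3 := ((b4.mul hV₁).mul hV₂).mul s12
    have a4 := (b6.mul (hV₁.pow 2)).mul (hV₂.pow 2)
    have := (((a1.cast (m := 2 * n₁ + 2 * n₂) (by ring) rfl).add
      (a2.cast (by ring) rfl)).add (a3.cast (by ring) rfl)).add (a4.cast (by ring) rfl)
    exact this
  have T2 : TopCoeff (G2 (Wt W) U₁ V₁ U₂ V₂) (2 * n₁ + 2 * n₂) (G2 W u₁ v₁ u₂ v₂) := by
    have a1 := (hU₁.pow 2).mul (hU₂.pow 2)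
    have a2 := (((b4.mul hU₁).mul hU₂).mul hV₁).mul hV₂
    have a3 := ((b6.mul hV₁).mul hV₂).mul s12
    have a4 := (b8.mul (hV₁.pow 2)).mul (hV₂.pow 2)
    have := (((a1.cast (m := 2 * n₁ + 2 * n₂) (by ring) rfl).sub
      (a2.cast (by ring) rfl)).sub (a3.cast (by ring) rfl)).sub (a4.cast (by ring) rfl)
    exact this
  refine ht3_eq_of_topCoeff T0 T1 T2 ?_
  by_contra hcon
  push Not at hcon
  exact no_common_zero W hΔ t₁ t₂ hcon.1 hcon.2.1 hcon.2.2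

/-- **The exact parallelogram law on the projective line over `k(t)`.** -/
theorem parallelogram (hΔ : W.Δ ≠ 0) {U₁ V₁ U₂ V₂ U₃ V₃ U₄ V₄ : k[X]}
    (h₁ : IsCoprime U₁ V₁) (h₂ : IsCoprime U₂ V₂) (h₃ : IsCoprime U₃ V₃) (h₄ : IsCoprime U₄ V₄)
    {e e' : k[X]} (he : e ≠ 0)
    (hA : e * (V₃ * V₄) = e' * G0 U₁ V₁ U₂ V₂)
    (hB : e * (U₃ * V₄ + U₄ * V₃) = e' * G1 (Wt W) U₁ V₁ U₂ V₂)
    (hD : e * (U₃ * U₄) = e' * G2 (Wt W) U₁ V₁ U₂ V₂) :
    ht U₃ V₃ + ht U₄ V₄ = 2 * ht U₁ V₁ + 2 * ht U₂ V₂ := by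
  rw [← ht3_sym (ne_zero_of_isCoprime h₃) (ne_zero_of_isCoprime h₄),
    ← ht3_forms W hΔ (ne_zero_of_isCoprime h₁) (ne_zero_of_isCoprime h₂)]
  exact ht3_eq_of_proportional (prim3_sym h₃ h₄) (prim3_forms W hΔ h₁ h₂) he hA hB hD

end Fermat.Agent.ES.Q58.PLPoly2
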