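/-
Programme S58 (paper phase), EC-ES core, brick (B3) (helper9):
**the degree of a composition of rational functions**, `deg (u ∘ v) = deg u · deg v`, in the vocabulary of
`PLPoly2` (`ht U V = max (natDegree U) (natDegree V)`, `TopCoeff`).

* `hv φ n P α β = ∑ i ≤ n, φ (coeff P i) α^i β^(n-i)` : the value of the degree-`n` homogenisation of `P`;
  `hv_ne_zero` : for coprime `U V` over a field `k`, `φ : k →+* L` a field extension and
  `(α, β) ≠ (0, 0)` in `L`, the two values in degree `ht U V` do not both vanish;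
* `homEval n P A B = ∑ i ≤ n, C (coeff P i) A^i B^(n-i)` `= B^n · P(A/B)` in `k[X]`;
  **`comp_ht`** : for coprime `U V` and coprime `A B`, with `n = ht U V`, the pair
  `(homEval n U A B, homEval n V A B)` is coprime of height `ht U V * ht A B`;
* `dRat w = ht w.num w.denom`, `dRat_eq_of_eq_div`, **`dRat_algHom`** : for every `k`-algebra endomorphism
  `σ` of `k(x)`, `dRat (σ u) = dRat u * dRat (σ X)`.
-/
import Mathlib
import Fermat.Agent.ES.Q58.PLPoly2

set_option autoImplicit false

namespace Fermat.Agent.ES.Q58.CompDeg9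

open Polynomial Fermat.Agent.ES.Q58.PLPoly2

variable {k : Type*} [Field k]

/-! ### Values of homogenisations -/

section Value

variable {L : Type*} [Field L] (φ : k →+* L)

/-- the value at `(α, β)` of the homogenisation of `P` in degree `n`. -/
def hv (n : ℕ) (P : k[X]) (α β : L) : L :=
  ∑ i ∈ Finset.range (n + 1), φ (P.coeff i) * α ^ i * β ^ (n - i)

theorem hv_eq_of_ne_zero {n : ℕ} {P : k[X]} (hP : P.natDegree ≤ n) (α : L) {β : L} (hβ : β ≠ 0) :
    hv φ n P α β = β ^ n * P.eval₂ φ (α / β) := by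
  rw [eval₂_eq_sum_range' φ (Nat.lt_succ_of_le hP), Finset.mul_sum, hv]
  refine Finset.sum_congr rfl fun i hi => ?_
  have hin : i ≤ n := Nat.lt_succ_iff.mp (Finset.mem_range.mp hi)
  have h1 : β ^ n = β ^ i * β ^ (n - i) := by rw [← pow_add, Nat.add_sub_cancel' hin]
  rw [h1, div_pow]
  field_simp

theorem hv_zero_right (n : ℕ) (P : k[X]) (α : L) : hv φ n P α 0 = φ (P.coeff n) * α ^ n := by
  rw [hv, Finset.sum_eq_single n]
  · simp
  · intro i hi hin
    have hlt : i < n := lt_of_le_of_ne (Nat.lt_succ_iff.mp (Finset.mem_range.mp hi)) hin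
    rw [zero_pow (Nat.sub_ne_zero_of_lt hlt), mul_zero]
  · intro h
    exact absurd (Finset.mem_range.mpr (Nat.lt_succ_self n)) h

/-- **the two homogenised values of a coprime pair do not both vanish.** -/
theorem hv_ne_zero {U V : k[X]} (hUV : IsCoprime U V) {α β : L} (hαβ : α ≠ 0 ∨ β ≠ 0) :
    hv φ (ht U V) U α β ≠ 0 ∨ hv φ (ht U V) V α β ≠ 0 := by
  by_contra hcon
  push Not at hcon
  obtain ⟨hU, hV⟩ := hcon
  by_cases hβ : β = 0
  · subst hβ
    have hα : α ≠ 0 := by simpa using hαβ
    have hαn : α ^ ht U V ≠ 0 := pow_ne_zero _ hα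
    rw [hv_zero_right] at hU hV
    have hU' : U.coeff (ht U V) = 0 :=
      (map_eq_zero φ).mp ((mul_eq_zero.mp hU).resolve_right hαn)
    have hV' : V.coeff (ht U V) = 0 :=
      (map_eq_zero φ).mp ((mul_eq_zero.mp hV).resolve_right hαn)
    rcases top_ne_zero (ne_zero_of_isCoprime hUV) with h | h
    · exact h hU'
    · exact h hV'
  · have hβn : β ^ ht U V ≠ 0 := pow_ne_zero _ hβ
    rw [hv_eq_of_ne_zero φ (natDegree_le_ht_left U V) α hβ] at hU
    rw [hv_eq_of_ne_zero φ (natDegree_le_ht_right U V) α hβ] at hV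
    have hU' : U.eval₂ φ (α / β) = 0 := (mul_eq_zero.mp hU).resolve_left hβn
    have hV' : V.eval₂ φ (α / β) = 0 := (mul_eq_zero.mp hV).resolve_left hβn
    obtain ⟨a, b, hab⟩ := hUV
    have h1 := congrArg (eval₂ φ (α / β)) hab
    rw [eval₂_add, eval₂_mul, eval₂_mul, hU', hV', eval₂_one, mul_zero, mul_zero, add_zero] at h1
    exact zero_ne_one h1

end Value

/-! ### Homogenisations evaluated at a pair of polynomials -/

section Poly

/-- `B^n · P(A/B)` for `natDegree P ≤ n`. -/
noncomputable def homEval (n : ℕ) (P A B : k[X]) : k[X] :=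
  ∑ i ∈ Finset.range (n + 1), C (P.coeff i) * A ^ i * B ^ (n - i)

theorem map_homEval {S : Type*} [CommRing S] (ψ : k[X] →+* S) (n : ℕ) (P A B : k[X]) :
    ψ (homEval n P A B) =
      ∑ i ∈ Finset.range (n + 1), ψ (C (P.coeff i)) * ψ A ^ i * ψ B ^ (n - i) := by
  simp only [homEval, map_sum, map_mul, map_pow]

theorem topCoeff_sum {ι : Type*} (s : Finset ι) (f : ι → k[X]) (c : ι → k) (n : ℕ)
    (h : ∀ i ∈ s, TopCoeff (f i) n (c i)) : TopCoeff (∑ i ∈ s, f i) n (∑ i ∈ s, c i) := by
  classical
  induction s using Finset.induction_on with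
  | empty =>
    simp only [Finset.sum_empty]
    exact ⟨by simp, by simp⟩
  | insert a s ha ih =>
    rw [Finset.sum_insert ha, Finset.sum_insert ha]
    exact (h a (Finset.mem_insert_self a s)).add
      (ih fun i hi => h i (Finset.mem_insert_of_mem hi))

/-- the top coefficient of `homEval n P A B` in degree `n * m`. -/
theorem topCoeff_homEval (n : ℕ) (P : k[X]) {A B : k[X]} {m : ℕ} {α β : k}
    (hA : TopCoeff A m α) (hB : TopCoeff B m β) :
    TopCoeff (homEval n P A B) (n * m) (hv (RingHom.id k) n P α β) := by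
  rw [homEval, hv]
  refine topCoeff_sum _ _ _ _ fun i hi => ?_
  have hin : i ≤ n := Nat.lt_succ_iff.mp (Finset.mem_range.mp hi)
  have h1 := ((TopCoeff.const (P.coeff i)).mul (hA.pow i)).mul (hB.pow (n - i))
  refine h1.cast ?_ rfl
  rw [zero_add, ← add_mul, Nat.add_sub_cancel' hin]

/-- **degree of a composition, polynomial form.** -/
theorem comp_ht {U V A B : k[X]} (hUV : IsCoprime U V) (hAB : IsCoprime A B) :
    IsCoprime (homEval (ht U V) U A B) (homEval (ht U V) V A B) ∧
      ht (homEval (ht U V) U A B) (homEval (ht U V) V A B) = ht U V * ht A B := by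
  set n := ht U V with hn
  set m := ht A B with hm
  have hA : TopCoeff A m (A.coeff m) := topCoeff_self A m (natDegree_le_ht_left A B)
  have hB : TopCoeff B m (B.coeff m) := topCoeff_self B m (natDegree_le_ht_right A B)
  have hαβ : A.coeff m ≠ 0 ∨ B.coeff m ≠ 0 := top_ne_zero (ne_zero_of_isCoprime hAB)
  have hTU := topCoeff_homEval n U hA hB
  have hTV := topCoeff_homEval n V hA hB
  have hne := hv_ne_zero (RingHom.id k) hUV hαβ
  rw [← hn] at hne
  -- the height
  have hht : ht (homEval n U A B) (homEval n V A B) = n * m := by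
    refine le_antisymm (max_le hTU.1 hTV.1) ?_
    rcases hne with h | h
    · rw [← hTU.natDegree_eq h]; exact le_max_left _ _
    · rw [← hTV.natDegree_eq h]; exact le_max_right _ _
  refine ⟨?_, hht⟩
  -- coprimality
  have hnz : ¬ (homEval n U A B = 0 ∧ homEval n V A B = 0) := by
    rintro ⟨h1, h2⟩
    rcases hne with h | h
    · apply h; rw [← hTU.2, h1, coeff_zero]
    · apply h; rw [← hTV.2, h2, coeff_zero]
  refine isCoprime_of_prime_dvd hnz fun π hπ hπU hπV => ?_
  have : Fact (Irreducible π) := ⟨hπ.irreducible⟩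
  have hφ : ∀ P : k[X], AdjoinRoot.mk π P = 0 ↔ π ∣ P := fun P => AdjoinRoot.mk_eq_zero
  have eU := (hφ _).mpr hπU
  have eV := (hφ _).mpr hπV
  rw [map_homEval] at eU eV
  have hAB' : AdjoinRoot.mk π A ≠ 0 ∨ AdjoinRoot.mk π B ≠ 0 := by
    by_contra hcon
    push Not at hcon
    exact not_dvd_both hAB hπ ((hφ _).mp hcon.1) ((hφ _).mp hcon.2)
  have hne' := hv_ne_zero (AdjoinRoot.of π) hUV hAB'
  rw [← hn] at hne'
  rcases hne' with h | h
  · exact h eU
  · exact h eV

end Poly

/-! ### Rational functions -/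

section RatFunc

/-- the degree of a rational function: `max (deg num, deg denom)`. -/
noncomputable def dRat (w : RatFunc k) : ℕ := ht w.num w.denom

/-- the degree can be computed from any reduced fraction. -/
theorem dRat_eq_of_eq_div {w : RatFunc k} {P Q : k[X]} (hPQ : IsCoprime P Q)
    (h : w * algebraMap k[X] (RatFunc k) Q = algebraMap k[X] (RatFunc k) P) :
    dRat w = ht P Q := by
  have hd : algebraMap k[X] (RatFunc k) w.denom ≠ 0 := RatFunc.algebraMap_ne_zero w.denom_ne_zero
  have hw : algebraMap k[X] (RatFunc k) w.num = w * algebraMap k[X] (RatFunc k) w.denom :=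
    (div_eq_iff hd).mp (RatFunc.num_div_denom w)
  -- cross multiplication in `k[X]`
  have hcross : w.num * Q = P * w.denom := by
    apply RatFunc.algebraMap_injective k
    rw [map_mul, map_mul, ← h, hw]
    ring
  have hcop : IsCoprime w.num w.denom := RatFunc.isCoprime_num_denom w
  have h1 : w.num ∣ P := hcop.dvd_of_dvd_mul_right ⟨Q, hcross.symm⟩
  have h2 : P ∣ w.num := hPQ.dvd_of_dvd_mul_right ⟨w.denom, hcross⟩
  have h3 : w.denom ∣ Q := hcop.symm.dvd_of_dvd_mul_left ⟨P, by rw [hcross, mul_comm]⟩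
  have h4 : Q ∣ w.denom := hPQ.symm.dvd_of_dvd_mul_left ⟨w.num, by rw [← hcross, mul_comm]⟩
  have e1 : w.num.natDegree = P.natDegree :=
    natDegree_eq_of_degree_eq (degree_eq_degree_of_associated (associated_of_dvd_dvd h1 h2))
  have e2 : w.denom.natDegree = Q.natDegree :=
    natDegree_eq_of_degree_eq (degree_eq_degree_of_associated (associated_of_dvd_dvd h3 h4))
  rw [dRat, ht, ht, e1, e2]

/-- a `k`-algebra endomorphism of `k(x)` is substitution of `σ X`. -/
theorem algHom_algebraMap (σ : RatFunc k →ₐ[k] RatFunc k) (P : k[X]) :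
    σ (algebraMap k[X] (RatFunc k) P) = aeval (σ RatFunc.X) P := by
  have h : (σ.comp (IsScalarTower.toAlgHom k k[X] (RatFunc k))) = aeval (σ RatFunc.X) := by
    apply Polynomial.algHom_ext
    simp [RatFunc.algebraMap_X]
  exact DFunLike.congr_fun h P

/-- `B^n · P(A/B)` under any `k`-algebra map `ev : k[X] → K'` into a field. -/
theorem ev_homEval {K' : Type*} [Field K'] [Algebra k K'] (ev : k[X] →ₐ[k] K') {n : ℕ}
    {P : k[X]} (hP : P.natDegree ≤ n) (A : k[X]) {B : k[X]} (hB : ev B ≠ 0) :
    ev (homEval n P A B) = ev B ^ n * aeval (ev A / ev B) P := by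
  have h0 : ev (homEval n P A B) =
      ∑ i ∈ Finset.range (n + 1), ev (C (P.coeff i)) * ev A ^ i * ev B ^ (n - i) := by
    simp only [homEval, map_sum, map_mul, map_pow]
  rw [h0, aeval_eq_sum_range' (Nat.lt_succ_of_le hP), Finset.mul_sum]
  refine Finset.sum_congr rfl fun i hi => ?_
  have hin : i ≤ n := Nat.lt_succ_iff.mp (Finset.mem_range.mp hi)
  have h1 : ev B ^ n = ev B ^ i * ev B ^ (n - i) := by
    rw [← pow_add, Nat.add_sub_cancel' hin]
  have hc : ev (C (P.coeff i)) = algebraMap k K' (P.coeff i) := by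
    rw [← Polynomial.algebraMap_eq]
    exact ev.commutes (P.coeff i)
  rw [h1, div_pow, Algebra.smul_def, hc]
  field_simp

/-- `B^n · P(A/B)` in `k(x)`. -/
theorem algebraMap_homEval {n : ℕ} {P : k[X]} (hP : P.natDegree ≤ n) (A : k[X]) {B : k[X]}
    (hB : B ≠ 0) :
    algebraMap k[X] (RatFunc k) (homEval n P A B) =
      algebraMap k[X] (RatFunc k) B ^ n *
        aeval (algebraMap k[X] (RatFunc k) A / algebraMap k[X] (RatFunc k) B) P := by
  have hb : algebraMap k[X] (RatFunc k) B ≠ 0 := RatFunc.algebraMap_ne_zero hB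
  rw [map_homEval, aeval_eq_sum_range' (Nat.lt_succ_of_le hP), Finset.mul_sum]
  refine Finset.sum_congr rfl fun i hi => ?_
  have hin : i ≤ n := Nat.lt_succ_iff.mp (Finset.mem_range.mp hi)
  have h1 : algebraMap k[X] (RatFunc k) B ^ n =
      algebraMap k[X] (RatFunc k) B ^ i * algebraMap k[X] (RatFunc k) B ^ (n - i) := by
    rw [← pow_add, Nat.add_sub_cancel' hin]
  have hc : algebraMap k (RatFunc k) (P.coeff i) =
      algebraMap k[X] (RatFunc k) (C (P.coeff i)) := by
    rw [IsScalarTower.algebraMap_apply k k[X] (RatFunc k), Polynomial.algebraMap_eq]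
  rw [h1, div_pow, Algebra.smul_def, hc]
  field_simp

/-- **degree of a composition**: `deg (u ∘ v) = deg u · deg v`, `v = σ X`. -/
theorem dRat_algHom (σ : RatFunc k →ₐ[k] RatFunc k) (u : RatFunc k) :
    dRat (σ u) = dRat u * dRat (σ RatFunc.X) := by
  set v := σ RatFunc.X with hvdef
  set n := ht u.num u.denom with hn
  have hUV : IsCoprime u.num u.denom := RatFunc.isCoprime_num_denom u
  have hAB : IsCoprime v.num v.denom := RatFunc.isCoprime_num_denom v
  have hB : v.denom ≠ 0 := v.denom_ne_zero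
  have hvq : algebraMap k[X] (RatFunc k) v.num / algebraMap k[X] (RatFunc k) v.denom = v :=
    RatFunc.num_div_denom v
  have hb : algebraMap k[X] (RatFunc k) v.denom ≠ 0 := RatFunc.algebraMap_ne_zero hB
  obtain ⟨hcop, hht⟩ := comp_ht hUV hAB
  rw [← hn] at hcop hht
  -- `σ u = U(v) / V(v)`
  have hVne : aeval v u.denom ≠ 0 := by
    rw [← algHom_algebraMap σ u.denom]
    exact (map_ne_zero σ).mpr (RatFunc.algebraMap_ne_zero u.denom_ne_zero)
  have hu : algebraMap k[X] (RatFunc k) u.num = u * algebraMap k[X] (RatFunc k) u.denom :=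
    (div_eq_iff (RatFunc.algebraMap_ne_zero u.denom_ne_zero)).mp (RatFunc.num_div_denom u)
  have hσu : σ u * aeval v u.denom = aeval v u.num := by
    rw [← algHom_algebraMap σ u.denom, ← algHom_algebraMap σ u.num, ← map_mul, ← hu]
  have key : σ u * algebraMap k[X] (RatFunc k) (homEval n u.denom v.num v.denom) =
      algebraMap k[X] (RatFunc k) (homEval n u.num v.num v.denom) := by
    rw [algebraMap_homEval (natDegree_le_ht_right u.num u.denom) v.num hB,
      algebraMap_homEval (natDegree_le_ht_left u.num u.denom) v.num hB, hvq]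
    rw [mul_left_comm, hσu]
  rw [dRat_eq_of_eq_div hcop key, hht, dRat, dRat]

end RatFunc

end Fermat.Agent.ES.Q58.CompDeg9
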