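/-
Program Q (S58), brick C0 (helper13): **the coordinate field of the torsion of an elliptic curve over `ℚ`, and the
torsion counts.**

For `E : WeierstrassCurve ℚ` (in Programme Q: `E := W.map (Int.castRingHom ℚ)`), `Qb = AlgebraicClosure ℚ`,
`GQ = Gal(Qb/ℚ)` acting on `(E⁄Qb).Point` by the Prelude's `σ • P = Point.map σ.toAlgHom P`:

* `torsField E m : IntermediateField ℚ Qb` — generated by the coordinates of the points killed by `m`;
  `finiteDimensional_torsField` (`m` odd: `DivPoly/A1Final.torsion_finite_ncard_le`);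
* `smul_eq_of_eqOn`, `smul_torsion_eq_of_eqOn`, `smul_torsion_eq_self_of_fix` — `σ = τ` on `torsField E m` ⇒ same
  action on the points killed by `m`;
* `coordField` — the packaged existential form consumed by `InertiaCong25` / `InertiaGood11` / `TraceCong20`;
* `card_torsionBy_pow`, `card_torsionBy_odd` — `#E[λᵏ] = λ^{2k}` (`Δ ≠ 0`, `λ` odd), `#E[m] = m²` (`m` odd):
  `DivPoly/CardEq29.card_torsionBy_eq` over `Qb`.
-/
import Mathlib
import Fermat.Prelude.Def_FLTPrelim_GaloisRep
import Fermat.Agent.DivPoly.A1Final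
import Fermat.Agent.DivPoly.CardEq29
import Fermat.Agent.Lib.FrobeniusExists

set_option autoImplicit false
set_option linter.style.haveILetI false
set_option linter.unusedSectionVars false

open WeierstrassCurve WeierstrassCurve.Affine WeierstrassCurve.Affine.Point

noncomputable section

namespace Fermat.Agent.ES.Q58.CoordField13

local notation "Qb" => AlgebraicClosure ℚ
local notation "GQ" => (AlgebraicClosure ℚ ≃ₐ[ℚ] AlgebraicClosure ℚ)

section Field

variable (E : WeierstrassCurve ℚ)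

/-- The coordinates of the points of `E(Qb)` killed by `m`. -/
def torsCoords (m : ℕ) : Set Qb :=
  {z | ∃ (x y : Qb) (h : (E⁄Qb).toAffine.Nonsingular x y),
    m • (Point.some x y h : (E⁄Qb).Point) = 0 ∧ (z = x ∨ z = y)}

/-- The field generated by the coordinates of the `m`-torsion. -/
def torsField (m : ℕ) : IntermediateField ℚ Qb := IntermediateField.adjoin ℚ (torsCoords E m)

variable {E}

theorem x_mem_torsField {m : ℕ} {x y : Qb} {h : (E⁄Qb).toAffine.Nonsingular x y}
    (hP : m • (Point.some x y h : (E⁄Qb).Point) = 0) : x ∈ torsField E m :=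
  IntermediateField.subset_adjoin ℚ _ ⟨x, y, h, hP, Or.inl rfl⟩

theorem y_mem_torsField {m : ℕ} {x y : Qb} {h : (E⁄Qb).toAffine.Nonsingular x y}
    (hP : m • (Point.some x y h : (E⁄Qb).Point) = 0) : y ∈ torsField E m :=
  IntermediateField.subset_adjoin ℚ _ ⟨x, y, h, hP, Or.inr rfl⟩

/-- the first coordinate (`0` at the point at infinity). -/
def xco : (E⁄Qb).Point → Qb
  | .zero => 0
  | .some x _ _ => x

/-- the second coordinate (`0` at the point at infinity). -/
def yco : (E⁄Qb).Point → Qb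
  | .zero => 0
  | .some _ y _ => y

theorem torsCoords_finite {m : ℕ} (hm : Odd m) : (torsCoords E m).Finite := by
  have hmF : ((m : ℕ) : Qb) ≠ 0 := Nat.cast_ne_zero.mpr hm.pos.ne'
  have hfin : {P : (E⁄Qb).Point | m • P = 0}.Finite :=
    (Fermat.Agent.DivPoly.A1Final.torsion_finite_ncard_le (W := (E⁄Qb)) hm hmF).1
  refine ((hfin.image xco).union (hfin.image yco)).subset ?_
  rintro z ⟨x, y, h, hP, rfl | rfl⟩
  · exact Or.inl ⟨_, hP, rfl⟩
  · exact Or.inr ⟨_, hP, rfl⟩

/-- **`ℚ(E[m])` is a number field** (`m` odd). -/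
theorem finiteDimensional_torsField {m : ℕ} (hm : Odd m) :
    FiniteDimensional ℚ (torsField E m) := by
  haveI : Finite (torsCoords E m) := (torsCoords_finite hm).to_subtype
  exact IntermediateField.finiteDimensional_adjoin
    (fun x _ => (Fermat.Agent.Lib.FrobeniusExists.isIntegral_Qbar).isIntegral x)

/-- Two automorphisms agreeing on `ℚ(E[m])` act in the same way on every point killed by `m`. -/
theorem smul_eq_of_eqOn {m : ℕ} {σ τ : GQ} (h : ∀ x ∈ torsField E m, σ x = τ x)
    {P : (E⁄Qb).Point} (hP : m • P = 0) : σ • P = τ • P := by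
  cases P with
  | zero => rfl
  | some x y hxy =>
    rw [algEquiv_smul_def, algEquiv_smul_def, Point.map_some, Point.map_some]
    simp only [Point.some.injEq]
    exact ⟨h x (x_mem_torsField hP), h y (y_mem_torsField hP)⟩

theorem smul_torsion_eq_of_eqOn {m : ℕ} {σ τ : GQ} (h : ∀ x ∈ torsField E m, σ x = τ x)
    (P : Submodule.torsionBy ℤ (E⁄Qb).Point m) : σ • P = τ • P := by
  apply Subtype.ext
  have hP : m • (P : (E⁄Qb).Point) = 0 := by
    have := P.2
    rwa [Submodule.mem_torsionBy_iff, natCast_zsmul] at this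
  exact smul_eq_of_eqOn h hP

/-- An automorphism fixing `ℚ(E[m])` pointwise acts trivially on the `m`-torsion. -/
theorem smul_torsion_eq_self_of_fix {m : ℕ} {σ : GQ} (h : ∀ x ∈ torsField E m, σ x = x)
    (P : Submodule.torsionBy ℤ (E⁄Qb).Point m) : σ • P = P := by
  have := smul_torsion_eq_of_eqOn (σ := σ) (τ := 1) (fun x hx => by rw [h x hx]; rfl) P
  rwa [one_smul] at this

/-- **The coordinate field, packaged** (the literal shape of `InertiaCong25`/`InertiaGood11`): a number field `K` such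
that two automorphisms agreeing on `K` act in the same way on every point killed by the odd number `m`. -/
theorem coordField (E : WeierstrassCurve ℚ) {m : ℕ} (hm : Odd m) :
    ∃ K : IntermediateField ℚ Qb, FiniteDimensional ℚ K ∧
      ∀ Q : (E⁄Qb).Point, m • Q = 0 → ∀ σ σ' : GQ, (∀ x ∈ K, σ x = σ' x) →
        Point.map (W' := E) σ.toAlgHom Q = Point.map (W' := E) σ'.toAlgHom Q :=
  ⟨torsField E m, finiteDimensional_torsField hm, fun _ hQ _ _ h => smul_eq_of_eqOn h hQ⟩

end Field

section Counts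

variable {E : WeierstrassCurve ℚ}

theorem baseChange_Δ_ne_zero (hΔ : E.Δ ≠ 0) : (E⁄Qb).Δ ≠ 0 := by
  show (E.map (algebraMap ℚ Qb)).Δ ≠ 0
  rw [WeierstrassCurve.map_Δ]
  exact (map_ne_zero_iff _ (algebraMap ℚ Qb).injective).mpr hΔ

/-- `#E[m] = m²` for odd `m` (`Δ ≠ 0`). -/
theorem card_torsionBy_odd (hΔ : E.Δ ≠ 0) {m : ℕ} (hm : Odd m) :
    Nat.card (Submodule.torsionBy ℤ (E⁄Qb).Point ((m : ℕ) : ℤ)) = m ^ 2 :=
  Fermat.Agent.DivPoly.CardEq29.card_torsionBy_eq (W := (E⁄Qb)) (baseChange_Δ_ne_zero hΔ) hm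

/-- `#E[λᵏ] = λ^{2k}` for an odd prime `λ` (`Δ ≠ 0`). -/
theorem card_torsionBy_pow (hΔ : E.Δ ≠ 0) {lam : ℕ} (hlam : lam.Prime) (h2 : lam ≠ 2) (k : ℕ) :
    Nat.card (Submodule.torsionBy ℤ (E⁄Qb).Point ((lam ^ k : ℕ) : ℤ)) = lam ^ (2 * k) := by
  rw [card_torsionBy_odd hΔ (hlam.odd_of_ne_two h2).pow, ← pow_mul, mul_comm]

/-- the torsion subgroups of odd order are finite. -/
theorem finite_torsionBy_odd {m : ℕ} (hm : Odd m) :
    Finite (Submodule.torsionBy ℤ (E⁄Qb).Point ((m : ℕ) : ℤ)) :=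
  Fermat.Agent.DivPoly.CountFinal.finite_torsionBy (W := (E⁄Qb)) hm
    (Nat.cast_ne_zero.mpr hm.pos.ne')

end Counts

end Fermat.Agent.ES.Q58.CoordField13

end
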