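/-
Programme S58 (paper phase), comparison step, linear-algebra brick (helper18).  Mathlib only.

A `2 × 2` matrix `A` over a commutative ring with `A² - a A + ℓ = 0` which is "not scalar"
(the ideal generated by `A 0 1`, `A 1 0`, `A 0 0 - A 1 1` is the unit ideal; over a local ring:
one of the three is a unit, i.e. `A` is not scalar modulo the maximal ideal) has
`trace A = a` and `det A = ℓ`, i.e. characteristic polynomial `X² - a X + ℓ`.
(Cayley–Hamilton: `(a - tr A) A = (ℓ - det A) 1`.)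

Module form: `M` free of rank 2 over a local ring `R`, `f : M →ₗ[R] M` with
`f ∘ f - a • f + ℓ • 1 = 0`, and for every `c : R` some `v` with `f v - c • v ∉ 𝔪 • ⊤`:
then `LinearMap.trace R M f = a`, `LinearMap.det f = ℓ` and
`f.charpoly = X ^ 2 - C a * X + C ℓ`.
-/
import Mathlib

set_option autoImplicit false

namespace Fermat.Agent.ES.Q58.CyclicVec18

open Matrix Polynomial

section Mat

variable {R : Type*} [CommRing R]

/-- Cayley–Hamilton for `2 × 2` matrices, by hand. -/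
theorem cayley_two (A : Matrix (Fin 2) (Fin 2) R) :
    A * A - A.trace • A + A.det • (1 : Matrix (Fin 2) (Fin 2) R) = 0 := by
  ext i j
  fin_cases i <;> fin_cases j <;>
    simp [Matrix.mul_apply, Fin.sum_univ_two, Matrix.trace_fin_two, Matrix.det_fin_two] <;> ring

/-- the key identity `(a - tr A) A = (ℓ - det A) 1`. -/
theorem smul_eq_smul_one {A : Matrix (Fin 2) (Fin 2) R} {a ℓ : R}
    (hrel : A * A - a • A + ℓ • (1 : Matrix (Fin 2) (Fin 2) R) = 0) :
    (a - A.trace) • A = (ℓ - A.det) • (1 : Matrix (Fin 2) (Fin 2) R) := by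
  have h := cayley_two A
  have : (a - A.trace) • A - (ℓ - A.det) • (1 : Matrix (Fin 2) (Fin 2) R) = 0 := by
    rw [sub_smul, sub_smul]
    have e : a • A - A.trace • A - (ℓ • (1 : Matrix (Fin 2) (Fin 2) R) - A.det • 1) =
        (A * A - A.trace • A + A.det • (1 : Matrix (Fin 2) (Fin 2) R)) -
          (A * A - a • A + ℓ • (1 : Matrix (Fin 2) (Fin 2) R)) := by abel
    rw [e, h, hrel, sub_zero]
  exact sub_eq_zero.mp this

/-- **Trace and determinant from the quadratic relation, non-scalar case** (ideal form). -/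
theorem trace_det_of_rel {A : Matrix (Fin 2) (Fin 2) R} {a ℓ : R}
    (hrel : A * A - a • A + ℓ • (1 : Matrix (Fin 2) (Fin 2) R) = 0)
    (x y z : R) (hxyz : x * A 0 1 + y * A 1 0 + z * (A 0 0 - A 1 1) = 1) :
    A.trace = a ∧ A.det = ℓ := by
  have h := smul_eq_smul_one hrel
  have h01 := congrFun (congrFun h 0) 1
  have h10 := congrFun (congrFun h 1) 0
  have h00 := congrFun (congrFun h 0) 0
  have h11 := congrFun (congrFun h 1) 1
  simp only [Matrix.smul_apply, smul_eq_mul, Matrix.one_apply_eq, Matrix.one_apply_ne,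
    ne_eq, Fin.zero_eq_one_iff, Fin.one_eq_zero_iff, OfNat.ofNat_ne_one, not_false_eq_true,
    mul_zero, mul_one] at h01 h10 h00 h11
  have hu : a - A.trace = 0 := by
    have : a - A.trace = (a - A.trace) * (x * A 0 1 + y * A 1 0 + z * (A 0 0 - A 1 1)) := by
      rw [hxyz, mul_one]
    rw [this]
    linear_combination x * h01 + y * h10 + z * (h00 - h11)
  have hw : ℓ - A.det = 0 := by
    rw [← h00, hu, zero_mul]
  exact ⟨(sub_eq_zero.mp hu).symm, (sub_eq_zero.mp hw).symm⟩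

/-- unit form: one of `A 0 1`, `A 1 0`, `A 0 0 - A 1 1` is a unit. -/
theorem trace_det_of_rel_of_isUnit {A : Matrix (Fin 2) (Fin 2) R} {a ℓ : R}
    (hrel : A * A - a • A + ℓ • (1 : Matrix (Fin 2) (Fin 2) R) = 0)
    (hns : IsUnit (A 0 1) ∨ IsUnit (A 1 0) ∨ IsUnit (A 0 0 - A 1 1)) :
    A.trace = a ∧ A.det = ℓ := by
  rcases hns with h | h | h
  · obtain ⟨u, hu⟩ := h
    refine trace_det_of_rel hrel (↑u⁻¹) 0 0 ?_
    rw [← hu]; simp
  · obtain ⟨u, hu⟩ := h
    refine trace_det_of_rel hrel 0 (↑u⁻¹) 0 ?_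
    rw [← hu]; simp
  · obtain ⟨u, hu⟩ := h
    refine trace_det_of_rel hrel 0 0 (↑u⁻¹) ?_
    rw [← hu]; simp

/-- the characteristic polynomial of a `2 × 2` matrix. -/
theorem charpoly_two (A : Matrix (Fin 2) (Fin 2) R) :
    A.charpoly = X ^ 2 - C A.trace * X + C A.det := by
  rw [Matrix.charpoly, Matrix.det_fin_two, Matrix.trace_fin_two, Matrix.det_fin_two]
  simp only [Matrix.charmatrix_apply, Matrix.diagonal_apply_eq, Matrix.diagonal_apply_ne,
    ne_eq, Fin.zero_eq_one_iff, Fin.one_eq_zero_iff, OfNat.ofNat_ne_one, not_false_eq_true,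
    map_add, map_sub, map_mul]
  ring

theorem charpoly_of_rel {A : Matrix (Fin 2) (Fin 2) R} {a ℓ : R}
    (hrel : A * A - a • A + ℓ • (1 : Matrix (Fin 2) (Fin 2) R) = 0)
    (hns : IsUnit (A 0 1) ∨ IsUnit (A 1 0) ∨ IsUnit (A 0 0 - A 1 1)) :
    A.charpoly = X ^ 2 - C a * X + C ℓ := by
  obtain ⟨h1, h2⟩ := trace_det_of_rel_of_isUnit hrel hns
  rw [charpoly_two, h1, h2]

end Mat

section Lin

variable {R : Type*} [CommRing R] [IsLocalRing R] {M : Type*} [AddCommGroup M] [Module R M]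
  [Module.Free R M] [Module.Finite R M]

/-- **Module form** (with a chosen basis): `f ∘ f - a • f + ℓ • 1 = 0` and `f` is not a scalar
modulo the maximal ideal. -/
theorem trace_det_charpoly_of_rel (b : Module.Basis (Fin 2) R M) (f : M →ₗ[R] M) (a ℓ : R)
    (hrel : f * f - a • f + ℓ • (1 : M →ₗ[R] M) = 0)
    (hns : ∀ c : R, ∃ v : M,
      f v - c • v ∉ (IsLocalRing.maximalIdeal R) • (⊤ : Submodule R M)) :
    LinearMap.trace R M f = a ∧ LinearMap.det f = ℓ ∧
      f.charpoly = X ^ 2 - C a * X + C ℓ := by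
  classical
  set A : Matrix (Fin 2) (Fin 2) R := LinearMap.toMatrix b b f with hA
  have hrelA : A * A - a • A + ℓ • (1 : Matrix (Fin 2) (Fin 2) R) = 0 := by
    have := congrArg (LinearMap.toMatrix b b) hrel
    rw [map_add, map_sub, map_smul, map_smul, LinearMap.toMatrix_mul, LinearMap.toMatrix_one,
      map_zero] at this
    exact this
  have hnsA : IsUnit (A 0 1) ∨ IsUnit (A 1 0) ∨ IsUnit (A 0 0 - A 1 1) := by
    by_contra hcon
    rw [not_or, not_or] at hcon
    obtain ⟨h01, h10, h00⟩ := hcon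
    have m01 : A 0 1 ∈ IsLocalRing.maximalIdeal R := (IsLocalRing.mem_maximalIdeal _).mpr h01
    have m10 : A 1 0 ∈ IsLocalRing.maximalIdeal R := (IsLocalRing.mem_maximalIdeal _).mpr h10
    have m00 : A 0 0 - A 1 1 ∈ IsLocalRing.maximalIdeal R :=
      (IsLocalRing.mem_maximalIdeal _).mpr h00
    obtain ⟨v, hv⟩ := hns (A 1 1)
    apply hv
    -- `f (b j) = ∑ i, A i j • b i`
    have hb : ∀ j, f (b j) = A 0 j • b 0 + A 1 j • b 1 := by
      intro j
      have := LinearMap.toMatrix_mulVec_repr b b f (b j)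
      have h2 : f (b j) = ∑ i, (b.repr (f (b j))) i • b i := (b.sum_repr _).symm
      rw [h2, Fin.sum_univ_two]
      have e : ∀ i, (b.repr (f (b j))) i = A i j := by
        intro i
        rw [hA, LinearMap.toMatrix_apply]
      rw [e 0, e 1]
    have hv2 : v = (b.repr v) 0 • b 0 + (b.repr v) 1 • b 1 := by
      conv_lhs => rw [← b.sum_repr v, Fin.sum_univ_two]
    have key : f v - A 1 1 • v =
        ((b.repr v) 0 * (A 0 0 - A 1 1) + (b.repr v) 1 * A 0 1) • b 0 +
          ((b.repr v) 0 * A 1 0) • b 1 := by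
      conv_lhs => rw [hv2]
      rw [map_add, map_smul, map_smul, hb 0, hb 1]
      simp only [smul_add, smul_smul, add_smul, sub_smul, mul_sub]
      module
    rw [key]
    refine Submodule.add_mem _ ?_ ?_
    · refine Submodule.smul_mem_smul ?_ Submodule.mem_top
      exact Ideal.add_mem _ (Ideal.mul_mem_left _ _ m00) (Ideal.mul_mem_left _ _ m01)
    · refine Submodule.smul_mem_smul ?_ Submodule.mem_top
      exact Ideal.mul_mem_left _ _ m10
  obtain ⟨h1, h2⟩ := trace_det_of_rel_of_isUnit hrelA hnsA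
  refine ⟨?_, ?_, ?_⟩
  · rw [LinearMap.trace_eq_matrix_trace R b f, ← hA, h1]
  · rw [← LinearMap.det_toMatrix b f, ← hA, h2]
  · rw [← LinearMap.charpoly_toMatrix f b, ← hA, charpoly_of_rel hrelA hnsA]

end Lin

section ZModPow

/-- `ℤ / p ^ k` is a local ring (`k ≠ 0`). -/
theorem isLocalRing_zmod_pow (p k : ℕ) [hp : Fact p.Prime] (hk : k ≠ 0) :
    IsLocalRing (ZMod (p ^ k)) := by
  have : Fact (1 < p ^ k) := ⟨Nat.one_lt_pow hk hp.out.one_lt⟩
  exact IsLocalRing.of_surjective' (PadicInt.toZModPow k : ℤ_[p] →+* ZMod (p ^ k))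
    (ZMod.ringHom_surjective _)

/-- units of `ℤ / p ^ k`: the elements not divisible by `p`. -/
theorem isUnit_zmod_pow_iff (p k : ℕ) [hp : Fact p.Prime] (hk : k ≠ 0) (x : ZMod (p ^ k)) :
    IsUnit x ↔ ¬ ∃ y, x = (p : ZMod (p ^ k)) * y := by
  have : NeZero (p ^ k) := ⟨pow_ne_zero _ hp.out.ne_zero⟩
  obtain ⟨n, rfl⟩ : ∃ n : ℕ, x = (n : ZMod (p ^ k)) := ⟨x.val, (ZMod.natCast_zmod_val x).symm⟩
  rw [ZMod.isUnit_iff_coprime, Nat.coprime_pow_right_iff (Nat.pos_of_ne_zero hk),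
    Nat.coprime_comm, hp.out.coprime_iff_not_dvd]
  refine not_congr ⟨?_, ?_⟩
  · rintro ⟨m, rfl⟩
    exact ⟨(m : ZMod (p ^ k)), by push_cast; ring⟩
  · rintro ⟨y, hy⟩
    obtain ⟨m, rfl⟩ : ∃ m : ℕ, y = (m : ZMod (p ^ k)) := ⟨y.val, (ZMod.natCast_zmod_val y).symm⟩
    have h2 : ((n : ℕ) : ZMod (p ^ k)) = ((p * m : ℕ) : ZMod (p ^ k)) := by
      rw [hy]; push_cast; ring
    rw [ZMod.natCast_eq_natCast_iff] at h2
    have hpk : p ∣ p ^ k := dvd_pow_self p hk
    exact (Nat.ModEq.dvd_iff h2 hpk).mpr (dvd_mul_right p m)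

/-- the maximal ideal of `ℤ / p ^ k` consists of the multiples of `p`. -/
theorem mem_maximalIdeal_zmod_pow_iff (p k : ℕ) [hp : Fact p.Prime] (hk : k ≠ 0)
    (x : ZMod (p ^ k)) :
    x ∈ @IsLocalRing.maximalIdeal (ZMod (p ^ k)) _ (isLocalRing_zmod_pow p k hk) ↔
      ∃ y, x = (p : ZMod (p ^ k)) * y := by
  letI := isLocalRing_zmod_pow p k hk
  rw [IsLocalRing.mem_maximalIdeal, mem_nonunits_iff, isUnit_zmod_pow_iff p k hk, not_not]

end ZModPow

end Fermat.Agent.ES.Q58.CyclicVec18
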