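/-
Program Q (S58), TOP-B interface (helper12): the three statements about the Galois action on the
torsion of an integral Weierstrass model `W` which the TOP consumes.  They are formulated WITHOUT
any Tate module, matrix or torsion-group vocabulary: only finite subextensions `K ⊂ ℚ̄`,
Frobenius elements, inertia groups and the integers `a_ℓ(W) = W.apOfModel ℓ`.

In each statement the EC side takes `K` = the field generated by the coordinates of `W[λⁿ](ℚ̄)`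
and `T` = any finite set of primes it wants to exclude.

* `InertiaCong W lam q` (for (ii)): a Frobenius at a good prime `ℓ` acting on `K = ℚ(W[λⁿ])` like a
  power of an inertia element at `q` has `λⁿ ∣ #W̃(F_ℓ) = ℓ + 1 - a_ℓ(W)`
  [`#Fix(τ | W[λⁿ]) ≥ λⁿ`, and `Fix(φ | W[λⁿ])` injects into the `λⁿ`-torsion of `W̃(F_ℓ)`].
  (The cyclotomic half, `ℓ ≡ 1 mod λⁿ`, is done on the TOP side with `ES/J/CycloChar8`.)
* `GoodFixBound W q`: NOT used by the route any more (v2; kept only so that the name stays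
  available): (i) is now obtained from `TraceCong` at `r = q` together with the trivial bound
  `a_q(W) ≠ ±(q + 1)` (`ES/Q58/CardBound20.apOfModel_ne`).
* `TraceCong W r lam` (for (iii)): at a good prime `r`, for Frobenii `σ` at `r` and `φ` at a good
  `ℓ` generating the same cyclic group on `K = ℚ(W[λⁿ])`, `σ = φ^j`:
  `a_r(W) ≡ V_j(a_ℓ(W), ℓ) (mod λⁿ)`, `V_j = ES/ALG31/Lucas15.lucasV` the Lucas sequence
  [relations at `r` and `ℓ` + cyclic vector, `λ` chosen with `X² − a_r X + r` rootless mod `λ`].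
-/
import Mathlib
import Fermat.Prelude.Def_FLTPrelim_Modularity
import Fermat.Prelude.Def_FLTPrelim_GaloisRep
import Fermat.Prelude.Def_EllipticCurve_FrobeniusTrace
import Fermat.Prelude.Def_FLTPrelim_Ramification
import Fermat.Agent.ES.ALG31.Lucas15

set_option autoImplicit false

open WeierstrassCurve
open Fermat.Agent.ES.ALG31.Lucas15 (lucasV)

namespace Fermat.Agent.ES.Q58.ECIface12

local notation "Qb" => AlgebraicClosure ℚ
local notation "GQ" => (AlgebraicClosure ℚ ≃ₐ[ℚ] AlgebraicClosure ℚ)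

/-- (E-ii) -/
def InertiaCong (W : WeierstrassCurve ℤ) (lam q : ℕ) : Prop :=
  ∃ T : Finset ℕ, ∀ n : ℕ, ∃ K : IntermediateField ℚ Qb, FiniteDimensional ℚ K ∧
    ∀ (P : ValuationSubring Qb), P.LiesOverPrime q → ∀ τ ∈ P.inertiaSubgroupIn ℚ,
    ∀ (ℓ : ℕ) (A : ValuationSubring Qb) (φ : GQ), ℓ.Prime → ℓ ∉ T → W.IsGoodPrimeFor ℓ →
      A.LiesOverPrime ℓ → A.IsFrobeniusAt φ ℓ →
    ∀ i : ℕ, (∀ x ∈ K, φ x = (τ ^ i) x) →
      (lam : ℤ) ^ n ∣ (ℓ : ℤ) + 1 - W.apOfModel ℓ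

/-- (E-i), unused since v2. -/
def GoodFixBound (W : WeierstrassCurve ℤ) (q : ℕ) : Prop :=
  ∃ c : ℕ, c ≠ 0 ∧ ∃ T : Finset ℕ, ∀ lam : ℕ, lam.Prime → lam ∉ T →
    ∃ K : IntermediateField ℚ Qb, FiniteDimensional ℚ K ∧
    ∀ (P : ValuationSubring Qb) (σ : GQ), P.LiesOverPrime q → P.IsFrobeniusAt σ q →
    ∀ (ℓ : ℕ) (A : ValuationSubring Qb) (φ : GQ), ℓ.Prime → ℓ ∉ T → ℓ ≠ lam →
      W.IsGoodPrimeFor ℓ → A.LiesOverPrime ℓ → A.IsFrobeniusAt φ ℓ →
      ((lam : ℤ) ∣ (ℓ : ℤ) + 1 - W.apOfModel ℓ) →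
    ∀ j : ℕ, (∀ x ∈ K, (φ ^ j) x = (σ ^ 2) x) → lam ∣ c

/-- (E-iii) -/
def TraceCong (W : WeierstrassCurve ℤ) (r lam : ℕ) : Prop :=
  ∃ T : Finset ℕ, ∀ n : ℕ, ∃ K : IntermediateField ℚ Qb, FiniteDimensional ℚ K ∧
    ∀ (P : ValuationSubring Qb) (σ : GQ), P.LiesOverPrime r → P.IsFrobeniusAt σ r →
    ∀ (ℓ : ℕ) (A : ValuationSubring Qb) (φ : GQ), ℓ.Prime → ℓ ∉ T → W.IsGoodPrimeFor ℓ →
      A.LiesOverPrime ℓ → A.IsFrobeniusAt φ ℓ →
    ∀ i j : ℕ, (∀ x ∈ K, (φ ^ j) x = σ x) → (∀ x ∈ K, (σ ^ i) x = φ x) →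
      (lam : ℤ) ^ n ∣ W.apOfModel r - lucasV (W.apOfModel ℓ) (ℓ : ℤ) j

/-- The EC package consumed by TOP-B (v2: two fields). -/
structure ECFacts (W : WeierstrassCurve ℤ) : Prop where
  /-- (E-ii): every prime `q`, every odd prime `λ ≠ q` outside a finite set. -/
  inertia : ∀ q : ℕ, q.Prime → ∃ T : Finset ℕ, ∀ lam : ℕ, lam.Prime → lam ∉ T →
    InertiaCong W lam q
  /-- (E-iii): every good prime `r` has an auxiliary prime `λ`, avoiding any given finite set;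
  also used for (i), with `r = q ∥ M`. -/
  trace : ∀ r : ℕ, r.Prime → W.IsGoodPrimeFor r → ∀ T : Finset ℕ,
    ∃ lam : ℕ, lam.Prime ∧ lam ∉ T ∧ TraceCong W r lam

end Fermat.Agent.ES.Q58.ECIface12
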