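/-
Programme Q (S58), chapter C3 (`inertia`), brick (b) (helper11): **at a GOOD prime `q`, the inertia group acts trivially on
the odd torsion prime to `q`** of a GENERAL integral Weierstrass model (no shape restriction; residue characteristic `2`
and `3` included).

* `Δ_eq_of_equation` : on the curve, `Δ = N · cN + ψ · cP` with `ψ = 2y + a₁x + a₃`, `N = 3x² + 2a₂x + a₄ − a₁y`
  (the two partial derivatives) and integral polynomial cofactors: a singular point of the reduction kills `Δ`;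
* `psi_unit_of_nsmul_eq_zero` : valued field, integral coefficients, `v Δ = 1`: a point of odd order `n`, `v n = 1`, has
  `v (2y + a₁x + a₃) = 1` (its reduction is not a `2`-torsion point) — the hypothesis `hu` of `CongE1_20`;
* `inertia_fix_of_good` : `τ ∈ I_A`, `A | q` good, `m` odd, `q ∤ m`, `m • Q = 0` ⇒ `τ Q = Q`.
-/
import Mathlib
import Fermat.Prelude.Def_FLTPrelim_Modularity
import Fermat.Agent.Lib.FrobeniusExists
import Fermat.Agent.S05.Kernel
import Fermat.Agent.S05.Inertia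
import Fermat.Agent.ES.EC.CongE1_20

set_option autoImplicit false
set_option linter.unusedSectionVars false

open WeierstrassCurve WeierstrassCurve.Affine WeierstrassCurve.Affine.Point
open Fermat.Agent.Lib.FrobeniusExists

namespace Fermat.Agent.ES.Q58.InertiaGood11

open Fermat.Agent.S05.Kernel Fermat.Agent.ES.EC.CongE1_20

/-! ### The discriminant and the two partial derivatives -/

section Disc

variable {R : Type*} [CommRing R]

/-- `∂F/∂y = 2y + a₁x + a₃`. -/
def psi (W : WeierstrassCurve R) (x y : R) : R := 2 * y + W.a₁ * x + W.a₃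

/-- `−∂F/∂x = 3x² + 2a₂x + a₄ − a₁y`. -/
def nn (W : WeierstrassCurve R) (x y : R) : R := 3 * x ^ 2 + 2 * W.a₂ * x + W.a₄ - W.a₁ * y

/-- cofactor of `nn` in `Δ`. -/
def cN (W : WeierstrassCurve R) (x y : R) : R :=
  (W.b₂ + 12 * x) ^ 2 * (W.a₁ * psi W x y + nn W x y)
    - 8 * (8 * nn W x y ^ 2 + 12 * nn W x y * W.a₁ * psi W x y + 6 * W.a₁ ^ 2 * psi W x y ^ 2)
    + 18 * (W.b₂ + 12 * x) * psi W x y ^ 2

/-- cofactor of `psi` in `Δ`. -/
def cP (W : WeierstrassCurve R) (x y : R) : R :=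
  psi W x y * (-(W.b₂ + 12 * x) ^ 2 * (W.a₂ + 3 * x) - 8 * W.a₁ ^ 3 * psi W x y
    - 27 * psi W x y ^ 2 + 9 * (W.b₂ + 12 * x) * W.a₁ * psi W x y)

/-- **On the curve, `Δ` lies in the ideal of the two partial derivatives** (integral cofactors). -/
theorem Δ_eq_of_equation (W : WeierstrassCurve R) {x y : R} (h : W.toAffine.Equation x y) :
    W.Δ = nn W x y * cN W x y + psi W x y * cP W x y := by
  rw [Affine.equation_iff] at h
  simp only [cN, cP, psi, nn, WeierstrassCurve.Δ, WeierstrassCurve.b₂, WeierstrassCurve.b₄,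
    WeierstrassCurve.b₆, WeierstrassCurve.b₈]
  linear_combination ((W.a₁ ^ 2 + 4 * W.a₂ + 12 * x) ^ 3 + 216 * (2 * y + W.a₁ * x + W.a₃) ^ 2
    - 432 * (y ^ 2 + W.a₁ * x * y + W.a₃ * y - (x ^ 3 + W.a₂ * x ^ 2 + W.a₄ * x + W.a₆))
    - 36 * (W.a₁ ^ 2 + 4 * W.a₂ + 12 * x) * (2 * (3 * x ^ 2 + 2 * W.a₂ * x + W.a₄ - W.a₁ * y)
      + W.a₁ * (2 * y + W.a₁ * x + W.a₃))) * h

variable {S : Type*} [CommRing S] (f : R →+* S)

theorem map_psi (W : WeierstrassCurve R) (x y : R) : psi (W.map f) (f x) (f y) = f (psi W x y) := by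
  simp only [psi, WeierstrassCurve.map_a₁, WeierstrassCurve.map_a₃, map_add, map_mul, map_ofNat]

theorem map_nn (W : WeierstrassCurve R) (x y : R) : nn (W.map f) (f x) (f y) = f (nn W x y) := by
  simp only [nn, WeierstrassCurve.map_a₁, WeierstrassCurve.map_a₂, WeierstrassCurve.map_a₄, map_add,
    map_sub, map_mul, map_pow, map_ofNat]

theorem map_cN (W : WeierstrassCurve R) (x y : R) : cN (W.map f) (f x) (f y) = f (cN W x y) := by
  simp only [cN, map_psi, map_nn, WeierstrassCurve.map_b₂, WeierstrassCurve.map_a₁, map_add,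
    map_sub, map_mul, map_pow, map_ofNat]

theorem map_cP (W : WeierstrassCurve R) (x y : R) : cP (W.map f) (f x) (f y) = f (cP W x y) := by
  simp only [cP, map_psi, WeierstrassCurve.map_b₂, WeierstrassCurve.map_a₁,
    WeierstrassCurve.map_a₂, map_add, map_sub, map_mul, map_pow, map_neg, map_ofNat]

end Disc

/-! ### Valued fields -/

section Val

variable {K : Type*} [Field K] [DecidableEq K] {Γ₀ : Type*}
  [LinearOrderedCommGroupWithZero Γ₀] {v : Valuation K Γ₀} {W : Affine K}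

/-- integrality of the four expressions at an integral point of an integral model. -/
theorem integral_of_integral (hW : IntegralCoeffs v W) {x y : K} (hx : v x ≤ 1) (hy : v y ≤ 1) :
    v (psi W x y) ≤ 1 ∧ v (nn W x y) ≤ 1 ∧ v (cN W x y) ≤ 1 ∧ v (cP W x y) ≤ 1 := by
  obtain ⟨ha₁, ha₂, ha₃, ha₄, ha₆⟩ := hW
  have mem : ∀ {z : K}, v z ≤ 1 → z ∈ v.integer := fun hz => (Valuation.mem_integer_iff v _).mpr hz
  have key : ∀ z : v.integer, v (v.integer.subtype z) ≤ 1 :=
    fun z => (Valuation.mem_integer_iff v _).mp z.2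
  let WO : WeierstrassCurve v.integer :=
    ⟨⟨W.a₁, mem ha₁⟩, ⟨W.a₂, mem ha₂⟩, ⟨W.a₃, mem ha₃⟩, ⟨W.a₄, mem ha₄⟩, ⟨W.a₆, mem ha₆⟩⟩
  have hWO : WO.map v.integer.subtype = W := by
    ext <;> rfl
  have e1 := map_psi v.integer.subtype WO ⟨x, mem hx⟩ ⟨y, mem hy⟩
  have e2 := map_nn v.integer.subtype WO ⟨x, mem hx⟩ ⟨y, mem hy⟩
  have e3 := map_cN v.integer.subtype WO ⟨x, mem hx⟩ ⟨y, mem hy⟩
  have e4 := map_cP v.integer.subtype WO ⟨x, mem hx⟩ ⟨y, mem hy⟩
  rw [hWO] at e1 e2 e3 e4
  have hx' : v.integer.subtype ⟨x, mem hx⟩ = x := rfl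
  have hy' : v.integer.subtype ⟨y, mem hy⟩ = y := rfl
  rw [hx', hy'] at e1 e2 e3 e4
  refine ⟨?_, ?_, ?_, ?_⟩
  · rw [e1]; exact key _
  · rw [e2]; exact key _
  · rw [e3]; exact key _
  · rw [e4]; exact key _

/-- **`hu` of `CongE1_20` for odd torsion under good reduction.** -/
theorem psi_unit_of_nsmul_eq_zero (hW : IntegralCoeffs v W) (hΔ : v W.Δ = 1) {x y : K}
    (h : W.Nonsingular x y) {n : ℕ} (hn : Odd n) (hvn : v (n : K) = 1)
    (hP : n • Point.some x y h = 0) : v (2 * y + W.a₁ * x + W.a₃) = 1 := by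
  have hx : v x ≤ 1 := x_integral_of_nsmul_eq_zero hW h hvn hP
  have hy : v y ≤ 1 := by
    by_contra hc
    exact absurd hx (not_le.mpr (vx_of_vy hW h.1 (not_le.mp hc)))
  obtain ⟨hψ, hN, hcN, hcP⟩ := integral_of_integral hW hx hy
  have hψdef : psi W x y = 2 * y + W.a₁ * x + W.a₃ := rfl
  rw [← hψdef]
  by_contra hne
  have hψlt : v (psi W x y) < 1 := lt_of_le_of_ne hψ hne
  -- `2 • P ≠ 0`
  have hP2 : Point.some x y h + Point.some x y h ≠ 0 := by
    intro h2
    obtain ⟨k, rfl⟩ := hn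
    have e : (2 * k + 1) • Point.some x y h =
        k • (Point.some x y h + Point.some x y h) + Point.some x y h := by
      rw [add_nsmul, one_nsmul, mul_comm, mul_nsmul, two_nsmul, nsmul_add]
    rw [e, h2, smul_zero, zero_add] at hP
    exact Point.some_ne_zero h hP
  have hyne : y ≠ W.negY x y := by
    intro hy'
    exact hP2 (Point.add_of_Y_eq rfl hy')
  have hψ0 : psi W x y ≠ 0 := by
    intro h0
    apply hyne
    have : y - W.negY x y = psi W x y := by rw [negY, hψdef]; ring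
    rw [h0] at this
    exact sub_eq_zero.mp this
  -- the `x`-coordinate of `2 • P` is integral
  have hdbl := Point.add_self_of_Y_ne (h₁ := h) hyne
  have hn2 : n • (Point.some x y h + Point.some x y h) = 0 := by
    rw [smul_add, hP, add_zero]
  rw [hdbl] at hn2
  have hx2 := x_integral_of_nsmul_eq_zero hW _ hvn hn2
  rw [slope_of_Y_ne rfl hyne] at hx2
  have hden : y - W.negY x y = psi W x y := by rw [negY, hψdef]; ring
  have hnum : 3 * x ^ 2 + 2 * W.a₂ * x + W.a₄ - W.a₁ * y = nn W x y := rfl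
  rw [hden, hnum, addX] at hx2
  set L := nn W x y / psi W x y with hL
  -- `N² = ψ² (x₂ + a₂ + 2x) − a₁ N ψ`
  have hNsq : nn W x y ^ 2 = psi W x y ^ 2 * ((L ^ 2 + W.a₁ * L - W.a₂ - x - x) + W.a₂ + 2 * x)
      - W.a₁ * nn W x y * psi W x y := by
    rw [hL]; field_simp; ring
  obtain ⟨ha₁, ha₂, ha₃, ha₄, ha₆⟩ := hW
  have hNlt : v (nn W x y) < 1 := by
    have h1 : v (nn W x y ^ 2) < 1 := by
      rw [hNsq]
      refine lt_of_le_of_lt (v.map_sub _ _) (max_lt ?_ ?_)
      · rw [map_mul, map_pow]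
        have hA : v ((L ^ 2 + W.a₁ * L - W.a₂ - x - x) + W.a₂ + 2 * x) ≤ 1 := by
          refine v.map_add_le (v.map_add_le hx2 ha₂) ?_
          exact vle_int_mul vle_ofNat_two hx
        calc v (psi W x y) ^ 2 * v ((L ^ 2 + W.a₁ * L - W.a₂ - x - x) + W.a₂ + 2 * x)
            ≤ v (psi W x y) ^ 2 * 1 := mul_le_mul_right hA _
          _ = v (psi W x y) ^ 2 := mul_one _
          _ < 1 := pow_lt_one₀ zero_le hψlt two_ne_zero
      · rw [map_mul, map_mul]
        calc v W.a₁ * v (nn W x y) * v (psi W x y) ≤ 1 * 1 * v (psi W x y) := by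
              gcongr
          _ = v (psi W x y) := by rw [one_mul, one_mul]
          _ < 1 := hψlt
    rw [map_pow] at h1
    by_contra hc
    exact absurd h1 (not_lt.mpr (one_le_pow₀ (not_lt.mp hc)))
  -- `Δ = N cN + ψ cP` has valuation `< 1`
  have hΔlt : v W.Δ < 1 := by
    rw [Δ_eq_of_equation W h.1]
    refine lt_of_le_of_lt (v.map_add _ _) (max_lt ?_ ?_)
    · rw [map_mul]
      calc v (nn W x y) * v (cN W x y) ≤ v (nn W x y) * 1 := mul_le_mul_right hcN _
        _ = v (nn W x y) := mul_one _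
        _ < 1 := hNlt
    · rw [map_mul]
      calc v (psi W x y) * v (cP W x y) ≤ v (psi W x y) * 1 := mul_le_mul_right hcP _
        _ = v (psi W x y) := mul_one _
        _ < 1 := hψlt
  rw [hΔ] at hΔlt
  exact lt_irrefl _ hΔlt

end Val

/-! ### The inertia group at a good prime fixes the odd torsion prime to the residue characteristic -/

section Inertia

/-- **C3 (b).**  `W` a general integral Weierstrass model, `q` a prime of good reduction, `m` odd and prime to `q`:
every element of the inertia group at a place over `q` fixes `W[m](ℚ̄)` pointwise. -/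
theorem inertia_fix_of_good (W : WeierstrassCurve ℤ) {q m : ℕ} (hq : q.Prime) (hm : Odd m)
    (hqm : ¬ q ∣ m) (hgood : W.IsGoodPrimeFor q) {P : ValuationSubring Qbar}
    (hP : P.LiesOverPrime q) {τ : GQ} (hτ : τ ∈ P.inertiaSubgroupIn ℚ)
    (Q : ((W.map (Int.castRingHom ℚ))⁄Qbar).toAffine.Point) (hQ : m • Q = 0) :
    Point.map (W' := W.map (Int.castRingHom ℚ)) τ.toAlgHom Q = Q := by
  rcases Q with _ | ⟨x, y, h⟩
  · rfl
  · have ha₁ : ((W.map (Int.castRingHom ℚ))⁄Qbar).a₁ = ((W.a₁ : ℤ) : Qbar) := by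
      simp [WeierstrassCurve.baseChange]
    have ha₂ : ((W.map (Int.castRingHom ℚ))⁄Qbar).a₂ = ((W.a₂ : ℤ) : Qbar) := by
      simp [WeierstrassCurve.baseChange]
    have ha₃ : ((W.map (Int.castRingHom ℚ))⁄Qbar).a₃ = ((W.a₃ : ℤ) : Qbar) := by
      simp [WeierstrassCurve.baseChange]
    have ha₄ : ((W.map (Int.castRingHom ℚ))⁄Qbar).a₄ = ((W.a₄ : ℤ) : Qbar) := by
      simp [WeierstrassCurve.baseChange]
    have ha₆ : ((W.map (Int.castRingHom ℚ))⁄Qbar).a₆ = ((W.a₆ : ℤ) : Qbar) := by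
      simp [WeierstrassCurve.baseChange]
    have hΔeq : ((W.map (Int.castRingHom ℚ))⁄Qbar).Δ = ((W.Δ : ℤ) : Qbar) := by
      simp [WeierstrassCurve.baseChange]
    have hint : IntegralCoeffs P.valuation ((W.map (Int.castRingHom ℚ))⁄Qbar) := by
      refine ⟨?_, ?_, ?_, ?_, ?_⟩
      · rw [ha₁]; exact Fermat.Agent.S05.Inertia.valuation_intCast_le_one _
      · rw [ha₂]; exact Fermat.Agent.S05.Inertia.valuation_intCast_le_one _
      · rw [ha₃]; exact Fermat.Agent.S05.Inertia.valuation_intCast_le_one _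
      · rw [ha₄]; exact Fermat.Agent.S05.Inertia.valuation_intCast_le_one _
      · rw [ha₆]; exact Fermat.Agent.S05.Inertia.valuation_intCast_le_one _
    have hΔ : P.valuation ((W.map (Int.castRingHom ℚ))⁄Qbar).Δ = 1 := by
      rw [hΔeq]
      exact Fermat.Agent.S05.Inertia.valuation_intCast_eq_one hq hP hgood
    have hvm : P.valuation ((m : ℕ) : Qbar) = 1 :=
      Fermat.Agent.S05.Inertia.valuation_natCast_eq_one hq hP hqm
    have hx : P.valuation x ≤ 1 := x_integral_of_nsmul_eq_zero hint h hvm hQ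
    have hy : P.valuation y ≤ 1 := by
      by_contra hc
      exact absurd hx (not_le.mpr (vx_of_vy hint h.1 (not_le.mp hc)))
    have hu := psi_unit_of_nsmul_eq_zero hint hΔ h hm hvm hQ
    have h' : ((W.map (Int.castRingHom ℚ))⁄Qbar).Nonsingular (τ.toAlgHom x) (τ.toAlgHom y) :=
      (WeierstrassCurve.Affine.baseChange_nonsingular (W.map (Int.castRingHom ℚ))
        (f := τ.toAlgHom) τ.toAlgHom.injective x y).mpr h
    have hmap : Point.map (W' := W.map (Int.castRingHom ℚ)) τ.toAlgHom (Point.some x y h)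
        = Point.some (τ.toAlgHom x) (τ.toAlgHom y) h' := rfl
    have hQ' : m • Point.some (τ.toAlgHom x) (τ.toAlgHom y) h' = 0 := by
      have := congrArg (Point.map (W' := W.map (Int.castRingHom ℚ)) τ.toAlgHom) hQ
      rw [map_nsmul, _root_.map_zero, hmap] at this
      exact this
    have hfx : P.valuation (τ x - x) < 1 :=
      Fermat.Agent.S05.Inertia.valuation_sub_lt_one_rat hτ hx
    have hfy : P.valuation (τ y - y) < 1 :=
      Fermat.Agent.S05.Inertia.valuation_sub_lt_one_rat hτ hy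
    rw [hmap]
    exact eq_of_congruent_of_nsmul_eq_zero hint h' h hfx hfy hu hvm hQ' hQ

end Inertia

end Fermat.Agent.ES.Q58.InertiaGood11
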