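/-
Programme Q (S58), brick C3(a) (helper25): the **weak link** at a good prime, on a general
integral Weierstrass model.

`W` an integral Weierstrass curve, `ℓ` a prime of good reduction, `A` a valuation subring of `ℚ̄`
over `ℓ`, `φ` a Frobenius element at `A`, `λ ≠ ℓ` an odd prime.  If `φ` fixes (pointwise) a set
`S` of at least `λⁿ` points of `W(ℚ̄)` killed by `λⁿ`, then `λⁿ ∣ #W̃(𝔽_ℓ) = ℓ + 1 - a_ℓ(W)`.

Proof (no residue curve over the big residue field): the coordinates of the points of `S` are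
integral (`S05.Kernel`), fixed by `φ`, hence congruent to rational integers (Frobenius congruence
and the prime field is the fixed field of `t ↦ t^ℓ`); the reduced coordinates give a point of
`W̃(𝔽_ℓ)` killed by `λⁿ` (division polynomials commute with base change, `DivPoly.A1Final`); the
reduction is not a `2`-torsion point (`λ` odd), so reduction is injective on `S` (`CongE1_20`);
finally a finite abelian group with `≥ λⁿ` elements killed by `λⁿ` has order divisible by `λⁿ`.
-/
import Mathlib
import Fermat.Prelude.Def_FLTPrelim_Modularity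
import Fermat.Prelude.Def_FLTPrelim_Ramification
import Fermat.Prelude.Def_FLTPrelim_GaloisRep
import Fermat.Prelude.Def_EllipticCurve_FrobeniusTrace
import Fermat.Agent.ES.EC.LocalFix20
import Fermat.Agent.ES.EC.LiftTorsion29
import Fermat.Agent.S05.Inertia

set_option autoImplicit false

open WeierstrassCurve WeierstrassCurve.Affine Polynomial

namespace Fermat.Agent.ES.Q58.WeakLink25

/-! ### A counting lemma in finite abelian groups -/

/-- A finite abelian group containing at least `pⁿ` elements killed by `pⁿ` has order divisible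
by `pⁿ`. -/
theorem pow_dvd_card_of_torsion {G : Type*} [AddCommGroup G] [Finite G] {p n : ℕ} (hp : p.Prime)
    (T : Finset G) (hT : ∀ g ∈ T, p ^ n • g = 0) (hcard : p ^ n ≤ T.card) :
    p ^ n ∣ Nat.card G := by
  classical
  let H : AddSubgroup G := (nsmulAddMonoidHom (α := G) (p ^ n)).ker
  have hH : ∀ g, g ∈ H ↔ p ^ n • g = 0 := fun g => by
    simp only [H, AddMonoidHom.mem_ker, nsmulAddMonoidHom_apply]
  have hle : T.card ≤ Nat.card H := by
    have hinj : Function.Injective (fun t : T => (⟨t.1, (hH _).mpr (hT _ t.2)⟩ : H)) := by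
      intro a b hab
      exact Subtype.ext (congrArg (fun h : H => (h : G)) hab)
    have h1 := Nat.card_le_card_of_injective _ hinj
    rwa [Nat.card_eq_fintype_card, Fintype.card_coe] at h1
  have hpos : Nat.card H ≠ 0 := Nat.card_pos.ne'
  have hpow : Nat.card H = p ^ (Nat.card H).primeFactorsList.length := by
    apply Nat.eq_prime_pow_of_unique_prime_dvd hpos
    intro r hr hrd
    have : Fact r.Prime := ⟨hr⟩
    obtain ⟨g, hg⟩ := exists_prime_addOrderOf_dvd_card' (G := H) r hrd
    have h1 : p ^ n • g = 0 := by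
      apply Subtype.ext
      rw [AddSubgroup.coe_nsmul]
      exact (hH _).mp g.2
    have h2 : r ∣ p ^ n := by rw [← hg]; exact addOrderOf_dvd_of_nsmul_eq_zero h1
    exact (Nat.prime_dvd_prime_iff_eq hr hp).mp (hr.dvd_of_dvd_pow h2)
  have hk : n ≤ (Nat.card H).primeFactorsList.length := by
    by_contra hlt
    push Not at hlt
    have : Nat.card H < p ^ n := by
      rw [hpow]; exact Nat.pow_lt_pow_right hp.one_lt hlt
    omega
  calc p ^ n ∣ p ^ (Nat.card H).primeFactorsList.length := pow_dvd_pow p hk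
    _ = Nat.card H := hpow.symm
    _ ∣ Nat.card G := AddSubgroup.card_addSubgroup_dvd_card H

/-! ### Valuation lemmas -/

section Val

variable {L : Type*} [Field L] (A : ValuationSubring L)

open Fermat.Agent.S05.Inertia

theorem val_le_one_of_sub_int {x : L} {a : ℤ} (h : A.valuation (x - (a : L)) < 1) :
    A.valuation x ≤ 1 := by
  have e : x = (x - (a : L)) + (a : L) := by ring
  rw [e]
  exact A.valuation.map_add_le h.le (valuation_intCast_le_one a)

/-- Integer polynomials respect congruences modulo the maximal ideal. -/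
theorem val_eval_sub_lt_one (f : ℤ[X]) {x : L} {a : ℤ} (h : A.valuation (x - (a : L)) < 1) :
    A.valuation (f.eval₂ (Int.castRingHom L) x - ((f.eval a : ℤ) : L)) < 1 := by
  have hx : x ∈ A := (A.valuation_le_one_iff x).mp (val_le_one_of_sub_int A h)
  obtain ⟨c, hc⟩ := Polynomial.sub_dvd_eval_sub (⟨x, hx⟩ : A) ((a : ℤ) : A)
    (f.map (Int.castRingHom A))
  have e1 : (((f.map (Int.castRingHom A)).eval (⟨x, hx⟩ : A) : A) : L)
      = f.eval₂ (Int.castRingHom L) x := by
    rw [eval_map]
    have := Polynomial.hom_eval₂ f (Int.castRingHom A) A.subtype (⟨x, hx⟩ : A)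
    rw [show A.subtype.comp (Int.castRingHom A) = Int.castRingHom L from RingHom.ext_int _ _]
      at this
    exact this
  have e2 : (((f.map (Int.castRingHom A)).eval ((a : ℤ) : A) : A) : L) = ((f.eval a : ℤ) : L) := by
    rw [eval_intCast_map]
    simp
  have e3 : f.eval₂ (Int.castRingHom L) x - ((f.eval a : ℤ) : L) = (x - (a : L)) * (c : L) := by
    rw [← e1, ← e2]
    have := congrArg (fun t : A => (t : L)) hc
    simpa using this
  rw [e3, map_mul]
  calc A.valuation (x - (a : L)) * A.valuation (c : L)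
      ≤ A.valuation (x - (a : L)) * 1 := mul_le_mul_right (A.valuation_le_one c) _
    _ = A.valuation (x - (a : L)) := mul_one _
    _ < 1 := h

/-- An element of `A` (over `ℓ`) with `x ^ ℓ ≡ x` is congruent to a rational integer. -/
theorem exists_int_near {ℓ : ℕ} (hℓ : ℓ.Prime) (hA : A.LiesOverPrime ℓ) {x : L} (hx : x ∈ A)
    (h : A.valuation (x ^ ℓ - x) < 1) : ∃ a : ℤ, A.valuation (x - (a : L)) < 1 := by
  have : Fact ℓ.Prime := ⟨hℓ⟩
  have := Fermat.Agent.ES.EC.LiftTorsion29.charP_residueField A hℓ hA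
  have h1 : (IsLocalRing.residue A ⟨x, hx⟩) ^ ℓ = IsLocalRing.residue A ⟨x, hx⟩ := by
    rw [← map_pow, ← sub_eq_zero, ← map_sub, IsLocalRing.residue_eq_zero_iff,
      ← ValuationSubring.coe_mem_nonunits_iff]
    exact (ValuationSubring.mem_nonunits_iff (A := A)).mpr h
  have h2 := (Subfield.mem_bot_iff_pow_eq_self (IsLocalRing.ResidueField A) ℓ).mpr h1
  obtain ⟨a, ha⟩ := (mem_bot_iff_intCast ℓ (IsLocalRing.ResidueField A)).mp h2
  refine ⟨a, ?_⟩
  have h3 : IsLocalRing.residue A ((⟨x, hx⟩ : A) - ((a : ℤ) : A)) = 0 := by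
    rw [map_sub, map_intCast, ha, sub_self]
  rw [IsLocalRing.residue_eq_zero_iff, ← ValuationSubring.coe_mem_nonunits_iff] at h3
  have h4 := (ValuationSubring.mem_nonunits_iff (A := A)).mp h3
  simpa using h4

end Val

/-! ### Reduction of a single torsion point -/

section Curve

variable {L : Type*} [Field L] [DecidableEq L] (A : ValuationSubring L)

open Fermat.Agent.S05.Inertia Fermat.Agent.DivPoly

/-- A point of odd order `m` (prime to `ℓ` is not needed here) of an integral model over a valued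
field, with coordinates congruent to the integers `a`, `b`: then `(ā, b̄)` is a point of the
reduction killed by `m`, and it is not a `2`-torsion point. -/
theorem reduce_point (W : WeierstrassCurve ℤ) {ℓ m : ℕ} [hℓ : Fact ℓ.Prime]
    (hA : A.LiesOverPrime ℓ) (hgood : ¬ (ℓ : ℤ) ∣ W.Δ) (hm : Odd m)
    {V : Affine L} (hV : V = (W.map (Int.castRingHom L)).toAffine)
    {x y : L} (h : V.Nonsingular x y) (hP : m • Point.some x y h = 0) {a b : ℤ}
    (hxa : A.valuation (x - (a : L)) < 1) (hyb : A.valuation (y - (b : L)) < 1) :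
    ∃ h' : (W.reductionMod ℓ).toAffine.Nonsingular (a : ZMod ℓ) (b : ZMod ℓ),
      m • Point.some _ _ h' = 0 ∧ A.valuation (2 * y + V.a₁ * x + V.a₃) = 1 := by
  subst hV
  have hvint : ∀ n : ℤ, A.valuation (n : L) ≤ 1 := fun n => valuation_intCast_le_one n
  have hvx : A.valuation x ≤ 1 := val_le_one_of_sub_int A hxa
  have hvy : A.valuation y ≤ 1 := val_le_one_of_sub_int A hyb
  have m1 : ∀ s t : L, A.valuation s ≤ 1 → A.valuation t ≤ 1 → A.valuation (s * t) ≤ 1 :=
    fun s t hs ht => by rw [map_mul]; exact mul_le_one' hs ht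
  have mlt : ∀ s t : L, A.valuation s < 1 → A.valuation t ≤ 1 → A.valuation (s * t) < 1 :=
    fun s t hs ht => by
      rw [map_mul]
      calc A.valuation s * A.valuation t ≤ A.valuation s * 1 := mul_le_mul_right ht _
        _ = A.valuation s := mul_one _
        _ < 1 := hs
  set Wt : Affine (ZMod ℓ) := (W.reductionMod ℓ).toAffine with hWt
  -- the equation modulo `ℓ`
  have heq := (Affine.equation_iff _ _).mp h.1
  simp only [WeierstrassCurve.map_a₁, WeierstrassCurve.map_a₂, WeierstrassCurve.map_a₃,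
    WeierstrassCurve.map_a₄, WeierstrassCurve.map_a₆, eq_intCast] at heq
  have heqdvd : (ℓ : ℤ) ∣ b ^ 2 + W.a₁ * a * b + W.a₃ * b
      - (a ^ 3 + W.a₂ * a ^ 2 + W.a₄ * a + W.a₆) := by
    rw [← valuation_intCast_lt_one_iff hℓ.out hA]
    have e : ((b ^ 2 + W.a₁ * a * b + W.a₃ * b
        - (a ^ 3 + W.a₂ * a ^ 2 + W.a₄ * a + W.a₆) : ℤ) : L)
        = (y - (b : L)) * (-(y + (b : L)) - (W.a₁ : L) * x - (W.a₃ : L))
          + (x - (a : L)) * (-(W.a₁ : L) * (b : L) + (x ^ 2 + x * (a : L) + (a : L) ^ 2)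
              + (W.a₂ : L) * (x + (a : L)) + (W.a₄ : L)) := by
      push_cast
      linear_combination heq
    rw [e]
    apply A.valuation.map_add_lt
    · apply mlt _ _ hyb
      refine A.valuation.map_sub_le (A.valuation.map_sub_le ?_ (m1 _ _ (hvint _) hvx)) (hvint _)
      rw [Valuation.map_neg]
      exact A.valuation.map_add_le hvy (hvint _)
    · apply mlt _ _ hxa
      refine A.valuation.map_add_le (A.valuation.map_add_le (A.valuation.map_add_le ?_ ?_) ?_)
        (hvint _)
      · rw [neg_mul, Valuation.map_neg]; exact m1 _ _ (hvint _) (hvint _)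
      · refine A.valuation.map_add_le (A.valuation.map_add_le ?_ ?_) ?_
        · rw [sq]; exact m1 _ _ hvx hvx
        · exact m1 _ _ hvx (hvint _)
        · rw [sq]; exact m1 _ _ (hvint _) (hvint _)
      · exact m1 _ _ (hvint _) (A.valuation.map_add_le hvx (hvint _))
  have heqt : Wt.Equation (a : ZMod ℓ) (b : ZMod ℓ) := by
    rw [Affine.equation_iff]
    simp only [hWt, WeierstrassCurve.reductionMod, WeierstrassCurve.map_a₁,
      WeierstrassCurve.map_a₂, WeierstrassCurve.map_a₃, WeierstrassCurve.map_a₄,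
      WeierstrassCurve.map_a₆, eq_intCast]
    have := (ZMod.intCast_zmod_eq_zero_iff_dvd _ ℓ).mpr heqdvd
    push_cast at this
    linear_combination this
  have hΔt : Wt.Δ ≠ 0 := by
    rw [hWt, WeierstrassCurve.reductionMod, WeierstrassCurve.map_Δ, eq_intCast]
    intro h0
    exact hgood ((ZMod.intCast_zmod_eq_zero_iff_dvd _ ℓ).mp h0)
  have hns : Wt.Nonsingular (a : ZMod ℓ) (b : ZMod ℓ) :=
    (Wt.equation_iff_nonsingular_of_Δ_ne_zero hΔt).mp heqt
  -- the division polynomial
  have hψ : ((W.map (Int.castRingHom L)).toAffine.preΨ' m).eval x = 0 :=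
    (A1Final.nsmul_eq_zero_iff_preΨ' h hm).mp hP
  have hψdvd : (ℓ : ℤ) ∣ (W.preΨ' m).eval a := by
    rw [← valuation_intCast_lt_one_iff hℓ.out hA]
    have h1 := val_eval_sub_lt_one A (W.preΨ' m) hxa
    have h2 : (W.preΨ' m).eval₂ (Int.castRingHom L) x = 0 := by
      rw [eval₂_eq_eval_map, ← WeierstrassCurve.map_preΨ']
      exact hψ
    rw [h2, zero_sub, Valuation.map_neg] at h1
    exact h1
  have hψt : (Wt.preΨ' m).eval (a : ZMod ℓ) = 0 := by
    have e : Wt.preΨ' m = (W.preΨ' m).map (Int.castRingHom (ZMod ℓ)) := by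
      rw [hWt]; exact WeierstrassCurve.map_preΨ' W (Int.castRingHom (ZMod ℓ)) m
    rw [e, eval_intCast_map, eq_intCast]
    exact (ZMod.intCast_zmod_eq_zero_iff_dvd _ ℓ).mpr hψdvd
  have hmt : m • (Point.some _ _ hns : Wt.Point) = 0 :=
    (A1Final.nsmul_eq_zero_iff_preΨ' hns hm).mpr hψt
  refine ⟨hns, hmt, ?_⟩
  -- not a `2`-torsion point
  simp only [WeierstrassCurve.map_a₁, WeierstrassCurve.map_a₃, eq_intCast]
  have hle : A.valuation (2 * y + (W.a₁ : L) * x + (W.a₃ : L)) ≤ 1 := by
    refine A.valuation.map_add_le (A.valuation.map_add_le ?_ (m1 _ _ (hvint _) hvx)) (hvint _)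
    have h2 : A.valuation (2 : L) ≤ 1 := by
      have := hvint 2
      rwa [Int.cast_ofNat] at this
    exact m1 _ _ h2 hvy
  apply le_antisymm hle
  by_contra hlt
  push Not at hlt
  have hd : (ℓ : ℤ) ∣ 2 * b + W.a₁ * a + W.a₃ := by
    rw [← valuation_intCast_lt_one_iff hℓ.out hA]
    have e : ((2 * b + W.a₁ * a + W.a₃ : ℤ) : L)
        = (2 * y + (W.a₁ : L) * x + (W.a₃ : L)) - (2 * (y - (b : L)) + (W.a₁ : L) * (x - (a : L))) := by
      push_cast; ring
    rw [e]
    apply A.valuation.map_sub_lt hlt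
    apply A.valuation.map_add_lt
    · rw [mul_comm]
      apply mlt _ _ hyb
      have := hvint 2
      rwa [Int.cast_ofNat] at this
    · rw [mul_comm]
      exact mlt _ _ hxa (hvint _)
  have hd' := (ZMod.intCast_zmod_eq_zero_iff_dvd _ ℓ).mpr hd
  push_cast at hd'
  have hneg : (b : ZMod ℓ) = Wt.negY a b := by
    simp only [Affine.negY, hWt, WeierstrassCurve.reductionMod, WeierstrassCurve.map_a₁,
      WeierstrassCurve.map_a₃, eq_intCast]
    linear_combination hd'
  have h2 : (2 : ℕ) • (Point.some _ _ hns : Wt.Point) = 0 := by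
    rw [two_nsmul]
    exact Point.add_of_Y_eq rfl hneg
  obtain ⟨k, hk⟩ := hm
  have h0 : (Point.some _ _ hns : Wt.Point) = 0 := by
    have e1 : m • (Point.some _ _ hns : Wt.Point)
        = k • ((2 : ℕ) • (Point.some _ _ hns : Wt.Point)) + Point.some _ _ hns := by
      rw [hk, add_smul, mul_comm, mul_smul, one_smul]
    rw [hmt, h2, nsmul_zero, zero_add] at e1
    exact e1.symm
  exact Point.some_ne_zero hns h0

end Curve

/-! ### The weak link -/

section Main

local notation "Qb" => AlgebraicClosure ℚ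
local notation "GQ" => (AlgebraicClosure ℚ ≃ₐ[ℚ] AlgebraicClosure ℚ)

open Fermat.Agent.S05.Inertia Fermat.Agent.S05.Kernel Fermat.Agent.ES.EC.CongE1_20
open Fermat.Agent.ES.EC

/-- **The weak link.**  A Frobenius element at a good prime `ℓ` fixing at least `λⁿ` points killed
by `λⁿ` (`λ ≠ ℓ` an odd prime) forces `λⁿ ∣ #W̃(𝔽_ℓ) = ℓ + 1 - a_ℓ(W)`. -/
theorem weakLink (W : WeierstrassCurve ℤ) {ℓ lam n : ℕ} (hℓ : ℓ.Prime) (hlam : lam.Prime)
    (hlam2 : lam ≠ 2) (hne : ℓ ≠ lam) (hgood : W.IsGoodPrimeFor ℓ)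
    {A : ValuationSubring Qb} (hA : A.LiesOverPrime ℓ) {φ : GQ} (hφ : A.IsFrobeniusAt φ ℓ)
    (S : Finset ((W.map (Int.castRingHom ℚ))⁄Qb).Point)
    (hS : ∀ P ∈ S, lam ^ n • P = 0 ∧
      Point.map (W' := W.map (Int.castRingHom ℚ)) φ.toAlgHom P = P)
    (hcard : lam ^ n ≤ S.card) :
    (lam : ℤ) ^ n ∣ (ℓ : ℤ) + 1 - W.apOfModel ℓ := by
  classical
  have : Fact ℓ.Prime := ⟨hℓ⟩
  have hmodd : Odd (lam ^ n) := (hlam.odd_of_ne_two hlam2).pow
  have hℓm : ¬ ℓ ∣ lam ^ n := fun hd =>
    hne ((Nat.prime_dvd_prime_iff_eq hℓ hlam).mp (hℓ.dvd_of_dvd_pow hd))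
  have hvm : A.valuation ((lam ^ n : ℕ) : Qb) = 1 := valuation_natCast_eq_one hℓ hA hℓm
  have hV : ((W.map (Int.castRingHom ℚ))⁄Qb) = (W.map (Int.castRingHom Qb)).toAffine :=
    TorsionLift20.baseChange_eq_map W
  have hint : IntegralCoeffs A.valuation ((W.map (Int.castRingHom ℚ))⁄Qb) := by
    rw [hV]
    refine ⟨?_, ?_, ?_, ?_, ?_⟩
    · rw [WeierstrassCurve.map_a₁, eq_intCast]; exact valuation_intCast_le_one _
    · rw [WeierstrassCurve.map_a₂, eq_intCast]; exact valuation_intCast_le_one _
    · rw [WeierstrassCurve.map_a₃, eq_intCast]; exact valuation_intCast_le_one _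
    · rw [WeierstrassCurve.map_a₄, eq_intCast]; exact valuation_intCast_le_one _
    · rw [WeierstrassCurve.map_a₆, eq_intCast]; exact valuation_intCast_le_one _
  have hfin : Finite (W.reductionMod ℓ).toAffine.Point := TorsionLift20.finite_point _
  -- the reduction of one point
  have key : ∀ P ∈ S, ∃ R : (W.reductionMod ℓ).toAffine.Point, lam ^ n • R = 0 ∧
      ((P = 0 ∧ R = 0) ∨
        ∃ (x y : Qb) (h : ((W.map (Int.castRingHom ℚ))⁄Qb).Nonsingular x y) (a b : ℤ)
          (h' : (W.reductionMod ℓ).toAffine.Nonsingular (a : ZMod ℓ) (b : ZMod ℓ)),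
          P = Point.some x y h ∧ R = Point.some _ _ h' ∧
          A.valuation (x - (a : Qb)) < 1 ∧ A.valuation (y - (b : Qb)) < 1 ∧
          A.valuation (2 * y + ((W.map (Int.castRingHom ℚ))⁄Qb).a₁ * x
            + ((W.map (Int.castRingHom ℚ))⁄Qb).a₃) = 1) := by
    intro P hP
    obtain ⟨hP0, hPφ⟩ := hS P hP
    rcases P with _ | ⟨x, y, h⟩
    · exact ⟨0, nsmul_zero _, Or.inl ⟨rfl, rfl⟩⟩
    · have hvx : A.valuation x ≤ 1 := x_integral_of_nsmul_eq_zero hint h hvm hP0
      have hvy : A.valuation y ≤ 1 := by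
        by_contra hy
        exact absurd (vx_of_vy hint h.1 (not_le.mp hy)) (not_lt.mpr hvx)
      -- the coordinates are fixed by `φ`
      have hmap : Point.map (W' := W.map (Int.castRingHom ℚ)) φ.toAlgHom (Point.some x y h)
          = Point.some (φ.toAlgHom x) (φ.toAlgHom y)
            ((WeierstrassCurve.Affine.baseChange_nonsingular (W.map (Int.castRingHom ℚ))
              (f := φ.toAlgHom) φ.toAlgHom.injective x y).mpr h) := rfl
      rw [hmap, Point.some.injEq] at hPφ
      obtain ⟨hφx, hφy⟩ := hPφ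
      have near : ∀ t : Qb, A.valuation t ≤ 1 → φ t = t →
          ∃ a : ℤ, A.valuation (t - (a : Qb)) < 1 := by
        intro t ht hφt
        have htA : t ∈ A := (A.valuation_le_one_iff t).mp ht
        have h1 := Fermat.Agent.ES.GAL.ChebQbar23.sub_pow_mem_nonunits hφ htA
        rw [hφt] at h1
        have h2 : A.valuation (t ^ ℓ - t) < 1 := by
          rw [← Valuation.map_neg, neg_sub]
          exact (ValuationSubring.mem_nonunits_iff (A := A)).mp h1
        exact exists_int_near A hℓ hA htA h2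
      obtain ⟨a, ha⟩ := near x hvx hφx
      obtain ⟨b, hb⟩ := near y hvy hφy
      obtain ⟨h', hR, hu⟩ := reduce_point A W hA hgood hmodd hV h hP0 ha hb
      exact ⟨Point.some _ _ h', hR, Or.inr ⟨x, y, h, a, b, h', rfl, rfl, ha, hb, hu⟩⟩
  choose! red hred using key
  -- reduction is injective on `S`
  have hinj : Set.InjOn red S := by
    intro P hP P' hP' hPP'
    obtain ⟨-, hc⟩ := hred P hP
    obtain ⟨-, hc'⟩ := hred P' hP'
    rcases hc with ⟨hP0, hR0⟩ | ⟨x, y, h, a, b, h', hPe, hRe, hxa, hyb, -⟩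
    · rcases hc' with ⟨hP0', -⟩ | ⟨x', y', h₂, a', b', h'', -, hRe', -, -, -⟩
      · rw [hP0, hP0']
      · rw [hPP', hRe'] at hR0
        exact absurd hR0 (Point.some_ne_zero _)
    · rcases hc' with ⟨-, hR0'⟩ | ⟨x', y', h₂, a', b', h'', hPe', hRe', hxa', hyb', hu'⟩
      · rw [← hPP', hRe] at hR0'
        exact absurd hR0' (Point.some_ne_zero _)
      · rw [hRe, hRe', Point.some.injEq] at hPP'
        obtain ⟨hab, hbb⟩ := hPP'
        have hcong : ∀ c c' : ℤ, (c : ZMod ℓ) = (c' : ZMod ℓ) →
            A.valuation (((c - c' : ℤ)) : Qb) < 1 := by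
          intro c c' hcc
          rw [valuation_intCast_lt_one_iff hℓ hA, ← ZMod.intCast_zmod_eq_zero_iff_dvd]
          push_cast
          rw [hcc, sub_self]
        have hx : A.valuation (x - x') < 1 := by
          have e : x - x' = (x - (a : Qb)) + ((a - a' : ℤ) : Qb) - (x' - (a' : Qb)) := by
            push_cast; ring
          rw [e]
          exact A.valuation.map_sub_lt (A.valuation.map_add_lt hxa (hcong a a' hab)) hxa'
        have hy : A.valuation (y - y') < 1 := by
          have e : y - y' = (y - (b : Qb)) + ((b - b' : ℤ) : Qb) - (y' - (b' : Qb)) := by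
            push_cast; ring
          rw [e]
          exact A.valuation.map_sub_lt (A.valuation.map_add_lt hyb (hcong b b' hbb)) hyb'
        have hP0 := (hS P hP).1
        have hP0' := (hS P' hP').1
        rw [hPe] at hP0 ⊢
        rw [hPe'] at hP0' ⊢
        exact eq_of_congruent_of_nsmul_eq_zero hint h h₂ hx hy hu' hvm hP0 hP0'
  -- counting
  have hT : ∀ g ∈ S.image red, lam ^ n • g = 0 := by
    intro g hg
    obtain ⟨P, hP, rfl⟩ := Finset.mem_image.mp hg
    exact (hred P hP).1
  have hcardT : lam ^ n ≤ (S.image red).card := by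
    rw [Finset.card_image_of_injOn hinj]; exact hcard
  have hdvd := pow_dvd_card_of_torsion hlam (S.image red) hT hcardT
  rw [ECMain8.succ_sub_apOfModel]
  exact_mod_cast hdvd

end Main

end Fermat.Agent.ES.Q58.WeakLink25
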