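/-
Programme Q (S58), brick C3 assembly (helper25): the field `inertia` of `ECIface12.ECFacts`, from

* (a) the weak link at a good prime (`WeakLink25.weakLink`),
* (b) inertia at a good prime `q` fixes the odd prime-to-`q` torsion (`GoodInertiaFix`, supplied by
  `InertiaGood11.inertia_fix_of_good`),
* (c) at a multiplicative prime `q` there are at least `λⁿ` points killed by `λⁿ` and fixed by the
  whole inertia group of a place over `q` (`NodalLift`, supplied by `NodalLiftFinal21.nodalLift`),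
* the coordinate field of the `λⁿ`-torsion (`CoordField13.coordField`) and the count
  `#W[m] = m²` (`CardEq29`).

(b) and (c) enter as hypotheses here; the file `InertiaFinal25` plugs them in.
-/
import Mathlib
import Fermat.Prelude.Def_FLTPrelim_Modularity
import Fermat.Prelude.Def_FLTPrelim_Ramification
import Fermat.Prelude.Def_FLTPrelim_GaloisRep
import Fermat.Prelude.Def_EllipticCurve_FrobeniusTrace
import Fermat.Agent.ES.Q58.ECIface12
import Fermat.Agent.ES.Q58.CoordField13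
import Fermat.Agent.ES.Q58.WeakLink25

set_option autoImplicit false

open WeierstrassCurve WeierstrassCurve.Affine WeierstrassCurve.Affine.Point

namespace Fermat.Agent.ES.Q58.InertiaCong25

local notation "Qb" => AlgebraicClosure ℚ
local notation "GQ" => (AlgebraicClosure ℚ ≃ₐ[ℚ] AlgebraicClosure ℚ)

/-- Input (b): inertia at a good prime `q` acts trivially on the odd prime-to-`q` torsion. -/
def GoodInertiaFix (W : WeierstrassCurve ℤ) : Prop :=
  ∀ (q m : ℕ), q.Prime → Odd m → ¬ q ∣ m → W.IsGoodPrimeFor q →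
    ∀ (P : ValuationSubring Qb), P.LiesOverPrime q → ∀ τ ∈ P.inertiaSubgroupIn ℚ,
    ∀ Q : ((W.map (Int.castRingHom ℚ))⁄Qb).Point, m • Q = 0 →
      Point.map (W' := W.map (Int.castRingHom ℚ)) τ.toAlgHom Q = Q

/-- Input (c): at a multiplicative prime `q` there are `λⁿ` points killed by `λⁿ` which are fixed
by the inertia group of a given place over `q`. -/
def NodalLift (W : WeierstrassCurve ℤ) : Prop :=
  ∀ (q lam n : ℕ), q.Prime → lam.Prime → lam ≠ 2 → q ≠ lam → W.Δ ≠ 0 → (q : ℤ) ∣ W.Δ →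
    ¬ (q : ℤ) ∣ W.c₄ → ∀ (P : ValuationSubring Qb), P.LiesOverPrime q →
    ∃ S : Finset ((W.map (Int.castRingHom ℚ))⁄Qb).Point, lam ^ n ≤ S.card ∧
      ∀ Q ∈ S, lam ^ n • Q = 0 ∧ ∀ τ ∈ P.inertiaSubgroupIn ℚ,
        Point.map (W' := W.map (Int.castRingHom ℚ)) τ.toAlgHom Q = Q

/-- The `m`-torsion (`m` odd, `Δ ≠ 0`) as a finite set with `m² ≥ m` elements. -/
theorem exists_torsion_finset (W : WeierstrassCurve ℤ) (hΔ0 : W.Δ ≠ 0) {m : ℕ} (hm : Odd m) :
    ∃ S : Finset ((W.map (Int.castRingHom ℚ))⁄Qb).Point, m ≤ S.card ∧ ∀ Q ∈ S, m • Q = 0 := by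
  classical
  have hΔQ : (W.map (Int.castRingHom ℚ)).Δ ≠ 0 := by
    rw [WeierstrassCurve.map_Δ, eq_intCast]
    exact Int.cast_ne_zero.mpr hΔ0
  have hfin := CoordField13.finite_torsionBy_odd (E := W.map (Int.castRingHom ℚ)) hm
  have hcard := CoordField13.card_torsionBy_odd (E := W.map (Int.castRingHom ℚ)) hΔQ hm
  have : Fintype (Submodule.torsionBy ℤ ((W.map (Int.castRingHom ℚ))⁄Qb).Point ((m : ℕ) : ℤ)) :=
    Fintype.ofFinite _
  refine ⟨(Finset.univ : Finset (Submodule.torsionBy ℤ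
      ((W.map (Int.castRingHom ℚ))⁄Qb).Point ((m : ℕ) : ℤ))).map
      ⟨Subtype.val, Subtype.val_injective⟩, ?_, ?_⟩
  · rw [Finset.card_map, Finset.card_univ, ← Nat.card_eq_fintype_card, hcard]
    nlinarith [hm.pos]
  · intro Q hQ
    obtain ⟨t, -, rfl⟩ := Finset.mem_map.mp hQ
    have := t.2
    rw [Submodule.mem_torsionBy_iff, natCast_zsmul] at this
    exact this

/-- **(E-ii)** for one pair `(q, λ)`, `λ` an odd prime different from `q`. -/
theorem inertiaCong_of (W : WeierstrassCurve ℤ) (hss : W.IsSemistableModel)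
    (hG : GoodInertiaFix W) (hN : NodalLift W) {q lam : ℕ} (hq : q.Prime) (hlam : lam.Prime)
    (hlam2 : lam ≠ 2) (hql : q ≠ lam) : ECIface12.InertiaCong W lam q := by
  refine ⟨{lam}, fun n => ?_⟩
  have hodd : Odd (lam ^ n) := (hlam.odd_of_ne_two hlam2).pow
  obtain ⟨K, hKfd, hK⟩ := CoordField13.coordField (W.map (Int.castRingHom ℚ)) hodd
  refine ⟨K, hKfd, ?_⟩
  intro P hP τ hτ ℓ A φ hℓ hℓT hgood hA hφ i hi
  have hℓlam : ℓ ≠ lam := by simpa using hℓT
  have hΔ0 : W.Δ ≠ 0 := by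
    intro h0
    exact hgood (by rw [h0]; exact dvd_zero _)
  -- at least `λⁿ` points killed by `λⁿ` and fixed by `τ`
  obtain ⟨S, hScard, hS⟩ : ∃ S : Finset ((W.map (Int.castRingHom ℚ))⁄Qb).Point,
      lam ^ n ≤ S.card ∧ ∀ Q ∈ S, lam ^ n • Q = 0 ∧ τ • Q = Q := by
    by_cases hqΔ : (q : ℤ) ∣ W.Δ
    · obtain ⟨S, h1, h2⟩ := hN q lam n hq hlam hlam2 hql hΔ0 hqΔ (hss q hq hqΔ) P hP
      exact ⟨S, h1, fun Q hQ => ⟨(h2 Q hQ).1, (h2 Q hQ).2 τ hτ⟩⟩
    · obtain ⟨S, h1, h2⟩ := exists_torsion_finset W hΔ0 hodd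
      have hqm : ¬ q ∣ lam ^ n := fun hd =>
        hql ((Nat.prime_dvd_prime_iff_eq hq hlam).mp (hq.dvd_of_dvd_pow hd))
      exact ⟨S, h1, fun Q hQ =>
        ⟨h2 Q hQ, hG q (lam ^ n) hq hodd hqm hqΔ P hP τ hτ Q (h2 Q hQ)⟩⟩
  -- `φ` acts on these points like `τ ^ i`, hence fixes them
  refine WeakLink25.weakLink W hℓ hlam hlam2 hℓlam hgood hA hφ S ?_ hScard
  intro Q hQ
  obtain ⟨h0, hfix⟩ := hS Q hQ
  refine ⟨h0, ?_⟩
  have h1 : (τ ^ i) • Q = Q :=
    MulAction.mem_stabilizer_iff.mp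
      (Subgroup.pow_mem _ (MulAction.mem_stabilizer_iff.mpr hfix) i)
  rw [hK Q h0 φ (τ ^ i) hi]
  exact h1

/-- **The field `inertia` of `ECFacts`**, from the inputs (b) and (c). -/
theorem inertia_of (W : WeierstrassCurve ℤ) (hss : W.IsSemistableModel)
    (hG : GoodInertiaFix W) (hN : NodalLift W) :
    ∀ q : ℕ, q.Prime → ∃ T : Finset ℕ, ∀ lam : ℕ, lam.Prime → lam ∉ T →
      ECIface12.InertiaCong W lam q := by
  intro q hq
  refine ⟨{2, q}, fun lam hlam hlamT => ?_⟩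
  have h2 : lam ≠ 2 := fun h => hlamT (by simp [h])
  have hq' : q ≠ lam := fun h => hlamT (by simp [h])
  exact inertiaCong_of W hss hG hN hq hlam h2 hq'

end Fermat.Agent.ES.Q58.InertiaCong25
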