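/-
Programme Q (S58), Part III, brick (M1) (helper15): the special fibre at a multiplicative prime has
many `λⁿ`-torsion points.

`W₀` a Weierstrass curve over `ZMod q` with `Δ = 0`, `c₄ ≠ 0` (a nodal cubic), `κ` an algebraically
closed field of characteristic `q`.  Then for every prime `λ ≠ q` and every `n` there are at least
`λⁿ` points of `(W₀⁄κ).Point` (Mathlib's group of nonsingular points) killed by `λⁿ`.

Method: explicit node (Connell's characteristic-free formulas), translation to the origin,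
parametrisation by the lines through the node, point count `q^N - 1` over the fixed field of
`Frob^N` (`N` even), Sylow.
-/
import Mathlib
import Fermat.Prelude.Def_FLTPrelim_Modularity

set_option autoImplicit false

open WeierstrassCurve WeierstrassCurve.Affine

namespace Fermat.Agent.ES.Q58.NodeCount15

/-! ### 1. Ring identities for the node -/

section Ident

variable {R : Type*} [CommRing R] (W : WeierstrassCurve R)

/-- numerator of the `x`-coordinate of the node: `c₄ x₀ = 18 b₆ - b₂ b₄`. -/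
def nodeX : R := 18 * W.b₆ - W.b₂ * W.b₄

/-- numerator of the `y`-coordinate of the node: `c₄ y₀ = b₂ b₅ + 3 b₇`. -/
def nodeY : R :=
  W.b₂ * (W.a₁ * W.a₄ - 2 * W.a₂ * W.a₃) + 3 * (W.a₁ * (W.a₃ ^ 2 - 12 * W.a₆) + 8 * W.a₃ * W.a₄)

theorem fy_ident : 2 * nodeY W + W.a₁ * nodeX W + W.a₃ * W.c₄ = 0 := by
  simp only [nodeX, nodeY, c₄, b₂, b₄, b₆]
  ring

theorem fx_ident :
    W.a₁ * W.c₄ * nodeY W - 3 * nodeX W ^ 2 - 2 * W.a₂ * W.c₄ * nodeX W - W.a₄ * W.c₄ ^ 2
      = 36 * W.Δ := by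
  simp only [nodeX, nodeY, c₄, Δ, b₂, b₄, b₆, b₈]
  ring

theorem f_ident :
    W.c₄ * nodeY W ^ 2 + W.a₁ * W.c₄ * nodeX W * nodeY W + W.a₃ * W.c₄ ^ 2 * nodeY W
        - nodeX W ^ 3 - W.a₂ * W.c₄ * nodeX W ^ 2 - W.a₄ * W.c₄ ^ 2 * nodeX W - W.a₆ * W.c₄ ^ 3
      = -W.c₆ * W.Δ := by
  simp only [nodeX, nodeY, c₄, c₆, Δ, b₂, b₄, b₆, b₈]
  ring

theorem b2_ident : W.c₄ * W.b₂ + 12 * nodeX W = -W.c₆ := by
  simp only [nodeX, c₄, c₆]
  ring

end Ident

/-! ### 2. The node of a Weierstrass cubic with `Δ = 0`, `c₄ ≠ 0` over a field -/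

section Node

variable {F : Type*} [Field F] (W : WeierstrassCurve F)

/-- `x`-coordinate of the node. -/
noncomputable def x₀ : F := nodeX W / W.c₄

/-- `y`-coordinate of the node. -/
noncomputable def y₀ : F := nodeY W / W.c₄

/-- the coefficient `a₂` after translating the node to the origin. -/
noncomputable def a₂' : F := W.a₂ + 3 * x₀ W

variable {W}

theorem node_fy (hc : W.c₄ ≠ 0) : 2 * y₀ W + W.a₁ * x₀ W + W.a₃ = 0 := by
  unfold x₀ y₀
  field_simp
  linear_combination fy_ident W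

theorem node_fx (hΔ : W.Δ = 0) (hc : W.c₄ ≠ 0) :
    W.a₁ * y₀ W - 3 * x₀ W ^ 2 - 2 * W.a₂ * x₀ W - W.a₄ = 0 := by
  unfold x₀ y₀
  field_simp
  linear_combination fx_ident W + 36 * hΔ

theorem node_f (hΔ : W.Δ = 0) (hc : W.c₄ ≠ 0) :
    y₀ W ^ 2 + W.a₁ * x₀ W * y₀ W + W.a₃ * y₀ W - x₀ W ^ 3 - W.a₂ * x₀ W ^ 2 - W.a₄ * x₀ W
      - W.a₆ = 0 := by
  unfold x₀ y₀
  field_simp
  linear_combination f_ident W - W.c₆ * hΔ

/-- The Weierstrass equation in coordinates centred at the node. -/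
theorem equation_iff_node (hΔ : W.Δ = 0) (hc : W.c₄ ≠ 0) (ξ η : F) :
    W.toAffine.Equation (x₀ W + ξ) (y₀ W + η) ↔
      η ^ 2 + W.a₁ * ξ * η = a₂' W * ξ ^ 2 + ξ ^ 3 := by
  rw [Affine.equation_iff]
  have h1 := node_fy hc
  have h2 := node_fx hΔ hc
  have h3 := node_f hΔ hc
  unfold a₂'
  constructor
  · intro h
    linear_combination h - h3 - ξ * h2 - η * h1
  · intro h
    linear_combination h + h3 + ξ * h2 + η * h1

/-- The node is the only singular point. -/
theorem nonsingular_iff_node (hΔ : W.Δ = 0) (hc : W.c₄ ≠ 0) (ξ η : F) :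
    W.toAffine.Nonsingular (x₀ W + ξ) (y₀ W + η) ↔
      (η ^ 2 + W.a₁ * ξ * η = a₂' W * ξ ^ 2 + ξ ^ 3) ∧ ξ ≠ 0 := by
  rw [Affine.nonsingular_iff, equation_iff_node hΔ hc]
  have h1 := node_fy hc
  have h2 := node_fx hΔ hc
  constructor
  · rintro ⟨he, hns⟩
    refine ⟨he, ?_⟩
    rintro rfl
    have hη : η = 0 := by
      have : η ^ 2 = 0 := by linear_combination he
      exact pow_eq_zero_iff (two_ne_zero) |>.mp this
    subst hη
    rcases hns with h | h
    · apply h
      linear_combination h2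
    · apply h
      linear_combination h1
  · rintro ⟨he, hξ⟩
    refine ⟨he, ?_⟩
    by_contra hcon
    push Not at hcon
    obtain ⟨hx, hy⟩ := hcon
    -- `F_ξ = a₁ η - 2 a₂' ξ - 3 ξ²`, `F_η = 2 η + a₁ ξ`
    have e1 : W.a₁ * η - 2 * a₂' W * ξ - 3 * ξ ^ 2 = 0 := by
      unfold a₂'
      linear_combination hx - h2
    have e2 : 2 * η + W.a₁ * ξ = 0 := by
      linear_combination hy - h1
    have : ξ ^ 3 = 0 := by
      linear_combination -(ξ * e1) - η * e2 + 2 * he
    exact hξ (pow_eq_zero_iff (by norm_num) |>.mp this)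

end Node

/-! ### 3. Parametrisation by the lines through the node -/

section Param

variable {F : Type*} [Field F] {W : WeierstrassCurve F}

theorem c4_mul_b2' (hc : W.c₄ ≠ 0) : W.c₄ * (W.a₁ ^ 2 + 4 * a₂' W) = -W.c₆ := by
  have hb : W.b₂ = W.a₁ ^ 2 + 4 * W.a₂ := rfl
  unfold a₂' x₀
  field_simp
  linear_combination b2_ident W - W.c₄ * hb

/-- The discriminant `b₂' = a₁² + 4a₂'` of the tangent cone is nonzero. -/
theorem b2'_ne_zero (hΔ : W.Δ = 0) (hc : W.c₄ ≠ 0) : W.a₁ ^ 2 + 4 * a₂' W ≠ 0 := by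
  intro h0
  have h1 := c4_mul_b2' hc
  rw [h0, mul_zero] at h1
  have h6 : W.c₆ = 0 := by linear_combination h1
  have := W.c_relation
  rw [hΔ, h6] at this
  have : W.c₄ ^ 3 = 0 := by linear_combination -this
  exact hc (pow_eq_zero_iff (by norm_num) |>.mp this)

variable {α β : F}

theorem alpha_ne_beta (hΔ : W.Δ = 0) (hc : W.c₄ ≠ 0) (hsum : α + β = -W.a₁)
    (hprod : α * β = -a₂' W) : α ≠ β := by
  intro h
  apply b2'_ne_zero hΔ hc
  subst h
  linear_combination (-2 * α + W.a₁) * hsum + 4 * hprod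

/-- `ξ(t) = (t - α)(t - β)`. -/
def xi (α β t : F) : F := (t - α) * (t - β)

theorem xi_ne_zero_iff {t : F} : xi α β t ≠ 0 ↔ t ≠ α ∧ t ≠ β := by
  unfold xi
  rw [mul_ne_zero_iff, sub_ne_zero, sub_ne_zero]

theorem param_equation (hsum : α + β = -W.a₁) (hprod : α * β = -a₂' W) (t : F) :
    (t * xi α β t) ^ 2 + W.a₁ * xi α β t * (t * xi α β t)
      = a₂' W * xi α β t ^ 2 + xi α β t ^ 3 := by
  have e : xi α β t = t ^ 2 + W.a₁ * t - a₂' W := by
    unfold xi
    linear_combination (-t) * hsum + hprod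
  have : (t * xi α β t) ^ 2 + W.a₁ * xi α β t * (t * xi α β t) - a₂' W * xi α β t ^ 2
      = xi α β t ^ 2 * (t ^ 2 + W.a₁ * t - a₂' W) := by ring
  rw [← e] at this
  linear_combination this

theorem param_nonsingular (hΔ : W.Δ = 0) (hc : W.c₄ ≠ 0) (hsum : α + β = -W.a₁)
    (hprod : α * β = -a₂' W) {t : F} (ht : t ≠ α ∧ t ≠ β) :
    W.toAffine.Nonsingular (x₀ W + xi α β t) (y₀ W + t * xi α β t) :=
  (nonsingular_iff_node hΔ hc _ _).mpr ⟨param_equation hsum hprod t, xi_ne_zero_iff.mpr ht⟩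

/-- Every nonsingular affine point is on a unique non-tangent line through the node. -/
theorem exists_param (hΔ : W.Δ = 0) (hc : W.c₄ ≠ 0) (hsum : α + β = -W.a₁)
    (hprod : α * β = -a₂' W) {x y : F} (h : W.toAffine.Nonsingular x y) :
    x - x₀ W ≠ 0 ∧ x = x₀ W + xi α β ((y - y₀ W) / (x - x₀ W)) ∧
      y = y₀ W + (y - y₀ W) / (x - x₀ W) * xi α β ((y - y₀ W) / (x - x₀ W)) := by
  have hx : x = x₀ W + (x - x₀ W) := by ring
  have hy : y = y₀ W + (y - y₀ W) := by ring
  rw [hx, hy, nonsingular_iff_node hΔ hc] at h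
  obtain ⟨he, hξ⟩ := h
  set ξ := x - x₀ W with hξdef
  set η := y - y₀ W with hηdef
  have key : xi α β (η / ξ) = ξ := by
    have e : xi α β (η / ξ) = (η / ξ) ^ 2 + W.a₁ * (η / ξ) - a₂' W := by
      unfold xi
      linear_combination (-(η / ξ)) * hsum + hprod
    rw [e]
    field_simp
    linear_combination he
  refine ⟨hξ, ?_, ?_⟩
  · rw [key]
    exact hx
  · rw [key, div_mul_cancel₀ _ hξ]
    exact hy

theorem param_slope {t : F} (ht : xi α β t ≠ 0) :
    (t * xi α β t) / xi α β t = t := by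
  field_simp

end Param

/-! ### 4. Base change of the node -/

section MapNode

variable {F K : Type*} [Field F] [Field K] (W : WeierstrassCurve F) (f : F →+* K)

theorem x₀_map : x₀ (W.map f) = f (x₀ W) := by
  simp only [x₀, nodeX, map_b₂, map_b₄, map_b₆, map_c₄, map_div₀, map_sub, map_mul, map_ofNat]

theorem y₀_map : y₀ (W.map f) = f (y₀ W) := by
  simp only [y₀, nodeY, map_b₂, map_c₄, map_a₁, map_a₂, map_a₃, map_a₄, map_a₆, map_div₀, map_sub,
    map_add, map_mul, map_pow, map_ofNat]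

theorem a₂'_map : a₂' (W.map f) = f (a₂' W) := by
  simp only [a₂', x₀_map, map_a₂, map_add, map_mul, map_ofNat]

end MapNode

/-! ### 5. Counting the points with coordinates in a subfield -/

section SubfieldCount

variable {F : Type*} [Field F] {W : WeierstrassCurve F} {α β : F}

/-- The map `Option {t ∈ S, t ≠ α, β} → G`. -/
noncomputable def paramFun (hΔ : W.Δ = 0) (hc : W.c₄ ≠ 0) (hsum : α + β = -W.a₁)
    (hprod : α * β = -a₂' W) (S : Subfield F) :
    Option {t : F // t ∈ S ∧ t ≠ α ∧ t ≠ β} → W.toAffine.Point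
  | none => 0
  | some t => Point.some _ _ (param_nonsingular hΔ hc hsum hprod t.2.2)

theorem paramFun_injective (hΔ : W.Δ = 0) (hc : W.c₄ ≠ 0) (hsum : α + β = -W.a₁)
    (hprod : α * β = -a₂' W) (S : Subfield F) :
    Function.Injective (paramFun hΔ hc hsum hprod S) := by
  rintro (_ | ⟨t, ht⟩) (_ | ⟨t', ht'⟩) h
  · rfl
  · exact absurd h (by simp [paramFun, Point.zero_def])
  · exact absurd h (by simp [paramFun, Point.zero_def])
  · simp only [paramFun, Point.some.injEq, add_right_inj] at h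
    obtain ⟨h1, h2⟩ := h
    have hne : xi α β t ≠ 0 := xi_ne_zero_iff.mpr ht.2
    have : t = t' := by
      rw [← h1] at h2
      exact mul_right_cancel₀ hne h2
    subst this
    rfl

theorem range_paramFun (hΔ : W.Δ = 0) (hc : W.c₄ ≠ 0) (hsum : α + β = -W.a₁)
    (hprod : α * β = -a₂' W) (S : Subfield F) (hx₀ : x₀ W ∈ S) (hy₀ : y₀ W ∈ S) (hα : α ∈ S)
    (hβ : β ∈ S) (P : W.toAffine.Point) :
    P ∈ Set.range (paramFun hΔ hc hsum hprod S) ↔
      P = 0 ∨ ∃ x y h, P = Point.some x y h ∧ x ∈ S ∧ y ∈ S := by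
  constructor
  · rintro ⟨(_ | ⟨t, ht⟩), rfl⟩
    · exact Or.inl rfl
    · refine Or.inr ⟨_, _, _, rfl, ?_, ?_⟩
      · exact S.add_mem hx₀ (S.mul_mem (S.sub_mem ht.1 hα) (S.sub_mem ht.1 hβ))
      · exact S.add_mem hy₀ (S.mul_mem ht.1 (S.mul_mem (S.sub_mem ht.1 hα) (S.sub_mem ht.1 hβ)))
  · rintro (rfl | ⟨x, y, h, rfl, hx, hy⟩)
    · exact ⟨none, rfl⟩
    · obtain ⟨hξ, e1, e2⟩ := exists_param hΔ hc hsum hprod h
      set t := (y - y₀ W) / (x - x₀ W) with ht
      have htS : t ∈ S := S.div_mem (S.sub_mem hy hy₀) (S.sub_mem hx hx₀)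
      have hxi : xi α β t ≠ 0 := by
        intro h0
        apply hξ
        rw [h0, add_zero] at e1
        rw [e1, sub_self]
      refine ⟨some ⟨t, htS, xi_ne_zero_iff.mp hxi⟩, ?_⟩
      simp only [paramFun, Point.some.injEq]
      exact ⟨e1.symm, e2.symm⟩

end SubfieldCount

/-! ### 6. The fixed points of `Frob ^ N` -/

section Frob

variable {q : ℕ} [Fact q.Prime] {κ : Type*} [Field κ] [Algebra (ZMod q) κ]

/-- `z ↦ z ^ (q ^ N)` as a `ZMod q`-algebra endomorphism. -/
noncomputable def frobN (q : ℕ) [Fact q.Prime] (κ : Type*) [Field κ] [Algebra (ZMod q) κ]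
    (N : ℕ) : κ →ₐ[ZMod q] κ :=
  (FiniteField.frobeniusAlgHom (ZMod q) κ) ^ N

theorem frobN_apply (N : ℕ) (z : κ) : frobN q κ N z = z ^ (q ^ N) := by
  unfold frobN
  rw [AlgHom.coe_pow, FiniteField.coe_frobeniusAlgHom, pow_iterate, ZMod.card]

/-- The fixed field of `Frob ^ N`. -/
noncomputable def fixN (q : ℕ) [Fact q.Prime] (κ : Type*) [Field κ] [Algebra (ZMod q) κ]
    (N : ℕ) : Subfield κ :=
  ((frobN q κ N : κ →ₐ[ZMod q] κ) : κ →+* κ).eqLocusField (RingHom.id κ)

theorem mem_fixN {N : ℕ} {z : κ} : z ∈ fixN q κ N ↔ z ^ (q ^ N) = z := by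
  unfold fixN
  rw [RingHom.mem_eqLocusField, RingHom.id_apply, AlgHom.coe_toRingHom, frobN_apply]

theorem algebraMap_mem_fixN (N : ℕ) (r : ZMod q) : algebraMap (ZMod q) κ r ∈ fixN q κ N := by
  unfold fixN
  rw [RingHom.mem_eqLocusField, RingHom.id_apply, AlgHom.coe_toRingHom, AlgHom.commutes]

open Polynomial in
/-- Over an algebraically closed field the fixed field of `Frob ^ N` has `q ^ N` elements; we
need the count with two elements removed. -/
theorem card_fixN_sub_two [IsAlgClosed κ] {N : ℕ} (hN : N ≠ 0) {α β : κ}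
    (hα : α ∈ fixN q κ N) (hβ : β ∈ fixN q κ N) (hne : α ≠ β) :
    Finite {t : κ // t ∈ fixN q κ N ∧ t ≠ α ∧ t ≠ β} ∧
      Nat.card {t : κ // t ∈ fixN q κ N ∧ t ≠ α ∧ t ≠ β} = q ^ N - 2 := by
  classical
  have hq : q.Prime := Fact.out
  have : CharP κ q := charP_of_injective_algebraMap (algebraMap (ZMod q) κ).injective q
  set p : κ[X] := X ^ q ^ N - X with hp
  have hp0 : p ≠ 0 := FiniteField.X_pow_card_pow_sub_X_ne_zero κ hN hq.one_lt
  have hdeg : p.natDegree = q ^ N := FiniteField.X_pow_card_pow_sub_X_natDegree_eq κ hN hq.one_lt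
  have hsep : p.Separable := galois_poly_separable q (q ^ N) (dvd_pow_self q hN)
  have hcard : p.roots.toFinset.card = q ^ N := by
    rw [Multiset.toFinset_card_of_nodup (nodup_roots hsep),
      ← (IsAlgClosed.splits p).natDegree_eq_card_roots, hdeg]
  have hmem : ∀ t : κ, t ∈ p.roots.toFinset ↔ t ∈ fixN q κ N := by
    intro t
    rw [Multiset.mem_toFinset, mem_roots hp0, mem_fixN, hp, IsRoot.def, eval_sub, eval_pow,
      eval_X, sub_eq_zero]
  have hα' : α ∈ p.roots.toFinset := (hmem α).mpr hα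
  have hβ' : β ∈ p.roots.toFinset.erase α := Finset.mem_erase.mpr ⟨hne.symm, (hmem β).mpr hβ⟩
  have hiff : ∀ t : κ, t ∈ (p.roots.toFinset.erase α).erase β ↔
      (t ∈ fixN q κ N ∧ t ≠ α ∧ t ≠ β) := by
    intro t
    rw [Finset.mem_erase, Finset.mem_erase, hmem]
    tauto
  refine ⟨?_, ?_⟩
  · have : ({t : κ | t ∈ fixN q κ N ∧ t ≠ α ∧ t ≠ β} : Set κ).Finite :=
      (Finset.finite_toSet ((p.roots.toFinset.erase α).erase β)).subset
        (fun t ht => (hiff t).mpr ht)
    exact this.to_subtype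
  · rw [Nat.subtype_card ((p.roots.toFinset.erase α).erase β) hiff,
      Finset.card_erase_of_mem hβ', Finset.card_erase_of_mem hα', hcard]
    rfl

variable [DecidableEq κ] (W₀ : WeierstrassCurve (ZMod q))

/-- The subgroup of points fixed by `Frob ^ N`. -/
noncomputable def fixPts (N : ℕ) : AddSubgroup (W₀.toAffine⁄κ).Point :=
  AddMonoidHom.eqLocus (Point.map (W' := W₀.toAffine) (frobN q κ N)) (AddMonoidHom.id _)

theorem some_mem_fixPts {N : ℕ} {x y : κ} (h : (W₀.toAffine⁄κ).Nonsingular x y) :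
    Point.some x y h ∈ fixPts W₀ N ↔ x ∈ fixN q κ N ∧ y ∈ fixN q κ N := by
  change Point.map (W' := W₀.toAffine) (frobN q κ N) (Point.some x y h) = Point.some x y h ↔ _
  rw [Point.map_some, Point.some.injEq]
  unfold fixN
  simp only [RingHom.mem_eqLocusField, RingHom.id_apply, AlgHom.coe_toRingHom]

omit [DecidableEq κ] in
theorem x₀_mem_fixN (N : ℕ) : x₀ (W₀.toAffine⁄κ) ∈ fixN q κ N := by
  change x₀ (W₀.map (algebraMap (ZMod q) κ)) ∈ _
  rw [x₀_map]
  exact algebraMap_mem_fixN N _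

omit [DecidableEq κ] in
theorem y₀_mem_fixN (N : ℕ) : y₀ (W₀.toAffine⁄κ) ∈ fixN q κ N := by
  change y₀ (W₀.map (algebraMap (ZMod q) κ)) ∈ _
  rw [y₀_map]
  exact algebraMap_mem_fixN N _

/-- **The point count**: the group of `Frob ^ N`-fixed points of a split nodal cubic has
`q ^ N - 1` elements. -/
theorem card_fixPts [IsAlgClosed κ] (hΔ : (W₀.toAffine⁄κ).Δ = 0) (hc : (W₀.toAffine⁄κ).c₄ ≠ 0)
    {N : ℕ} (hN : N ≠ 0) {α β : κ} (hsum : α + β = -(W₀.toAffine⁄κ).a₁)
    (hprod : α * β = -a₂' (W₀.toAffine⁄κ)) (hα : α ∈ fixN q κ N) (hβ : β ∈ fixN q κ N) :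
    Finite (fixPts (κ := κ) W₀ N) ∧ Nat.card (fixPts (κ := κ) W₀ N) = q ^ N - 1 := by
  have hq : q.Prime := Fact.out
  have hne : α ≠ β := alpha_ne_beta hΔ hc hsum hprod
  obtain ⟨hfin, hcard⟩ := card_fixN_sub_two hN hα hβ hne
  have hset : (fixPts (κ := κ) W₀ N : Set (W₀.toAffine⁄κ).Point)
      = Set.range (paramFun hΔ hc hsum hprod (fixN q κ N)) := by
    ext P
    rw [range_paramFun hΔ hc hsum hprod _ (x₀_mem_fixN W₀ N) (y₀_mem_fixN W₀ N) hα hβ]
    constructor
    · intro hP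
      rcases P with _ | ⟨x, y, h⟩
      · exact Or.inl rfl
      · exact Or.inr ⟨x, y, h, rfl, (some_mem_fixPts W₀ h).mp hP⟩
    · rintro (rfl | ⟨x, y, h, rfl, hxy⟩)
      · exact (fixPts W₀ N).zero_mem
      · exact (some_mem_fixPts W₀ h).mpr hxy
  have hinj := paramFun_injective hΔ hc hsum hprod (fixN q κ N)
  have h2 : 2 ≤ q ^ N := by
    calc 2 ≤ q := hq.two_le
      _ = q ^ 1 := (pow_one q).symm
      _ ≤ q ^ N := Nat.pow_le_pow_right hq.pos (Nat.one_le_iff_ne_zero.mpr hN)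
  constructor
  · have : Finite (Set.range (paramFun hΔ hc hsum hprod (fixN q κ N))) := Set.finite_range _
    have h' : Finite ((fixPts (κ := κ) W₀ N : Set (W₀.toAffine⁄κ).Point)) := by
      rw [hset]; exact this
    exact h'
  · have : Nat.card (fixPts (κ := κ) W₀ N)
        = Nat.card ((fixPts (κ := κ) W₀ N : Set (W₀.toAffine⁄κ).Point)) := rfl
    rw [this, hset, Nat.card_range_of_injective hinj, Finite.card_option, hcard]
    omega

omit [DecidableEq κ] in
theorem fixN_two_mul {z : κ} (hz : z ^ (q ^ 2) = z) (M : ℕ) : z ∈ fixN q κ (2 * M) := by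
  rw [mem_fixN, pow_mul]
  induction M with
  | zero => simp
  | succ M ih => rw [pow_succ, pow_mul, ih, hz]

omit [DecidableEq κ] in
open Polynomial in
/-- The two tangent slopes at the node exist over an algebraically closed field and are fixed by
every even power of Frobenius. -/
theorem exists_slopes [IsAlgClosed κ] (hΔ : (W₀.toAffine⁄κ).Δ = 0)
    (hc : (W₀.toAffine⁄κ).c₄ ≠ 0) :
    ∃ α β : κ, α + β = -(W₀.toAffine⁄κ).a₁ ∧ α * β = -a₂' (W₀.toAffine⁄κ) ∧
      ∀ M : ℕ, α ∈ fixN q κ (2 * M) ∧ β ∈ fixN q κ (2 * M) := by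
  set a := (W₀.toAffine⁄κ).a₁ with ha
  set b := a₂' (W₀.toAffine⁄κ) with hb
  -- a root of `T² + a T - b`
  have hdeg : (X ^ 2 + C a * X - C b : κ[X]).degree ≠ 0 := by
    have : (X ^ 2 + C a * X - C b : κ[X]).degree = 2 := by
      rw [sub_eq_add_neg, ← C_neg, add_assoc]
      compute_degree!
    rw [this]
    norm_num
  obtain ⟨α, hα⟩ := IsAlgClosed.exists_root _ hdeg
  have hα' : α ^ 2 + a * α - b = 0 := by
    simpa [IsRoot.def] using hα
  set β := -a - α with hβ
  have hsum : α + β = -a := by rw [hβ]; ring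
  have hprod : α * β = -b := by rw [hβ]; linear_combination -hα'
  have hne : α ≠ β := alpha_ne_beta hΔ hc hsum hprod
  -- the Frobenius
  set σ : κ →ₐ[ZMod q] κ := frobN q κ 1 with hσ
  have hσa : σ a = a := by
    have : a = algebraMap (ZMod q) κ W₀.a₁ := rfl
    rw [this, AlgHom.commutes]
  have hσb : σ b = b := by
    have : b = algebraMap (ZMod q) κ (a₂' W₀) := by
      rw [hb]
      change a₂' (W₀.map (algebraMap (ZMod q) κ)) = _
      rw [a₂'_map]
    rw [this, AlgHom.commutes]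
  have hroot : ∀ z : κ, z ^ 2 + a * z - b = 0 → z = α ∨ z = β := by
    intro z hz
    have : (z - α) * (z - β) = 0 := by
      linear_combination hz - z * hsum + hprod
    rcases mul_eq_zero.mp this with h | h
    · exact Or.inl (sub_eq_zero.mp h)
    · exact Or.inr (sub_eq_zero.mp h)
  have hσroot : ∀ z : κ, z ^ 2 + a * z - b = 0 → (σ z) ^ 2 + a * σ z - b = 0 := by
    intro z hz
    have := congrArg σ hz
    rw [map_sub, map_add, map_mul, map_pow, hσa, hσb, map_zero] at this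
    exact this
  have hβ' : β ^ 2 + a * β - b = 0 := by
    linear_combination (β) * hsum - hprod
  have hinj : σ α ≠ σ β := fun h => hne (σ.toRingHom.injective h)
  have hσσ : ∀ z : κ, σ (σ z) = z ^ (q ^ 2) := by
    intro z
    rw [hσ, frobN_apply, frobN_apply, pow_one, ← pow_mul, sq]
  have h2 : α ^ (q ^ 2) = α ∧ β ^ (q ^ 2) = β := by
    rw [← hσσ, ← hσσ]
    rcases hroot _ (hσroot α hα') with h1 | h1 <;> rcases hroot _ (hσroot β hβ') with h2 | h2
    · exact absurd (h1.trans h2.symm) hinj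
    · exact ⟨by rw [h1, h1], by rw [h2, h2]⟩
    · exact ⟨by rw [h1, h2], by rw [h2, h1]⟩
    · exact absurd (h1.trans h2.symm) hinj
  exact ⟨α, β, hsum, hprod, fun M => ⟨fixN_two_mul h2.1 M, fixN_two_mul h2.2 M⟩⟩

end Frob

/-! ### 7. Sylow and the final statements -/

/-- A finite subgroup of order divisible by `p ^ n` of an additive commutative group contains
`p ^ n` elements killed by `p ^ n`. -/
theorem exists_finset_nsmul_eq_zero {A : Type*} [AddCommGroup A] [DecidableEq A]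
    (G : AddSubgroup A) [Finite G] (p n : ℕ) [Fact p.Prime] (hdvd : p ^ n ∣ Nat.card G) :
    ∃ S : Finset A, p ^ n ≤ S.card ∧ ∀ P ∈ S, (p ^ n) • P = 0 := by
  classical
  have hdvd' : p ^ n ∣ Nat.card (Multiplicative G) := by
    rwa [Nat.card_congr (Multiplicative.toAdd (α := G))]
  obtain ⟨K, hK⟩ := Sylow.exists_subgroup_card_pow_prime (G := Multiplicative G) p hdvd'
  have : Fintype K := Fintype.ofFinite K
  let f : K → A := fun k => ((Multiplicative.toAdd (k : Multiplicative G) : G) : A)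
  have hf : Function.Injective f := by
    intro k k' h
    apply Subtype.ext
    apply Multiplicative.toAdd.injective
    exact Subtype.ext h
  refine ⟨Finset.univ.image f, ?_, ?_⟩
  · rw [Finset.card_image_of_injective _ hf, Finset.card_univ, ← Nat.card_eq_fintype_card, hK]
  · intro P hP
    obtain ⟨k, -, rfl⟩ := Finset.mem_image.mp hP
    have h1 : k ^ (p ^ n) = 1 := by
      rw [← hK]
      exact pow_card_eq_one'
    have h2 : ((k : Multiplicative G)) ^ (p ^ n) = 1 := by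
      have := congrArg (Subtype.val) h1
      simpa using this
    have h3 : (p ^ n) • (Multiplicative.toAdd (k : Multiplicative G) : G) = 0 := by
      have := congrArg Multiplicative.toAdd h2
      simpa using this
    have := congrArg (Subtype.val) h3
    simpa [f] using this

/-- **(M1), over `ZMod q`.**  A nodal Weierstrass cubic over `ZMod q` (`Δ = 0`, `c₄ ≠ 0`) has, over
any algebraically closed field `κ` of characteristic `q`, at least `λⁿ` points killed by `λⁿ`,
for every prime `λ ≠ q`. -/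
theorem exists_torsion_of_node {q : ℕ} [Fact q.Prime] {κ : Type*} [Field κ] [Algebra (ZMod q) κ]
    [IsAlgClosed κ] [DecidableEq κ] (W₀ : WeierstrassCurve (ZMod q)) (hΔ : W₀.Δ = 0)
    (hc : W₀.c₄ ≠ 0) {lam : ℕ} (hlam : lam.Prime) (hne : lam ≠ q) (n : ℕ) :
    ∃ S : Finset (W₀.toAffine⁄κ).Point, lam ^ n ≤ S.card ∧ ∀ P ∈ S, (lam ^ n) • P = 0 := by
  have hq : q.Prime := Fact.out
  have : Fact lam.Prime := ⟨hlam⟩
  have hΔκ : (W₀.toAffine⁄κ).Δ = 0 := by
    change (W₀.map (algebraMap (ZMod q) κ)).Δ = 0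
    rw [map_Δ, hΔ, map_zero]
  have hcκ : (W₀.toAffine⁄κ).c₄ ≠ 0 := by
    change (W₀.map (algebraMap (ZMod q) κ)).c₄ ≠ 0
    rw [map_c₄]
    exact (map_ne_zero_iff _ (algebraMap (ZMod q) κ).injective).mpr hc
  obtain ⟨α, β, hsum, hprod, hfix⟩ := exists_slopes W₀ hΔκ hcκ
  set M := Nat.totient (lam ^ n) with hM
  have hMpos : 0 < M := Nat.totient_pos.mpr (pow_pos hlam.pos n)
  have hN : 2 * M ≠ 0 := by omega
  obtain ⟨hfin, hcard⟩ := card_fixPts W₀ hΔκ hcκ hN hsum hprod (hfix M).1 (hfix M).2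
  have hcop : Nat.Coprime q (lam ^ n) :=
    Nat.Coprime.pow_right n ((Nat.coprime_primes hq hlam).mpr (Ne.symm hne))
  have hmod : q ^ (2 * M) ≡ 1 [MOD lam ^ n] := by
    have h1 : q ^ M ≡ 1 [MOD lam ^ n] := Nat.ModEq.pow_totient hcop
    have h2 := h1.pow 2
    rwa [one_pow, ← pow_mul, mul_comm] at h2
  have hdvd : lam ^ n ∣ q ^ (2 * M) - 1 :=
    (Nat.modEq_iff_dvd' (Nat.one_le_pow _ _ hq.pos)).mp hmod.symm
  exact exists_finset_nsmul_eq_zero (fixPts (κ := κ) W₀ (2 * M)) lam n (by rw [hcard]; exact hdvd)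

/-- **(M1), export.**  `W` an integral Weierstrass model, `q` a prime of multiplicative reduction
(`q ∣ Δ`, `q ∤ c₄`), `κ` an algebraically closed field of characteristic `q`, `λ ≠ q` prime:
the special fibre has at least `λⁿ` points (in Mathlib's group of nonsingular points) killed by
`λⁿ`. -/
theorem exists_torsion_node (W : WeierstrassCurve ℤ) {q : ℕ} [Fact q.Prime]
    (hΔ : (q : ℤ) ∣ W.Δ) (hc₄ : ¬ (q : ℤ) ∣ W.c₄) {lam : ℕ} (hlam : lam.Prime) (hne : lam ≠ q)
    (n : ℕ) (κ : Type) [Field κ] [Algebra (ZMod q) κ] [IsAlgClosed κ] [DecidableEq κ] :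
    ∃ S : Finset (((W.reductionMod q)⁄κ).toAffine.Point),
      lam ^ n ≤ S.card ∧ ∀ P ∈ S, (lam ^ n) • P = 0 := by
  have h1 : (W.reductionMod q).Δ = 0 := by
    unfold reductionMod
    rw [map_Δ, eq_intCast]
    exact (ZMod.intCast_zmod_eq_zero_iff_dvd W.Δ q).mpr hΔ
  have h2 : (W.reductionMod q).c₄ ≠ 0 := by
    unfold reductionMod
    rw [map_c₄, eq_intCast]
    exact fun h => hc₄ ((ZMod.intCast_zmod_eq_zero_iff_dvd W.c₄ q).mp h)
  exact exists_torsion_of_node (W.reductionMod q) h1 h2 hlam hne n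

end Fermat.Agent.ES.Q58.NodeCount15
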