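/-
Programme Q (S58), Part III leaves (helper25), for the nodal lifting brick (M2)+(M3):

* **(M3)** `fix_of_unit`: a point `(x, y)` of `W(ℚ̄)` killed by `m` (`q ∤ m`) with
  `v(2y + a₁x + a₃) = 1` at a place `P` over `q` is fixed by the inertia group of `P`
  (no hypothesis on the reduction type of `W` at `q`).
* `exists_fibre_finset`: the count of `NodeCount15` at the residue field `κ_A` of a valuation
  subring `A` of `ℚ̄` over a multiplicative prime `q`, transported to the curve
  `W.map (Int.castRingHom κ_A)`.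
-/
import Mathlib
import Fermat.Prelude.Def_FLTPrelim_Modularity
import Fermat.Prelude.Def_FLTPrelim_Ramification
import Fermat.Prelude.Def_FLTPrelim_GaloisRep
import Fermat.Agent.S05.Kernel
import Fermat.Agent.S05.Inertia
import Fermat.Agent.ES.EC.CongE1_20
import Fermat.Agent.ES.EC.TorsionLift20
import Fermat.Agent.ES.EC.LiftTorsion29
import Fermat.Agent.ES.KRON.KronInst10
import Fermat.Agent.ES.Q58.NodeCount15

set_option autoImplicit false

open WeierstrassCurve WeierstrassCurve.Affine

namespace Fermat.Agent.ES.Q58.InertiaUnit25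

local notation "Qb" => AlgebraicClosure ℚ
local notation "GQ" => (AlgebraicClosure ℚ ≃ₐ[ℚ] AlgebraicClosure ℚ)

open Fermat.Agent.S05.Inertia Fermat.Agent.S05.Kernel Fermat.Agent.ES.EC.CongE1_20
open Fermat.Agent.ES.EC

/-- The coefficients of an integral model are integral at every place of `ℚ̄`. -/
theorem integralCoeffs (W : WeierstrassCurve ℤ) (P : ValuationSubring Qb) :
    IntegralCoeffs P.valuation ((W.map (Int.castRingHom ℚ))⁄Qb) := by
  rw [TorsionLift20.baseChange_eq_map W]
  refine ⟨?_, ?_, ?_, ?_, ?_⟩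
  · rw [WeierstrassCurve.map_a₁, eq_intCast]; exact valuation_intCast_le_one _
  · rw [WeierstrassCurve.map_a₂, eq_intCast]; exact valuation_intCast_le_one _
  · rw [WeierstrassCurve.map_a₃, eq_intCast]; exact valuation_intCast_le_one _
  · rw [WeierstrassCurve.map_a₄, eq_intCast]; exact valuation_intCast_le_one _
  · rw [WeierstrassCurve.map_a₆, eq_intCast]; exact valuation_intCast_le_one _

/-- **(M3)**  A prime-to-`q` torsion point with `2y + a₁x + a₃` a unit at `P` is fixed by the
inertia group of `P`. -/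
theorem fix_of_unit (W : WeierstrassCurve ℤ) {q m : ℕ} (hq : q.Prime) (hqm : ¬ q ∣ m)
    {P : ValuationSubring Qb} (hP : P.LiesOverPrime q) {τ : GQ}
    (hτ : τ ∈ P.inertiaSubgroupIn ℚ) {x y : Qb}
    (h : ((W.map (Int.castRingHom ℚ))⁄Qb).Nonsingular x y) (hQ : m • Point.some x y h = 0)
    (hu : P.valuation (2 * y + ((W.map (Int.castRingHom ℚ))⁄Qb).a₁ * x
      + ((W.map (Int.castRingHom ℚ))⁄Qb).a₃) = 1) :
    Point.map (W' := W.map (Int.castRingHom ℚ)) τ.toAlgHom (Point.some x y h)
      = Point.some x y h := by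
  have hint := integralCoeffs W P
  have hvm : P.valuation ((m : ℕ) : Qb) = 1 := valuation_natCast_eq_one hq hP hqm
  have hx : P.valuation x ≤ 1 := x_integral_of_nsmul_eq_zero hint h hvm hQ
  have hy : P.valuation y ≤ 1 := by
    by_contra hc
    exact absurd hx (not_le.mpr (vx_of_vy hint h.1 (not_le.mp hc)))
  have h' : ((W.map (Int.castRingHom ℚ))⁄Qb).Nonsingular (τ.toAlgHom x) (τ.toAlgHom y) :=
    (WeierstrassCurve.Affine.baseChange_nonsingular (W.map (Int.castRingHom ℚ))
      (f := τ.toAlgHom) τ.toAlgHom.injective x y).mpr h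
  have hmap : Point.map (W' := W.map (Int.castRingHom ℚ)) τ.toAlgHom (Point.some x y h)
      = Point.some (τ.toAlgHom x) (τ.toAlgHom y) h' := rfl
  have hQ' : m • Point.some (τ.toAlgHom x) (τ.toAlgHom y) h' = 0 := by
    have := congrArg (Point.map (W' := W.map (Int.castRingHom ℚ)) τ.toAlgHom) hQ
    rw [map_nsmul, _root_.map_zero, hmap] at this
    exact this
  have hfx : P.valuation (τ x - x) < 1 := valuation_sub_lt_one_rat hτ hx
  have hfy : P.valuation (τ y - y) < 1 := valuation_sub_lt_one_rat hτ hy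
  rw [hmap]
  exact eq_of_congruent_of_nsmul_eq_zero hint h' h hfx hfy hu hvm hQ' hQ

/-- The special fibre over a `ZMod q`-field, as a base change from `ℤ`. -/
theorem fibre_eq (W : WeierstrassCurve ℤ) (q : ℕ) (κ : Type*) [Field κ] [Algebra (ZMod q) κ] :
    ((W.reductionMod q)⁄κ).toAffine = (W.map (Int.castRingHom κ)).toAffine := by
  change ((W.map (Int.castRingHom (ZMod q))).map (algebraMap (ZMod q) κ))
    = W.map (Int.castRingHom κ)
  rw [WeierstrassCurve.map_map,
    show ((algebraMap (ZMod q) κ).comp (Int.castRingHom (ZMod q))) = Int.castRingHom κ from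
      RingHom.ext_int _ _]

/-- **The nodal count at the residue field of a place over a multiplicative prime.** -/
theorem exists_fibre_finset (W : WeierstrassCurve ℤ) {q lam : ℕ} (hq : q.Prime)
    (hlam : lam.Prime) (hne : lam ≠ q) (hΔ : (q : ℤ) ∣ W.Δ) (hc4 : ¬ (q : ℤ) ∣ W.c₄) (n : ℕ)
    {A : ValuationSubring Qb} (hA : A.LiesOverPrime q)
    [DecidableEq (IsLocalRing.ResidueField A)] :
    ∃ S : Finset (W.map (Int.castRingHom (IsLocalRing.ResidueField A))).toAffine.Point,
      lam ^ n ≤ S.card ∧ ∀ P ∈ S, lam ^ n • P = 0 := by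
  have : Fact q.Prime := ⟨hq⟩
  letI : Algebra (ZMod q) (IsLocalRing.ResidueField A) :=
    (LiftTorsion29.primeEmb A hq hA).toAlgebra
  have : IsAlgClosed (IsLocalRing.ResidueField A) :=
    Fermat.Agent.ES.KRON.KronInst10.isAlgClosed_residueField A
  have key := NodeCount15.exists_torsion_node W hΔ hc4 hlam hne n (IsLocalRing.ResidueField A)
  rw [fibre_eq W q (IsLocalRing.ResidueField A)] at key
  exact key

end Fermat.Agent.ES.Q58.InertiaUnit25
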