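/-
Programme Q (S58), Part III, bricks (M2) + (M3) (helper20; hedge twin of helper21's NodalLift21):
at a multiplicative prime `q` of an integral Weierstrass model `W` (`q ∣ Δ`, `q ∤ c₄`), for an odd
prime `λ ≠ q` and every place `P` of `ℚ̄` over `q` there are at least `λⁿ` points of `W(ℚ̄)` killed
by `λⁿ` and fixed by the whole inertia group of `P`  (`InertiaCong25.NodalLift W`).

* (M2) `exists_lift_point`: a nonsingular point `(x̃, ỹ)` of the special fibre over the residue
  field `κ` of `A`, killed by `m` (`q ∤ m`), lifts to a point `(a, b)`, `a, b ∈ A`, of the generic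
  fibre killed by `m`: `ΨSq_m(x̃) = 0` (`CountFinal.nsmul_eq_zero_iff`, no hypothesis on `Δ`), the
  leading coefficient `m²` is a unit, `L` is algebraically closed (`LiftTorsion29.exists_root_lift`);
  `b` a root of the monic quadratic in `y` above `ỹ`.
* (M3) (`InertiaUnit25.fix_of_unit`, helper25): as `2ỹ + ã₁x̃ + ã₃ ≠ 0` (automatic for odd `m`,
  `psi_ne_zero_of_odd`), the inertia group fixes `(a, b)`.
* assembly `nodalLift` with `InertiaUnit25.exists_fibre_finset` (= `NodeCount15` over `κ`): the lifts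
  of distinct points are distinct because the residues of their coordinates differ.
-/
import Mathlib
import Fermat.Prelude.Def_FLTPrelim_Modularity
import Fermat.Prelude.Def_FLTPrelim_Ramification
import Fermat.Agent.Lib.FrobeniusExists
import Fermat.Agent.S05.Kernel
import Fermat.Agent.S05.Inertia
import Fermat.Agent.ES.EC.CongE1_20
import Fermat.Agent.ES.EC.LiftTorsion29
import Fermat.Agent.ES.EC.TorsionLift20
import Fermat.Agent.DivPoly.CountFinal
import Fermat.Agent.ES.KRON.KronInst10
import Fermat.Agent.ES.Q58.NodeCount15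
import Fermat.Agent.ES.Q58.InertiaCong25
import Fermat.Agent.ES.Q58.InertiaUnit25

set_option autoImplicit false

open Polynomial WeierstrassCurve WeierstrassCurve.Affine

namespace Fermat.Agent.ES.Q58.NodalLift20

open Fermat.Agent.ES.EC.LiftTorsion29

section Lift

variable {L : Type*} [Field L] [IsAlgClosed L] [DecidableEq L] (A : ValuationSubring L)
  [DecidableEq (IsLocalRing.ResidueField A)]

/-- **(M2)** Lifting a point killed by `m` from the special fibre (possibly singular) over the
residue field of `A` to the generic fibre. -/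
theorem exists_lift_point (W : WeierstrassCurve ℤ) {q m : ℕ} (hq : q.Prime) (hm1 : 1 ≤ m)
    (hqm : ¬ q ∣ m) (hA : A.LiesOverPrime q) (hΔ : (W.map (Int.castRingHom L)).Δ ≠ 0)
    {x' y' : IsLocalRing.ResidueField A}
    (h' : (W.map (Int.castRingHom (IsLocalRing.ResidueField A))).toAffine.Nonsingular x' y')
    (hP' : m • Point.some x' y' h' = 0) :
    ∃ (a b : A) (h : (W.map (Int.castRingHom L)).toAffine.Nonsingular (a : L) (b : L)),
      m • Point.some (a : L) (b : L) h = 0 ∧
        IsLocalRing.residue A a = x' ∧ IsLocalRing.residue A b = y' := by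
  classical
  set res := IsLocalRing.residue A with hres
  have hΨ' : ((W.map (Int.castRingHom (IsLocalRing.ResidueField A))).ΨSq (m : ℤ)).eval x' = 0 :=
    (Fermat.Agent.DivPoly.CountFinal.nsmul_eq_zero_iff h' m hm1).mp hP'
  -- the division polynomial over `A`
  set WA : WeierstrassCurve A := W.map (Int.castRingHom A) with hWA
  have hcomp : (res).comp (Int.castRingHom A) = Int.castRingHom (IsLocalRing.ResidueField A) :=
    RingHom.ext_int _ _
  have hWAκ : WA.map res = W.map (Int.castRingHom (IsLocalRing.ResidueField A)) := by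
    rw [hWA, WeierstrassCurve.map_map, hcomp]
  have hmapres : (WA.ΨSq (m : ℤ)).map res =
      (W.map (Int.castRingHom (IsLocalRing.ResidueField A))).ΨSq (m : ℤ) := by
    rw [← hWAκ]
    exact (WeierstrassCurve.map_ΨSq WA res (m : ℤ)).symm
  have hroot : ((WA.ΨSq (m : ℤ)).map res).IsRoot x' := by
    rw [hmapres]; exact hΨ'
  have hmu : IsUnit (((m : ℤ) : A)) := by
    refine isUnit_intCast_of_not_dvd A hq hA ?_
    intro hd
    exact hqm (by exact_mod_cast hd)
  have hlc : IsUnit (WA.ΨSq (m : ℤ)).leadingCoeff := by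
    rw [WeierstrassCurve.leadingCoeff_ΨSq WA hmu.ne_zero]
    exact hmu.pow 2
  obtain ⟨a, ha, hat⟩ := exists_root_lift A _ hlc x' hroot
  -- the `y`-coordinate
  set c1 : A := (W.a₁ : A) * a + (W.a₃ : A) with hc1
  set c0 : A := a ^ 3 + (W.a₂ : A) * a ^ 2 + (W.a₄ : A) * a + (W.a₆ : A) with hc0
  set hA' : A[X] := X ^ 2 + (C c1 * X + C (-c0)) with hhA
  have hmon : hA'.Monic :=
    monic_X_pow_add (lt_of_le_of_lt (degree_linear_le) (by norm_num))
  have heq' := (equation_iff _ _).mp h'.1
  simp only [map_a₁, map_a₂, map_a₃, map_a₄, map_a₆, eq_intCast] at heq'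
  have hcast : ∀ n : ℤ, res (n : A) = (n : IsLocalRing.ResidueField A) := fun n =>
    map_intCast res n
  have hat' : res a = x' := hat
  have hrc1 : res c1 = (W.a₁ : IsLocalRing.ResidueField A) * x' +
      (W.a₃ : IsLocalRing.ResidueField A) := by
    rw [hc1, map_add, map_mul, hcast, hcast, hat']
  have hrc0 : res c0 = x' ^ 3 + (W.a₂ : IsLocalRing.ResidueField A) * x' ^ 2 +
      (W.a₄ : IsLocalRing.ResidueField A) * x' + (W.a₆ : IsLocalRing.ResidueField A) := by
    rw [hc0, map_add, map_add, map_add, map_mul, map_mul, map_pow, map_pow, hcast, hcast, hcast,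
      hat']
  have hrooty : (hA'.map res).IsRoot y' := by
    rw [hhA, IsRoot]
    simp only [Polynomial.map_add, Polynomial.map_mul, Polynomial.map_pow, map_X, map_C,
      Polynomial.map_neg, eval_add, eval_mul, eval_pow, eval_X, eval_C, eval_neg, map_neg]
    rw [hrc1, hrc0]
    linear_combination heq'
  obtain ⟨b, hb, hbt⟩ := exists_root_lift_of_monic A _ hA' rfl hmon y' hrooty
  -- assemble
  have hsub : (A.subtype).comp (Int.castRingHom A) = Int.castRingHom L := RingHom.ext_int _ _
  have hWL : W.map (Int.castRingHom L) = WA.map A.subtype := by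
    rw [hWA, WeierstrassCurve.map_map, hsub]
  have hcastL : ∀ n : ℤ, ((n : A) : L) = (n : L) := fun n => by simp
  have hEq : (W.map (Int.castRingHom L)).toAffine.Equation (a : L) (b : L) := by
    rw [equation_iff]
    simp only [map_a₁, map_a₂, map_a₃, map_a₄, map_a₆, eq_intCast]
    rw [hhA, IsRoot] at hb
    simp only [eval_add, eval_mul, eval_pow, eval_X, eval_C, hc1, hc0] at hb
    have hb' := congrArg (A.subtype) hb
    simp only [map_add, map_mul, map_pow, map_neg, map_zero, ValuationSubring.subtype_apply,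
      hcastL] at hb'
    linear_combination hb'
  have hns : (W.map (Int.castRingHom L)).toAffine.Nonsingular (a : L) (b : L) :=
    (equation_iff_nonsingular_of_Δ_ne_zero hΔ).mp hEq
  refine ⟨a, b, hns, ?_, hat, hbt⟩
  refine (Fermat.Agent.DivPoly.CountFinal.nsmul_eq_zero_iff hns m hm1).mpr ?_
  have : ((W.map (Int.castRingHom L)).ΨSq (m : ℤ)) = (WA.ΨSq (m : ℤ)).map A.subtype := by
    rw [hWL, map_ΨSq]
  rw [this]
  have h3 := eval_map_apply' A.subtype (WA.ΨSq (m : ℤ)) a
  rw [ha, map_zero] at h3
  exact h3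

end Lift

section Odd

variable {F : Type*} [Field F] [DecidableEq F] {V : Affine F}

/-- a point of odd order is not a `2`-torsion point: `2y + a₁x + a₃ ≠ 0`. -/
theorem psi_ne_zero_of_odd {x y : F} (h : V.Nonsingular x y) {m : ℕ} (hm : Odd m)
    (hP : m • Point.some x y h = 0) : 2 * y + V.a₁ * x + V.a₃ ≠ 0 := by
  intro h0
  have hy' : y = V.negY x y := by
    rw [negY]
    linear_combination h0
  have h2 : Point.some x y h + Point.some x y h = 0 := Point.add_of_Y_eq rfl hy'
  obtain ⟨k, rfl⟩ := hm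
  have e : (2 * k + 1) • Point.some x y h =
      k • (Point.some x y h + Point.some x y h) + Point.some x y h := by
    rw [add_nsmul, one_nsmul, mul_comm, mul_nsmul, two_nsmul, nsmul_add]
  rw [e, h2, smul_zero, zero_add] at hP
  exact Point.some_ne_zero h hP

/-- transport of "nonsingular and killed by `m`" along an equality of curves. -/
theorem transport_point {V₁ V₂ : Affine F} (e : V₁ = V₂) {x y : F} (h₁ : V₁.Nonsingular x y)
    {m : ℕ} (hP : m • Point.some x y h₁ = 0) :
    ∃ h₂ : V₂.Nonsingular x y, m • Point.some x y h₂ = 0 := by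
  subst e
  exact ⟨h₁, hP⟩

end Odd

section Asm

open WeierstrassCurve.Affine.Point

local notation "Qb" => AlgebraicClosure ℚ
local notation "GQ" => (AlgebraicClosure ℚ ≃ₐ[ℚ] AlgebraicClosure ℚ)

/-- the residue of an element of `ℚ̄` at `P` (`0` outside `P`). -/
noncomputable def resQ (P : ValuationSubring Qb) (x : Qb) : IsLocalRing.ResidueField P :=
  open Classical in if hx : x ∈ P then IsLocalRing.residue P ⟨x, hx⟩ else 0

theorem resQ_coe (P : ValuationSubring Qb) (a : P) : resQ P (a : Qb) = IsLocalRing.residue P a := by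
  unfold resQ
  rw [dif_pos a.2]

/-- the coordinates of a point (`none` at infinity). -/
def codeK {F : Type*} [Field F] {V : Affine F} : V.Point → Option (F × F)
  | .zero => none
  | .some x y _ => Option.some (x, y)

theorem codeK_injective {F : Type*} [Field F] {V : Affine F} :
    Function.Injective (codeK (V := V)) := by
  rintro (_ | ⟨x₁, y₁, h₁⟩) (_ | ⟨x₂, y₂, h₂⟩) h <;>
    simp only [codeK, Option.some.injEq, Prod.mk.injEq, reduceCtorEq] at h
  · rfl
  · obtain ⟨rfl, rfl⟩ := h; rfl

/-- the residues of the coordinates of a point of `W(ℚ̄)` (`none` at infinity). -/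
noncomputable def codeQ (P : ValuationSubring Qb) {V : Affine Qb} :
    V.Point → Option (IsLocalRing.ResidueField P × IsLocalRing.ResidueField P)
  | .zero => none
  | .some x y _ => Option.some (resQ P x, resQ P y)

/-- **(M2) + (M3)** for one point of the special fibre. -/
theorem exists_lift_fixed (W : WeierstrassCurve ℤ) {q lam n : ℕ} (hq : q.Prime)
    (hlam : lam.Prime) (hlam2 : lam ≠ 2) (hql : q ≠ lam) (hΔ0 : W.Δ ≠ 0)
    {P : ValuationSubring Qb} (hP : P.LiesOverPrime q)
    [DecidableEq (IsLocalRing.ResidueField P)]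
    (p : (W.map (Int.castRingHom (IsLocalRing.ResidueField P))).toAffine.Point)
    (hp : lam ^ n • p = 0) :
    ∃ Q : ((W.map (Int.castRingHom ℚ))⁄Qb).Point, lam ^ n • Q = 0 ∧
      (∀ τ ∈ P.inertiaSubgroupIn ℚ,
        Point.map (W' := W.map (Int.castRingHom ℚ)) τ.toAlgHom Q = Q) ∧
      codeQ P Q = codeK p := by
  rcases p with _ | ⟨x', y', h'⟩
  · exact ⟨0, nsmul_zero _, fun τ _ => _root_.map_zero _, rfl⟩
  · have hodd : Odd (lam ^ n) := (hlam.odd_of_ne_two hlam2).pow
    have hm1 : 1 ≤ lam ^ n := Nat.one_le_pow _ _ hlam.pos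
    have hqm : ¬ q ∣ lam ^ n := fun hd =>
      hql ((Nat.prime_dvd_prime_iff_eq hq hlam).mp (hq.dvd_of_dvd_pow hd))
    have hΔ : (W.map (Int.castRingHom Qb)).Δ ≠ 0 := by
      rw [WeierstrassCurve.map_Δ, eq_intCast]
      exact Int.cast_ne_zero.mpr hΔ0
    obtain ⟨a, b, h, hQ, hra, hrb⟩ := exists_lift_point P W hq hm1 hqm hP hΔ h' hp
    obtain ⟨h₂, hQ₂⟩ := transport_point
      (Fermat.Agent.ES.EC.TorsionLift20.baseChange_eq_map W).symm h hQ
    refine ⟨Point.some (a : Qb) (b : Qb) h₂, hQ₂, ?_, ?_⟩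
    · intro τ hτ
      refine Fermat.Agent.ES.Q58.InertiaUnit25.fix_of_unit W hq hqm hP hτ h₂ hQ₂ ?_
      -- the unit condition, from the residue
      have hψ := psi_ne_zero_of_odd h' hodd hp
      rw [WeierstrassCurve.map_a₁, WeierstrassCurve.map_a₃, eq_intCast, eq_intCast] at hψ
      set u : P := 2 * b + (W.a₁ : P) * a + (W.a₃ : P) with hu
      have hru : IsLocalRing.residue P u ≠ 0 := by
        rw [hu, map_add, map_add, map_mul, map_mul, map_intCast, map_intCast, map_ofNat, hra, hrb]
        exact hψ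
      have hunit : IsUnit u := (IsLocalRing.residue_ne_zero_iff_isUnit u).mp hru
      have hv : P.valuation (u : Qb) = 1 := (P.valuation_eq_one_iff u).mp hunit
      have ha₁ : ((W.map (Int.castRingHom ℚ))⁄Qb).a₁ = ((W.a₁ : ℤ) : Qb) := by
        simp [WeierstrassCurve.baseChange]
      have ha₃ : ((W.map (Int.castRingHom ℚ))⁄Qb).a₃ = ((W.a₃ : ℤ) : Qb) := by
        simp [WeierstrassCurve.baseChange]
      rw [ha₁, ha₃]
      have hcoe : (u : Qb) = 2 * (b : Qb) + ((W.a₁ : ℤ) : Qb) * (a : Qb) + ((W.a₃ : ℤ) : Qb) := by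
        rw [hu]
        push_cast
        rfl
      rw [← hcoe]
      exact hv
    · change Option.some (resQ P (a : Qb), resQ P (b : Qb)) = Option.some (x', y')
      rw [resQ_coe, resQ_coe, hra, hrb]

/-- **`NodalLift`** (the input (c) of `InertiaCong25`). -/
theorem nodalLift (W : WeierstrassCurve ℤ) : Fermat.Agent.ES.Q58.InertiaCong25.NodalLift W := by
  intro q lam n hq hlam hlam2 hql hΔ0 hqΔ hc4 P hP
  classical
  obtain ⟨S₀, hcard, hS₀⟩ := Fermat.Agent.ES.Q58.InertiaUnit25.exists_fibre_finset W hq hlam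
    (Ne.symm hql) hqΔ hc4 n hP
  have key : ∀ p ∈ S₀, ∃ Q : ((W.map (Int.castRingHom ℚ))⁄Qb).Point, lam ^ n • Q = 0 ∧
      (∀ τ ∈ P.inertiaSubgroupIn ℚ,
        Point.map (W' := W.map (Int.castRingHom ℚ)) τ.toAlgHom Q = Q) ∧
      codeQ P Q = codeK p :=
    fun p hp => exists_lift_fixed W hq hlam hlam2 hql hΔ0 hP p (hS₀ p hp)
  choose! f hf using key
  refine ⟨S₀.image f, ?_, ?_⟩
  · rw [Finset.card_image_of_injOn]
    · exact hcard
    · intro p₁ hp₁ p₂ hp₂ heq
      apply codeK_injective
      rw [← (hf p₁ hp₁).2.2, ← (hf p₂ hp₂).2.2, heq]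
  · intro Q hQ
    obtain ⟨p, hp, rfl⟩ := Finset.mem_image.mp hQ
    exact ⟨(hf p hp).1, (hf p hp).2.1⟩

end Asm

end Fermat.Agent.ES.Q58.NodalLift20
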