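/-
Programme Q (S58), brick C3, final glue (helper25): the field `inertia` of `ECIface12.ECFacts`
for a semistable integral Weierstrass model, from

* `InertiaCong25.inertia_of` (assembly: weak link + coordinate field + counts),
* `InertiaGood11.inertia_fix_of_good` (inertia at a good prime fixes the odd prime-to-`q` torsion),
* `NodalLift20.nodalLift` (at a multiplicative prime, `λⁿ` inertia-fixed points killed by `λⁿ`).
-/
import Mathlib
import Fermat.Prelude.Def_FLTPrelim_Modularity
import Fermat.Agent.ES.Q58.ECIface12
import Fermat.Agent.ES.Q58.InertiaCong25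
import Fermat.Agent.ES.Q58.InertiaGood11
import Fermat.Agent.ES.Q58.NodalLift20

set_option autoImplicit false

open WeierstrassCurve

namespace Fermat.Agent.ES.Q58.InertiaFinal25

/-- Input (b) of `InertiaCong25`, from `InertiaGood11`. -/
theorem goodInertiaFix (W : WeierstrassCurve ℤ) : InertiaCong25.GoodInertiaFix W :=
  fun _ _ hq hm hqm hg _ hP _ hτ Q hQ =>
    InertiaGood11.inertia_fix_of_good W hq hm hqm hg hP hτ Q hQ

/-- **(E-ii), the field `inertia` of `ECFacts`**, for a semistable integral model. -/
theorem inertia (W : WeierstrassCurve ℤ) (hss : W.IsSemistableModel) :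
    ∀ q : ℕ, q.Prime → ∃ T : Finset ℕ, ∀ lam : ℕ, lam.Prime → lam ∉ T →
      ECIface12.InertiaCong W lam q :=
  InertiaCong25.inertia_of W hss (goodInertiaFix W) (NodalLift20.nodalLift W)

end Fermat.Agent.ES.Q58.InertiaFinal25
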