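/-
Programme S58 (elliptic Eichler–Shimura relation), brick (B1) (helper23), Mathlib only:
**the hyperelliptic involution `ι` of the function field and the descent to `k(x)`**.

`k` any field, `W : WeierstrassCurve.Affine k`, `K = W.FunctionField = Frac k[W]`.

* `xK W`, `yK W : K` — the classes of `X`, `Y`; `equation_xK_yK`;
* `iotaC W : k[W] ≃ₐ[k[X]] k[W]` (`Y ↦ −Y − a₁X − a₃`), `iota W : K ≃ₐ[k] K`,
  `iota_xK`, `iota_yK`, `iota_iota`, `iota_algebraMap_polynomial`;
* `two_yK_ne_zero` : `2y + a₁x + a₃ ≠ 0` in `K` when `Δ ≠ 0` (any characteristic);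
* **`exists_coprime_of_fixed`** : `ι z = z ⟹ z = U / V` with `U V : k[X]` coprime, `V ≠ 0`
  (`K = k(x) ⊕ k(x)·y`);
* `genericPoint W hΔ : (W⁄K).Point` — the point `P₀ = (x, y)`;
* `oddPoints W : AddSubgroup (W⁄K).Point` — the points `R` with `ι R = −R`;
  `genericPoint_mem_oddPoints`, `map_mem_oddPoints` (stable under every `k`-endomorphism of `K`
  commuting with `ι`, e.g. Frobenius), `iota_x_of_mem_oddPoints`, `iota_y_of_mem_oddPoints(')`,
  **`exists_coprime_x_of_mem_oddPoints`** : the `x`-coordinate of an odd point is `U / V` with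
  `U V : k[X]` coprime.
-/
import Mathlib

set_option autoImplicit false

open Polynomial
open scoped Polynomial.Bivariate

namespace Fermat.Agent.ES.Q58.IotaDescent23

open WeierstrassCurve WeierstrassCurve.Affine

variable {k : Type*} [Field k] (W : Affine k)

/-- the class of `X` in the function field. -/
noncomputable def xK : W.FunctionField := algebraMap k[X] W.FunctionField X

/-- the class of `Y` in the function field. -/
noncomputable def yK : W.FunctionField :=
  algebraMap W.CoordinateRing W.FunctionField (CoordinateRing.mk W Y)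

/-! ### the involution on the coordinate ring -/

theorem polynomial_comp_negPolynomial : W.polynomial.comp W.negPolynomial = W.polynomial := by
  simp only [Affine.polynomial, Affine.negPolynomial, Polynomial.comp, eval₂_add, eval₂_sub,
    eval₂_mul, eval₂_pow, eval₂_C, eval₂_X]
  ring

theorem eval₂_mk_negPolynomial :
    W.polynomial.eval₂ (Algebra.ofId k[X] W.CoordinateRing : k[X] →+* W.CoordinateRing)
      (CoordinateRing.mk W W.negPolynomial) = 0 := by
  have h : (Algebra.ofId k[X] W.CoordinateRing : k[X] →+* W.CoordinateRing) =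
      (CoordinateRing.mk W).comp (C : k[X] →+* k[X][Y]) := by
    ext <;> simp [AdjoinRoot.algebraMap_eq]
  rw [h, ← Polynomial.hom_eval₂, ← Polynomial.comp, polynomial_comp_negPolynomial]
  exact AdjoinRoot.mk_self

/-- the involution `Y ↦ −Y − a₁X − a₃` of `k[W]`, as a `k[X]`-algebra endomorphism. -/
noncomputable def iotaHom : W.CoordinateRing →ₐ[k[X]] W.CoordinateRing :=
  AdjoinRoot.liftAlgHom W.polynomial (Algebra.ofId k[X] W.CoordinateRing)
    (CoordinateRing.mk W W.negPolynomial) (eval₂_mk_negPolynomial W)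

theorem iotaHom_mk_Y : iotaHom W (CoordinateRing.mk W Y) = CoordinateRing.mk W W.negPolynomial := by
  have := AdjoinRoot.liftAlgHom_root W.polynomial (Algebra.ofId k[X] W.CoordinateRing)
    (CoordinateRing.mk W W.negPolynomial) (eval₂_mk_negPolynomial W)
  exact this

theorem mk_negPolynomial : CoordinateRing.mk W W.negPolynomial =
    -CoordinateRing.mk W Y - algebraMap k[X] W.CoordinateRing (C W.a₁ * X + C W.a₃) := by
  simp only [Affine.negPolynomial, map_sub, map_neg]
  rfl

theorem iotaHom_iotaHom_mk_Y :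
    iotaHom W (iotaHom W (CoordinateRing.mk W Y)) = CoordinateRing.mk W Y := by
  rw [iotaHom_mk_Y, mk_negPolynomial, map_sub, map_neg, iotaHom_mk_Y, AlgHom.commutes,
    mk_negPolynomial]
  ring

theorem iotaHom_comp_iotaHom : (iotaHom W).comp (iotaHom W) = AlgHom.id k[X] W.CoordinateRing := by
  apply AdjoinRoot.algHom_ext
  exact iotaHom_iotaHom_mk_Y W

theorem iotaHom_iotaHom (c : W.CoordinateRing) : iotaHom W (iotaHom W c) = c :=
  AlgHom.congr_fun (iotaHom_comp_iotaHom W) c

/-- the involution of `k[W]` over `k[X]`. -/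
noncomputable def iotaC : W.CoordinateRing ≃ₐ[k[X]] W.CoordinateRing :=
  AlgEquiv.ofAlgHom (iotaHom W) (iotaHom W) (iotaHom_comp_iotaHom W) (iotaHom_comp_iotaHom W)

theorem iotaC_apply (c : W.CoordinateRing) : iotaC W c = iotaHom W c := rfl

/-- `ι (p + q y) = (p − q (a₁X + a₃)) − q y`. -/
theorem iotaC_smul_basis (p q : k[X]) :
    iotaC W (p • (1 : W.CoordinateRing) + q • CoordinateRing.mk W Y) =
      (p - q * (C W.a₁ * X + C W.a₃)) • (1 : W.CoordinateRing) + (-q) • CoordinateRing.mk W Y := by
  rw [map_add, map_smul, map_smul, map_one, iotaC_apply, iotaHom_mk_Y, mk_negPolynomial]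
  simp only [Algebra.smul_def, map_sub, map_mul, map_neg]
  ring

/-! ### the involution on the function field -/

/-- **the hyperelliptic involution** of the function field, over `k`. -/
noncomputable def iota : W.FunctionField ≃ₐ[k] W.FunctionField :=
  IsLocalization.algEquivOfAlgEquiv W.FunctionField W.FunctionField ((iotaC W).restrictScalars k)
    (MulEquivClass.map_nonZeroDivisors ((iotaC W).restrictScalars k))

theorem iota_algebraMap (c : W.CoordinateRing) :
    iota W (algebraMap W.CoordinateRing W.FunctionField c) =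
      algebraMap W.CoordinateRing W.FunctionField (iotaC W c) := by
  unfold iota
  rw [IsLocalization.algEquivOfAlgEquiv_eq]
  rfl

theorem iota_algebraMap_polynomial (p : k[X]) :
    iota W (algebraMap k[X] W.FunctionField p) = algebraMap k[X] W.FunctionField p := by
  rw [IsScalarTower.algebraMap_apply k[X] W.CoordinateRing W.FunctionField, iota_algebraMap,
    AlgEquiv.commutes]

theorem iota_xK : iota W (xK W) = xK W := iota_algebraMap_polynomial W X

theorem iota_iota (z : W.FunctionField) : iota W (iota W z) = z := by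
  obtain ⟨a, b, -, rfl⟩ := IsFractionRing.div_surjective (A := W.CoordinateRing) z
  rw [map_div₀, map_div₀, iota_algebraMap, iota_algebraMap, iota_algebraMap, iota_algebraMap,
    iotaC_apply, iotaC_apply, iotaC_apply, iotaC_apply, iotaHom_iotaHom, iotaHom_iotaHom]

theorem algebraMap_eq_coordinateRing (a : k) :
    algebraMap k W.FunctionField a = algebraMap k[X] W.FunctionField (C a) := by
  rw [IsScalarTower.algebraMap_apply k k[X] W.FunctionField]
  rfl

theorem iota_yK : iota W (yK W) =
    -yK W - algebraMap k W.FunctionField W.a₁ * xK W - algebraMap k W.FunctionField W.a₃ := by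
  unfold yK
  rw [iota_algebraMap, iotaC_apply, iotaHom_mk_Y, mk_negPolynomial, map_sub, map_neg,
    ← IsScalarTower.algebraMap_apply k[X] W.CoordinateRing W.FunctionField, map_add, map_mul,
    algebraMap_eq_coordinateRing, algebraMap_eq_coordinateRing]
  unfold xK
  ring

/-! ### the fixed ring of `ι` on `k[W]` is `k[X]` (when `Δ ≠ 0`) -/

/-- `Δ ≠ 0` excludes `2 = 0 ∧ a₁ = 0 ∧ a₃ = 0`. -/
theorem not_two_a₁_a₃_eq_zero (hΔ : W.Δ ≠ 0) : ¬ ((2 : k) = 0 ∧ W.a₁ = 0 ∧ W.a₃ = 0) := by
  rintro ⟨h2, h1, h3⟩
  apply hΔ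
  have h4 : (4 : k) = 0 := by
    have : (4 : k) = 2 * 2 := by norm_num
    rw [this, h2, mul_zero]
  have hb2 : W.b₂ = 0 := by
    simp only [WeierstrassCurve.b₂, h1, h4]; ring
  have hb4 : W.b₄ = 0 := by
    simp only [WeierstrassCurve.b₄, h1, h2]; ring
  have hb6 : W.b₆ = 0 := by
    simp only [WeierstrassCurve.b₆, h3, h4]; ring
  simp only [WeierstrassCurve.Δ, hb2, hb4, hb6]
  ring

/-- if `q (2y + a₁x + a₃) = 0` coordinatewise then `q = 0`. -/
theorem eq_zero_of_two_mul (hΔ : W.Δ ≠ 0) {q : k[X]} (h2 : q + q = 0)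
    (h1 : q * (C W.a₁ * X + C W.a₃) = 0) : q = 0 := by
  by_contra hq
  apply not_two_a₁_a₃_eq_zero W hΔ
  have h2' : (2 : k[X]) = 0 := by
    have : q * 2 = 0 := by rw [mul_two]; exact h2
    exact (mul_eq_zero.mp this).resolve_left hq
  have h1' : (C W.a₁ * X + C W.a₃ : k[X]) = 0 := (mul_eq_zero.mp h1).resolve_left hq
  refine ⟨?_, ?_, ?_⟩
  · have := congrArg (fun p : k[X] => p.coeff 0) h2'
    simpa using this
  · have := congrArg (fun p : k[X] => p.coeff 1) h1'
    simpa using this
  · have := congrArg (fun p : k[X] => p.coeff 0) h1'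
    simpa using this

/-- **the fixed ring of `ι` on `k[W]` is `k[X]`**. -/
theorem exists_polynomial_of_iotaC_fixed (hΔ : W.Δ ≠ 0) (c : W.CoordinateRing)
    (hc : iotaC W c = c) : ∃ p : k[X], algebraMap k[X] W.CoordinateRing p = c := by
  obtain ⟨p, q, rfl⟩ := CoordinateRing.exists_smul_basis_eq c
  rw [iotaC_smul_basis] at hc
  have hsub : ((p - q * (C W.a₁ * X + C W.a₃)) - p) • (1 : W.CoordinateRing) +
      (-q - q) • CoordinateRing.mk W Y = 0 := by
    have e : ((p - q * (C W.a₁ * X + C W.a₃)) - p) • (1 : W.CoordinateRing) +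
        (-q - q) • CoordinateRing.mk W Y =
        ((p - q * (C W.a₁ * X + C W.a₃)) • (1 : W.CoordinateRing) +
          (-q) • CoordinateRing.mk W Y) -
        (p • (1 : W.CoordinateRing) + q • CoordinateRing.mk W Y) := by
      module
    rw [e, hc, sub_self]
  obtain ⟨h1, h2⟩ := CoordinateRing.smul_basis_eq_zero hsub
  have hq : q = 0 := by
    apply eq_zero_of_two_mul W hΔ
    · have : -(q + q) = 0 := by rw [← h2]; ring
      exact neg_eq_zero.mp this
    · have : -(q * (C W.a₁ * X + C W.a₃)) = 0 := by rw [← h1]; ring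
      exact neg_eq_zero.mp this
  refine ⟨p, ?_⟩
  rw [hq, zero_smul, add_zero, Algebra.smul_def, mul_one]

/-- `2y + a₁x + a₃ ≠ 0` in the function field when `Δ ≠ 0`. -/
theorem two_yK_ne_zero (hΔ : W.Δ ≠ 0) :
    2 * yK W + algebraMap k W.FunctionField W.a₁ * xK W + algebraMap k W.FunctionField W.a₃ ≠ 0 := by
  intro h
  have hc : algebraMap W.CoordinateRing W.FunctionField
      ((C W.a₁ * X + C W.a₃ : k[X]) • (1 : W.CoordinateRing) +
        (2 : k[X]) • CoordinateRing.mk W Y) = 0 := by
    rw [← h]
    unfold yK xK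
    simp only [Algebra.smul_def, map_add, map_mul, mul_one, map_ofNat,
      ← IsScalarTower.algebraMap_apply k[X] W.CoordinateRing W.FunctionField,
      algebraMap_eq_coordinateRing]
    ring
  have hc' := (IsFractionRing.injective W.CoordinateRing W.FunctionField)
    (hc.trans (map_zero _).symm)
  obtain ⟨h1, h2⟩ := CoordinateRing.smul_basis_eq_zero hc'
  apply not_two_a₁_a₃_eq_zero W hΔ
  refine ⟨?_, ?_, ?_⟩
  · have := congrArg (fun p : k[X] => p.coeff 0) h2
    simpa using this
  · have := congrArg (fun p : k[X] => p.coeff 1) h1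
    simpa using this
  · have := congrArg (fun p : k[X] => p.coeff 0) h1
    simpa using this

/-! ### descent to `k(x)` -/

/-- **`ι`-fixed elements of the function field are quotients of polynomials in `x`.** -/
theorem exists_ratio_of_fixed (hΔ : W.Δ ≠ 0) (z : W.FunctionField) (hz : iota W z = z) :
    ∃ p n : k[X], n ≠ 0 ∧ z * algebraMap k[X] W.FunctionField n = algebraMap k[X] W.FunctionField p := by
  obtain ⟨a, b, hb, rfl⟩ := IsFractionRing.div_surjective (A := W.CoordinateRing) z
  have hb0 : b ≠ 0 := nonZeroDivisors.ne_zero hb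
  have hιb0 : iotaC W b ≠ 0 := (map_ne_zero_iff _ (iotaC W).injective).mpr hb0
  -- the norm of `b`
  have hN : iotaC W (b * iotaC W b) = b * iotaC W b := by
    rw [map_mul, iotaC_apply, iotaC_apply, iotaHom_iotaHom, mul_comm]
  obtain ⟨n, hn⟩ := exists_polynomial_of_iotaC_fixed W hΔ _ hN
  have hn0 : n ≠ 0 := by
    rintro rfl
    rw [map_zero] at hn
    exact mul_ne_zero hb0 hιb0 hn.symm
  have hbK : algebraMap W.CoordinateRing W.FunctionField b ≠ 0 :=
    (map_ne_zero_iff _ (IsFractionRing.injective W.CoordinateRing W.FunctionField)).mpr hb0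
  have hιbK : algebraMap W.CoordinateRing W.FunctionField (iotaC W b) ≠ 0 :=
    (map_ne_zero_iff _ (IsFractionRing.injective W.CoordinateRing W.FunctionField)).mpr hιb0
  -- the numerator `a ι(b)` is fixed
  have hfix : iotaC W (a * iotaC W b) = a * iotaC W b := by
    apply IsFractionRing.injective W.CoordinateRing W.FunctionField
    rw [map_div₀, iota_algebraMap, iota_algebraMap] at hz
    rw [map_mul, map_mul, map_mul, iotaC_apply (W := W) (iotaC W b), iotaC_apply (W := W) b,
      iotaHom_iotaHom, ← iotaC_apply]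
    field_simp at hz
    linear_combination hz
  obtain ⟨p, hp⟩ := exists_polynomial_of_iotaC_fixed W hΔ _ hfix
  refine ⟨p, n, hn0, ?_⟩
  rw [IsScalarTower.algebraMap_apply k[X] W.CoordinateRing W.FunctionField,
    IsScalarTower.algebraMap_apply k[X] W.CoordinateRing W.FunctionField, hn, hp, map_mul, map_mul]
  field_simp

/-- **`ι`-fixed elements of the function field are `U / V` with `U V : k[X]` coprime.** -/
theorem exists_coprime_of_fixed (hΔ : W.Δ ≠ 0) (z : W.FunctionField) (hz : iota W z = z) :
    ∃ U V : k[X], IsCoprime U V ∧ V ≠ 0 ∧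
      z * algebraMap k[X] W.FunctionField V = algebraMap k[X] W.FunctionField U := by
  classical
  obtain ⟨p, n, hn, hpn⟩ := exists_ratio_of_fixed W hΔ z hz
  have hg : GCDMonoid.gcd p n ≠ 0 := gcd_ne_zero_of_right hn
  obtain ⟨U, hU⟩ := GCDMonoid.gcd_dvd_left p n
  obtain ⟨V, hV⟩ := GCDMonoid.gcd_dvd_right p n
  have e1 : U = p / GCDMonoid.gcd p n := EuclideanDomain.eq_div_of_mul_eq_right hg hU.symm
  have e2 : V = n / GCDMonoid.gcd p n := EuclideanDomain.eq_div_of_mul_eq_right hg hV.symm
  refine ⟨U, V, ?_, ?_, ?_⟩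
  · rw [e1, e2]
    exact isCoprime_div_gcd_div_gcd hn
  · intro h
    apply hn
    rw [hV, h, mul_zero]
  · have hgK : algebraMap k[X] W.FunctionField (GCDMonoid.gcd p n) ≠ 0 :=
      (map_ne_zero_iff _ (FaithfulSMul.algebraMap_injective k[X] W.FunctionField)).mpr hg
    have hpK : algebraMap k[X] W.FunctionField p =
        algebraMap k[X] W.FunctionField (GCDMonoid.gcd p n) * algebraMap k[X] W.FunctionField U := by
      rw [← map_mul, ← hU]
    have hnK : algebraMap k[X] W.FunctionField n =
        algebraMap k[X] W.FunctionField (GCDMonoid.gcd p n) * algebraMap k[X] W.FunctionField V := by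
      rw [← map_mul, ← hV]
    apply mul_left_cancel₀ hgK
    rw [← hpK, ← hpn, hnK]
    ring

/-! ### the generic point and the odd points -/

/-- the Weierstrass equation of `(x, y)` in the coordinate ring. -/
theorem mk_Y_sq : CoordinateRing.mk W Y ^ 2 +
    algebraMap k[X] W.CoordinateRing (C W.a₁ * X + C W.a₃) * CoordinateRing.mk W Y =
    algebraMap k[X] W.CoordinateRing (X ^ 3 + C W.a₂ * X ^ 2 + C W.a₄ * X + C W.a₆) := by
  have h : CoordinateRing.mk W (Y ^ 2 + C (C W.a₁ * X + C W.a₃) * Y -
      C (X ^ 3 + C W.a₂ * X ^ 2 + C W.a₄ * X + C W.a₆)) = 0 :=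
    AdjoinRoot.mk_self (f := W.polynomial)
  rw [map_sub (CoordinateRing.mk W), map_add (CoordinateRing.mk W),
    map_pow (CoordinateRing.mk W), map_mul (CoordinateRing.mk W)] at h
  exact sub_eq_zero.mp h

/-- `(x, y)` satisfies the Weierstrass equation over the function field. -/
theorem equation_xK_yK : (W⁄W.FunctionField).Equation (xK W) (yK W) := by
  rw [equation_iff]
  have h := congrArg (algebraMap W.CoordinateRing W.FunctionField) (mk_Y_sq W)
  simp only [map_add, map_mul, map_pow,
    ← IsScalarTower.algebraMap_apply k[X] W.CoordinateRing W.FunctionField] at h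
  simp only [← algebraMap_eq_coordinateRing] at h
  simp only [WeierstrassCurve.baseChange, WeierstrassCurve.map_a₁, WeierstrassCurve.map_a₂,
    WeierstrassCurve.map_a₃, WeierstrassCurve.map_a₄, WeierstrassCurve.map_a₆]
  unfold xK yK
  linear_combination h

/-- `(x, y)` is a nonsingular point over the function field when `Δ ≠ 0`. -/
theorem nonsingular_xK_yK (hΔ : W.Δ ≠ 0) : (W⁄W.FunctionField).Nonsingular (xK W) (yK W) := by
  rw [nonsingular_iff']
  refine ⟨equation_xK_yK W, Or.inr ?_⟩
  have h := two_yK_ne_zero W hΔ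
  simpa only [WeierstrassCurve.baseChange, WeierstrassCurve.map_a₁, WeierstrassCurve.map_a₃] using h

theorem iota_negY_eq :
    iota W (yK W) = (W⁄W.FunctionField).negY (xK W) (yK W) := by
  rw [iota_yK, Affine.negY]
  simp only [WeierstrassCurve.baseChange, WeierstrassCurve.map_a₁, WeierstrassCurve.map_a₃]

variable [DecidableEq W.FunctionField]

/-- **the generic point** `P₀ = (x, y)` of `W` over its function field. -/
noncomputable def genericPoint (hΔ : W.Δ ≠ 0) : (W⁄W.FunctionField).Point :=
  Point.some (xK W) (yK W) (nonsingular_xK_yK W hΔ)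

/-- **the odd points**: `ι R = −R`. -/
noncomputable def oddPoints : AddSubgroup (W⁄W.FunctionField).Point :=
  (Point.map (W' := W) ((iota W : W.FunctionField ≃ₐ[k] W.FunctionField) :
      W.FunctionField →ₐ[k] W.FunctionField) +
    AddMonoidHom.id (W⁄W.FunctionField).Point).ker

theorem mem_oddPoints_iff (R : (W⁄W.FunctionField).Point) :
    R ∈ oddPoints W ↔
      Point.map (W' := W) ((iota W : W.FunctionField ≃ₐ[k] W.FunctionField) :
        W.FunctionField →ₐ[k] W.FunctionField) R = -R := by
  unfold oddPoints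
  rw [AddMonoidHom.mem_ker, AddMonoidHom.add_apply, AddMonoidHom.id_apply,
    add_eq_zero_iff_eq_neg]

theorem genericPoint_mem_oddPoints (hΔ : W.Δ ≠ 0) : genericPoint W hΔ ∈ oddPoints W := by
  rw [mem_oddPoints_iff]
  unfold genericPoint
  rw [Point.map_some, Point.neg_some]
  simp only [Point.some.injEq]
  exact ⟨iota_xK W, iota_negY_eq W⟩

/-- the odd points are stable under every `k`-endomorphism of the function field that commutes with
`ι` (e.g. Frobenius, `k = 𝔽_ℓ`). -/
theorem map_mem_oddPoints (φ : W.FunctionField →ₐ[k] W.FunctionField)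
    (hφ : ∀ z, φ (iota W z) = iota W (φ z)) {R : (W⁄W.FunctionField).Point}
    (hR : R ∈ oddPoints W) : Point.map (W' := W) φ R ∈ oddPoints W := by
  rw [mem_oddPoints_iff] at hR ⊢
  rw [Point.map_map]
  have hcomm : ((iota W : W.FunctionField ≃ₐ[k] W.FunctionField) :
      W.FunctionField →ₐ[k] W.FunctionField).comp φ =
      φ.comp ((iota W : W.FunctionField ≃ₐ[k] W.FunctionField) :
        W.FunctionField →ₐ[k] W.FunctionField) := by
    refine AlgHom.ext fun z => ?_
    simp only [AlgHom.comp_apply]
    exact (hφ z).symm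
  rw [hcomm, ← Point.map_map, hR, map_neg]

/-- the `x`-coordinate of an odd point is `ι`-fixed. -/
theorem iota_x_of_mem_oddPoints {xR yR : W.FunctionField}
    (h : (W⁄W.FunctionField).Nonsingular xR yR) (hR : Point.some xR yR h ∈ oddPoints W) :
    iota W xR = xR := by
  rw [mem_oddPoints_iff, Point.map_some, Point.neg_some] at hR
  simp only [Point.some.injEq] at hR
  exact hR.1

/-- the `y`-coordinate of an odd point is sent to `negY` by `ι`. -/
theorem iota_y_of_mem_oddPoints {xR yR : W.FunctionField}
    (h : (W⁄W.FunctionField).Nonsingular xR yR) (hR : Point.some xR yR h ∈ oddPoints W) :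
    iota W yR = (W⁄W.FunctionField).negY xR yR := by
  rw [mem_oddPoints_iff, Point.map_some, Point.neg_some] at hR
  simp only [Point.some.injEq] at hR
  exact hR.2

/-- the `y`-coordinate of an odd point: `ι Y = −Y − a₁X − a₃`. -/
theorem iota_y_of_mem_oddPoints' {xR yR : W.FunctionField}
    (h : (W⁄W.FunctionField).Nonsingular xR yR) (hR : Point.some xR yR h ∈ oddPoints W) :
    iota W yR =
      -yR - algebraMap k W.FunctionField W.a₁ * xR - algebraMap k W.FunctionField W.a₃ := by
  rw [iota_y_of_mem_oddPoints W h hR, Affine.negY]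
  simp only [WeierstrassCurve.baseChange, WeierstrassCurve.map_a₁, WeierstrassCurve.map_a₃]

/-- **the `x`-coordinate of an odd point is `U / V` with `U V : k[X]` coprime.** -/
theorem exists_coprime_x_of_mem_oddPoints (hΔ : W.Δ ≠ 0) {xR yR : W.FunctionField}
    (h : (W⁄W.FunctionField).Nonsingular xR yR) (hR : Point.some xR yR h ∈ oddPoints W) :
    ∃ U V : k[X], IsCoprime U V ∧ V ≠ 0 ∧
      xR * algebraMap k[X] W.FunctionField V = algebraMap k[X] W.FunctionField U :=
  exists_coprime_of_fixed W hΔ xR (iota_x_of_mem_oddPoints W h hR)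

end Fermat.Agent.ES.Q58.IotaDescent23
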