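/-
S58 programme (paper phase pre-work), EC-ES core, brick (B2) = (E7) first half of `S58_ECES_CORE2.md`
(helper17): **substitution embeddings of the function field of a Weierstrass curve.**

`k` a field, `W` a Weierstrass curve over `k`, `K = W.FunctionField = Frac k[W]`, `L ⊇ k` ANY field
(used with `L = K` and with `L = ` an algebraic closure of `K`).
* `evalHom W h : k[W] →ₐ[k] L` : evaluation of the coordinate ring at a point `(u, v) ∈ W(L)`
  (`x ↦ u`, `y ↦ v`);
* `evalHom_injective` : it is injective as soon as `u` is transcendental over `k` (the norm to `k[x]` of a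
  nonzero element of `k[W]` is a nonzero polynomial vanishing at `u`);
* `substHom W h hX : K →ₐ[k] L` : the induced embedding of the function field; `substHom_xK`,
  `substHom_yK`, `substHom_algebraMap_polynomial` (`σ (c p) = p(u)`), `substHom_pow`;
* `algHom_ext` : two `k`-embeddings of `K` agreeing on `x` and `y` are equal; `comp_substHom` : the
  composition law `τ ∘ σ_R = σ_{τ R}`; `substHom_generic` : `σ_{P₀} = id`;
* the generic point `P₀ = (x, y) ∈ W(K)` is `IotaDescent23.genericPoint W hΔ` (`xK`, `yK` from there);
  `map_substHom_genericPoint` : `Point.map (substHom …) P₀ = (u, v)`;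
* `transcendental_xK`; `transcendental_of_isCoprime` : `z · c V = c U`, `U, V` coprime, not both constant
  ⇒ `z` transcendental over `k` (first sentence of (E7): `d(R) ≥ 1 ⇒ x_R` transcendental);
* `algPoints W L` : the subgroup of points with coordinates algebraic over `k`;
  `some_mem_algPoints_iff`, `map_mem_algPoints` (constant points are algebraic points),
  `transcendental_of_genericPoint_add` : `P₀ + T` has transcendental `x`-coordinate for every algebraic
  point `T` ((E9)(ii), (E10)(c)).
Imports Mathlib + `IotaDescent23` (helper23, brick (B1)) for the SHARED `xK`, `yK`, `equation_xK_yK`,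
`nonsingular_xK_yK`, `genericPoint`.
-/
import Fermat.Agent.ES.Q58.IotaDescent23

set_option autoImplicit false

namespace Fermat.Agent.ES.Q58.SubstEmb17

open WeierstrassCurve WeierstrassCurve.Affine Polynomial
open scoped Polynomial.Bivariate
open Fermat.Agent.ES.Q58.IotaDescent23

variable {k : Type*} [Field k] (W : Affine k) {L : Type*} [Field L] [Algebra k L]

/-! ### Evaluation of the coordinate ring at a point -/

/-- the Weierstrass equation of a point of `W(L)`, as the vanishing of `W.polynomial` under `eval₂`. -/
theorem eval₂_polynomial_eq_zero {u v : L} (h : (W⁄L).Equation u v) :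
    W.polynomial.eval₂ ((aeval u : k[X] →ₐ[k] L) : k[X] →+* L) v = 0 := by
  rw [equation_iff] at h
  simp only [baseChange_a₁, baseChange_a₂, baseChange_a₃, baseChange_a₄, baseChange_a₆] at h
  simp only [polynomial, eval₂_add, eval₂_sub, eval₂_mul, eval₂_pow, eval₂_X, eval₂_C,
    AlgHom.coe_toRingHom, map_add, map_mul, map_pow, aeval_X, aeval_C]
  linear_combination h

/-- **evaluation of the coordinate ring at a point `(u, v) ∈ W(L)`.** -/
noncomputable def evalHom {u v : L} (h : (W⁄L).Equation u v) : W.CoordinateRing →ₐ[k] L :=
  AdjoinRoot.liftAlgHom W.polynomial (aeval u : k[X] →ₐ[k] L) v (eval₂_polynomial_eq_zero W h)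

theorem evalHom_mk {u v : L} (h : (W⁄L).Equation u v) (f : k[X][Y]) :
    evalHom W h (CoordinateRing.mk W f) =
      f.eval₂ ((aeval u : k[X] →ₐ[k] L) : k[X] →+* L) v := rfl

theorem evalHom_C {u v : L} (h : (W⁄L).Equation u v) (p : k[X]) :
    evalHom W h (CoordinateRing.mk W (C p)) = aeval u p := by
  rw [evalHom_mk, eval₂_C]; rfl

theorem evalHom_x {u v : L} (h : (W⁄L).Equation u v) :
    evalHom W h (CoordinateRing.mk W (C Polynomial.X)) = u := by
  rw [evalHom_C, aeval_X]

theorem evalHom_y {u v : L} (h : (W⁄L).Equation u v) :
    evalHom W h (CoordinateRing.mk W Polynomial.X) = v := by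
  rw [evalHom_mk, eval₂_X]

theorem evalHom_smul_basis {u v : L} (h : (W⁄L).Equation u v) (p q : k[X]) :
    evalHom W h (p • (1 : W.CoordinateRing) + q • CoordinateRing.mk W Polynomial.X) =
      aeval u p + aeval u q * v := by
  rw [CoordinateRing.smul, CoordinateRing.smul, map_add, map_mul, map_mul, evalHom_C, evalHom_C,
    evalHom_y, map_one, mul_one]

/-- **evaluation at a point with transcendental `x`-coordinate is injective.** -/
theorem evalHom_injective {u v : L} (h : (W⁄L).Equation u v) (hX : Transcendental k u) :
    Function.Injective (evalHom W h) := by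
  rw [injective_iff_map_eq_zero]
  intro a ha
  obtain ⟨p, q, rfl⟩ := CoordinateRing.exists_smul_basis_eq a
  rw [evalHom_smul_basis] at ha
  have heq := h
  rw [equation_iff] at heq
  simp only [baseChange_a₁, baseChange_a₂, baseChange_a₃, baseChange_a₄, baseChange_a₆] at heq
  have hn : aeval u (Algebra.norm k[X]
      (p • (1 : W.CoordinateRing) + q • CoordinateRing.mk W Polynomial.X)) = 0 := by
    rw [CoordinateRing.norm_smul_basis]
    simp only [map_sub, map_mul, map_pow, map_add, aeval_X, aeval_C]
    linear_combination (aeval u p + aeval u q * (-v - algebraMap k L W.a₁ * u -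
      algebraMap k L W.a₃)) * ha + (aeval u q) ^ 2 * heq
  have h0 : Algebra.norm k[X]
      (p • (1 : W.CoordinateRing) + q • CoordinateRing.mk W Polynomial.X) = 0 := by
    by_contra hne
    exact hX ⟨_, hne, hn⟩
  have : Module.Finite k[X] W.CoordinateRing := Module.Finite.of_basis (CoordinateRing.basis W)
  exact Algebra.norm_eq_zero_iff.mp h0

/-! ### The substitution embedding of the function field -/

/-- **the substitution embedding `σ : K →ₐ[k] L`, `x ↦ u`, `y ↦ v`**, for a point `(u, v) ∈ W(L)` with
`u` transcendental over `k`. -/
noncomputable def substHom {u v : L} (h : (W⁄L).Equation u v) (hX : Transcendental k u) :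
    W.FunctionField →ₐ[k] L :=
  IsFractionRing.liftAlgHom (evalHom_injective W h hX)

theorem substHom_algebraMap {u v : L} (h : (W⁄L).Equation u v) (hX : Transcendental k u)
    (a : W.CoordinateRing) :
    substHom W h hX (algebraMap W.CoordinateRing W.FunctionField a) = evalHom W h a := by
  rw [substHom, IsFractionRing.liftAlgHom_apply, IsFractionRing.lift_algebraMap]
  rfl

/-- `σ (c p) = p(u)`. -/
theorem substHom_algebraMap_polynomial {u v : L} (h : (W⁄L).Equation u v)
    (hX : Transcendental k u) (p : k[X]) :
    substHom W h hX (algebraMap k[X] W.FunctionField p) = aeval u p := by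
  rw [IsScalarTower.algebraMap_apply k[X] W.CoordinateRing W.FunctionField, substHom_algebraMap]
  exact evalHom_C W h p

theorem substHom_xK {u v : L} (h : (W⁄L).Equation u v) (hX : Transcendental k u) :
    substHom W h hX (xK W) = u := by
  rw [xK, substHom_algebraMap_polynomial, aeval_X]

theorem substHom_yK {u v : L} (h : (W⁄L).Equation u v) (hX : Transcendental k u) :
    substHom W h hX (yK W) = v := by
  rw [yK, substHom_algebraMap, evalHom_y]

/-- `σ (z ^ q) = (σ z) ^ q`: substitution commutes with every Frobenius. -/
theorem substHom_pow {u v : L} (h : (W⁄L).Equation u v) (hX : Transcendental k u)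
    (z : W.FunctionField) (q : ℕ) : substHom W h hX (z ^ q) = substHom W h hX z ^ q :=
  map_pow _ _ _

/-! ### Uniqueness and composition -/

/-- two `k`-embeddings of the function field agreeing on `x` and `y` are equal. -/
theorem algHom_ext {f g : W.FunctionField →ₐ[k] L} (hx : f (xK W) = g (xK W))
    (hy : f (yK W) = g (yK W)) : f = g := by
  have hC : ∀ r : k[X], f (algebraMap k[X] W.FunctionField r) =
      g (algebraMap k[X] W.FunctionField r) := by
    intro r
    have : f.comp (IsScalarTower.toAlgHom k k[X] W.FunctionField) =
        g.comp (IsScalarTower.toAlgHom k k[X] W.FunctionField) :=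
      Polynomial.algHom_ext (by
        show f (algebraMap k[X] W.FunctionField Polynomial.X) =
          g (algebraMap k[X] W.FunctionField Polynomial.X)
        exact hx)
    exact DFunLike.congr_fun this r
  have key : ∀ a : W.CoordinateRing, f (algebraMap W.CoordinateRing W.FunctionField a) =
      g (algebraMap W.CoordinateRing W.FunctionField a) := by
    intro a
    obtain ⟨p, q, rfl⟩ := CoordinateRing.exists_smul_basis_eq a
    have e : algebraMap W.CoordinateRing W.FunctionField
        (p • (1 : W.CoordinateRing) + q • CoordinateRing.mk W Polynomial.X) =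
        algebraMap k[X] W.FunctionField p + algebraMap k[X] W.FunctionField q * yK W := by
      rw [Algebra.smul_def, Algebra.smul_def, mul_one, map_add, map_mul,
        ← IsScalarTower.algebraMap_apply k[X] W.CoordinateRing W.FunctionField,
        ← IsScalarTower.algebraMap_apply k[X] W.CoordinateRing W.FunctionField]
      rfl
    rw [e, map_add, map_mul, map_add, map_mul, hC p, hC q, hy]
  apply AlgHom.coe_ringHom_injective
  exact IsFractionRing.ringHom_ext (A := W.CoordinateRing) key

/-- **composition law**: `τ ∘ σ_{(u,v)} = σ_{(τ u, τ v)}`. -/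
theorem comp_substHom {L' : Type*} [Field L'] [Algebra k L'] (τ : L →ₐ[k] L') {u v : L}
    (h : (W⁄L).Equation u v) (hX : Transcendental k u)
    (h' : (W⁄L').Equation (τ u) (τ v)) (hX' : Transcendental k (τ u)) :
    τ.comp (substHom W h hX) = substHom W h' hX' := by
  apply algHom_ext
  · rw [AlgHom.comp_apply, substHom_xK, substHom_xK]
  · rw [AlgHom.comp_apply, substHom_yK, substHom_yK]

/-! ### The generic point -/

/-- **`σ_R P₀ = R`.** -/
theorem map_substHom_genericPoint [DecidableEq W.FunctionField] [DecidableEq L] (hΔ : W.Δ ≠ 0)
    {u v : L} (hR : (W⁄L).Nonsingular u v) (hX : Transcendental k u) :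
    Point.map (W' := W) (substHom W hR.1 hX) (genericPoint W hΔ) = Point.some u v hR := by
  rw [IotaDescent23.genericPoint, Point.map_some]
  congr 1
  · exact substHom_xK W hR.1 hX
  · exact substHom_yK W hR.1 hX

/-! ### Transcendence of `x`, and the substitution at the generic point -/

theorem algebraMap_coordinateRing_injective :
    Function.Injective (algebraMap k[X] W.CoordinateRing) := by
  rw [injective_iff_map_eq_zero]
  intro p hp
  have h0 : p • (1 : W.CoordinateRing) + (0 : k[X]) • CoordinateRing.mk W Polynomial.X = 0 := by
    rw [zero_smul, add_zero, ← Algebra.algebraMap_eq_smul_one, hp]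
  exact (CoordinateRing.smul_basis_eq_zero h0).1

/-- `c : k[X] → K` is injective. -/
theorem algebraMap_functionField_injective :
    Function.Injective (algebraMap k[X] W.FunctionField) := by
  rw [IsScalarTower.algebraMap_eq k[X] W.CoordinateRing W.FunctionField]
  exact (IsFractionRing.injective W.CoordinateRing W.FunctionField).comp
    (algebraMap_coordinateRing_injective W)

theorem algebraMap_polynomial_X : algebraMap k[X] W.FunctionField Polynomial.X = xK W := rfl

/-- `p(x) = c p` in `K`. -/
theorem aeval_xK (p : k[X]) : aeval (xK W) p = algebraMap k[X] W.FunctionField p := by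
  have h : (aeval (xK W) : k[X] →ₐ[k] W.FunctionField) =
      IsScalarTower.toAlgHom k k[X] W.FunctionField :=
    Polynomial.algHom_ext (by
      rw [aeval_X, IsScalarTower.coe_toAlgHom', algebraMap_polynomial_X])
  rw [h, IsScalarTower.coe_toAlgHom']

/-- **`x` is transcendental over `k`.** -/
theorem transcendental_xK : Transcendental k (xK W) := by
  rw [transcendental_iff_injective]
  intro p q hpq
  rw [aeval_xK, aeval_xK] at hpq
  exact algebraMap_functionField_injective W hpq

/-- `σ_{P₀} = id`. -/
theorem substHom_generic :
    substHom W (equation_xK_yK W) (transcendental_xK W) = AlgHom.id k W.FunctionField := by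
  apply algHom_ext
  · rw [substHom_xK, AlgHom.id_apply]
  · rw [substHom_yK, AlgHom.id_apply]

/-- the image of a transcendental element under a `k`-embedding is transcendental. -/
theorem transcendental_map {L' : Type*} [Field L'] [Algebra k L'] (τ : L →ₐ[k] L') {u : L}
    (hX : Transcendental k u) : Transcendental k (τ u) :=
  fun h => hX ((isAlgebraic_algHom_iff τ τ.injective).mp h)

/-! ### Non-constant fractions are transcendental -/

/-- the `k`-embedding `k(X) → K`. -/
noncomputable def ratHom : RatFunc k →ₐ[k] W.FunctionField :=
  IsFractionRing.liftAlgHom (g := IsScalarTower.toAlgHom k k[X] W.FunctionField)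
    (show Function.Injective (IsScalarTower.toAlgHom k k[X] W.FunctionField) from
      algebraMap_functionField_injective W)

theorem ratHom_algebraMap (p : k[X]) :
    ratHom W (algebraMap k[X] (RatFunc k) p) = algebraMap k[X] W.FunctionField p := by
  rw [ratHom, IsFractionRing.liftAlgHom_apply, IsFractionRing.lift_algebraMap]
  rfl

/-- **(E7), first sentence: a point of positive degree has transcendental `x`-coordinate.** If
`z · c V = c U` with `U, V` coprime and not both constant, then `z` is transcendental over `k`. -/
theorem transcendental_of_isCoprime {U V : k[X]} (hUV : IsCoprime U V)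
    (hdeg : 0 < max U.natDegree V.natDegree) {z : W.FunctionField}
    (hz : z * algebraMap k[X] W.FunctionField V = algebraMap k[X] W.FunctionField U) :
    Transcendental k z := by
  have hV : V ≠ 0 := by
    rintro rfl
    rw [map_zero, mul_zero] at hz
    have hU : U = 0 := algebraMap_functionField_injective W (by rw [← hz, map_zero])
    rw [hU] at hUV
    exact not_isCoprime_zero_zero hUV
  have hV' : algebraMap k[X] (RatFunc k) V ≠ 0 := by
    rw [Ne, map_eq_zero_iff _ (IsFractionRing.injective k[X] (RatFunc k))]; exact hV
  have hVK : algebraMap k[X] W.FunctionField V ≠ 0 := by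
    rw [Ne, map_eq_zero_iff _ (algebraMap_functionField_injective W)]; exact hV
  set f : RatFunc k := algebraMap k[X] (RatFunc k) U / algebraMap k[X] (RatFunc k) V with hf
  have hzf : z = ratHom W f := by
    rw [hf, map_div₀, ratHom_algebraMap, ratHom_algebraMap, eq_div_iff hVK, hz]
  have hfC : ¬ ∃ c, f = RatFunc.C c := by
    rintro ⟨c, hc⟩
    rw [hf, div_eq_iff hV', ← RatFunc.algebraMap_C, ← map_mul] at hc
    have hUV' : U = Polynomial.C c * V := IsFractionRing.injective k[X] (RatFunc k) hc
    have hVu : IsUnit V := by
      rw [hUV'] at hUV
      exact hUV.isUnit_of_dvd' (dvd_mul_left V _) dvd_rfl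
    have hV0 : V.natDegree = 0 := natDegree_eq_zero_of_isUnit hVu
    have hU0 : U.natDegree = 0 := by
      have := natDegree_C_mul_le c V
      rw [← hUV', hV0] at this
      omega
    rw [hU0, hV0] at hdeg
    simp at hdeg
  rw [hzf]
  exact fun h => RatFunc.transcendental_of_ne_C f hfC
    ((isAlgebraic_algHom_iff (ratHom W) (ratHom W).injective).mp h)

/-! ### Algebraic points -/

/-- on a Weierstrass curve, a point with `x`-coordinate algebraic over `k` has `y`-coordinate algebraic
over `k`. -/
theorem isAlgebraic_y {u v : L} (h : (W⁄L).Equation u v) (hu : IsAlgebraic k u) :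
    IsAlgebraic k v := by
  rw [equation_iff] at h
  simp only [baseChange_a₁, baseChange_a₂, baseChange_a₃, baseChange_a₄, baseChange_a₆] at h
  let F := algebraicClosure k L
  let u' : F := ⟨u, mem_algebraicClosure_iff.mpr hu⟩
  have key : ∀ b c : F, v ^ 2 + algebraMap F L b * v - algebraMap F L c = 0 → IsAlgebraic F v := by
    intro b c hbc
    refine ⟨Polynomial.X ^ 2 + Polynomial.C b * Polynomial.X - Polynomial.C c, ?_, ?_⟩
    · intro h0
      have := congrArg (fun p => Polynomial.coeff p 2) h0
      simp at this
    · simp only [map_sub, map_add, map_mul, map_pow, aeval_X, aeval_C]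
      exact hbc
  have hF : IsAlgebraic F v := by
    apply key (algebraMap k F W.a₁ * u' + algebraMap k F W.a₃)
      (u' ^ 3 + algebraMap k F W.a₂ * u' ^ 2 + algebraMap k F W.a₄ * u' + algebraMap k F W.a₆)
    have e1 : algebraMap F L u' = u := rfl
    have e2 : ∀ a : k, algebraMap F L (algebraMap k F a) = algebraMap k L a := fun a => rfl
    simp only [map_add, map_mul, map_pow, e1, e2]
    linear_combination h
  exact hF.restrictScalars k

section AlgPoints

variable (L) [DecidableEq L]

/-- **the subgroup of points of `W(L)` with coordinates algebraic over `k`** (the image of the points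
over the algebraic closure of `k` in `L`). -/
noncomputable def algPoints : AddSubgroup (W⁄L).Point :=
  (Point.map (W' := W) (algebraicClosure k L).val).range

variable {L}

theorem some_mem_algPoints_iff {u v : L} (h : (W⁄L).Nonsingular u v) :
    Point.some u v h ∈ algPoints W L ↔ IsAlgebraic k u := by
  constructor
  · rintro ⟨P, hP⟩
    cases P with
    | zero => exact absurd hP.symm (Point.some_ne_zero h)
    | some u' v' h' =>
      rw [Point.map_some] at hP
      have hu : (algebraicClosure k L).val u' = u := (Point.some.inj hP).1
      rw [← hu]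
      exact mem_algebraicClosure_iff.mp u'.2
  · intro hu
    have hv := isAlgebraic_y W h.1 hu
    let u' : algebraicClosure k L := ⟨u, mem_algebraicClosure_iff.mpr hu⟩
    let v' : algebraicClosure k L := ⟨v, mem_algebraicClosure_iff.mpr hv⟩
    have h' : (W⁄(algebraicClosure k L)).Nonsingular u' v' :=
      (W.baseChange_nonsingular (algebraicClosure k L).val.injective u' v').mp h
    exact ⟨Point.some u' v' h', by rw [Point.map_some]; rfl⟩

/-- points coming from an algebraic extension of `k` are algebraic points. -/
theorem map_mem_algPoints {F : Type*} [Field F] [Algebra k F] [Algebra.IsAlgebraic k F]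
    [DecidableEq F] (f : F →ₐ[k] L) (P : (W⁄F).Point) : Point.map f P ∈ algPoints W L := by
  cases P with
  | zero => exact zero_mem _
  | some x y h =>
    rw [Point.map_some, some_mem_algPoints_iff]
    exact (Algebra.IsAlgebraic.isAlgebraic x).algHom f

end AlgPoints

/-- **translates of the generic point by algebraic (e.g. constant) points have transcendental
`x`-coordinate** (else `P₀` itself would be an algebraic point). -/
theorem transcendental_of_genericPoint_add [DecidableEq W.FunctionField] (hΔ : W.Δ ≠ 0)
    {T : (W⁄W.FunctionField).Point} (hT : T ∈ algPoints W W.FunctionField)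
    {u v : W.FunctionField} (h : (W⁄W.FunctionField).Nonsingular u v)
    (hR : genericPoint W hΔ + T = Point.some u v h) : Transcendental k u := by
  intro hu
  have h1 : Point.some u v h ∈ algPoints W W.FunctionField :=
    (some_mem_algPoints_iff W h).mpr hu
  have h2 : genericPoint W hΔ ∈ algPoints W W.FunctionField := by
    have : genericPoint W hΔ = Point.some u v h - T := by rw [← hR, add_sub_cancel_right]
    rw [this]
    exact sub_mem h1 hT
  rw [IotaDescent23.genericPoint, some_mem_algPoints_iff] at h2
  exact transcendental_xK W h2

end Fermat.Agent.ES.Q58.SubstEmb17
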