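import Fermat.Agent.ES.Q58.OddDeg2
import Fermat.Agent.ES.Q58.SubstEmb17
import Fermat.Agent.ES.Q58.CompDeg9

/-!
# EC Eichler–Shimura at the generic point (E2, E6, E7, E8, E9(o), E10(a),(b))

`k` a field, `W : Affine k` with `Δ ≠ 0`, `K := W.FunctionField`, `fr : K →ₐ[k] K` with
`fr z = z ^ ℓ` (so in practice `k = ZMod ℓ`), `φ := Point.map fr`, `P₀` the generic point.
With Manin's lemma `d(P₀ − φ P₀) = h` as a hypothesis (literal shape of `Manin9.manin`) we prove
`φ (φ P₀) − (1 + ℓ − h) • φ P₀ + ℓ • P₀ = 0` in `E(K)`.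
-/

set_option autoImplicit false
set_option linter.unusedSectionVars false

namespace Fermat.Agent.ES.Q58.FrobCore2

open Polynomial WeierstrassCurve WeierstrassCurve.Affine
open Fermat.Agent.ES.Q58.PLPoly2 Fermat.Agent.ES.Q58.PLGlue2 Fermat.Agent.ES.Q58.QuadForm2
  Fermat.Agent.ES.Q58.MapHom2 Fermat.Agent.ES.Q58.OddDeg2 Fermat.Agent.ES.Q58.IotaDescent23
  Fermat.Agent.ES.Q58.SubstEmb17 Fermat.Agent.ES.Q58.CompDeg9

section Bridge

variable {R S F K : Type*} [CommRing R] [CommRing S] [Field F] [Field K] [DecidableEq F]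
  [DecidableEq K] [Algebra R S] [Algebra R F] [Algebra S F] [IsScalarTower R S F] [Algebra R K]
  [Algebra S K] [IsScalarTower R S K]

/-- Mathlib's `Point.map` is the ring-hom `mapHom`. -/
theorem map_eq_mapHom (W' : Affine R) (f : F →ₐ[S] K)
    (h : (W'⁄F).map (f : F →+* K) = W'⁄K) (P : (W'⁄F).Point) :
    Point.map f P = mapHom (f : F →+* K) h P := by
  rcases P with _ | ⟨x, y, hxy⟩
  · rw [← Point.zero_def, mapHom_zero]; rfl
  · obtain ⟨h', e⟩ := mapHom_some (f : F →+* K) h hxy
    rw [e, Point.map_some]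
    rfl

theorem map_xRep (W' : Affine R) (f : F →ₐ[S] K) (P : (W'⁄F).Point) (i : Fin 2) :
    (Point.map f P).xRep i = f (P.xRep i) := by
  rw [map_eq_mapHom W' f (W'.map_baseChange f), mapHom_xRep]
  rfl

end Bridge

variable {k : Type*} [Field k] (W : Affine k)

/-- `c : k[X] →+* K` -/
noncomputable def cK : k[X] →+* W.FunctionField := algebraMap k[X] W.FunctionField

theorem cK_injective : Function.Injective (cK W) := algebraMap_functionField_injective W

theorem map_cK_comp_C : W.map ((cK W).comp C) = (W⁄W.FunctionField) := by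
  have : (cK W).comp C = algebraMap k W.FunctionField := by
    ext a
    simp only [cK, RingHom.comp_apply]
    rw [IsScalarTower.algebraMap_apply k k[X] W.FunctionField]
    rfl
  rw [this]
  rfl


section Core

variable [DecidableEq W.FunctionField] (hΔ : W.Δ ≠ 0)

include hΔ in
/-- odd points have rational `x`-coordinate -/
theorem isRat_of_mem_oddPoints {R : (W⁄W.FunctionField).Point} (hR : R ∈ oddPoints W) :
    IsRat (cK W) R := by
  rcases R with _ | ⟨x, y, hxy⟩
  · exact ⟨1, 0, xRat_zero⟩
  · obtain ⟨U, V, hUV, _, h⟩ := exists_coprime_x_of_mem_oddPoints W hΔ hxy hR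
    refine ⟨U, V, hUV, ?_⟩
    rw [Point.xRep_some]
    simpa [cK] using h

include hΔ in
/-- **(E6)** the exact parallelogram law on the odd points. -/
theorem deg_PL_odd :
    PL (fun R : oddPoints W => deg (cK W) (R : (W⁄W.FunctionField).Point)) :=
  deg_PL (cK_injective W) W hΔ (map_cK_comp_C W) (oddPoints W)
    (fun _ hR => isRat_of_mem_oddPoints W hΔ hR)

/-- the generic point has degree one -/
theorem xRat_genericPoint : XRat (cK W) (genericPoint W hΔ) X 1 := by
  refine ⟨isCoprime_one_right, ?_⟩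
  rw [IotaDescent23.genericPoint, Point.xRep_some]
  simp [cK, xK]

theorem deg_genericPoint : deg (cK W) (genericPoint W hΔ) = 1 := by
  rw [deg_eq (cK_injective W) (xRat_genericPoint W hΔ)]
  simp [ht]


/-! ### endomorphisms of the group of points induced by `k`-endomorphisms of `K` -/

/-- the endomorphism of `E(K)` induced by a `k`-algebra endomorphism of `K` -/
noncomputable def toEnd (σ : W.FunctionField →ₐ[k] W.FunctionField) :
    Module.End ℤ (W⁄W.FunctionField).Point :=
  (Point.map (W' := W) σ).toIntLinearMap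

theorem toEnd_apply (σ : W.FunctionField →ₐ[k] W.FunctionField) (P : (W⁄W.FunctionField).Point) :
    toEnd W σ P = Point.map (W' := W) σ P := rfl

theorem toEnd_comp (σ τ : W.FunctionField →ₐ[k] W.FunctionField) :
    toEnd W (σ.comp τ) = toEnd W σ * toEnd W τ := by
  ext P
  rw [Module.End.mul_apply, toEnd_apply, toEnd_apply, toEnd_apply, Point.map_map]

variable (ℓ : ℕ) (fr : W.FunctionField →ₐ[k] W.FunctionField) (hfr : ∀ z, fr z = z ^ ℓ)

include hfr in
/-- every `k`-endomorphism commutes with the Frobenius -/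
theorem commute_toEnd (σ : W.FunctionField →ₐ[k] W.FunctionField) :
    Commute (toEnd W σ) (toEnd W fr) := by
  have : σ.comp fr = fr.comp σ := by
    refine AlgHom.ext fun z => ?_
    simp only [AlgHom.comp_apply, hfr, map_pow]
  show toEnd W σ * toEnd W fr = toEnd W fr * toEnd W σ
  rw [← toEnd_comp, ← toEnd_comp, this]

include hfr in
theorem commute_toEnd_aeval (σ : W.FunctionField →ₐ[k] W.FunctionField) (f : ℤ[X]) :
    Commute (toEnd W σ) (aeval (toEnd W fr) f) :=
  Algebra.commute_of_mem_adjoin_singleton_of_commute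
    (Polynomial.aeval_mem_adjoin_singleton ℤ (toEnd W fr)) (commute_toEnd W ℓ fr hfr σ)

include hfr in
/-- **naturality**: `σ_* (f(φ) S) = f(φ) (σ_* S)`. -/
theorem map_aeval (σ : W.FunctionField →ₐ[k] W.FunctionField) (f : ℤ[X])
    (S : (W⁄W.FunctionField).Point) :
    Point.map (W' := W) σ (aeval (toEnd W fr) f S) =
      aeval (toEnd W fr) f (Point.map (W' := W) σ S) := by
  have := congrArg (fun e : Module.End ℤ (W⁄W.FunctionField).Point => e S)
    (commute_toEnd_aeval W ℓ fr hfr σ f).eq
  simpa only [Module.End.mul_apply, toEnd_apply] using this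

/-- `[f] := f(φ) P₀` -/
noncomputable def evalPt (f : ℤ[X]) : (W⁄W.FunctionField).Point :=
  aeval (toEnd W fr) f (genericPoint W hΔ)

/-- `D f := d [f]` -/
noncomputable def Dfun (f : ℤ[X]) : ℤ := deg (cK W) (evalPt W hΔ fr f)

include hfr in
/-- stability of the odd points under `f(φ)` -/
theorem aeval_mem_oddPoints (f : ℤ[X]) {S : (W⁄W.FunctionField).Point} (hS : S ∈ oddPoints W) :
    aeval (toEnd W fr) f S ∈ oddPoints W := by
  rw [mem_oddPoints_iff] at hS ⊢
  rw [map_aeval W ℓ fr hfr, hS, map_neg]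

include hfr in
theorem evalPt_mem (f : ℤ[X]) : evalPt W hΔ fr f ∈ oddPoints W :=
  aeval_mem_oddPoints W ℓ fr hfr f (genericPoint_mem_oddPoints W hΔ)


theorem evalPt_add (f g : ℤ[X]) :
    evalPt W hΔ fr (f + g) = evalPt W hΔ fr f + evalPt W hΔ fr g := by
  simp only [evalPt, map_add, LinearMap.add_apply]

theorem evalPt_sub (f g : ℤ[X]) :
    evalPt W hΔ fr (f - g) = evalPt W hΔ fr f - evalPt W hΔ fr g := by
  simp only [evalPt, map_sub, LinearMap.sub_apply]

theorem evalPt_one : evalPt W hΔ fr 1 = genericPoint W hΔ := by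
  simp only [evalPt, map_one, Module.End.one_apply]

theorem evalPt_mul (f g : ℤ[X]) :
    evalPt W hΔ fr (f * g) = aeval (toEnd W fr) f (evalPt W hΔ fr g) := by
  simp only [evalPt, map_mul, Module.End.mul_apply]

theorem evalPt_X_mul (g : ℤ[X]) :
    evalPt W hΔ fr (X * g) = Point.map (W' := W) fr (evalPt W hΔ fr g) := by
  rw [evalPt_mul, aeval_X, toEnd_apply]

include hfr in
/-- (PL) for `D` -/
theorem Dfun_PL : PL (Dfun W hΔ fr) := by
  intro f g
  have := deg_PL_odd W hΔ ⟨evalPt W hΔ fr f, evalPt_mem W hΔ ℓ fr hfr f⟩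
    ⟨evalPt W hΔ fr g, evalPt_mem W hΔ ℓ fr hfr g⟩
  simp only [AddSubgroup.coe_add, AddSubgroup.coe_sub] at this
  simp only [Dfun, evalPt_add, evalPt_sub]
  exact this

theorem Dfun_one : Dfun W hΔ fr 1 = 1 := by
  rw [Dfun, evalPt_one, deg_genericPoint]

include hfr hΔ in
/-- Frobenius multiplies the degree of an odd point by `ℓ` -/
theorem deg_map_fr {R : (W⁄W.FunctionField).Point} (hR : R ∈ oddPoints W) :
    deg (cK W) (Point.map (W' := W) fr R) = ℓ * deg (cK W) R := by
  rw [map_eq_mapHom W fr (W.map_baseChange fr)]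
  refine deg_map_pow (cK_injective W) (fr : W.FunctionField →+* W.FunctionField) _ ℓ ?_
    (isRat_of_mem_oddPoints W hΔ hR)
  intro P
  show fr (cK W P) = cK W (P ^ ℓ)
  rw [hfr, map_pow]

include hfr in
theorem Dfun_X_mul (g : ℤ[X]) : Dfun W hΔ fr (X * g) = ℓ * Dfun W hΔ fr g := by
  rw [Dfun, evalPt_X_mul, deg_map_fr W hΔ ℓ fr hfr (evalPt_mem W hΔ ℓ fr hfr g)]
  rfl


/-! ### the substitution endomorphism `σ_R` for an odd point of positive degree (E7) -/

include hΔ in
theorem exists_subst {R : (W⁄W.FunctionField).Point} (hR : R ∈ oddPoints W)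
    (hdeg : 1 ≤ deg (cK W) R) :
    ∃ σ : W.FunctionField →ₐ[k] W.FunctionField,
      Point.map (W' := W) σ (genericPoint W hΔ) = R ∧
      (∀ S ∈ oddPoints W, Point.map (W' := W) σ S ∈ oddPoints W) ∧
      (∀ S ∈ oddPoints W, deg (cK W) (Point.map (W' := W) σ S) = deg (cK W) S * deg (cK W) R) := by
  have hc := cK_injective W
  rcases R with _ | ⟨XR, YR, hXY⟩
  · exfalso
    rw [← Point.zero_def, deg_zero hc] at hdeg
    omega
  obtain ⟨A, B, hAB⟩ := isRat_of_mem_oddPoints W hΔ hR
  have hdegAB : deg (cK W) (Point.some XR YR hXY) = ht A B := deg_eq hc hAB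
  have hpos : 0 < max A.natDegree B.natDegree := by
    have : (1 : ℤ) ≤ (ht A B : ℕ) := by rw [← hdegAB]; exact hdeg
    have h' : 1 ≤ ht A B := by exact_mod_cast this
    exact h'
  have hrel : XR * algebraMap k[X] W.FunctionField B = algebraMap k[X] W.FunctionField A := by
    have := hAB.2
    rw [Point.xRep_some] at this
    simpa [cK] using this
  have htr : Transcendental k XR := transcendental_of_isCoprime W hAB.1 hpos hrel
  have hB : algebraMap k[X] W.FunctionField B ≠ 0 := by
    intro hB0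
    rw [hB0, mul_zero] at hrel
    have hA0 : A = 0 := algebraMap_functionField_injective W (by rw [← hrel, map_zero])
    have hB0' : B = 0 := algebraMap_functionField_injective W (by rw [hB0, map_zero])
    have := hAB.1
    rw [hA0, hB0'] at this
    exact not_isUnit_zero (isCoprime_zero_left.mp this)
  have hXR : algebraMap k[X] W.FunctionField A / algebraMap k[X] W.FunctionField B = XR := by
    rw [div_eq_iff hB, hrel]
  set σ : W.FunctionField →ₐ[k] W.FunctionField := substHom W hXY.1 htr with hσ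
  have hσc : ∀ p : k[X], σ (algebraMap k[X] W.FunctionField p) = aeval XR p :=
    fun p => substHom_algebraMap_polynomial W hXY.1 htr p
  -- σ commutes with ι
  have hcomm : ∀ z, σ (iota W z) = iota W (σ z) := by
    have : σ.comp ((iota W : W.FunctionField ≃ₐ[k] W.FunctionField) :
          W.FunctionField →ₐ[k] W.FunctionField) =
        ((iota W : W.FunctionField ≃ₐ[k] W.FunctionField) :
          W.FunctionField →ₐ[k] W.FunctionField).comp σ := by
      apply algHom_ext W
      · simp only [AlgHom.comp_apply, AlgEquiv.coe_toAlgHom]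
        rw [iota_xK, hσ, substHom_xK, iota_x_of_mem_oddPoints W hXY hR]
      · simp only [AlgHom.comp_apply, AlgEquiv.coe_toAlgHom]
        rw [iota_yK, hσ]
        simp only [map_sub, map_neg, map_mul, AlgHom.commutes, substHom_xK, substHom_yK]
        rw [iota_y_of_mem_oddPoints' W hXY hR]
    intro z
    have := congrArg (fun e : W.FunctionField →ₐ[k] W.FunctionField => e z) this
    simpa only [AlgHom.comp_apply, AlgEquiv.coe_toAlgHom] using this
  refine ⟨σ, map_substHom_genericPoint W hΔ hXY htr, fun S hS => map_mem_oddPoints W σ hcomm hS,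
    fun S hS => ?_⟩
  obtain ⟨U, V, hUV⟩ := isRat_of_mem_oddPoints W hΔ hS
  have key := comp_ht hUV.1 hAB.1
  -- c (homEval n P A B) = (c B)^n * σ (c P)
  have hev : ∀ P : k[X], P.natDegree ≤ ht U V →
      cK W (homEval (ht U V) P A B) =
        algebraMap k[X] W.FunctionField B ^ (ht U V) * σ (algebraMap k[X] W.FunctionField P) := by
    intro P hP
    have := ev_homEval (IsScalarTower.toAlgHom k k[X] W.FunctionField) hP A
      (B := B) (by simpa using hB)
    simp only [IsScalarTower.coe_toAlgHom'] at this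
    rw [hXR] at this
    rw [hσc]
    exact this
  have hX : XRat (cK W) (Point.map (W' := W) σ S) (homEval (ht U V) U A B)
      (homEval (ht U V) V A B) := by
    refine ⟨key.1, ?_⟩
    rw [map_xRep, map_xRep, hev U (natDegree_le_ht_left U V), hev V (natDegree_le_ht_right U V)]
    have h2 := congrArg σ hUV.2
    simp only [map_mul] at h2
    have h2' : σ (S.xRep 0) * σ (algebraMap k[X] W.FunctionField V) =
        σ (S.xRep 1) * σ (algebraMap k[X] W.FunctionField U) := h2
    linear_combination (algebraMap k[X] W.FunctionField B ^ (ht U V)) * h2'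
  rw [deg_eq hc hX, deg_eq hc hUV, hdegAB, key.2]
  push_cast
  ring


include hfr in
/-- **multiplicativity** `D(f g) = D f · D g` when `D g ≥ 1` (E7/E8). -/
theorem Dfun_mul (f g : ℤ[X]) (hg : 1 ≤ Dfun W hΔ fr g) :
    Dfun W hΔ fr (f * g) = Dfun W hΔ fr f * Dfun W hΔ fr g := by
  obtain ⟨σ, h1, -, h3⟩ := exists_subst W hΔ (evalPt_mem W hΔ ℓ fr hfr g) hg
  have : evalPt W hΔ fr (f * g) = Point.map (W' := W) σ (evalPt W hΔ fr f) := by
    rw [evalPt_mul, ← h1, ← map_aeval W ℓ fr hfr]
    rfl
  rw [Dfun, this, h3 _ (evalPt_mem W hΔ ℓ fr hfr f)]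
  rfl

/-- an element killed up to sign by `2` and by `3` is zero -/
theorem eq_zero_of_smul_eq {G : Type*} [AddCommGroup G] (c : G)
    (h2 : (2 : ℤ) • c = c ∨ (2 : ℤ) • c = -c) (h3 : (3 : ℤ) • c = c ∨ (3 : ℤ) • c = -c) :
    c = 0 := by
  have e2 : (2 : ℤ) • c = c + c := two_smul ℤ c
  have e3 : (3 : ℤ) • c = c + c + c := by
    have : (3 : ℤ) = 2 + 1 := by norm_num
    rw [this, add_smul, one_smul, e2]
  rw [e2] at h2
  rw [e3] at h3
  rcases h2 with h2 | h2
  · -- c + c = c
    have := add_left_cancel (a := c) (b := c) (c := 0) (by rw [h2, add_zero])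
    exact this
  · -- c + c = -c, so c + c + c = 0
    have h0 : c + c + c = 0 := by rw [h2, neg_add_cancel]
    rw [h0] at h3
    rcases h3 with h3 | h3
    · exact h3.symm
    · exact neg_eq_zero.mp h3.symm

include hfr in
/-- **(E10)(a),(b)**: `D f = 0 ⇒ [f] = 0`. -/
theorem evalPt_eq_zero_of_Dfun (f : ℤ[X]) (h0 : Dfun W hΔ fr f = 0) : evalPt W hΔ fr f = 0 := by
  have hc := cK_injective W
  have hmem := evalPt_mem W hΔ ℓ fr hfr f
  -- for n ≠ 0 : n • c₀ = ± c₀
  have key : ∀ n : ℤ, n ≠ 0 → n • evalPt W hΔ fr f = evalPt W hΔ fr f ∨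
      n • evalPt W hΔ fr f = -evalPt W hΔ fr f := by
    intro n hn
    -- σ_n
    have hnP : n • genericPoint W hΔ ∈ oddPoints W :=
      (oddPoints W).zsmul_mem (genericPoint_mem_oddPoints W hΔ) n
    have hdn : deg (cK W) (n • genericPoint W hΔ) = n ^ 2 := by
      have := (deg_PL_odd W hΔ).zsmul n ⟨genericPoint W hΔ, genericPoint_mem_oddPoints W hΔ⟩
      simp only [AddSubgroup.coe_zsmul] at this
      rw [this, deg_genericPoint, mul_one]
    have hpos : 1 ≤ deg (cK W) (n • genericPoint W hΔ) := by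
      rw [hdn]
      have : 0 < n ^ 2 := by positivity
      omega
    obtain ⟨σ, h1, -, -⟩ := exists_subst W hΔ hnP hpos
    have e1 : Point.map (W' := W) σ (evalPt W hΔ fr f) = n • evalPt W hΔ fr f := by
      rw [evalPt, map_aeval W ℓ fr hfr, h1, map_zsmul]
    -- the x-coordinate of c₀ is a constant
    apply Point.eq_or_eq_neg_of_xRep_eq_xRep
    rw [← e1]
    generalize hc₀ : evalPt W hΔ fr f = c₀ at h0 hmem ⊢
    rcases c₀ with _ | ⟨α, β, hαβ⟩
    · rfl
    obtain ⟨U, V, hUV⟩ := isRat_of_mem_oddPoints W hΔ hmem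
    have hd : (ht U V : ℤ) = 0 := by
      rw [← deg_eq hc hUV]
      rw [Dfun, hc₀] at h0
      exact h0
    have hd' : ht U V = 0 := by exact_mod_cast hd
    have hU : U.natDegree = 0 := Nat.le_zero.mp (hd' ▸ natDegree_le_ht_left U V)
    have hV : V.natDegree = 0 := Nat.le_zero.mp (hd' ▸ natDegree_le_ht_right U V)
    obtain ⟨u, rfl⟩ : ∃ u, U = C u := ⟨_, eq_C_of_natDegree_eq_zero hU⟩
    obtain ⟨v, rfl⟩ : ∃ v, V = C v := ⟨_, eq_C_of_natDegree_eq_zero hV⟩
    have hrel : α * algebraMap k W.FunctionField v = algebraMap k W.FunctionField u := by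
      have := hUV.2
      rw [Point.xRep_some] at this
      rw [algebraMap_eq_coordinateRing, algebraMap_eq_coordinateRing]
      simpa [cK] using this
    have hv : v ≠ 0 := by
      rintro rfl
      rw [map_zero, mul_zero] at hrel
      have hu : u = 0 := by
        have : algebraMap k W.FunctionField u = algebraMap k W.FunctionField 0 := by
          rw [← hrel, map_zero]
        exact (algebraMap k W.FunctionField).injective this
      have := hUV.1
      rw [hu, map_zero] at this
      exact not_isUnit_zero (isCoprime_zero_left.mp this)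
    have hα : α = algebraMap k W.FunctionField (u / v) := by
      rw [map_div₀, eq_div_iff ((_root_.map_ne_zero _).mpr hv), hrel]
    funext i
    rw [map_xRep, Point.xRep_some]
    fin_cases i
    · simp [hα]
    · simp
  exact eq_zero_of_smul_eq _ (key 2 (by norm_num)) (key 3 (by norm_num))


theorem evalPt_one_sub_X :
    evalPt W hΔ fr (1 - X) = genericPoint W hΔ - Point.map (W' := W) fr (genericPoint W hΔ) := by
  rw [evalPt_sub, evalPt_one]
  congr 1
  rw [evalPt, aeval_X, toEnd_apply]

include hfr in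
/-- **(E9)(o)**: `P₀ − φ P₀` has positive degree. -/
theorem one_le_Dfun_one_sub_X (hℓ : 1 < ℓ) : 1 ≤ Dfun W hΔ fr (1 - X) := by
  have h0 : 0 ≤ Dfun W hΔ fr (1 - X) := deg_nonneg _
  rcases h0.lt_or_eq with h | h
  · omega
  exfalso
  have hz := evalPt_eq_zero_of_Dfun W hΔ ℓ fr hfr (1 - X) h.symm
  rw [evalPt_one_sub_X, sub_eq_zero, IotaDescent23.genericPoint, Point.map_some] at hz
  have hx : xK W = fr (xK W) := (Point.some.inj hz).1
  rw [hfr] at hx
  have htr := transcendental_xK W
  rw [transcendental_iff] at htr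
  have := htr (X ^ ℓ - X) (by rw [map_sub, map_pow, aeval_X, ← hx, sub_self])
  exact FiniteField.X_pow_card_sub_X_ne_zero k hℓ this

include hfr in
/-- **EC Eichler–Shimura at the generic point**, with Manin's lemma as a hypothesis. -/
theorem relation_genericPoint (hℓ : 1 < ℓ) (h : ℕ)
    (hManin : ∀ {XR YR : W.FunctionField} (hR : (W⁄W.FunctionField).Nonsingular XR YR),
      genericPoint W hΔ - Point.map (W' := W) fr (genericPoint W hΔ) = Point.some XR YR hR →
      Transcendental k XR → ∀ {N D : k[X]}, IsCoprime N D →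
      XR * algebraMap k[X] W.FunctionField D = algebraMap k[X] W.FunctionField N →
      max N.natDegree D.natDegree = h) :
    Point.map (W' := W) fr (Point.map (W' := W) fr (genericPoint W hΔ))
      - ((1 : ℤ) + ℓ - h) • Point.map (W' := W) fr (genericPoint W hΔ)
      + (ℓ : ℤ) • genericPoint W hΔ = 0 := by
  have hc := cK_injective W
  have hpos := one_le_Dfun_one_sub_X W hΔ ℓ fr hfr hℓ
  -- Manin: D(1 - X) = h
  have hD : Dfun W hΔ fr (1 - X) = h := by
    have hmem := evalPt_mem W hΔ ℓ fr hfr (1 - X)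
    have hpos' := hpos
    rw [Dfun] at hpos' ⊢
    rw [evalPt_one_sub_X] at hmem hpos' ⊢
    generalize hR : genericPoint W hΔ - Point.map (W' := W) fr (genericPoint W hΔ) = R
      at hmem hpos' ⊢
    rcases R with _ | ⟨XR, YR, hXY⟩
    · exfalso
      rw [← Point.zero_def, deg_zero hc] at hpos'
      omega
    obtain ⟨N, D, hND⟩ := isRat_of_mem_oddPoints W hΔ hmem
    have hdeg := deg_eq hc hND
    have hrel : XR * algebraMap k[X] W.FunctionField D = algebraMap k[X] W.FunctionField N := by
      have := hND.2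
      rw [Point.xRep_some] at this
      simpa [cK] using this
    have hp : 0 < max N.natDegree D.natDegree := by
      have : (1 : ℤ) ≤ (ht N D : ℕ) := by rw [← hdeg]; exact hpos'
      have h' : 1 ≤ ht N D := by exact_mod_cast this
      exact h'
    have htr : Transcendental k XR := transcendental_of_isCoprime W hND.1 hp hrel
    have := hManin hXY hR htr hND.1 hrel
    rw [hdeg]
    show ((max N.natDegree D.natDegree : ℕ) : ℤ) = h
    rw [this]
  have hM := Dfun_mul W hΔ ℓ fr hfr (1 + X) (1 - X) hpos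
  have hfa := frob_algebra (Dfun W hΔ fr) (Dfun_PL W hΔ ℓ fr hfr) (ℓ : ℤ) (Dfun_one W hΔ fr)
    (Dfun_X_mul W hΔ ℓ fr hfr) hM
  have hz := evalPt_eq_zero_of_Dfun W hΔ ℓ fr hfr _ hfa
  rw [hD] at hz
  rw [evalPt] at hz
  simp only [map_add, map_sub, map_mul, aeval_X, aeval_C, LinearMap.add_apply,
    LinearMap.sub_apply, Module.End.mul_apply, pow_two, Module.algebraMap_end_apply,
    toEnd_apply] at hz
  simpa only [sub_smul, add_smul] using hz

end Core

end Fermat.Agent.ES.Q58.FrobCore2
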