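/-
Programme Q (S58, elliptic Eichler–Shimura relation), leaf (E10)(c) (helper23):
**a quadratic relation in Frobenius that kills the generic point kills every point over every
field.**

`ℓ` prime, `W : WeierstrassCurve.Affine (ZMod ℓ)`, `K = W.FunctionField`, `P₀ = (x, y) ∈ W(K)` the
generic point (`IotaDescent23.genericPoint`).  For a field `A` which is a `ZMod ℓ`-algebra and a
`ZMod ℓ`-algebra endomorphism `fr` of `A` with `fr z = z ^ ℓ`, put `φ := Point.map fr` and
`ψ := φ ∘ φ − a • φ + b` (`a b : ℤ`).  Every `ZMod ℓ`-algebra homomorphism commutes with `z ↦ z ^ ℓ`,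
so `ψ` is natural in `A`.

* `frobAlg A` : the Frobenius `z ↦ z ^ ℓ` as a `ZMod ℓ`-algebra endomorphism of a field `A`;
* `map_quad` : naturality of `ψ` along `Point.map σ`;
* `quad_eq_zero_of_transcendental` : `ψ P₀ = 0 ⟹ ψ R = 0` for every point `R` (over any field)
  whose `x`-coordinate is transcendental over `ZMod ℓ` (`R = (σ_R)_* P₀`, `SubstEmb17.substHom`);
* **`relation_of_generic`** : `ψ P₀ = 0 ⟹ ψ P = 0` for EVERY point `P` over EVERY field `L`.
  If `x_P` is algebraic, `P` comes from `M := ` the algebraic closure of `ZMod ℓ` in `L`; embed `M`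
  into an algebraic closure `K̄` of `K`; there `P + P₀` and `P₀` have transcendental
  `x`-coordinates, so `ψ(P) = ψ(P + P₀) − ψ(P₀) = 0` in `W(K̄)`, and `Point.map` is injective.
-/
import Mathlib
import Fermat.Agent.ES.Q58.IotaDescent23
import Fermat.Agent.ES.Q58.SubstEmb17

set_option autoImplicit false

namespace Fermat.Agent.ES.Q58.GenericAll23

open WeierstrassCurve WeierstrassCurve.Affine Polynomial
open Fermat.Agent.ES.Q58.IotaDescent23 Fermat.Agent.ES.Q58.SubstEmb17

variable {ℓ : ℕ} [Fact ℓ.Prime]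

/-! ### Frobenius as a `ZMod ℓ`-algebra endomorphism -/

theorem charP_of_algebra (A : Type*) [Field A] [Algebra (ZMod ℓ) A] : CharP A ℓ :=
  charP_of_injective_algebraMap (algebraMap (ZMod ℓ) A).injective ℓ

/-- the Frobenius `z ↦ z ^ ℓ` of a field which is a `ZMod ℓ`-algebra, as a `ZMod ℓ`-algebra
endomorphism. -/
noncomputable def frobAlg (A : Type*) [Field A] [Algebra (ZMod ℓ) A] : A →ₐ[ZMod ℓ] A :=
  haveI : CharP A ℓ := charP_of_algebra A
  { frobenius A ℓ with
    commutes' := fun c => by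
      show (algebraMap (ZMod ℓ) A c) ^ ℓ = algebraMap (ZMod ℓ) A c
      rw [← map_pow, ZMod.pow_card] }

theorem frobAlg_apply (A : Type*) [Field A] [Algebra (ZMod ℓ) A] (z : A) :
    frobAlg (ℓ := ℓ) A z = z ^ ℓ := rfl

/-- every `ZMod ℓ`-algebra homomorphism commutes with the Frobenius maps. -/
theorem comp_frob {A B : Type*} [Field A] [Field B] [Algebra (ZMod ℓ) A] [Algebra (ZMod ℓ) B]
    (σ : A →ₐ[ZMod ℓ] B) (frA : A →ₐ[ZMod ℓ] A) (hfrA : ∀ z, frA z = z ^ ℓ)
    (frB : B →ₐ[ZMod ℓ] B) (hfrB : ∀ z, frB z = z ^ ℓ) : σ.comp frA = frB.comp σ := by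
  ext z
  rw [AlgHom.comp_apply, AlgHom.comp_apply, hfrA, hfrB, map_pow]

/-! ### The quadratic expression `ψ = φ² − a φ + b` and its naturality -/

section Quad

variable (W : Affine (ZMod ℓ))

/-- `ψ_A(P) = φ(φ P) − a • φ P + b • P`, `φ = Point.map fr`. -/
noncomputable def quad {A : Type*} [Field A] [DecidableEq A] [Algebra (ZMod ℓ) A]
    (fr : A →ₐ[ZMod ℓ] A) (a b : ℤ) (P : (W⁄A).Point) : (W⁄A).Point :=
  Point.map (W' := W) fr (Point.map (W' := W) fr P) - a • Point.map (W' := W) fr P + b • P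

theorem quad_add {A : Type*} [Field A] [DecidableEq A] [Algebra (ZMod ℓ) A]
    (fr : A →ₐ[ZMod ℓ] A) (a b : ℤ) (P Q : (W⁄A).Point) :
    quad W fr a b (P + Q) = quad W fr a b P + quad W fr a b Q := by
  unfold quad
  rw [map_add, map_add, smul_add, smul_add]
  abel

/-- naturality of `ψ`. -/
theorem map_quad {A B : Type*} [Field A] [Field B] [DecidableEq A] [DecidableEq B]
    [Algebra (ZMod ℓ) A] [Algebra (ZMod ℓ) B]
    (σ : A →ₐ[ZMod ℓ] B) (frA : A →ₐ[ZMod ℓ] A) (hfrA : ∀ z, frA z = z ^ ℓ)
    (frB : B →ₐ[ZMod ℓ] B) (hfrB : ∀ z, frB z = z ^ ℓ) (a b : ℤ) (P : (W⁄A).Point) :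
    Point.map (W' := W) σ (quad W frA a b P) = quad W frB a b (Point.map (W' := W) σ P) := by
  have hc : ∀ Q : (W⁄A).Point, Point.map (W' := W) σ (Point.map (W' := W) frA Q) =
      Point.map (W' := W) frB (Point.map (W' := W) σ Q) := by
    intro Q
    rw [Point.map_map, Point.map_map, comp_frob σ frA hfrA frB hfrB]
  unfold quad
  rw [map_add, map_sub, map_zsmul, map_zsmul, hc, hc]

end Quad

/-! ### From the generic point to all points -/

section Main

variable (W : Affine (ZMod ℓ)) [DecidableEq W.FunctionField] (hΔ : W.Δ ≠ 0)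
  (fr : W.FunctionField →ₐ[ZMod ℓ] W.FunctionField) (hfr : ∀ z, fr z = z ^ ℓ) (a b : ℤ)

include hfr in
/-- **points with transcendental `x`-coordinate**: `ψ P₀ = 0 ⟹ ψ R = 0`, because `R = (σ_R)_* P₀`. -/
theorem quad_eq_zero_of_transcendental
    (hgen : quad W fr a b (genericPoint W hΔ) = 0)
    {A : Type*} [Field A] [DecidableEq A] [Algebra (ZMod ℓ) A]
    (frA : A →ₐ[ZMod ℓ] A) (hfrA : ∀ z, frA z = z ^ ℓ)
    {u v : A} (h : (W⁄A).Nonsingular u v) (hu : Transcendental (ZMod ℓ) u) :
    quad W frA a b (Point.some u v h) = 0 := by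
  rw [← map_substHom_genericPoint W hΔ h hu, ← map_quad W _ fr hfr frA hfrA, hgen, map_zero]

omit [DecidableEq W.FunctionField] in
/-- **algebraic points**, over a field `B` that carries at least one point with transcendental
`x`-coordinate: if `ψ` kills the points with transcendental `x`-coordinate, it kills the algebraic
points as well (`T = (R + T) − R`). -/
theorem quad_eq_zero_of_mem_algPoints {B : Type*} [Field B] [DecidableEq B] [Algebra (ZMod ℓ) B]
    (frB : B →ₐ[ZMod ℓ] B)
    (htr : ∀ (u v : B) (h : (W⁄B).Nonsingular u v), Transcendental (ZMod ℓ) u →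
      quad W frB a b (Point.some u v h) = 0)
    {u₀ v₀ : B} (h₀ : (W⁄B).Nonsingular u₀ v₀) (hu₀ : Transcendental (ZMod ℓ) u₀)
    {T : (W⁄B).Point} (hT : T ∈ algPoints W B) : quad W frB a b T = 0 := by
  have h1 : quad W frB a b (Point.some u₀ v₀ h₀) = 0 := htr u₀ v₀ h₀ hu₀
  have hS : Point.some u₀ v₀ h₀ + T ∉ algPoints W B := by
    intro hmem
    have h2 : Point.some u₀ v₀ h₀ ∈ algPoints W B := by
      have : Point.some u₀ v₀ h₀ = (Point.some u₀ v₀ h₀ + T) - T := by rw [add_sub_cancel_right]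
      rw [this]
      exact sub_mem hmem hT
    exact hu₀ ((some_mem_algPoints_iff W h₀).mp h2)
  have h3 : quad W frB a b (Point.some u₀ v₀ h₀ + T) = 0 := by
    generalize Point.some u₀ v₀ h₀ + T = S at hS
    cases S with
    | zero => exact absurd (zero_mem _) hS
    | some u v h =>
      exact htr u v h (fun hu => hS ((some_mem_algPoints_iff W h).mpr hu))
  rw [quad_add, h1, zero_add] at h3
  exact h3

include hfr in
/-- **(E10)(c): a quadratic relation in Frobenius that holds at the generic point holds at every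
point over every field of characteristic `ℓ`.** -/
theorem relation_of_generic
    (hgen : Point.map (W' := W) fr (Point.map (W' := W) fr (genericPoint W hΔ))
      - a • Point.map (W' := W) fr (genericPoint W hΔ) + b • genericPoint W hΔ = 0)
    {L : Type*} [Field L] [DecidableEq L] [Algebra (ZMod ℓ) L]
    (frL : L →ₐ[ZMod ℓ] L) (hfrL : ∀ z, frL z = z ^ ℓ) (P : (W⁄L).Point) :
    Point.map (W' := W) frL (Point.map (W' := W) frL P) - a • Point.map (W' := W) frL P
      + b • P = 0 := by
  classical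
  have hgen' : quad W fr a b (genericPoint W hΔ) = 0 := hgen
  show quad W frL a b P = 0
  -- the algebraic points of `W(L)`
  have halg : ∀ T ∈ algPoints W L, quad W frL a b T = 0 := by
    rintro _ ⟨PM, rfl⟩
    -- `M` = algebraic closure of `ZMod ℓ` in `L`, embedded in an algebraic closure of `K`
    let Kb := AlgebraicClosure W.FunctionField
    let τ : (algebraicClosure (ZMod ℓ) L) →ₐ[ZMod ℓ] Kb := IsAlgClosed.lift
    let j : W.FunctionField →ₐ[ZMod ℓ] Kb := IsScalarTower.toAlgHom (ZMod ℓ) W.FunctionField Kb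
    have hx : Transcendental (ZMod ℓ) (j (xK W)) := transcendental_map j (transcendental_xK W)
    have h₀ : (W⁄Kb).Nonsingular (j (xK W)) (j (yK W)) :=
      (W.baseChange_nonsingular j.injective (xK W) (yK W)).mpr (nonsingular_xK_yK W hΔ)
    have h4 : quad W (frobAlg Kb) a b (Point.map (W' := W) τ PM) = 0 :=
      quad_eq_zero_of_mem_algPoints W a b (frobAlg Kb)
        (fun u v h hu => quad_eq_zero_of_transcendental W hΔ fr hfr a b hgen' (frobAlg Kb)
          (frobAlg_apply Kb) h hu) h₀ hx (map_mem_algPoints W τ PM)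
    rw [← map_quad W τ (frobAlg _) (frobAlg_apply _) (frobAlg Kb) (frobAlg_apply Kb)] at h4
    have h5 : quad W (frobAlg (algebraicClosure (ZMod ℓ) L)) a b PM = 0 :=
      Point.map_injective (W' := W) τ (by rw [h4, map_zero])
    rw [← map_quad W _ (frobAlg _) (frobAlg_apply _) frL hfrL, h5, map_zero]
  cases P with
  | zero => exact halg _ (zero_mem _)
  | some u v h =>
    by_cases hu : Transcendental (ZMod ℓ) u
    · exact quad_eq_zero_of_transcendental W hΔ fr hfr a b hgen' frL hfrL h hu
    · exact halg _ ((some_mem_algPoints_iff W h).mpr (not_not.mp hu))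

end Main

end Fermat.Agent.ES.Q58.GenericAll23
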