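/-
S58, EC-ES core, brick (B4) = (E9) Manin's lemma, constant points (helper14).

`W` a Weierstrass curve over `ZMod ℓ`, `M` a field that is a `ZMod ℓ`-algebra.
* `constPt W M : W.Point → (W⁄M).Point` : the constant point of `W(M)` attached to an
  `F_ℓ`-rational point; injective; compatible with `Point.map` along every `ZMod ℓ`-algebra
  hom, in particular FIXED by every such endomorphism (Frobenius);
* `mem_range_of_pow_eq` : `z ^ ℓ = z` in `M` ⇒ `z` lies in the prime field;
* `exists_constPt_of_map_eq` : a point of `W(M)` fixed by the Frobenius `z ↦ z ^ ℓ` is a constant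
  point.
-/
import Mathlib

set_option autoImplicit false
set_option linter.unusedSectionVars false

open Polynomial

namespace Fermat.Agent.ES.Q58.ManinConst14

open WeierstrassCurve WeierstrassCurve.Affine

variable {ℓ : ℕ} [Fact ℓ.Prime]

section PrimeField

variable {M : Type*} [Field M] [Algebra (ZMod ℓ) M]

/-- the fixed points of the `ℓ`-power map on a field of characteristic `ℓ` are the prime field. -/
theorem mem_range_of_pow_eq {z : M} (hz : z ^ ℓ = z) :
    z ∈ Set.range (algebraMap (ZMod ℓ) M) := by
  classical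
  by_contra hnot
  have hℓ : 2 ≤ ℓ := (Fact.out : ℓ.Prime).two_le
  set p : M[X] := X ^ ℓ - X with hp
  have hdeg : p.natDegree = ℓ := by
    rw [hp]
    exact FiniteField.X_pow_card_sub_X_natDegree_eq M (by omega)
  have hp0 : p ≠ 0 := by
    intro h
    rw [h, natDegree_zero] at hdeg
    omega
  -- the `ℓ + 1` roots
  let S : Finset M := insert z (Finset.image (algebraMap (ZMod ℓ) M) Finset.univ)
  have hS : S ⊆ p.roots.toFinset := by
    intro w hw
    rw [Multiset.mem_toFinset, mem_roots hp0, IsRoot.def, hp, eval_sub, eval_pow, eval_X,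
      sub_eq_zero]
    rcases Finset.mem_insert.mp hw with rfl | hw
    · exact hz
    · obtain ⟨a, -, rfl⟩ := Finset.mem_image.mp hw
      rw [← map_pow, ZMod.pow_card]
  have hcard : S.card = ℓ + 1 := by
    rw [Finset.card_insert_of_notMem, Finset.card_image_of_injective _
      (algebraMap (ZMod ℓ) M).injective, Finset.card_univ, ZMod.card]
    intro hmem
    obtain ⟨a, -, ha⟩ := Finset.mem_image.mp hmem
    exact hnot ⟨a, ha⟩
  have h1 := Finset.card_le_card hS
  have h2 : p.roots.toFinset.card ≤ p.roots.card := Multiset.toFinset_card_le _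
  have h3 := p.card_roots'
  omega

end PrimeField

section Const

variable (W : Affine (ZMod ℓ)) (M : Type*) [Field M] [Algebra (ZMod ℓ) M] [DecidableEq M]

theorem nonsingular_const {a b : ZMod ℓ} (h : W.Nonsingular a b) :
    (W⁄M).Nonsingular (algebraMap (ZMod ℓ) M a) (algebraMap (ZMod ℓ) M b) :=
  (W.map_nonsingular (algebraMap (ZMod ℓ) M).injective a b).mpr h

theorem nonsingular_of_const {a b : ZMod ℓ}
    (h : (W⁄M).Nonsingular (algebraMap (ZMod ℓ) M a) (algebraMap (ZMod ℓ) M b)) :
    W.Nonsingular a b :=
  (W.map_nonsingular (algebraMap (ZMod ℓ) M).injective a b).mp h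

/-- the constant point of `W(M)` attached to an `F_ℓ`-rational point. -/
noncomputable def constPt : W.Point → (W⁄M).Point
  | .zero => 0
  | .some a b h => .some (algebraMap (ZMod ℓ) M a) (algebraMap (ZMod ℓ) M b)
      (nonsingular_const W M h)

@[simp] theorem constPt_zero : constPt W M 0 = 0 := rfl

theorem constPt_some {a b : ZMod ℓ} (h : W.Nonsingular a b) :
    constPt W M (.some a b h) = .some (algebraMap (ZMod ℓ) M a) (algebraMap (ZMod ℓ) M b)
      (nonsingular_const W M h) := rfl

theorem constPt_injective : Function.Injective (constPt W M) := by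
  rintro (_ | ⟨a, b, h⟩) (_ | ⟨a', b', h'⟩) hPQ
  · rfl
  · exact absurd hPQ.symm (Point.some_ne_zero _)
  · exact absurd hPQ (Point.some_ne_zero _)
  · have := Point.some.inj hPQ
    have ha := (algebraMap (ZMod ℓ) M).injective this.1
    have hb := (algebraMap (ZMod ℓ) M).injective this.2
    subst ha hb
    rfl

variable {M} {M' : Type*} [Field M'] [Algebra (ZMod ℓ) M'] [DecidableEq M']

/-- constant points are compatible with every `ZMod ℓ`-algebra hom. -/
theorem map_constPt (f : M →ₐ[ZMod ℓ] M') (T : W.Point) :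
    Point.map (W' := W) f (constPt W M T) = constPt W M' T := by
  rcases T with _ | ⟨a, b, h⟩
  · rfl
  · rw [constPt_some, constPt_some, Point.map_some]
    congr 1
    · exact f.commutes a
    · exact f.commutes b

/-- a point fixed by Frobenius is a constant point. -/
theorem exists_constPt_of_map_eq (fr : M →ₐ[ZMod ℓ] M) (hfr : ∀ z, fr z = z ^ ℓ)
    (Q : (W⁄M).Point) (hQ : Point.map (W' := W) fr Q = Q) : ∃ T : W.Point, Q = constPt W M T := by
  rcases Q with _ | ⟨a, b, h⟩
  · exact ⟨0, rfl⟩
  · rw [Point.map_some] at hQ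
    have h2 := Point.some.inj hQ
    obtain ⟨a₀, rfl⟩ := mem_range_of_pow_eq (by rw [← hfr]; exact h2.1 : a ^ ℓ = a)
    obtain ⟨b₀, rfl⟩ := mem_range_of_pow_eq (by rw [← hfr]; exact h2.2 : b ^ ℓ = b)
    have h0 : W.Nonsingular a₀ b₀ := nonsingular_of_const W M h
    exact ⟨.some a₀ b₀ h0, rfl⟩

end Const

end Fermat.Agent.ES.Q58.ManinConst14
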