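/-
S58, EC-ES core, brick (B4) = (E9) Manin's lemma, interface-free polynomial layer (helper14).

`L ⊆ K` fields, `N D : L[X]` coprime, `s : K`.  `fibrePoly N D s := N − s·D ∈ K[X]` is the
polynomial whose roots (in any extension `K'` of `K`) are the `ξ` with `N(ξ)/D(ξ) = s`.
* `natDegree_fibrePoly` : if `s ∉ L` its degree is `max (deg N) (deg D)`;
* `aeval_fibrePoly_eq_zero_iff` : roots ⇔ `D(ξ) ≠ 0 ∧ N(ξ) = s·D(ξ)`;
* `wronskian_eq_zero_of_not_separable` : if `s` is transcendental over `L` and `fibrePoly` is not
  separable, then `N'·D − N·D' = 0`;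
* `card_rootSet_fibrePoly` : separable ⇒ exactly `max (deg N) (deg D)` roots in an algebraically
  closed extension.
-/
import Mathlib

set_option autoImplicit false
set_option linter.unusedSectionVars false

open Polynomial

namespace Fermat.Agent.ES.Q58.ManinPoly14

variable {L K : Type*} [Field L] [Field K] [Algebra L K]

/-- `N − s·D` as a polynomial over `K`. -/
noncomputable def fibrePoly (N D : L[X]) (s : K) : K[X] :=
  N.map (algebraMap L K) - C s * D.map (algebraMap L K)

theorem coeff_fibrePoly (N D : L[X]) (s : K) (n : ℕ) :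
    (fibrePoly N D s).coeff n =
      algebraMap L K (N.coeff n) - s * algebraMap L K (D.coeff n) := by
  simp [fibrePoly, coeff_map]

theorem natDegree_fibrePoly_le (N D : L[X]) (s : K) :
    (fibrePoly N D s).natDegree ≤ max N.natDegree D.natDegree := by
  refine (natDegree_sub_le _ _).trans (max_le_max natDegree_map_le ?_)
  exact (natDegree_C_mul_le _ _).trans natDegree_map_le

/-- if `s ∉ L`, the degree of `N − s·D` is `max (deg N) (deg D)`. -/
theorem natDegree_fibrePoly {N D : L[X]} {s : K} (hs : s ∉ (algebraMap L K).range)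
    (hND : N ≠ 0 ∨ D ≠ 0) :
    (fibrePoly N D s).natDegree = max N.natDegree D.natDegree := by
  refine le_antisymm (natDegree_fibrePoly_le N D s) ?_
  apply le_natDegree_of_ne_zero
  rw [coeff_fibrePoly]
  set n := max N.natDegree D.natDegree with hn
  by_cases hD : D.coeff n = 0
  · rw [hD, map_zero, mul_zero, sub_zero]
    have hNn : N.coeff n ≠ 0 := by
      by_cases hN0 : N = 0
      · -- then `D ≠ 0` and `n = deg D`
        exfalso
        have hD0 : D ≠ 0 := hND.resolve_left (not_not.mpr hN0)
        have : n = D.natDegree := by rw [hn, hN0, natDegree_zero]; exact max_eq_right (Nat.zero_le _)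
        rw [this] at hD
        exact (leadingCoeff_ne_zero.mpr hD0) hD
      · have hle : D.natDegree ≤ n := le_max_right _ _
        rcases (le_max_left N.natDegree D.natDegree).lt_or_eq with hlt | heq
        · -- `deg N < n`, so `n = deg D`, and `D.coeff n ≠ 0` unless `D = 0`
          exfalso
          have hnD : n = D.natDegree := by
            rcases max_choice N.natDegree D.natDegree with h | h
            · rw [← hn] at h; omega
            · rw [← hn] at h; exact h
          by_cases hD0 : D = 0
          · rw [hD0, natDegree_zero] at hnD; omega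
          · rw [hnD] at hD
            exact (leadingCoeff_ne_zero.mpr hD0) hD
        · rw [← hn] at heq
          rw [← heq]
          exact leadingCoeff_ne_zero.mpr hN0
    exact (map_ne_zero_iff _ (algebraMap L K).injective).mpr hNn
  · intro h0
    apply hs
    refine ⟨N.coeff n / D.coeff n, ?_⟩
    rw [map_div₀]
    have hD' : algebraMap L K (D.coeff n) ≠ 0 :=
      (map_ne_zero_iff _ (algebraMap L K).injective).mpr hD
    field_simp
    linear_combination h0

variable {K' : Type*} [Field K'] [Algebra K K'] [Algebra L K'] [IsScalarTower L K K']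

theorem aeval_fibrePoly (N D : L[X]) (s : K) (ξ : K') :
    aeval ξ (fibrePoly N D s) = aeval ξ N - algebraMap K K' s * aeval ξ D := by
  simp only [fibrePoly, map_sub, map_mul, aeval_C, aeval_map_algebraMap]

/-- the roots of `N − s·D` are the `ξ` with `D(ξ) ≠ 0` and `N(ξ) = s·D(ξ)`. -/
theorem aeval_fibrePoly_eq_zero_iff {N D : L[X]} (hND : IsCoprime N D) (s : K) (ξ : K') :
    aeval ξ (fibrePoly N D s) = 0 ↔
      aeval ξ D ≠ 0 ∧ aeval ξ N = algebraMap K K' s * aeval ξ D := by
  rw [aeval_fibrePoly, sub_eq_zero]
  refine ⟨fun h => ⟨fun hD => ?_, h⟩, fun h => h.2⟩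
  rw [hD, mul_zero] at h
  rcases aeval_ne_zero_of_isCoprime hND ξ with h1 | h1
  · exact h1 h
  · exact h1 hD

theorem derivative_fibrePoly (N D : L[X]) (s : K) :
    derivative (fibrePoly N D s) = fibrePoly (derivative N) (derivative D) s := by
  simp only [fibrePoly, derivative_sub, derivative_map, derivative_C_mul]

/-- **non-separable fibre ⇒ zero Wronskian.** -/
theorem wronskian_eq_zero_of_not_separable {N D : L[X]} (hND : IsCoprime N D) {s : K}
    (hs : Transcendental L s) (hsep : ¬ (fibrePoly N D s).Separable) :
    derivative N * D - N * derivative D = 0 := by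
  classical
  by_contra hW
  -- a common root `ξ` of `F` and `F'` in an algebraic closure of `K`
  rw [separable_def] at hsep
  have hsep' := (isCoprime_iff_aeval_ne_zero_of_isAlgClosed K (AlgebraicClosure K)
    (fibrePoly N D s) (derivative (fibrePoly N D s))).not.mp hsep
  push Not at hsep'
  obtain ⟨ξ, h1, h2⟩ := hsep'
  rw [derivative_fibrePoly, aeval_fibrePoly] at h2
  obtain ⟨hDξ, hNξ⟩ := (aeval_fibrePoly_eq_zero_iff hND s ξ).mp h1
  -- `ξ` is a root of the Wronskian, hence algebraic over `L`
  have hWξ : aeval ξ (derivative N * D - N * derivative D) = 0 := by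
    simp only [map_sub, map_mul]
    rw [sub_eq_zero] at h2
    rw [h2, hNξ]
    ring
  have hξalg : IsAlgebraic L ξ := ⟨_, hW, hWξ⟩
  -- so `s = N(ξ)/D(ξ)` is algebraic over `L`
  have hξint : IsIntegral L ξ := isAlgebraic_iff_isIntegral.mp hξalg
  have hle : Algebra.adjoin L {ξ} ≤ integralClosure L (AlgebraicClosure K) :=
    Algebra.adjoin_le (by
      intro z hz
      rw [Set.mem_singleton_iff] at hz
      rw [hz]
      exact hξint)
  have hmem : ∀ P : L[X], IsAlgebraic L (aeval ξ P) := fun P =>
    isAlgebraic_iff_isIntegral.mpr (hle (aeval_mem_adjoin_singleton L ξ))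
  have hsalg : IsAlgebraic L (algebraMap K (AlgebraicClosure K) s) := by
    have : algebraMap K (AlgebraicClosure K) s = aeval ξ N * (aeval ξ D)⁻¹ := by
      rw [hNξ]; field_simp
    rw [this]
    exact (hmem N).mul (hmem D).inv
  exact hs ((isAlgebraic_algebraMap_iff (algebraMap K (AlgebraicClosure K)).injective).mp hsalg)

/-- separable fibre polynomial: exactly `max (deg N) (deg D)` roots in an algebraically closed
extension. -/
theorem card_rootSet_fibrePoly [IsAlgClosed K'] {N D : L[X]} {s : K}
    (hs : s ∉ (algebraMap L K).range) (hND : N ≠ 0 ∨ D ≠ 0)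
    (hsep : (fibrePoly N D s).Separable) :
    Fintype.card ((fibrePoly N D s).rootSet K') = max N.natDegree D.natDegree := by
  rw [card_rootSet_eq_natDegree hsep (IsAlgClosed.splits _), natDegree_fibrePoly hs hND]

end Fermat.Agent.ES.Q58.ManinPoly14
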