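/-
S58, EC-ES core, brick (B4) = (E9) **Manin's lemma**, counting half + assembly (helper14).

`k = ZMod ℓ`, `W : Affine k` with `Δ ≠ 0`, `K = W.FunctionField`, `P₀ = (x, y)` the generic point
(`IotaDescent23`), `fr : K →ₐ[k] K` the Frobenius, `R = P₀ − φ P₀ = (X_R, Y_R)`, `X_R = N/D` in lowest
terms.  If the fibre polynomial `F = N − X_R·D ∈ K[t]` is separable, then
`max (deg N) (deg D) = #W(F_ℓ)`:
the roots of `F` in an algebraic closure `K̄` are exactly the `x(P₀ + T)`, `T ∈ W(F_ℓ)`.
-/
import Fermat.Agent.ES.Q58.SubstEmb17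
import Fermat.Agent.ES.Q58.ManinPoly14
import Fermat.Agent.ES.Q58.ManinConst14

set_option autoImplicit false
set_option linter.unusedSectionVars false

open Polynomial

namespace Fermat.Agent.ES.Q58.Manin14

open WeierstrassCurve WeierstrassCurve.Affine
open Fermat.Agent.ES.Q58.IotaDescent23 Fermat.Agent.ES.Q58.SubstEmb17
open Fermat.Agent.ES.Q58.ManinPoly14 Fermat.Agent.ES.Q58.ManinConst14

/-! ### The `x`-coordinate of a point -/

section XOf

variable {k : Type*} [Field k] {W : Affine k} {M : Type*} [Field M] [Algebra k M] [DecidableEq M]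

/-- the `x`-coordinate of a point (`0` for the point at infinity). -/
def xOf : (W⁄M).Point → M
  | .zero => 0
  | .some x _ _ => x

@[simp] theorem xOf_some {x y : M} (h : (W⁄M).Nonsingular x y) : xOf (Point.some x y h) = x := rfl

theorem xOf_neg (P : (W⁄M).Point) : xOf (-P) = xOf P := by
  rcases P with _ | ⟨x, y, h⟩
  · rfl
  · rw [Point.neg_some]; rfl

theorem xOf_map {M' : Type*} [Field M'] [Algebra k M'] [DecidableEq M'] (f : M →ₐ[k] M') (P : (W⁄M).Point) :
    xOf (Point.map (W' := W) f P) = f (xOf P) := by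
  rcases P with _ | ⟨x, y, h⟩
  · exact (map_zero f).symm
  · rw [Point.map_some]; rfl

end XOf

/-! ### Two-torsion points have algebraic `x`-coordinate -/

section TwoTorsion

variable {k : Type*} [Field k] (W : Affine k) {M : Type*} [Field M] [Algebra k M]

/-- the `2`-division polynomial over the base field. -/
noncomputable def twoDiv : k[X] :=
  C 4 * X ^ 3 + C W.b₂ * X ^ 2 + C (2 * W.b₄) * X + C W.b₆

theorem twoDiv_ne_zero (hΔ : W.Δ ≠ 0) : twoDiv W ≠ 0 := by
  intro h0
  have c3 : (4 : k) = 0 := by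
    have := congrArg (fun p => p.coeff 3) h0
    simpa [twoDiv, coeff_X, coeff_C] using this
  have c2 : W.b₂ = 0 := by
    have := congrArg (fun p => p.coeff 2) h0
    simpa [twoDiv, coeff_X, coeff_C] using this
  have c1 : 2 * W.b₄ = 0 := by
    have := congrArg (fun p => p.coeff 1) h0
    simpa [twoDiv, coeff_X, coeff_C] using this
  have c0 : W.b₆ = 0 := by
    have := congrArg (fun p => p.coeff 0) h0
    simpa [twoDiv, coeff_X, coeff_C] using this
  apply hΔ
  rw [WeierstrassCurve.Δ, c2, c0]
  linear_combination (-4 * W.b₄ ^ 2) * c1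

theorem aeval_twoDiv_eq_zero {x y : M} (h : (W⁄M).Equation x y) (hy : y = (W⁄M).negY x y) :
    aeval x (twoDiv W) = 0 := by
  rw [equation_iff] at h
  simp only [negY] at hy
  simp only [baseChange_a₁, baseChange_a₂, baseChange_a₃, baseChange_a₄, baseChange_a₆] at h hy
  simp only [twoDiv, map_add, map_mul, map_pow, aeval_C, aeval_X, WeierstrassCurve.b₂,
    WeierstrassCurve.b₄, WeierstrassCurve.b₆, map_ofNat]
  have hη : 2 * y + algebraMap k M W.a₁ * x + algebraMap k M W.a₃ = 0 := by
    linear_combination hy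
  linear_combination (-4 : M) * h +
    (2 * y + algebraMap k M W.a₁ * x + algebraMap k M W.a₃) * hη

end TwoTorsion

/-! ### Polynomial values at algebraic elements -/

section Alg

variable {L A : Type*} [Field L] [Field A] [Algebra L A]

theorem isAlgebraic_aeval {ξ : A} (hξ : IsAlgebraic L ξ) (P : L[X]) : IsAlgebraic L (aeval ξ P) := by
  have hξint : IsIntegral L ξ := isAlgebraic_iff_isIntegral.mp hξ
  have hle : Algebra.adjoin L {ξ} ≤ integralClosure L A :=
    Algebra.adjoin_le (by
      intro z hz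
      rw [Set.mem_singleton_iff] at hz
      rw [hz]
      exact hξint)
  exact isAlgebraic_iff_isIntegral.mpr (hle (aeval_mem_adjoin_singleton L ξ))

end Alg

/-! ### The generic point, Frobenius and substitutions -/

section Main

variable {ℓ : ℕ} [Fact ℓ.Prime] (W : Affine (ZMod ℓ)) [DecidableEq W.FunctionField]
  (hΔ : W.Δ ≠ 0) (fr : W.FunctionField →ₐ[ZMod ℓ] W.FunctionField) (hfr : ∀ z, fr z = z ^ ℓ)

include hfr in
/-- every `k`-embedding commutes with the Frobenius maps. -/
theorem comp_frobenius {M : Type*} [Field M] [Algebra (ZMod ℓ) M]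
    (σ : W.FunctionField →ₐ[ZMod ℓ] M) (frM : M →ₐ[ZMod ℓ] M) (hfrM : ∀ z, frM z = z ^ ℓ) :
    σ.comp fr = frM.comp σ := by
  refine AlgHom.ext fun z => ?_
  rw [AlgHom.comp_apply, AlgHom.comp_apply, hfr, hfrM, map_pow]

include hfr in
/-- `σ_* (P₀ − φ P₀) = σ_* P₀ − φ (σ_* P₀)`. -/
theorem map_diff {M : Type*} [Field M] [Algebra (ZMod ℓ) M] [DecidableEq M]
    (σ : W.FunctionField →ₐ[ZMod ℓ] M) (frM : M →ₐ[ZMod ℓ] M) (hfrM : ∀ z, frM z = z ^ ℓ) :
    Point.map (W' := W) σ (genericPoint W hΔ - Point.map (W' := W) fr (genericPoint W hΔ)) =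
      Point.map (W' := W) σ (genericPoint W hΔ) -
        Point.map (W' := W) frM (Point.map (W' := W) σ (genericPoint W hΔ)) := by
  rw [map_sub, Point.map_map, Point.map_map, comp_frobenius W fr hfr σ frM hfrM]

/-- constant points are algebraic points. -/
theorem constPt_mem_algPoints (T : W.Point) :
    constPt W W.FunctionField T ∈ algPoints W W.FunctionField :=
  ⟨constPt W (algebraicClosure (ZMod ℓ) W.FunctionField) T,
    map_constPt W (algebraicClosure (ZMod ℓ) W.FunctionField).val T⟩

/-- `P₀ + T` is an affine point with transcendental `x`-coordinate. -/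
theorem exists_some_add_const (T : W.Point) :
    ∃ (u v : W.FunctionField) (h : (W⁄W.FunctionField).Nonsingular u v),
      genericPoint W hΔ + constPt W W.FunctionField T = Point.some u v h ∧
        Transcendental (ZMod ℓ) u := by
  have hT := constPt_mem_algPoints W T
  rcases hP : genericPoint W hΔ + constPt W W.FunctionField T with _ | ⟨u, v, h⟩
  · exfalso
    have h1 : genericPoint W hΔ = -constPt W W.FunctionField T :=
      add_eq_zero_iff_eq_neg.mp hP
    have h2 : genericPoint W hΔ ∈ algPoints W W.FunctionField := by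
      rw [h1]; exact neg_mem hT
    rw [IotaDescent23.genericPoint, some_mem_algPoints_iff] at h2
    exact transcendental_xK W h2
  · exact ⟨u, v, h, rfl, transcendental_of_genericPoint_add W hΔ hT h hP⟩

variable {XR YR : W.FunctionField} (hR : (W⁄W.FunctionField).Nonsingular XR YR)
  (hdiff : genericPoint W hΔ - Point.map (W' := W) fr (genericPoint W hΔ) = Point.some XR YR hR)
  {N D : (ZMod ℓ)[X]}
  (hX : XR * algebraMap (ZMod ℓ)[X] W.FunctionField D = algebraMap (ZMod ℓ)[X] W.FunctionField N)

include hfr hdiff hX in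
/-- **(ii)** `x(P₀ + T)` is a root of the fibre polynomial. -/
theorem root_of_add_const (T : W.Point) {u v : W.FunctionField}
    (h : (W⁄W.FunctionField).Nonsingular u v)
    (hP : genericPoint W hΔ + constPt W W.FunctionField T = Point.some u v h)
    (hu : Transcendental (ZMod ℓ) u) :
    XR * aeval u D = aeval u N := by
  set σ := substHom W h.1 hu with hσ
  have h1 : Point.map (W' := W) σ (genericPoint W hΔ) =
      genericPoint W hΔ + constPt W W.FunctionField T := by
    rw [hP]; exact map_substHom_genericPoint W hΔ h hu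
  have h2 := map_diff W hΔ fr hfr σ fr hfr
  rw [h1, map_add, map_constPt W fr T, add_sub_add_right_eq_sub, hdiff] at h2
  have h3 : σ XR = XR := by
    have := congrArg xOf h2
    rwa [xOf_map, xOf_some] at this
  have h4 := congrArg σ hX
  rw [map_mul, h3, hσ, substHom_algebraMap_polynomial, substHom_algebraMap_polynomial] at h4
  exact h4

end Main

/-! ### The roots of the fibre polynomial in an algebraic closure -/

section Count

variable {ℓ : ℕ} [Fact ℓ.Prime] (W : Affine (ZMod ℓ)) [DecidableEq W.FunctionField]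
  (hΔ : W.Δ ≠ 0) (fr : W.FunctionField →ₐ[ZMod ℓ] W.FunctionField) (hfr : ∀ z, fr z = z ^ ℓ)

/-- the embedding of `K` into its algebraic closure, as a `k`-algebra hom. -/
noncomputable def jHom : W.FunctionField →ₐ[ZMod ℓ] AlgebraicClosure W.FunctionField :=
  IsScalarTower.toAlgHom (ZMod ℓ) W.FunctionField (AlgebraicClosure W.FunctionField)

theorem jHom_apply (z : W.FunctionField) :
    jHom W z = algebraMap W.FunctionField (AlgebraicClosure W.FunctionField) z := rfl

theorem jHom_injective : Function.Injective (jHom W) :=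
  (algebraMap W.FunctionField (AlgebraicClosure W.FunctionField)).injective

/-- the Frobenius of the algebraic closure. -/
noncomputable def frb :
    AlgebraicClosure W.FunctionField →ₐ[ZMod ℓ] AlgebraicClosure W.FunctionField :=
  FiniteField.frobeniusAlgHom (ZMod ℓ) (AlgebraicClosure W.FunctionField)

theorem frb_apply (z : AlgebraicClosure W.FunctionField) : frb W z = z ^ ℓ := by
  rw [frb, FiniteField.coe_frobeniusAlgHom, ZMod.card]

/-- the candidate root attached to an `F_ℓ`-rational point. -/
noncomputable def rootOf (T : W.Point) : AlgebraicClosure W.FunctionField :=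
  jHom W (xOf (genericPoint W hΔ + constPt W W.FunctionField T))

variable {XR YR : W.FunctionField} (hR : (W⁄W.FunctionField).Nonsingular XR YR)
  (hdiff : genericPoint W hΔ - Point.map (W' := W) fr (genericPoint W hΔ) = Point.some XR YR hR)
  {N D : (ZMod ℓ)[X]}
  (hX : XR * algebraMap (ZMod ℓ)[X] W.FunctionField D = algebraMap (ZMod ℓ)[X] W.FunctionField N)

include hfr hdiff hX in
theorem aeval_rootOf (T : W.Point) :
    aeval (rootOf W hΔ T) (fibrePoly N D XR) = 0 := by
  obtain ⟨u, v, h, hP, hu⟩ := exists_some_add_const W hΔ T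
  have h1 := root_of_add_const W hΔ fr hfr hR hdiff hX T h hP hu
  rw [rootOf, hP, xOf_some, aeval_fibrePoly, aeval_algHom_apply, aeval_algHom_apply,
    ← jHom_apply, ← map_mul, ← map_sub, ← h1, sub_self, map_zero]

include hfr hdiff in
/-- **injectivity** of `T ↦ x(P₀ + T)`. -/
theorem rootOf_injective (htr : Transcendental (ZMod ℓ) XR) :
    Function.Injective (rootOf W hΔ) := by
  intro T T' hTT
  obtain ⟨u, v, h, hP, hu⟩ := exists_some_add_const W hΔ T
  obtain ⟨u', v', h', hP', hu'⟩ := exists_some_add_const W hΔ T'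
  rw [rootOf, rootOf, hP, hP', xOf_some, xOf_some] at hTT
  have huu : u = u' := jHom_injective W hTT
  rcases (Point.X_eq_iff (h₁ := h) (h₂ := h')).mp huu with heq | heq
  · -- `P₀ + T = P₀ + T'`
    rw [← hP, ← hP'] at heq
    exact constPt_injective W W.FunctionField (add_left_cancel heq)
  · -- `P₀ + T = −(P₀ + T')`: then `2R = 0`, so `X_R` is algebraic
    exfalso
    rw [← hP, ← hP'] at heq
    set P₀ := genericPoint W hΔ with hP₀
    set c := constPt W W.FunctionField T with hc
    set c' := constPt W W.FunctionField T' with hc'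
    have h2 : P₀ + P₀ = -(c + c') := by
      rw [neg_add] at heq
      have : P₀ + P₀ = (P₀ + c) + (P₀ - c) := by abel
      rw [this, heq]; abel
    have hφc : Point.map (W' := W) fr (c + c') = c + c' := by
      rw [map_add, hc, hc', map_constPt, map_constPt]
    have h3 : (P₀ - Point.map (W' := W) fr P₀) + (P₀ - Point.map (W' := W) fr P₀) = 0 := by
      have : (P₀ - Point.map (W' := W) fr P₀) + (P₀ - Point.map (W' := W) fr P₀) =
          (P₀ + P₀) - Point.map (W' := W) fr (P₀ + P₀) := by
        rw [map_add]; abel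
      rw [this, h2, map_neg, hφc]; abel
    rw [hdiff] at h3
    have h4 : Point.some XR YR hR = -Point.some XR YR hR := add_eq_zero_iff_eq_neg.mp h3
    rw [Point.neg_some] at h4
    have h5 : YR = (W⁄W.FunctionField).negY XR YR := (Point.some.inj h4).2
    have h6 := aeval_twoDiv_eq_zero W hR.1 h5
    exact htr ⟨twoDiv W, twoDiv_ne_zero W hΔ, h6⟩

end Count

section Surj

variable {ℓ : ℕ} [Fact ℓ.Prime] (W : Affine (ZMod ℓ)) [DecidableEq W.FunctionField]
  (hΔ : W.Δ ≠ 0) (fr : W.FunctionField →ₐ[ZMod ℓ] W.FunctionField) (hfr : ∀ z, fr z = z ^ ℓ)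
  {XR YR : W.FunctionField} (hR : (W⁄W.FunctionField).Nonsingular XR YR)
  (hdiff : genericPoint W hΔ - Point.map (W' := W) fr (genericPoint W hΔ) = Point.some XR YR hR)
  {N D : (ZMod ℓ)[X]}
  (hX : XR * algebraMap (ZMod ℓ)[X] W.FunctionField D = algebraMap (ZMod ℓ)[X] W.FunctionField N)

/-- over an algebraically closed field every `x` is the abscissa of a point. -/
theorem exists_y {M : Type*} [Field M] [Algebra (ZMod ℓ) M] [IsAlgClosed M] (ξ : M) :
    ∃ η : M, (W⁄M).Equation ξ η := by
  set b : M := algebraMap (ZMod ℓ) M W.a₁ * ξ + algebraMap (ZMod ℓ) M W.a₃ with hb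
  set c : M := -(ξ ^ 3 + algebraMap (ZMod ℓ) M W.a₂ * ξ ^ 2 + algebraMap (ZMod ℓ) M W.a₄ * ξ +
    algebraMap (ZMod ℓ) M W.a₆) with hc
  have hdeg : (C (1 : M) * X ^ 2 + C b * X + C c).degree ≠ 0 := by
    rw [degree_quadratic one_ne_zero]; norm_num
  obtain ⟨η, hη⟩ := IsAlgClosed.exists_root _ hdeg
  refine ⟨η, ?_⟩
  rw [equation_iff]
  simp only [baseChange_a₁, baseChange_a₂, baseChange_a₃, baseChange_a₄, baseChange_a₆]
  simp only [IsRoot.def, eval_add, eval_mul, eval_C, eval_pow, eval_X] at hη
  rw [hb, hc] at hη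
  linear_combination hη

include hfr hdiff hX in
/-- **(iv)** every root of the fibre polynomial in `K̄` is some `x(P₀ + T)`. -/
theorem exists_rootOf_eq (hND : IsCoprime N D) (htr : Transcendental (ZMod ℓ) XR)
    (ξ : AlgebraicClosure W.FunctionField) (hξ : aeval ξ (fibrePoly N D XR) = 0) :
    ∃ T : W.Point, rootOf W hΔ T = ξ := by
  classical
  obtain ⟨hDξ, hNξ⟩ := (aeval_fibrePoly_eq_zero_iff hND XR ξ).mp hξ
  -- `ξ` is transcendental over `k`
  have hξtr : Transcendental (ZMod ℓ) ξ := by
    intro halg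
    apply htr
    have h1 : IsAlgebraic (ZMod ℓ) (jHom W XR) := by
      have : jHom W XR = aeval ξ N * (aeval ξ D)⁻¹ := by
        rw [jHom_apply, hNξ]; field_simp
      rw [this]
      exact (isAlgebraic_aeval halg N).mul (isAlgebraic_aeval halg D).inv
    exact (isAlgebraic_algebraMap_iff (jHom_injective W)).mp h1
  -- a point `P' = (ξ, η)` of `W(K̄)`
  obtain ⟨η, hη⟩ := exists_y W ξ
  have hΔ' : (W⁄(AlgebraicClosure W.FunctionField)).Δ ≠ 0 := by
    show (W.map (algebraMap (ZMod ℓ) (AlgebraicClosure W.FunctionField))).Δ ≠ 0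
    rw [WeierstrassCurve.map_Δ]
    exact (map_ne_zero_iff _ (algebraMap (ZMod ℓ) (AlgebraicClosure W.FunctionField)).injective).mpr
      hΔ
  have h' : (W⁄(AlgebraicClosure W.FunctionField)).Nonsingular ξ η :=
    ((W⁄(AlgebraicClosure W.FunctionField)).equation_iff_nonsingular_of_Δ_ne_zero hΔ').mp hη
  set σ' := substHom W h'.1 hξtr with hσ'
  set P' : (W⁄(AlgebraicClosure W.FunctionField)).Point := Point.some ξ η h' with hP'
  have hσP : Point.map (W' := W) σ' (genericPoint W hΔ) = P' :=
    map_substHom_genericPoint W hΔ h' hξtr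
  set jP₀ := Point.map (W' := W) (jHom W) (genericPoint W hΔ) with hjP₀
  have e1 := map_diff W hΔ fr hfr σ' (frb W) (frb_apply W)
  have e2 := map_diff W hΔ fr hfr (jHom W) (frb W) (frb_apply W)
  rw [hdiff, hσP] at e1
  rw [hdiff, ← hjP₀] at e2
  -- the two images of `R` have the same `x`-coordinate
  have hx : σ' XR = jHom W XR := by
    have h4 := congrArg σ' hX
    rw [map_mul, hσ', substHom_algebraMap_polynomial, substHom_algebraMap_polynomial, hNξ,
      ← jHom_apply] at h4
    exact mul_right_cancel₀ hDξ h4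
  rw [Point.map_some] at e1 e2
  have key : ∀ Q : (W⁄(AlgebraicClosure W.FunctionField)).Point,
      Point.map (W' := W) (frb W) Q = Q →
      ∃ T : W.Point, jP₀ + Q = Point.map (W' := W) (jHom W)
        (genericPoint W hΔ + constPt W W.FunctionField T) := by
    intro Q hQ
    obtain ⟨T, hT⟩ := exists_constPt_of_map_eq W (frb W) (frb_apply W) Q hQ
    exact ⟨T, by rw [map_add, map_constPt, ← hjP₀, hT]⟩
  rcases (Point.X_eq_iff (h₁ := (W.baseChange_nonsingular σ'.injective ..).mpr hR)
      (h₂ := (W.baseChange_nonsingular (jHom W).injective ..).mpr hR)).mp hx with heq | heq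
  · -- `P' − φP' = jP₀ − φ jP₀`
    rw [e1, e2] at heq
    have hQ : Point.map (W' := W) (frb W) (P' - jP₀) = P' - jP₀ := by
      rw [map_sub]
      have : Point.map (W' := W) (frb W) P' - Point.map (W' := W) (frb W) jP₀ =
          (P' - jP₀) - ((P' - Point.map (W' := W) (frb W) P') -
            (jP₀ - Point.map (W' := W) (frb W) jP₀)) := by abel
      rw [this, heq, sub_self, sub_zero]
    obtain ⟨T, hT⟩ := key (P' - jP₀) hQ
    refine ⟨T, ?_⟩
    rw [rootOf, ← xOf_map, ← hT, add_sub_cancel, hP', xOf_some]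
  · -- `P' − φP' = −(jP₀ − φ jP₀)`
    rw [e1, e2] at heq
    have hQ : Point.map (W' := W) (frb W) (-(P' + jP₀)) = -(P' + jP₀) := by
      rw [map_neg, map_add]
      have : Point.map (W' := W) (frb W) P' + Point.map (W' := W) (frb W) jP₀ =
          (P' + jP₀) - ((P' - Point.map (W' := W) (frb W) P') +
            (jP₀ - Point.map (W' := W) (frb W) jP₀)) := by abel
      rw [this, heq, neg_add_cancel, sub_zero]
    obtain ⟨T, hT⟩ := key (-(P' + jP₀)) hQ
    refine ⟨T, ?_⟩
    have h5 : jP₀ + -(P' + jP₀) = -P' := by abel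
    rw [rootOf, ← xOf_map, ← hT, h5, xOf_neg, hP', xOf_some]

include hfr hdiff hX in
/-- **Manin's lemma, counting half**: if the fibre polynomial is separable, the degree of
`x(P₀ − φ P₀)` is the number of `F_ℓ`-rational points. -/
theorem manin_of_separable (hND : IsCoprime N D) (htr : Transcendental (ZMod ℓ) XR)
    (hsep : (fibrePoly N D XR).Separable) :
    max N.natDegree D.natDegree = Nat.card W.Point := by
  classical
  have hs : XR ∉ (algebraMap (ZMod ℓ) W.FunctionField).range := by
    rintro ⟨a, ha⟩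
    exact htr (ha ▸ isAlgebraic_algebraMap a)
  have hND' : N ≠ 0 ∨ D ≠ 0 := by
    by_contra hcon
    push Not at hcon
    rw [hcon.1, hcon.2, isCoprime_zero_left] at hND
    exact not_isUnit_zero hND
  have hcard := card_rootSet_fibrePoly (K' := AlgebraicClosure W.FunctionField) hs hND' hsep
  rw [← hcard, ← Nat.card_eq_fintype_card]
  let Φ : W.Point → (fibrePoly N D XR).rootSet (AlgebraicClosure W.FunctionField) := fun T =>
    ⟨rootOf W hΔ T, mem_rootSet.mpr ⟨hsep.ne_zero, aeval_rootOf W hΔ fr hfr hR hdiff hX T⟩⟩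
  have hbij : Function.Bijective Φ := by
    constructor
    · intro T T' h
      exact rootOf_injective W hΔ fr hfr hR hdiff htr (congrArg Subtype.val h)
    · rintro ⟨ξ, hξ⟩
      obtain ⟨T, hT⟩ := exists_rootOf_eq W hΔ fr hfr hR hdiff hX hND htr ξ (mem_rootSet.mp hξ).2
      exact ⟨T, Subtype.ext hT⟩
  exact (Nat.card_eq_of_bijective Φ hbij).symm

end Surj

end Fermat.Agent.ES.Q58.Manin14
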