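/-
Programme Q (S58), brick B4 = (E9) Manin's lemma, step (iii), the "R = φ(R')" step:
a Mathlib-only leaf, with NO algebraic closure and NO minimal polynomials.

* `exists_frobenius_preimage_y` (L4): `K` a field of prime characteristic `ℓ`, `W` a Weierstrass
  curve over `K` whose coefficients are fixed by Frobenius (`aᵢ ^ ℓ = aᵢ`).  If `(w ^ ℓ, y)` is on
  `W` (and, for `ℓ = 2`, `a₁ w + a₃ ≠ 0`) then `y = y' ^ ℓ` for some `y' ∈ K` with `(w, y')` on `W`.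
  - `ℓ` odd: complete the square; `η ^ 2 = c ^ ℓ` with `ℓ` odd gives `c = ζ ^ 2`, `η = ζ ^ ℓ`.
  - `ℓ = 2`: `y' = (cubic(w) - y) / (a₁ w + a₃)`.
* `a₁_mul_add_a₃_ne_zero`: the side condition for `ℓ = 2`: over a field `L` of characteristic `2`
  with `Δ ≠ 0`, `a₁ w + a₃ ≠ 0` for every `w` (in an extension) outside the image of `L`.
* `exists_frobenius_preimage_y_zmod`: the same for a base change of a curve over `ZMod ℓ`.
-/
import Mathlib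

namespace Fermat.Agent.ES.Q58.InsepLeavesB5

section L4

variable {K : Type*} [Field K]

/-- `ℓ = 2`: explicit Frobenius preimage `y' = (cubic(w) - y) / (a₁ w + a₃)`. -/
theorem exists_frobenius_preimage_y_two [CharP K 2] (W : WeierstrassCurve.Affine K)
    (h₁ : W.a₁ ^ 2 = W.a₁) (h₂ : W.a₂ ^ 2 = W.a₂) (h₃ : W.a₃ ^ 2 = W.a₃)
    (h₄ : W.a₄ ^ 2 = W.a₄) (h₆ : W.a₆ ^ 2 = W.a₆) {w y : K}
    (h : W.Equation (w ^ 2) y) (hA : W.a₁ * w + W.a₃ ≠ 0) :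
    ∃ y' : K, y' ^ 2 = y ∧ W.Equation w y' := by
  have two0 : (2 : K) = 0 := CharTwo.two_eq_zero
  rw [WeierstrassCurve.Affine.equation_iff] at h
  set A := W.a₁ * w + W.a₃ with hAdef
  set B := w ^ 3 + W.a₂ * w ^ 2 + W.a₄ * w + W.a₆ with hBdef
  have hA2 : A ^ 2 = W.a₁ * w ^ 2 + W.a₃ := by
    rw [hAdef]
    linear_combination (W.a₁ * w * W.a₃) * two0 + w ^ 2 * h₁ + h₃
  have hB2 : B ^ 2 = (w ^ 2) ^ 3 + W.a₂ * (w ^ 2) ^ 2 + W.a₄ * w ^ 2 + W.a₆ := by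
    rw [hBdef]
    linear_combination (w ^ 3 * (W.a₂ * w ^ 2) + w ^ 3 * (W.a₄ * w) + w ^ 3 * W.a₆ +
      W.a₂ * w ^ 2 * (W.a₄ * w) + W.a₂ * w ^ 2 * W.a₆ + W.a₄ * w * W.a₆) * two0 +
      w ^ 4 * h₂ + w ^ 2 * h₄ + h₆
  have hy : y ^ 2 + A ^ 2 * y = B ^ 2 := by
    rw [hA2, hB2, ← h]
    ring
  refine ⟨(B - y) / A, ?_, ?_⟩
  · rw [div_pow, div_eq_iff (pow_ne_zero 2 hA)]
    linear_combination (-(B * y) + y ^ 2) * two0 - hy
  · rw [WeierstrassCurve.Affine.equation_iff]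
    have e1 : ((B - y) / A) ^ 2 = y := by
      rw [div_pow, div_eq_iff (pow_ne_zero 2 hA)]
      linear_combination (-(B * y) + y ^ 2) * two0 - hy
    have e2 : W.a₁ * w * ((B - y) / A) + W.a₃ * ((B - y) / A) = B - y := by
      have : W.a₁ * w * ((B - y) / A) + W.a₃ * ((B - y) / A) = A * ((B - y) / A) := by
        rw [hAdef]; ring
      rw [this, mul_div_cancel₀ _ hA]
    rw [e1, add_assoc, e2]
    ring

/-- In odd characteristic `ℓ`: if `η ^ 2 = c ^ ℓ` then `c = ζ ^ 2` and `η = ζ ^ ℓ` for some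
`ζ`. -/
theorem exists_sqrt_of_sq_eq_pow {ℓ : ℕ} (hodd : Odd ℓ) {η c : K} (h : η ^ 2 = c ^ ℓ) :
    ∃ ζ : K, ζ ^ 2 = c ∧ ζ ^ ℓ = η := by
  obtain ⟨m, rfl⟩ := hodd
  by_cases hc : c = 0
  · subst hc
    refine ⟨0, by simp, ?_⟩
    rw [zero_pow (by omega)] at h
    rw [zero_pow (by omega)]
    exact (pow_eq_zero_iff two_ne_zero).mp h |>.symm
  · have hcm : c ^ m ≠ 0 := pow_ne_zero m hc
    have h0 : (η / c ^ m) ^ 2 = c := by
      rw [div_pow, div_eq_iff (pow_ne_zero 2 hcm), h]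
      ring
    have h1 : ((η / c ^ m) ^ (2 * m + 1)) ^ 2 = η ^ 2 := by
      rw [← pow_mul, mul_comm, pow_mul, h0, h]
    rcases sq_eq_sq_iff_eq_or_eq_neg.mp h1 with h2 | h2
    · exact ⟨η / c ^ m, h0, h2⟩
    · refine ⟨-(η / c ^ m), by rw [neg_sq, h0], ?_⟩
      rw [Odd.neg_pow ⟨m, rfl⟩, h2, neg_neg]

/-- `ℓ` odd: Frobenius preimage of the `y`-coordinate by completing the square. -/
theorem exists_frobenius_preimage_y_odd (ℓ : ℕ) [Fact ℓ.Prime] [CharP K ℓ] (hℓ : ℓ ≠ 2)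
    (W : WeierstrassCurve.Affine K)
    (h₁ : W.a₁ ^ ℓ = W.a₁) (h₂ : W.a₂ ^ ℓ = W.a₂) (h₃ : W.a₃ ^ ℓ = W.a₃)
    (h₄ : W.a₄ ^ ℓ = W.a₄) (h₆ : W.a₆ ^ ℓ = W.a₆) {w y : K}
    (h : W.Equation (w ^ ℓ) y) :
    ∃ y' : K, y' ^ ℓ = y ∧ W.Equation w y' := by
  have hp : ℓ.Prime := Fact.out
  have hodd : Odd ℓ := hp.eq_two_or_odd'.resolve_left hℓ
  have two_ne : (2 : K) ≠ 0 := by
    intro h2
    have : ((2 : ℕ) : K) = 0 := by exact_mod_cast h2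
    rw [CharP.cast_eq_zero_iff K ℓ 2] at this
    exact hℓ ((Nat.prime_dvd_prime_iff_eq hp Nat.prime_two).mp this)
  have four_ne : (4 : K) ≠ 0 := by
    have : (4 : K) = 2 * 2 := by norm_num
    rw [this]
    exact mul_ne_zero two_ne two_ne
  rw [WeierstrassCurve.Affine.equation_iff] at h
  set A := W.a₁ * w + W.a₃ with hAdef
  set B := w ^ 3 + W.a₂ * w ^ 2 + W.a₄ * w + W.a₆ with hBdef
  have hFA : A ^ ℓ = W.a₁ * w ^ ℓ + W.a₃ := by
    rw [hAdef, add_pow_char, mul_pow, h₁, h₃]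
  have hFB : B ^ ℓ = (w ^ ℓ) ^ 3 + W.a₂ * (w ^ ℓ) ^ 2 + W.a₄ * w ^ ℓ + W.a₆ := by
    rw [hBdef, add_pow_char, add_pow_char, add_pow_char, mul_pow, mul_pow, h₂, h₄, h₆]
    ring
  have hF2 : ((2 : K)⁻¹) ^ ℓ = (2 : K)⁻¹ := by
    have : (2 : K) ^ ℓ = 2 := by
      have := map_ofNat (frobenius K ℓ) 2
      simpa [frobenius_def] using this
    rw [inv_pow, this]
  have hF4 : ((4 : K)⁻¹) ^ ℓ = (4 : K)⁻¹ := by
    have : (4 : K) ^ ℓ = 4 := by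
      have := map_ofNat (frobenius K ℓ) 4
      simpa [frobenius_def] using this
    rw [inv_pow, this]
  -- completed square
  have hy : y ^ 2 + A ^ ℓ * y = B ^ ℓ := by
    rw [hFA, hFB, ← h]
    ring
  have hR : (B + A ^ 2 * (4 : K)⁻¹) ^ ℓ = B ^ ℓ + (A ^ ℓ) ^ 2 * (4 : K)⁻¹ := by
    rw [add_pow_char, mul_pow, hF4, ← pow_mul, mul_comm 2 ℓ, pow_mul]
  have hη : (y + A ^ ℓ * (2 : K)⁻¹) ^ 2 = (B + A ^ 2 * (4 : K)⁻¹) ^ ℓ := by
    rw [hR, ← hy]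
    field_simp
    ring
  obtain ⟨ζ, hζ2, hζℓ⟩ := exists_sqrt_of_sq_eq_pow hodd hη
  refine ⟨ζ - A * (2 : K)⁻¹, ?_, ?_⟩
  · rw [sub_pow_char, mul_pow, hF2, hζℓ]
    ring
  · rw [WeierstrassCurve.Affine.equation_iff]
    have e : (ζ - A * (2 : K)⁻¹) ^ 2 + W.a₁ * w * (ζ - A * (2 : K)⁻¹) +
        W.a₃ * (ζ - A * (2 : K)⁻¹) = ζ ^ 2 - A ^ 2 * (4 : K)⁻¹ := by
      rw [hAdef]
      field_simp
      ring
    rw [e, hζ2]
    ring

/-- **(L4)** Frobenius preimage of the `y`-coordinate. `K` a field of prime characteristic `ℓ`,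
`W` a Weierstrass curve over `K` with Frobenius-fixed coefficients.  If `(w ^ ℓ, y)` is on `W`
(and `a₁ w + a₃ ≠ 0` when `ℓ = 2`), then `y = y' ^ ℓ` with `(w, y')` on `W`. -/
theorem exists_frobenius_preimage_y (ℓ : ℕ) [Fact ℓ.Prime] [CharP K ℓ]
    (W : WeierstrassCurve.Affine K)
    (h₁ : W.a₁ ^ ℓ = W.a₁) (h₂ : W.a₂ ^ ℓ = W.a₂) (h₃ : W.a₃ ^ ℓ = W.a₃)
    (h₄ : W.a₄ ^ ℓ = W.a₄) (h₆ : W.a₆ ^ ℓ = W.a₆) {w y : K}
    (h : W.Equation (w ^ ℓ) y) (hA : ℓ = 2 → W.a₁ * w + W.a₃ ≠ 0) :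
    ∃ y' : K, y' ^ ℓ = y ∧ W.Equation w y' := by
  by_cases hℓ : ℓ = 2
  · subst hℓ
    exact exists_frobenius_preimage_y_two W h₁ h₂ h₃ h₄ h₆ h (hA rfl)
  · exact exists_frobenius_preimage_y_odd ℓ hℓ W h₁ h₂ h₃ h₄ h₆ h

end L4

section SideCondition

variable {L K : Type*} [Field L] [Field K] [Algebra L K]

/-- In characteristic `2`, `a₁ = a₃ = 0` forces `Δ = 0`. -/
theorem Δ_eq_zero_of_a₁_a₃ [CharP L 2] (W : WeierstrassCurve L) (h1 : W.a₁ = 0)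
    (h3 : W.a₃ = 0) : W.Δ = 0 := by
  have twok : (2 : L) = 0 := CharTwo.two_eq_zero
  have h4 : (4 : L) = 0 := by
    have : (4 : L) = 2 * 2 := by norm_num
    rw [this, twok, zero_mul]
  have h8 : (8 : L) = 0 := by
    have : (8 : L) = 2 * 4 := by norm_num
    rw [this, twok, zero_mul]
  simp only [WeierstrassCurve.Δ, WeierstrassCurve.b₂, WeierstrassCurve.b₄,
    WeierstrassCurve.b₆, WeierstrassCurve.b₈, h1, h3, h4, h8, twok]
  ring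

/-- The side condition of (L4) for `ℓ = 2`: if `Δ ≠ 0` in characteristic `2`, then
`a₁ w + a₃ ≠ 0` for every `w` of an extension field not in the image of `L`. -/
theorem a₁_mul_add_a₃_ne_zero [CharP L 2] (W : WeierstrassCurve L) (hΔ : W.Δ ≠ 0) {w : K}
    (hw : w ∉ Set.range (algebraMap L K)) :
    algebraMap L K W.a₁ * w + algebraMap L K W.a₃ ≠ 0 := by
  intro h0
  by_cases h1 : W.a₁ = 0
  · have h3 : W.a₃ = 0 := by
      rw [h1, map_zero, zero_mul, zero_add] at h0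
      exact (map_eq_zero (algebraMap L K)).mp h0
    exact hΔ (Δ_eq_zero_of_a₁_a₃ W h1 h3)
  · apply hw
    refine ⟨-W.a₃ / W.a₁, ?_⟩
    have h1' : algebraMap L K W.a₁ ≠ 0 := fun h => h1 ((map_eq_zero (algebraMap L K)).mp h)
    rw [map_div₀, map_neg, div_eq_iff h1']
    linear_combination -h0

end SideCondition

section ZMod

variable {K : Type*} [Field K]

/-- **(L4)** for the base change to `K` of a Weierstrass curve over `ZMod ℓ`. -/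
theorem exists_frobenius_preimage_y_zmod (ℓ : ℕ) [Fact ℓ.Prime] [Algebra (ZMod ℓ) K]
    (W₀ : WeierstrassCurve (ZMod ℓ)) {w y : K}
    (h : (W₀.map (algebraMap (ZMod ℓ) K)).toAffine.Equation (w ^ ℓ) y)
    (hA : ℓ = 2 → algebraMap (ZMod ℓ) K W₀.a₁ * w + algebraMap (ZMod ℓ) K W₀.a₃ ≠ 0) :
    ∃ y' : K, y' ^ ℓ = y ∧ (W₀.map (algebraMap (ZMod ℓ) K)).toAffine.Equation w y' := by
  have : CharP K ℓ :=
    charP_of_injective_algebraMap (FaithfulSMul.algebraMap_injective (ZMod ℓ) K) ℓ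
  have hpow : ∀ a : ZMod ℓ, (algebraMap (ZMod ℓ) K a) ^ ℓ = algebraMap (ZMod ℓ) K a := by
    intro a
    rw [← map_pow, ZMod.pow_card]
  exact exists_frobenius_preimage_y ℓ (W₀.map (algebraMap (ZMod ℓ) K)).toAffine
    (hpow _) (hpow _) (hpow _) (hpow _) (hpow _) h hA

end ZMod

end Fermat.Agent.ES.Q58.InsepLeavesB5
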