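/-
Programme S58 (paper phase), EC-ES core, step (E9)(iii) (helper9):
**a rational function with zero derivative over a perfect field of characteristic `ℓ` is an `ℓ`-th power**,
polynomial form: for coprime `N D : L[X]` with `N' D = N D'`,

* `derivative_eq_zero_of_wronskian` : `N' = 0` and `D' = 0`;
* `expand_contract_of_wronskian`   : `N = expand ℓ (contract ℓ N)`, `D = expand ℓ (contract ℓ D)`
  (`L` any field of characteristic `ℓ`);
* **`exists_pow_of_wronskian`**      : if moreover `L` is perfect, `N = N₁ ^ ℓ`, `D = D₁ ^ ℓ` with `N₁ D₁`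
  coprime (`N₁ = (contract ℓ N).map Frob⁻¹`).
-/
import Mathlib

set_option autoImplicit false

namespace Fermat.Agent.ES.Q58.InsepPoly9

open Polynomial

variable {L : Type*} [Field L]

/-- `N ∣ N'` forces `N' = 0`. -/
theorem derivative_eq_zero_of_dvd {N : L[X]} (h : N ∣ derivative N) : derivative N = 0 := by
  by_contra hne
  have hN0 : N ≠ 0 := by
    rintro rfl
    exact hne (by simp)
  have h1 : N.natDegree ≤ (derivative N).natDegree := natDegree_le_of_dvd h hne
  have h2 : (derivative N).natDegree < N.natDegree := by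
    refine natDegree_derivative_lt ?_
    intro h0
    have hc : N = C (N.coeff 0) := eq_C_of_natDegree_eq_zero h0
    apply hne
    rw [hc, derivative_C]
  omega

/-- the Wronskian condition `N' D = N D'` for a coprime pair kills both derivatives. -/
theorem derivative_eq_zero_of_wronskian {N D : L[X]} (hND : IsCoprime N D)
    (h : derivative N * D = N * derivative D) : derivative N = 0 ∧ derivative D = 0 := by
  constructor
  · refine derivative_eq_zero_of_dvd (hND.dvd_of_dvd_mul_right ?_)
    exact ⟨derivative D, h⟩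
  · refine derivative_eq_zero_of_dvd (hND.symm.dvd_of_dvd_mul_left ?_)
    exact ⟨derivative N, by rw [← h, mul_comm]⟩

variable (ℓ : ℕ) [Fact ℓ.Prime] [CharP L ℓ]

/-- **`N` and `D` are polynomials in `X ^ ℓ`.** -/
theorem expand_contract_of_wronskian {N D : L[X]} (hND : IsCoprime N D)
    (h : derivative N * D = N * derivative D) :
    expand L ℓ (contract ℓ N) = N ∧ expand L ℓ (contract ℓ D) = D := by
  obtain ⟨hN, hD⟩ := derivative_eq_zero_of_wronskian hND h
  have hℓ : ℓ ≠ 0 := (Fact.out : ℓ.Prime).ne_zero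
  exact ⟨expand_contract ℓ hN hℓ, expand_contract ℓ hD hℓ⟩

/-- **`N` and `D` are `ℓ`-th powers of a coprime pair** when `L` is perfect. -/
theorem exists_pow_of_wronskian [PerfectRing L ℓ] {N D : L[X]} (hND : IsCoprime N D)
    (h : derivative N * D = N * derivative D) :
    ∃ N₁ D₁ : L[X], IsCoprime N₁ D₁ ∧ N = N₁ ^ ℓ ∧ D = D₁ ^ ℓ := by
  obtain ⟨hN, hD⟩ := expand_contract_of_wronskian ℓ hND h
  have hℓ : 0 < ℓ := (Fact.out : ℓ.Prime).pos
  refine ⟨(contract ℓ N).map (frobeniusEquiv L ℓ).symm, (contract ℓ D).map (frobeniusEquiv L ℓ).symm,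
    ?_, ?_, ?_⟩
  · rw [← IsCoprime.pow_iff hℓ hℓ, ← polynomial_expand_eq, ← polynomial_expand_eq, hN, hD]
    exact hND
  · rw [← polynomial_expand_eq, hN]
  · rw [← polynomial_expand_eq, hD]

omit [Fact ℓ.Prime] [CharP L ℓ] in
/-- degrees: `natDegree N = ℓ * natDegree N₁`. -/
theorem natDegree_of_eq_pow {N N₁ : L[X]} (h : N = N₁ ^ ℓ) : N.natDegree = ℓ * N₁.natDegree := by
  rw [h, natDegree_pow]

end Fermat.Agent.ES.Q58.InsepPoly9
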