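/-
Programme Q (S58), EC-ES core, brick (B4) = (E9) Manin's lemma, **separability half** (helper9):

`ℓ` prime, `W` a Weierstrass curve over `ZMod ℓ` with `Δ ≠ 0`, `K = W.FunctionField`, `P₀ = (x, y)` the
generic point, `fr : K →ₐ[ZMod ℓ] K` the Frobenius `z ↦ z ^ ℓ`, `R = P₀ − fr_* P₀ = (X_R, Y_R)` with `X_R`
transcendental over `ZMod ℓ` and `X_R = N / D` in lowest terms.

* **`fibre_separable`** : the fibre polynomial `N − X_R · D ∈ K[t]` (`ManinPoly14.fibrePoly`) is separable.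

Proof ((E9)(iii) of `S58_ECES_CORE2.md`): otherwise `N' D − N D' = 0` (`ManinPoly14`), so `N = N₁ ^ ℓ`,
`D = D₁ ^ ℓ` (`InsepPoly9`), `X_R = w ^ ℓ` with `w = N₁/D₁ ∈ K`; then `Y_R = y' ^ ℓ` with `(w, y')` on the
curve (`InsepLeavesB5`), i.e. `R = fr_* R'`, hence `P₀ = fr_* (R' + P₀)` and `x = z ^ ℓ` for the
`x`-coordinate `z` of `R' + P₀` — impossible (`InsepLeaves5.x_ne_pow'`).
-/
import Mathlib
import Fermat.Agent.ES.Q58.IotaDescent23
import Fermat.Agent.ES.Q58.InsepLeaves5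
import Fermat.Agent.ES.Q58.InsepLeavesB5
import Fermat.Agent.ES.Q58.InsepPoly9
import Fermat.Agent.ES.Q58.ManinPoly14

set_option autoImplicit false

namespace Fermat.Agent.ES.Q58.ManinSep9

open WeierstrassCurve WeierstrassCurve.Affine Polynomial
open Fermat.Agent.ES.Q58.IotaDescent23

variable {ℓ : ℕ} [Fact ℓ.Prime] (W : Affine (ZMod ℓ))

/-- if `X_R = N / D` with `N = N₁ ^ ℓ`, `D = D₁ ^ ℓ`, then `X_R = w ^ ℓ` with `w = N₁ / D₁`. -/
theorem exists_pow_eq_of_pow {XR : W.FunctionField} {N D N₁ D₁ : (ZMod ℓ)[X]} (hND : IsCoprime N D)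
    (hX : XR * algebraMap (ZMod ℓ)[X] W.FunctionField D = algebraMap (ZMod ℓ)[X] W.FunctionField N)
    (hN : N = N₁ ^ ℓ) (hD : D = D₁ ^ ℓ) : ∃ w : W.FunctionField, w ^ ℓ = XR := by
  have hinj : Function.Injective (algebraMap (ZMod ℓ)[X] W.FunctionField) :=
    FaithfulSMul.algebraMap_injective (ZMod ℓ)[X] W.FunctionField
  have hD0 : D ≠ 0 := by
    rintro rfl
    rw [map_zero, mul_zero] at hX
    have hN0 : N = 0 := hinj (by rw [← hX, map_zero])
    rw [hN0] at hND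
    exact not_isCoprime_zero_zero hND
  have hD₁ : D₁ ≠ 0 := by
    rintro rfl
    exact hD0 (by rw [hD, zero_pow (Fact.out : ℓ.Prime).ne_zero])
  have hD₁K : algebraMap (ZMod ℓ)[X] W.FunctionField D₁ ≠ 0 :=
    (map_ne_zero_iff _ hinj).mpr hD₁
  refine ⟨algebraMap (ZMod ℓ)[X] W.FunctionField N₁ / algebraMap (ZMod ℓ)[X] W.FunctionField D₁, ?_⟩
  rw [div_pow, div_eq_iff (pow_ne_zero ℓ hD₁K), ← map_pow, ← map_pow, ← hN, ← hD, hX]

variable [DecidableEq W.FunctionField]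

/-- **(E9)(iii): the fibre polynomial `N − X_R · D` of `R = P₀ − φ P₀` is separable.** -/
theorem fibre_separable (hΔ : W.Δ ≠ 0) (fr : W.FunctionField →ₐ[ZMod ℓ] W.FunctionField)
    (hfr : ∀ z, fr z = z ^ ℓ) {XR YR : W.FunctionField}
    (hR : (W⁄W.FunctionField).Nonsingular XR YR)
    (hdiff : genericPoint W hΔ - Point.map (W' := W) fr (genericPoint W hΔ) = Point.some XR YR hR)
    (htr : Transcendental (ZMod ℓ) XR) {N D : (ZMod ℓ)[X]} (hND : IsCoprime N D)
    (hX : XR * algebraMap (ZMod ℓ)[X] W.FunctionField D = algebraMap (ZMod ℓ)[X] W.FunctionField N) :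
    (ManinPoly14.fibrePoly N D XR).Separable := by
  by_contra hns
  -- the Wronskian vanishes, so `N`, `D` are `ℓ`-th powers and `X_R = w ^ ℓ`
  have hW := ManinPoly14.wronskian_eq_zero_of_not_separable hND htr hns
  obtain ⟨N₁, D₁, -, hN, hD⟩ := InsepPoly9.exists_pow_of_wronskian ℓ hND (sub_eq_zero.mp hW)
  obtain ⟨w, hw⟩ := exists_pow_eq_of_pow W hND hX hN hD
  -- `w` is not a constant
  have hwr : w ∉ Set.range (algebraMap (ZMod ℓ) W.FunctionField) := by
    rintro ⟨c, rfl⟩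
    apply htr
    rw [← hw, ← map_pow]
    exact isAlgebraic_algebraMap _
  -- `Y_R = y' ^ ℓ` with `(w, y')` on the curve
  have hEq : (W.map (algebraMap (ZMod ℓ) W.FunctionField)).toAffine.Equation (w ^ ℓ) YR := by
    rw [hw]
    exact hR.1
  obtain ⟨y', hy', hwy'⟩ := InsepLeavesB5.exists_frobenius_preimage_y_zmod ℓ W hEq (by
    intro h2
    subst h2
    have : CharP (ZMod 2) 2 := ZMod.charP 2
    exact InsepLeavesB5.a₁_mul_add_a₃_ne_zero W hΔ hwr)
  have hΔK : (W⁄W.FunctionField).Δ ≠ 0 := by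
    show (W.map (algebraMap (ZMod ℓ) W.FunctionField)).Δ ≠ 0
    rw [map_Δ]
    exact fun h => hΔ ((algebraMap (ZMod ℓ) W.FunctionField).injective (by rw [h, map_zero]))
  have hns' : (W⁄W.FunctionField).Nonsingular w y' :=
    (equation_iff_nonsingular_of_Δ_ne_zero hΔK).mp hwy'
  -- `R = φ R'`
  have hRR' : Point.map (W' := W) fr (Point.some w y' hns') = Point.some XR YR hR := by
    rw [Point.map_some]
    congr 1
    · rw [hfr, hw]
    · rw [hfr, hy']
  -- `P₀ = φ (R' + P₀)`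
  have hP₀ : genericPoint W hΔ =
      Point.map (W' := W) fr (Point.some w y' hns' + genericPoint W hΔ) := by
    rw [map_add, hRR', ← hdiff]
    abel
  -- the `x`-coordinate of `R' + P₀` is an `ℓ`-th root of `x`
  cases hZ : Point.some w y' hns' + genericPoint W hΔ with
  | zero =>
    rw [hZ] at hP₀
    exact Point.some_ne_zero _ hP₀
  | some z z' hz =>
    rw [hZ, Point.map_some] at hP₀
    have hx : xK W = fr z := (Point.some.inj hP₀).1
    rw [hfr] at hx
    have : CharP (ZMod ℓ) ℓ := ZMod.charP ℓ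
    exact InsepLeaves5.x_ne_pow' W ℓ hΔ z hx.symm

end Fermat.Agent.ES.Q58.ManinSep9
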