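/-
S58, EC-ES core, brick (B4) = (E9) **Manin's lemma**, final statement (helper14 + helper9).

`manin` : the degree of `x(P₀ − φ P₀)` as a rational function of `x` is the number of
`F_ℓ`-rational points — `Manin14.manin_of_separable` (counting half, helper14) with the
separability hypothesis discharged by `ManinSep9.fibre_separable` (helper9).  The binder list is
helper9's literal `manin` statement, consumed by helper2's `FrobCore2`.
-/
import Fermat.Agent.ES.Q58.Manin14
import Fermat.Agent.ES.Q58.ManinSep9

set_option autoImplicit false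

open Polynomial

namespace Fermat.Agent.ES.Q58.ManinFinal14

open WeierstrassCurve WeierstrassCurve.Affine
open Fermat.Agent.ES.Q58.IotaDescent23

/-- **Manin's lemma** `d(P₀ − φ P₀) = #W(F_ℓ)`. -/
theorem manin {ℓ : ℕ} [Fact ℓ.Prime] (W : Affine (ZMod ℓ)) [DecidableEq W.FunctionField]
    (hΔ : W.Δ ≠ 0) (fr : W.FunctionField →ₐ[ZMod ℓ] W.FunctionField) (hfr : ∀ z, fr z = z ^ ℓ)
    {XR YR : W.FunctionField} (hR : (W⁄W.FunctionField).Nonsingular XR YR)
    (hdiff : genericPoint W hΔ - Point.map (W' := W) fr (genericPoint W hΔ) = Point.some XR YR hR)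
    (htr : Transcendental (ZMod ℓ) XR)
    {N D : (ZMod ℓ)[X]} (hND : IsCoprime N D)
    (hX : XR * algebraMap (ZMod ℓ)[X] W.FunctionField D =
      algebraMap (ZMod ℓ)[X] W.FunctionField N) :
    max N.natDegree D.natDegree = Nat.card W.Point :=
  Manin14.manin_of_separable W hΔ fr hfr hR hdiff hX hND htr
    (ManinSep9.fibre_separable W hΔ fr hfr hR hdiff htr hND hX)

end Fermat.Agent.ES.Q58.ManinFinal14
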