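/-
Programme Q (S58), Part I export (assembled by helper18 from helper2's `FrobCore2`, helper14/helper9's
`ManinFinal14` and helper23's `GenericAll23`; the glue is helper23's end-to-end snippet):

`frob_relation`: for a Weierstrass curve `W₀` over `ZMod ℓ` with `Δ ≠ 0` and ANY field `L` of
characteristic `ℓ`, the Frobenius endomorphism `φ = frobPt` of `W₀(L)` satisfies
`φ² - a φ + ℓ = 0`, `a = W₀.traceOfFrobenius = ℓ + 1 - #W₀(𝔽_ℓ)`.  All primes `ℓ`, including 2, 3.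
-/
import Mathlib
import Fermat.Prelude.Def_FLTPrelim_Modularity
import Fermat.Agent.ES.Q58.FrobCore2
import Fermat.Agent.ES.Q58.ManinFinal14
import Fermat.Agent.ES.Q58.GenericAll23

set_option autoImplicit false

open WeierstrassCurve WeierstrassCurve.Affine

namespace Fermat.Agent.ES.Q58.FrobRel18

open Fermat.Agent.ES.Q58 Fermat.Agent.ES.Q58.IotaDescent23 Fermat.Agent.ES.Q58.GenericAll23

variable (ℓ : ℕ) [Fact ℓ.Prime]

/-- the Frobenius endomorphism of the point group of a curve over `ZMod ℓ`, over any field `L` of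
characteristic `ℓ`. -/
noncomputable def frobPt (W₀ : WeierstrassCurve (ZMod ℓ)) (L : Type*) [Field L] [DecidableEq L]
    [Algebra (ZMod ℓ) L] : (W₀.toAffine⁄L).Point →+ (W₀.toAffine⁄L).Point :=
  Point.map (W' := W₀.toAffine) (frobAlg (ℓ := ℓ) L)

theorem frobPt_some (W₀ : WeierstrassCurve (ZMod ℓ)) (L : Type*) [Field L] [DecidableEq L]
    [Algebra (ZMod ℓ) L] {x y : L} (h : (W₀.toAffine⁄L).Nonsingular x y) :
    ∃ h', frobPt ℓ W₀ L (Point.some x y h) = Point.some (x ^ ℓ) (y ^ ℓ) h' := ⟨_, rfl⟩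

/-- **The Eichler–Shimura relation** for a curve over `ZMod ℓ` with `Δ ≠ 0`, on the points over any
field of characteristic `ℓ`. -/
theorem frob_relation (W₀ : WeierstrassCurve (ZMod ℓ)) (hΔ : W₀.Δ ≠ 0)
    (L : Type*) [Field L] [DecidableEq L] [Algebra (ZMod ℓ) L] (P : (W₀.toAffine⁄L).Point) :
    frobPt ℓ W₀ L (frobPt ℓ W₀ L P) - W₀.traceOfFrobenius • frobPt ℓ W₀ L P + (ℓ : ℤ) • P = 0 := by
  classical
  have hℓ : 1 < ℓ := (Fact.out : ℓ.Prime).one_lt
  have hgen := FrobCore2.relation_genericPoint W₀.toAffine hΔ ℓ (frobAlg (ℓ := ℓ) _)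
    (frobAlg_apply (ℓ := ℓ) _) hℓ (Nat.card W₀.toAffine.Point)
    (fun hR hdiff htr _ _ hND hX =>
      ManinFinal14.manin W₀.toAffine hΔ (frobAlg (ℓ := ℓ) _) (frobAlg_apply (ℓ := ℓ) _) hR hdiff htr
        hND hX)
  have ha : W₀.traceOfFrobenius = (1 : ℤ) + ℓ - (Nat.card W₀.toAffine.Point : ℤ) := by
    unfold WeierstrassCurve.traceOfFrobenius WeierstrassCurve.card
    rw [Nat.card_zmod]; ring
  rw [ha]
  exact relation_of_generic W₀.toAffine hΔ (frobAlg (ℓ := ℓ) _) (frobAlg_apply (ℓ := ℓ) _) _ _ hgen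
    (frobAlg (ℓ := ℓ) L) (frobAlg_apply (ℓ := ℓ) L) P

end Fermat.Agent.ES.Q58.FrobRel18
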