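/-
Programme S58, brick (RED), abstract layer (helper18).

`A` a valuation subring of a field `K` with residue field `k`, `WA` a Weierstrass curve with
coefficients in `A` and unit discriminant (good reduction); `WK`, `Wk` its images over `K`, `k`.

* `red : WK.Point → Wk.Point` : points with coordinates in `A` go to their residues, all other
  points (the kernel of reduction `E₁`) to `0`;
* `red_eq_zero_iff`, `red_neg`;
* for a subgroup `T ≤ WK.Point` with `T ∩ E₁ = 0` and without `2`-torsion (e.g. the torsion of odd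
  order prime to the residue characteristic): `coords_of_mem` (integral coordinates,
  `2y + a₁x + a₃` a unit), `red_injOn`, `red_add`, and the injective homomorphism `redHom`.

General Weierstrass equation, any residue characteristic.  Uses `S05/Kernel` (the subgroup `E₁`)
and `ES/EC/CongE1_20`.
-/
import Mathlib
import Fermat.Agent.S05.Kernel
import Fermat.Agent.ES.EC.CongE1_20

set_option autoImplicit false

open WeierstrassCurve WeierstrassCurve.Affine

namespace Fermat.Agent.ES.Q58.RedHom18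

open Fermat.Agent.S05.Kernel Fermat.Agent.ES.EC.CongE1_20

/-! ### Three identities on a general Weierstrass curve -/

section Ident

variable {R : Type*} [CommRing R] (W : Affine R)

/-- `ψ₂² = 4x³ + b₂x² + 2b₄x + b₆`. -/
theorem dblDen_sq {x y : R} (h : W.Equation x y) :
    (2 * y + W.a₁ * x + W.a₃) ^ 2 = 4 * x ^ 3 + W.b₂ * x ^ 2 + 2 * W.b₄ * x + W.b₆ := by
  rw [equation_iff] at h
  simp only [b₂, b₄, b₆]
  linear_combination 4 * h

/-- numerator of `x(2P)`. -/
theorem dblNum_eq {x y : R} (h : W.Equation x y) :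
    (3 * x ^ 2 + 2 * W.a₂ * x + W.a₄ - W.a₁ * y) ^ 2
      + W.a₁ * (3 * x ^ 2 + 2 * W.a₂ * x + W.a₄ - W.a₁ * y) * (2 * y + W.a₁ * x + W.a₃)
      - (W.a₂ + 2 * x) * (2 * y + W.a₁ * x + W.a₃) ^ 2
      = x ^ 4 - W.b₄ * x ^ 2 - 2 * W.b₆ * x - W.b₈ := by
  rw [equation_iff] at h
  simp only [b₄, b₆, b₈]
  linear_combination (-(8 * x + (W.a₁ ^ 2 + 4 * W.a₂))) * h

/-- the integer Bezout identity between the two duplication forms. -/
theorem bezout_dbl (x : R) :
    (12 * x ^ 3 - W.b₂ * x ^ 2 - 10 * W.b₄ * x + W.b₂ * W.b₄ - 27 * W.b₆)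
        * (4 * x ^ 3 + W.b₂ * x ^ 2 + 2 * W.b₄ * x + W.b₆)
      - (48 * x ^ 2 + 8 * W.b₂ * x + 32 * W.b₄ - W.b₂ ^ 2)
        * (x ^ 4 - W.b₄ * x ^ 2 - 2 * W.b₆ * x - W.b₈) = W.Δ := by
  simp only [Δ, b₂, b₄, b₆, b₈]
  ring

end Ident

/-! ### Chord and tangent through a ring homomorphism into a field -/

section MapAdd

variable {R : Type*} [CommRing R] (W : WeierstrassCurve R) {F : Type*} [Field F] [DecidableEq F]
  (f : R →+* F)

/-- chord: `x₁ - x₂` a unit of `R`. -/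
theorem add_map_of_X_unit {x₁ x₂ y₁ y₂ : R} (u : Rˣ) (hu : (u : R) = x₁ - x₂)
    (h₁ : (W.map f).toAffine.Nonsingular (f x₁) (f y₁))
    (h₂ : (W.map f).toAffine.Nonsingular (f x₂) (f y₂)) :
    ∃ h₃, Point.some _ _ h₁ + Point.some _ _ h₂ =
      Point.some (f (W.toAffine.addX x₁ x₂ ((y₁ - y₂) * ↑u⁻¹)))
        (f (W.toAffine.addY x₁ x₂ y₁ ((y₁ - y₂) * ↑u⁻¹))) h₃ := by
  have hfu : f (u : R) * f ((u⁻¹ : Rˣ) : R) = 1 := by rw [← map_mul, Units.mul_inv, map_one]
  have hne : f x₁ ≠ f x₂ := by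
    intro h
    have : f (u : R) = 0 := by rw [hu, map_sub, h, sub_self]
    rw [this, zero_mul] at hfu
    exact zero_ne_one hfu
  have hsl : (W.map f).toAffine.slope (f x₁) (f x₂) (f y₁) (f y₂) = f ((y₁ - y₂) * ↑u⁻¹) := by
    rw [slope_of_X_ne hne, map_mul, map_sub, div_eq_iff (sub_ne_zero.mpr hne), mul_assoc,
      ← map_sub f x₁ x₂, ← hu, mul_comm (f _) (f (u : R)), hfu, mul_one]
  have key := Point.add_of_X_ne (h₁ := h₁) (h₂ := h₂) hne
  have e1 : (W.map f).toAffine.addX (f x₁) (f x₂)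
      ((W.map f).toAffine.slope (f x₁) (f x₂) (f y₁) (f y₂)) =
      f (W.toAffine.addX x₁ x₂ ((y₁ - y₂) * ↑u⁻¹)) := by
    rw [hsl]; exact Affine.map_addX (W' := W.toAffine) f x₁ x₂ _
  have e2 : (W.map f).toAffine.addY (f x₁) (f x₂) (f y₁)
      ((W.map f).toAffine.slope (f x₁) (f x₂) (f y₁) (f y₂)) =
      f (W.toAffine.addY x₁ x₂ y₁ ((y₁ - y₂) * ↑u⁻¹)) := by
    rw [hsl]; exact Affine.map_addY (W' := W.toAffine) f x₁ y₁ x₂ _
  refine ⟨by rw [← e1, ← e2]; exact nonsingular_add h₁ h₂ fun hxy => hne hxy.left, ?_⟩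
  rw [key]
  simp only [Point.some.injEq]
  exact ⟨e1, e2⟩

/-- tangent: `2y + a₁x + a₃` a unit of `R`. -/
theorem add_self_map_of_unit {x y : R} (u : Rˣ) (hu : (u : R) = 2 * y + W.a₁ * x + W.a₃)
    (h : (W.map f).toAffine.Nonsingular (f x) (f y)) :
    ∃ h₃, Point.some _ _ h + Point.some _ _ h =
      Point.some
        (f (W.toAffine.addX x x ((3 * x ^ 2 + 2 * W.a₂ * x + W.a₄ - W.a₁ * y) * ↑u⁻¹)))
        (f (W.toAffine.addY x x y ((3 * x ^ 2 + 2 * W.a₂ * x + W.a₄ - W.a₁ * y) * ↑u⁻¹)))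
        h₃ := by
  have hfu : f (u : R) * f ((u⁻¹ : Rˣ) : R) = 1 := by rw [← map_mul, Units.mul_inv, map_one]
  have hfu0 : f (u : R) ≠ 0 := fun h0 => by rw [h0, zero_mul] at hfu; exact zero_ne_one hfu
  have hD : f y - (W.map f).toAffine.negY (f x) (f y) = f (u : R) := by
    rw [hu, negY]
    simp only [toAffine, map_a₁, map_a₃, map_add, map_mul, map_ofNat]
    ring
  have hne : f y ≠ (W.map f).toAffine.negY (f x) (f y) := by
    intro h0
    apply hfu0
    rw [← hD, sub_eq_zero]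
    exact h0
  have hsl : (W.map f).toAffine.slope (f x) (f x) (f y) (f y) =
      f ((3 * x ^ 2 + 2 * W.a₂ * x + W.a₄ - W.a₁ * y) * ↑u⁻¹) := by
    have e : f ((3 * x ^ 2 + 2 * W.a₂ * x + W.a₄ - W.a₁ * y) * ↑u⁻¹) * f (u : R) =
        f (3 * x ^ 2 + 2 * W.a₂ * x + W.a₄ - W.a₁ * y) := by
      rw [map_mul, mul_assoc, mul_comm (f ((u⁻¹ : Rˣ) : R)), hfu, mul_one]
    rw [slope_of_Y_ne rfl hne, hD, div_eq_iff hfu0, e]
    simp only [toAffine, map_a₁, map_a₂, map_a₄, map_add, map_sub, map_mul, map_pow, map_ofNat]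
  have key := Point.add_self_of_Y_ne (h₁ := h) hne
  have e1 : (W.map f).toAffine.addX (f x) (f x)
      ((W.map f).toAffine.slope (f x) (f x) (f y) (f y)) =
      f (W.toAffine.addX x x ((3 * x ^ 2 + 2 * W.a₂ * x + W.a₄ - W.a₁ * y) * ↑u⁻¹)) := by
    rw [hsl]; exact Affine.map_addX (W' := W.toAffine) f x x _
  have e2 : (W.map f).toAffine.addY (f x) (f x) (f y)
      ((W.map f).toAffine.slope (f x) (f x) (f y) (f y)) =
      f (W.toAffine.addY x x y ((3 * x ^ 2 + 2 * W.a₂ * x + W.a₄ - W.a₁ * y) * ↑u⁻¹)) := by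
    rw [hsl]; exact Affine.map_addY (W' := W.toAffine) f x y x _
  refine ⟨by rw [← e1, ← e2]; exact nonsingular_add h h fun hxy => hne hxy.right, ?_⟩
  rw [key]
  simp only [Point.some.injEq]
  exact ⟨e1, e2⟩

end MapAdd

/-! ### Setup -/

variable {K : Type*} [Field K] (A : ValuationSubring K) (WA : WeierstrassCurve ↥A)

/-- the curve over `K`. -/
abbrev WK : Affine K := (WA.map A.subtype).toAffine

/-- the reduced curve over the residue field. -/
abbrev Wk : Affine (IsLocalRing.ResidueField ↥A) := (WA.map (IsLocalRing.residue ↥A)).toAffine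

variable {A WA}

theorem integralCoeffs : IntegralCoeffs A.valuation (WK A WA) := by
  refine ⟨?_, ?_, ?_, ?_, ?_⟩ <;> simp only [WK, toAffine, map_a₁, map_a₂, map_a₃, map_a₄, map_a₆] <;>
    exact A.valuation_le_one _

theorem equation_iff_coe (x y : ↥A) :
    (WK A WA).Equation (x : K) (y : K) ↔ WA.toAffine.Equation x y :=
  Affine.map_equation WA.toAffine (f := A.subtype) Subtype.val_injective x y

theorem equation_res {x y : ↥A} (h : WA.toAffine.Equation x y) :
    (Wk A WA).Equation (IsLocalRing.residue ↥A x) (IsLocalRing.residue ↥A y) :=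
  Affine.Equation.map (IsLocalRing.residue ↥A) h

theorem Δ_res_ne_zero (hΔ : IsUnit WA.Δ) : (Wk A WA).Δ ≠ 0 := by
  simp only [Wk, toAffine, map_Δ]
  intro h0
  exact (IsLocalRing.residue_eq_zero_iff _).mp h0 |> fun hm =>
    (IsLocalRing.mem_maximalIdeal _).mp hm hΔ

theorem nonsingular_res (hΔ : IsUnit WA.Δ) {x y : ↥A}
    (h : (WK A WA).Equation (x : K) (y : K)) :
    (Wk A WA).Nonsingular (IsLocalRing.residue ↥A x) (IsLocalRing.residue ↥A y) :=
  ((Wk A WA).equation_iff_nonsingular_of_Δ_ne_zero (Δ_res_ne_zero hΔ)).mp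
    (equation_res ((equation_iff_coe x y).mp h))

/-! ### The reduction map -/

open Classical in
/-- **Reduction of points.** -/
noncomputable def red (hΔ : IsUnit WA.Δ) : (WK A WA).Point → (Wk A WA).Point
  | .zero => 0
  | .some x y h =>
    if hxy : x ∈ A ∧ y ∈ A then
      Point.some (IsLocalRing.residue ↥A ⟨x, hxy.1⟩) (IsLocalRing.residue ↥A ⟨y, hxy.2⟩)
        (nonsingular_res hΔ (x := ⟨x, hxy.1⟩) (y := ⟨y, hxy.2⟩) h.1)
    else 0

@[simp] theorem red_zero (hΔ : IsUnit WA.Δ) : red hΔ (0 : (WK A WA).Point) = 0 := rfl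

theorem red_some_eq (hΔ : IsUnit WA.Δ) {x y : K} (h : (WK A WA).Nonsingular x y) (x' y' : ↥A)
    (hx : x = (x' : K)) (hy : y = (y' : K)) :
    red hΔ (Point.some x y h) =
      Point.some (IsLocalRing.residue ↥A x') (IsLocalRing.residue ↥A y')
        (nonsingular_res hΔ (by rw [← hx, ← hy]; exact h.1)) := by
  subst hx hy
  have hxy : (x' : K) ∈ A ∧ (y' : K) ∈ A := ⟨x'.2, y'.2⟩
  simp only [red, dif_pos hxy]

theorem red_some_of_not_mem (hΔ : IsUnit WA.Δ) {x y : K} (h : (WK A WA).Nonsingular x y)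
    (hxy : ¬ (x ∈ A ∧ y ∈ A)) : red hΔ (Point.some x y h) = 0 := by
  simp only [red, dif_neg hxy]

/-! ### Kernel and negation -/

theorem val_lt_one_iff (a : ↥A) : A.valuation (a : K) < 1 ↔ IsLocalRing.residue ↥A a = 0 := by
  rw [IsLocalRing.residue_eq_zero_iff, A.valuation_lt_one_iff]

theorem val_eq_one_of_isUnit {a : ↥A} (h : IsUnit a) : A.valuation (a : K) = 1 :=
  (A.valuation_eq_one_iff a).mp h

theorem not_mem_iff (x : K) : x ∉ A ↔ 1 < A.valuation x := by
  rw [← A.valuation_le_one_iff, not_le]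

theorem red_eq_zero_iff (hΔ : IsUnit WA.Δ) (P : (WK A WA).Point) :
    red hΔ P = 0 ↔ InE1 A.valuation P := by
  rcases P with _ | ⟨x, y, h⟩
  · exact ⟨fun _ => inE1_zero _, fun _ => rfl⟩
  · show red hΔ (Point.some x y h) = 0 ↔ InE1 A.valuation (Point.some x y h)
    rw [inE1_some]
    constructor
    · intro h0
      by_cases hxy : x ∈ A ∧ y ∈ A
      · rw [red_some_eq hΔ h ⟨x, hxy.1⟩ ⟨y, hxy.2⟩ rfl rfl] at h0
        exact absurd h0 (Point.some_ne_zero _)
      · by_contra hx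
        rw [← not_mem_iff, not_not] at hx
        apply hxy
        refine ⟨hx, ?_⟩
        by_contra hy
        rw [not_mem_iff] at hy
        have := vx_of_vy integralCoeffs h.1 hy
        exact ((not_mem_iff x).mpr this) hx
    · intro hx
      exact red_some_of_not_mem hΔ h fun hxy => ((not_mem_iff x).mpr hx) hxy.1

theorem red_neg (hΔ : IsUnit WA.Δ) (P : (WK A WA).Point) : red hΔ (-P) = - red hΔ P := by
  by_cases h0 : red hΔ P = 0
  · have h1 : InE1 A.valuation (-P) := ((red_eq_zero_iff hΔ P).mp h0).neg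
    rw [h0, Point.neg_zero, (red_eq_zero_iff hΔ (-P)).mpr h1]
  · rcases P with _ | ⟨x, y, h⟩
    · exact absurd rfl h0
    · have hxy : x ∈ A ∧ y ∈ A := by
        by_contra hxy
        exact h0 (red_some_of_not_mem hΔ h hxy)
      set x' : ↥A := ⟨x, hxy.1⟩ with hx'
      set y' : ↥A := ⟨y, hxy.2⟩ with hy'
      have hneg : (WK A WA).negY x y = ((WA.toAffine.negY x' y' : ↥A) : K) := by
        have := Affine.map_negY (W' := WA.toAffine) A.subtype x' y'
        exact this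
      show red hΔ (-(Point.some x y h)) = - red hΔ (Point.some x y h)
      rw [Point.neg_some, red_some_eq hΔ _ x' (WA.toAffine.negY x' y') rfl hneg,
        red_some_eq hΔ h x' y' rfl rfl, Point.neg_some]
      congr 1

/-! ### Duplication: a point reducing to a `2`-torsion point doubles into `E₁` -/

section Dbl

variable [DecidableEq K]

/-- If `2y + a₁x + a₃` is not a unit (good reduction), then `2P ∈ E₁`. -/
theorem dbl_inE1 (hΔ : IsUnit WA.Δ) (x y : ↥A) (h : (WK A WA).Nonsingular (x : K) (y : K))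
    (hD : ¬ IsUnit (2 * y + WA.a₁ * x + WA.a₃)) :
    InE1 A.valuation (Point.some (x : K) (y : K) h + Point.some (x : K) (y : K) h) := by
  have hEqA : WA.toAffine.Equation x y := (equation_iff_coe x y).mp h.1
  set D : ↥A := 2 * y + WA.a₁ * x + WA.a₃ with hDdef
  set N : ↥A := 3 * x ^ 2 + 2 * WA.a₂ * x + WA.a₄ - WA.a₁ * y with hNdef
  set G : ↥A := x ^ 4 - WA.b₄ * x ^ 2 - 2 * WA.b₆ * x - WA.b₈ with hGdef
  have hDm : D ∈ IsLocalRing.maximalIdeal ↥A := (IsLocalRing.mem_maximalIdeal _).mpr hD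
  -- `G` is a unit
  have hGu : IsUnit G := by
    by_contra hG
    have hGm : G ∈ IsLocalRing.maximalIdeal ↥A := (IsLocalRing.mem_maximalIdeal _).mpr hG
    have hbz := bezout_dbl WA.toAffine x
    have hF : (4 * x ^ 3 + WA.b₂ * x ^ 2 + 2 * WA.b₄ * x + WA.b₆ : ↥A) = D ^ 2 :=
      (dblDen_sq WA.toAffine hEqA).symm
    rw [hF] at hbz
    have : WA.Δ ∈ IsLocalRing.maximalIdeal ↥A := by
      rw [← hbz]
      refine Ideal.sub_mem _ (Ideal.mul_mem_left _ _ (Ideal.pow_mem_of_mem _ hDm 2 (by norm_num)))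
        (Ideal.mul_mem_left _ _ hGm)
    exact (IsLocalRing.mem_maximalIdeal _).mp this hΔ
  -- casts
  have hDK' : (D : K) = 2 * (y : K) + (WK A WA).a₁ * (x : K) + (WK A WA).a₃ := by
    rw [hDdef]; push_cast; rfl
  have hNK' : (N : K) = 3 * (x : K) ^ 2 + 2 * (WK A WA).a₂ * (x : K) + (WK A WA).a₄
      - (WK A WA).a₁ * (y : K) := by
    rw [hNdef]; push_cast; rfl
  have hGK' : (G : K) = (x : K) ^ 4 - (WK A WA).b₄ * (x : K) ^ 2 - 2 * (WK A WA).b₆ * (x : K)
      - (WK A WA).b₈ := by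
    rw [hGdef]
    simp only [WK, toAffine, map_b₄, map_b₆, map_b₈]
    push_cast; rfl
  have hnegY : (y : K) - (WK A WA).negY (x : K) (y : K) = (D : K) := by
    rw [hDK', negY]; ring
  by_cases hD0 : D = 0
  · have hy : (y : K) = (WK A WA).negY (x : K) (y : K) := by
      have : (D : K) = 0 := by rw [hD0]; rfl
      rw [← hnegY] at this
      exact sub_eq_zero.mp this
    rw [Point.add_self_of_Y_eq hy]
    exact inE1_zero _
  · have hDK : (D : K) ≠ 0 := fun h0 => hD0 (Subtype.ext h0)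
    have hy : (y : K) ≠ (WK A WA).negY (x : K) (y : K) := by
      intro hy
      apply hDK
      rw [← hnegY, sub_eq_zero]
      exact hy
    rw [Point.add_self_of_Y_ne hy, inE1_some, slope_of_Y_ne rfl hy, hnegY, ← hNK']
    have hI2K := dblNum_eq (WK A WA) h.1
    rw [← hNK', ← hDK', ← hGK'] at hI2K
    have hX : (WK A WA).addX (x : K) (x : K) ((N : K) / (D : K)) = (G : K) / (D : K) ^ 2 := by
      rw [addX, eq_div_iff (pow_ne_zero 2 hDK), ← hI2K]
      field_simp
      ring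
    rw [hX, map_div₀, map_pow, val_eq_one_of_isUnit hGu]
    have hvD : A.valuation (D : K) < 1 := (A.valuation_lt_one_iff D).mp hDm
    have hvD0 : 0 < A.valuation (D : K) :=
      zero_lt_iff.mpr ((Valuation.ne_zero_iff _).mpr hDK)
    have hsq : A.valuation (D : K) ^ 2 < 1 := pow_lt_one₀ hvD0.le hvD (by norm_num)
    rw [one_div]
    exact (one_lt_inv₀ (pow_pos hvD0 2)).mpr hsq

end Dbl

/-! ### Reduction on a subgroup meeting `E₁` trivially, without `2`-torsion -/

section Hom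

theorem coe_dblDen (x y : ↥A) :
    ((2 * y + WA.a₁ * x + WA.a₃ : ↥A) : K) =
      2 * (y : K) + (WK A WA).a₁ * (x : K) + (WK A WA).a₃ := by
  push_cast; rfl

variable [DecidableEq K] [DecidableEq (IsLocalRing.ResidueField ↥A)]

variable (hΔ : IsUnit WA.Δ) (T : AddSubgroup (WK A WA).Point)
  (hT1 : ∀ P ∈ T, InE1 A.valuation P → P = 0) (hT2 : ∀ P ∈ T, P + P = 0 → P = 0)

include hΔ hT1 hT2

omit [DecidableEq (IsLocalRing.ResidueField ↥A)] in
/-- **(R1)** nonzero points of `T` have integral coordinates and do not reduce to `2`-torsion. -/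
theorem coords_of_mem {P : (WK A WA).Point} (hP : P ∈ T) (h0 : P ≠ 0) :
    ∃ (x y : ↥A) (h : (WK A WA).Nonsingular (x : K) (y : K)),
      P = Point.some (x : K) (y : K) h ∧ IsUnit (2 * y + WA.a₁ * x + WA.a₃) := by
  rcases P with _ | ⟨x, y, h⟩
  · exact absurd rfl h0
  · have hnot : ¬ InE1 A.valuation (Point.some x y h) := fun hE => h0 (hT1 _ hP hE)
    rw [inE1_some, not_lt, A.valuation_le_one_iff] at hnot
    have hyA : y ∈ A := by
      by_contra hy
      rw [not_mem_iff] at hy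
      exact (not_mem_iff x).mpr (vx_of_vy integralCoeffs h.1 hy) hnot
    refine ⟨⟨x, hnot⟩, ⟨y, hyA⟩, h, rfl, ?_⟩
    by_contra hD
    have hE := dbl_inE1 hΔ ⟨x, hnot⟩ ⟨y, hyA⟩ h hD
    have h2 := hT1 _ (T.add_mem hP hP) hE
    exact h0 (hT2 _ hP h2)

omit [DecidableEq (IsLocalRing.ResidueField ↥A)] in
/-- **(R2)** reduction is injective on `T`. -/
theorem red_injOn {P Q : (WK A WA).Point} (hP : P ∈ T) (hQ : Q ∈ T)
    (h : red hΔ P = red hΔ Q) : P = Q := by
  by_cases hP0 : P = 0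
  · subst hP0
    rw [red_zero] at h
    exact (hT1 Q hQ ((red_eq_zero_iff hΔ Q).mp h.symm)).symm
  by_cases hQ0 : Q = 0
  · subst hQ0
    rw [red_zero] at h
    exact hT1 P hP ((red_eq_zero_iff hΔ P).mp h)
  obtain ⟨x₁, y₁, h₁, rfl, -⟩ := coords_of_mem hΔ T hT1 hT2 hP hP0
  obtain ⟨x₂, y₂, h₂, rfl, hu₂⟩ := coords_of_mem hΔ T hT1 hT2 hQ hQ0
  rw [red_some_eq hΔ h₁ x₁ y₁ rfl rfl, red_some_eq hΔ h₂ x₂ y₂ rfl rfl, Point.some.injEq] at h
  obtain ⟨hx, hy⟩ := h
  have hx' : A.valuation ((x₁ : K) - (x₂ : K)) < 1 := by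
    have : IsLocalRing.residue ↥A (x₁ - x₂) = 0 := by rw [map_sub, hx, sub_self]
    exact (val_lt_one_iff (x₁ - x₂)).mpr this
  have hy' : A.valuation ((y₁ : K) - (y₂ : K)) < 1 := by
    have : IsLocalRing.residue ↥A (y₁ - y₂) = 0 := by rw [map_sub, hy, sub_self]
    exact (val_lt_one_iff (y₁ - y₂)).mpr this
  have hu : A.valuation (2 * (y₂ : K) + (WK A WA).a₁ * (x₂ : K) + (WK A WA).a₃) = 1 := by
    rw [← coe_dblDen]
    exact val_eq_one_of_isUnit hu₂
  have hE := sub_inE1_of_congruent integralCoeffs h₁ h₂ (A.valuation_le_one x₁)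
    (A.valuation_le_one x₂) hx' hy' hu
  exact sub_eq_zero.mp (hT1 _ (T.sub_mem hP hQ) hE)

/-- **(R3)** reduction is additive on `T`. -/
theorem red_add {P Q : (WK A WA).Point} (hP : P ∈ T) (hQ : Q ∈ T) :
    red hΔ (P + Q) = red hΔ P + red hΔ Q := by
  by_cases hP0 : P = 0
  · subst hP0
    rw [zero_add, red_zero, zero_add]
  by_cases hQ0 : Q = 0
  · subst hQ0
    rw [add_zero, red_zero, add_zero]
  obtain ⟨x₁, y₁, h₁, rfl, hu₁⟩ := coords_of_mem hΔ T hT1 hT2 hP hP0
  obtain ⟨x₂, y₂, h₂, rfl, hu₂⟩ := coords_of_mem hΔ T hT1 hT2 hQ hQ0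
  have hr₁ := red_some_eq hΔ h₁ x₁ y₁ rfl rfl
  have hr₂ := red_some_eq hΔ h₂ x₂ y₂ rfl rfl
  by_cases hx : (x₁ : K) = (x₂ : K)
  · have hx' : x₁ = x₂ := Subtype.ext hx
    subst hx'
    by_cases hy : (y₁ : K) = (WK A WA).negY (x₁ : K) (y₂ : K)
    · -- `P + Q = 0`
      rw [Point.add_of_Y_eq rfl hy, red_zero, hr₁, hr₂]
      symm
      apply Point.add_of_Y_eq rfl
      have hyA : y₁ = WA.toAffine.negY x₁ y₂ := by
        apply Subtype.ext
        rw [hy]
        exact Affine.map_negY (W' := WA.toAffine) A.subtype x₁ y₂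
      rw [hyA]
      exact (Affine.map_negY (W' := WA.toAffine) (IsLocalRing.residue ↥A) x₁ y₂).symm
    · -- `P = Q`: tangent
      have hyy : (y₁ : K) = (y₂ : K) := Y_eq_of_Y_ne h₁.1 h₂.1 rfl hy
      have hy' : y₁ = y₂ := Subtype.ext hyy
      subst hy'
      obtain ⟨u, hu⟩ := hu₁
      obtain ⟨h₃, e⟩ := add_self_map_of_unit WA A.subtype (x := x₁) (y := y₁) u hu h₁
      have e' : Point.some (x₁ : K) (y₁ : K) h₁ + Point.some (x₁ : K) (y₁ : K) h₂ =
          Point.some _ _ h₃ := e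
      rw [e', red_some_eq hΔ h₃ _ _ rfl rfl, hr₁]
      obtain ⟨h₄, e₄⟩ := add_self_map_of_unit WA (IsLocalRing.residue ↥A) (x := x₁) (y := y₁) u hu
        (nonsingular_res hΔ h₁.1)
      exact e₄.symm
  · -- chord
    have hxres : IsLocalRing.residue ↥A x₁ ≠ IsLocalRing.residue ↥A x₂ := by
      intro hxr
      have hn₁ := nonsingular_res hΔ h₁.1
      have hn₂ := nonsingular_res hΔ h₂.1
      rcases Y_eq_of_X_eq hn₁.1 hn₂.1 hxr with hyr | hyr
      · have : red hΔ (Point.some (x₁ : K) (y₁ : K) h₁) = red hΔ (Point.some (x₂ : K) (y₂ : K) h₂) := by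
          rw [hr₁, hr₂, Point.some.injEq]
          exact ⟨hxr, hyr⟩
        have hPQ := red_injOn hΔ T hT1 hT2 hP hQ this
        rw [Point.some.injEq] at hPQ
        exact hx hPQ.1
      · have : red hΔ (Point.some (x₁ : K) (y₁ : K) h₁) =
            red hΔ (-Point.some (x₂ : K) (y₂ : K) h₂) := by
          rw [red_neg, hr₁, hr₂, Point.neg_some, Point.some.injEq]
          exact ⟨hxr, hyr⟩
        have hPQ := red_injOn hΔ T hT1 hT2 hP (T.neg_mem hQ) this
        rw [Point.neg_some, Point.some.injEq] at hPQ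
        exact hx hPQ.1
    have hunit : IsUnit (x₁ - x₂) := by
      by_contra hnu
      apply hxres
      have : IsLocalRing.residue ↥A (x₁ - x₂) = 0 :=
        (IsLocalRing.residue_eq_zero_iff _).mpr ((IsLocalRing.mem_maximalIdeal _).mpr hnu)
      rw [map_sub, sub_eq_zero] at this
      exact this
    obtain ⟨u, hu⟩ := hunit
    obtain ⟨h₃, e⟩ := add_map_of_X_unit WA A.subtype (x₁ := x₁) (x₂ := x₂) (y₁ := y₁) (y₂ := y₂)
      u hu h₁ h₂
    have e' : Point.some (x₁ : K) (y₁ : K) h₁ + Point.some (x₂ : K) (y₂ : K) h₂ =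
        Point.some _ _ h₃ := e
    rw [e', red_some_eq hΔ h₃ _ _ rfl rfl, hr₁, hr₂]
    obtain ⟨h₄, e₄⟩ := add_map_of_X_unit WA (IsLocalRing.residue ↥A) (x₁ := x₁) (x₂ := x₂)
      (y₁ := y₁) (y₂ := y₂) u hu (nonsingular_res hΔ h₁.1) (nonsingular_res hΔ h₂.1)
    exact e₄.symm

/-- **The reduction homomorphism on `T`.** -/
noncomputable def redHom : T →+ (Wk A WA).Point where
  toFun P := red hΔ (P : (WK A WA).Point)
  map_zero' := red_zero hΔ
  map_add' P Q := red_add hΔ T hT1 hT2 P.2 Q.2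

theorem redHom_apply (P : T) :
    redHom hΔ T hT1 hT2 P = red hΔ (P : (WK A WA).Point) := rfl

theorem redHom_injective : Function.Injective (redHom hΔ T hT1 hT2) := fun P Q h =>
  Subtype.ext (red_injOn hΔ T hT1 hT2 P.2 Q.2 h)

end Hom

end Fermat.Agent.ES.Q58.RedHom18
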