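/-
Programme Q (S58), Part II (RED) of `S58_NOTE15.md`, second half (helper18): the instance over `ℚ̄`
of the abstract reduction homomorphism `RedHom18`.

`W : WeierstrassCurve ℤ`, `ℓ` a prime of good reduction (`ℓ ∈ {2, 3}` allowed), `A` a valuation
subring of `Qb = AlgebraicClosure ℚ` over `ℓ`, `κ_A` its residue field, `m` odd, `ℓ ∤ m`.
`EQ W = (W.map (Int.castRingHom ℚ))⁄Qb` is the curve on whose points `GQ` acts in the Prelude;
`Wk A (WA W A)` is the reduced curve over `κ_A`.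

* `redQ W A hΔ : (EQ W).Point → (Wk A (WA W A)).Point`, `redQ_add`, `redQ_inj` (additive and injective
  on the `m`-torsion);
* `redQ_smul_decomp`, `redQ_smul_frob` (R4: a Frobenius element acts on the reduction as ANY map `F`
  which is the coordinatewise `ℓ`-th power), `redQ_smul_inertia`, `smul_eq_self_of_inertia`
  (the `m`-torsion is unramified at `ℓ`);
* `rel_Qbar` (REL-Q̄): a relation `F (F Q) - a • F Q + ℓ • Q = 0` on the reduced curve gives
  `σ • σ • P - a • (σ • P) + ℓ • P = 0` on the `m`-torsion over `ℚ̄`;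
* `card_fix_dvd` (FIX): a group of `m`-torsion points fixed by a Frobenius element has order
  dividing `#W̃(𝔽_ℓ)`.
-/
import Mathlib
import Fermat.Prelude.Def_FLTPrelim_Ramification
import Fermat.Prelude.Def_FLTPrelim_Modularity
import Fermat.Prelude.Def_FLTPrelim_GaloisRep
import Fermat.Prelude.Def_EllipticCurve_FrobeniusTrace
import Fermat.Agent.ES.EC.LiftTorsion29
import Fermat.Agent.ES.EC.TorsionLift20
import Fermat.Agent.ES.Q58.RedHom18

set_option autoImplicit false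

open WeierstrassCurve WeierstrassCurve.Affine

namespace Fermat.Agent.ES.Q58.RedInst18

open Fermat.Agent.S05.Kernel Fermat.Agent.ES.EC.CongE1_20 Fermat.Agent.ES.Q58.RedHom18
open Fermat.Agent.ES.EC.LiftTorsion29

local notation "Qb" => AlgebraicClosure ℚ
local notation "GQ" => (AlgebraicClosure ℚ ≃ₐ[ℚ] AlgebraicClosure ℚ)

/-! ### Transport of points along an equality of curves -/

section Cast

variable {F : Type*} [Field F] [DecidableEq F]

/-- transport of points along an equality of curves. -/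
noncomputable def castPt {W₁ W₂ : Affine F} (h : W₁ = W₂) : W₁.Point ≃+ W₂.Point := by
  subst h
  exact AddEquiv.refl _

theorem castPt_zero {W₁ W₂ : Affine F} (h : W₁ = W₂) : castPt h (0 : W₁.Point) = 0 :=
  map_zero _

theorem castPt_some {W₁ W₂ : Affine F} (h : W₁ = W₂) {x y : F} (hxy : W₁.Nonsingular x y) :
    castPt h (Point.some x y hxy) = Point.some x y (h ▸ hxy) := by
  subst h
  rfl

theorem castPt_symm_some {W₁ W₂ : Affine F} (h : W₁ = W₂) {x y : F} (hxy : W₂.Nonsingular x y) :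
    (castPt h).symm (Point.some x y hxy) = Point.some x y (h ▸ hxy) := by
  subst h
  rfl

end Cast

/-! ### The instance over `ℚ̄` -/

section Inst

variable (W : WeierstrassCurve ℤ) (A : ValuationSubring Qb)

/-- the model over the valuation ring. -/
noncomputable abbrev WA : WeierstrassCurve ↥A := W.map (Int.castRingHom ↥A)

/-- the generic fibre over `ℚ̄`, in the Prelude's spelling. -/
noncomputable abbrev EQ : Affine Qb := ((W.map (Int.castRingHom ℚ))⁄Qb)

theorem EQ_eq : EQ W = WK A (WA W A) := by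
  rw [EQ, Fermat.Agent.ES.EC.TorsionLift20.baseChange_eq_map, WK, WA, WeierstrassCurve.map_map,
    show (A.subtype).comp (Int.castRingHom ↥A) = Int.castRingHom Qb from RingHom.ext_int _ _]

variable {W A}

theorem isUnit_Δ {ℓ : ℕ} (hℓ : ℓ.Prime) (hA : A.LiesOverPrime ℓ) (hgood : W.IsGoodPrimeFor ℓ) :
    IsUnit (WA W A).Δ := by
  rw [WA, WeierstrassCurve.map_Δ, eq_intCast]
  exact isUnit_intCast_of_not_dvd A hℓ hA hgood

theorem val_natCast_eq_one {ℓ : ℕ} (hℓ : ℓ.Prime) (hA : A.LiesOverPrime ℓ) {m : ℕ} (hℓm : ¬ ℓ ∣ m) :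
    A.valuation ((m : ℕ) : Qb) = 1 := by
  have hvℓ : A.valuation ((ℓ : ℕ) : Qb) < 1 := hA
  have h := Fermat.Agent.ES.EC.TorsionLift20.v_intCast_eq_one_of_not_dvd (v := A.valuation) hℓ hvℓ
    (n := (m : ℤ)) (by exact_mod_cast hℓm)
  simpa using h

/-- two points with equal coordinates are equal. -/
theorem some_congr {F : Type*} [Field F] {V : Affine F} {x y x' y' : F} (hx : x = x') (hy : y = y')
    (h : V.Nonsingular x y) (h' : V.Nonsingular x' y') : Point.some x y h = Point.some x' y' h' := by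
  subst hx hy
  rfl

section Red

variable [DecidableEq (IsLocalRing.ResidueField ↥A)]

variable (W A) in
/-- **Reduction of `ℚ̄`-points of the generic fibre.** -/
noncomputable def redQ (hΔ : IsUnit (WA W A).Δ) (P : (EQ W).Point) : (Wk A (WA W A)).Point :=
  red hΔ (castPt (EQ_eq W A) P)

omit [DecidableEq (IsLocalRing.ResidueField ↥A)] in
@[simp] theorem redQ_zero (hΔ : IsUnit (WA W A).Δ) : redQ W A hΔ 0 = 0 := by
  rw [redQ, castPt_zero, red_zero]

/-- the `m`-torsion subgroup of the points over `ℚ̄` (in the `WK` spelling). -/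
noncomputable def torsK (W : WeierstrassCurve ℤ) (A : ValuationSubring Qb) (m : ℕ) :
    AddSubgroup (WK A (WA W A)).Point :=
  (nsmulAddMonoidHom (α := (WK A (WA W A)).Point) m).ker

omit [DecidableEq (IsLocalRing.ResidueField ↥A)] in
theorem mem_torsK {m : ℕ} {P : (WK A (WA W A)).Point} : P ∈ torsK W A m ↔ m • P = 0 :=
  AddMonoidHom.mem_ker

omit [DecidableEq (IsLocalRing.ResidueField ↥A)] in
theorem torsK_hT1 {ℓ : ℕ} (hℓ : ℓ.Prime) (hA : A.LiesOverPrime ℓ) {m : ℕ} (hℓm : ¬ ℓ ∣ m) :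
    ∀ P ∈ torsK W A m, InE1 A.valuation P → P = 0 := fun _ hP hE =>
  eq_zero_of_nsmul_eq_zero integralCoeffs hE (val_natCast_eq_one hℓ hA hℓm) (mem_torsK.mp hP)

omit [DecidableEq (IsLocalRing.ResidueField ↥A)] in
theorem torsK_hT2 {m : ℕ} (hm : Odd m) : ∀ P ∈ torsK W A m, P + P = 0 → P = 0 := by
  intro P hP h2
  obtain ⟨k, rfl⟩ := hm
  have h := mem_torsK.mp hP
  rw [add_smul, one_smul, mul_comm, mul_smul, two_nsmul, h2, nsmul_zero, zero_add] at h
  exact h

omit [DecidableEq (IsLocalRing.ResidueField ↥A)] in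
theorem castPt_mem_torsK {m : ℕ} {P : (EQ W).Point} (hP : m • P = 0) :
    castPt (EQ_eq W A) P ∈ torsK W A m := by
  rw [mem_torsK, ← map_nsmul, hP, map_zero]

/-- **(R3) over `ℚ̄`.** -/
theorem redQ_add {ℓ : ℕ} (hℓ : ℓ.Prime) (hA : A.LiesOverPrime ℓ) (hΔ : IsUnit (WA W A).Δ) {m : ℕ}
    (hm : Odd m) (hℓm : ¬ ℓ ∣ m) {P Q : (EQ W).Point} (hP : m • P = 0) (hQ : m • Q = 0) :
    redQ W A hΔ (P + Q) = redQ W A hΔ P + redQ W A hΔ Q := by
  rw [redQ, map_add]
  exact red_add hΔ (torsK W A m) (torsK_hT1 hℓ hA hℓm) (torsK_hT2 hm) (castPt_mem_torsK hP)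
    (castPt_mem_torsK hQ)

omit [DecidableEq (IsLocalRing.ResidueField ↥A)] in
/-- **(R2) over `ℚ̄`.** -/
theorem redQ_inj {ℓ : ℕ} (hℓ : ℓ.Prime) (hA : A.LiesOverPrime ℓ) (hΔ : IsUnit (WA W A).Δ) {m : ℕ}
    (hm : Odd m) (hℓm : ¬ ℓ ∣ m) {P Q : (EQ W).Point} (hP : m • P = 0) (hQ : m • Q = 0)
    (h : redQ W A hΔ P = redQ W A hΔ Q) : P = Q :=
  (castPt (EQ_eq W A)).injective
    (red_injOn hΔ (torsK W A m) (torsK_hT1 hℓ hA hℓm) (torsK_hT2 hm) (castPt_mem_torsK hP)
      (castPt_mem_torsK hQ) h)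

end Red

/-! ### Galois equivariance -/

section Equivariance

variable [DecidableEq (IsLocalRing.ResidueField ↥A)]

omit [DecidableEq (IsLocalRing.ResidueField ↥A)] in
theorem smul_some (σ : GQ) {x y : Qb} (h : (EQ W).Nonsingular x y) :
    ∃ h' : (EQ W).Nonsingular (σ x) (σ y),
      σ • (Point.some x y h : (EQ W).Point) = Point.some (σ x) (σ y) h' :=
  ⟨_, rfl⟩

omit [DecidableEq (IsLocalRing.ResidueField ↥A)] in
theorem mem_of_decomp_mem (g : A.decompositionSubgroup ℚ) {x : Qb} (hx : (g : GQ) x ∈ A) : x ∈ A := by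
  have h1 : x = ((g⁻¹ • (⟨(g : GQ) x, hx⟩ : ↥A) : ↥A) : Qb) := by
    show x = ((g⁻¹ : A.decompositionSubgroup ℚ) : GQ) ((g : GQ) x)
    rw [Subgroup.coe_inv, AlgEquiv.aut_inv, AlgEquiv.symm_apply_apply]
  rw [h1]
  exact (g⁻¹ • (⟨(g : GQ) x, hx⟩ : ↥A) : ↥A).2

omit [DecidableEq (IsLocalRing.ResidueField ↥A)] in
/-- **(R4), general form**: an element of the decomposition group acts on the reduction through
its action on the residue field. -/
theorem redQ_smul_decomp (hΔ : IsUnit (WA W A).Δ) (g : A.decompositionSubgroup ℚ)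
    (F : (Wk A (WA W A)).Point → (Wk A (WA W A)).Point) (hF0 : F 0 = 0)
    (hFs : ∀ (x y : IsLocalRing.ResidueField ↥A) (h : (Wk A (WA W A)).Nonsingular x y),
      ∃ h', F (Point.some x y h) = Point.some (g • x) (g • y) h')
    (P : (EQ W).Point) : redQ W A hΔ ((g : GQ) • P) = F (redQ W A hΔ P) := by
  rcases P with _ | ⟨x, y, h⟩
  · have h0 : ((g : GQ) • (0 : (EQ W).Point)) = 0 := rfl
    show redQ W A hΔ ((g : GQ) • (0 : (EQ W).Point)) = F (redQ W A hΔ 0)
    rw [h0, redQ_zero, hF0]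
  · obtain ⟨h', e⟩ := smul_some (W := W) (g : GQ) h
    show redQ W A hΔ ((g : GQ) • (Point.some x y h : (EQ W).Point)) =
      F (redQ W A hΔ (Point.some x y h))
    rw [e, redQ, redQ, castPt_some, castPt_some]
    by_cases hxy : x ∈ A ∧ y ∈ A
    · have hgx : (g : GQ) x = ((g • (⟨x, hxy.1⟩ : ↥A) : ↥A) : Qb) := rfl
      have hgy : (g : GQ) y = ((g • (⟨y, hxy.2⟩ : ↥A) : ↥A) : Qb) := rfl
      rw [red_some_eq hΔ _ (g • (⟨x, hxy.1⟩ : ↥A)) (g • (⟨y, hxy.2⟩ : ↥A)) hgx hgy,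
        red_some_eq hΔ _ (⟨x, hxy.1⟩ : ↥A) (⟨y, hxy.2⟩ : ↥A) rfl rfl]
      obtain ⟨h'', e''⟩ := hFs _ _ (nonsingular_res hΔ (x := ⟨x, hxy.1⟩) (y := ⟨y, hxy.2⟩)
        ((EQ_eq W A) ▸ h).1)
      rw [e'']
      exact some_congr (IsLocalRing.ResidueField.residue_smul _ g _)
        (IsLocalRing.ResidueField.residue_smul _ g _) _ _
    · have hxy' : ¬ ((g : GQ) x ∈ A ∧ (g : GQ) y ∈ A) := fun hh =>
        hxy ⟨mem_of_decomp_mem g hh.1, mem_of_decomp_mem g hh.2⟩
      rw [red_some_of_not_mem hΔ _ hxy', red_some_of_not_mem hΔ _ hxy, hF0]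

omit [DecidableEq (IsLocalRing.ResidueField ↥A)] in
/-- **(R4)**: a Frobenius element at `A` acts on the reduction as the coordinatewise `ℓ`-th power
map `F`. -/
theorem redQ_smul_frob {ℓ : ℕ} (hΔ : IsUnit (WA W A).Δ) {σ : GQ} (hσ : A.IsFrobeniusAt σ ℓ)
    (F : (Wk A (WA W A)).Point → (Wk A (WA W A)).Point) (hF0 : F 0 = 0)
    (hFs : ∀ (x y : IsLocalRing.ResidueField ↥A) (h : (Wk A (WA W A)).Nonsingular x y),
      ∃ h', F (Point.some x y h) = Point.some (x ^ ℓ) (y ^ ℓ) h')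
    (P : (EQ W).Point) : redQ W A hΔ (σ • P) = F (redQ W A hΔ P) := by
  refine redQ_smul_decomp hΔ ⟨σ, hσ.mem_decompositionSubgroup⟩ F hF0 (fun x y h => ?_) P
  rw [hσ.smul_residue_eq x, hσ.smul_residue_eq y]
  exact hFs x y h

omit [DecidableEq (IsLocalRing.ResidueField ↥A)] in
/-- **(R4), inertia**: the inertia group at `A` acts trivially on the reduction. -/
theorem redQ_smul_inertia (hΔ : IsUnit (WA W A).Δ) {τ : GQ} (hτ : τ ∈ A.inertiaSubgroupIn ℚ)
    (P : (EQ W).Point) : redQ W A hΔ (τ • P) = redQ W A hΔ P := by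
  obtain ⟨g, hg, rfl⟩ := hτ
  have hgt : ∀ t : IsLocalRing.ResidueField ↥A, g • t = t := fun t => by
    have h1 : MulSemiringAction.toRingAut (A.decompositionSubgroup ℚ)
        (IsLocalRing.ResidueField ↥A) g = 1 := hg
    have h2 := congrArg (fun e : RingAut (IsLocalRing.ResidueField ↥A) => e t) h1
    exact h2
  refine redQ_smul_decomp hΔ g id rfl (fun x y h => ?_) P
  rw [hgt x, hgt y]
  exact ⟨h, rfl⟩

omit [DecidableEq (IsLocalRing.ResidueField ↥A)] in
theorem nsmul_smul_comm (σ : GQ) (m : ℕ) (P : (EQ W).Point) : m • (σ • P) = σ • (m • P) :=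
  ((Point.map (W' := (W.map (Int.castRingHom ℚ)).toAffine) σ.toAlgHom).map_nsmul m P).symm

omit [DecidableEq (IsLocalRing.ResidueField ↥A)] in
theorem smul_torsion (σ : GQ) {m : ℕ} {P : (EQ W).Point} (hP : m • P = 0) : m • (σ • P) = 0 := by
  rw [nsmul_smul_comm, hP]
  rfl

omit [DecidableEq (IsLocalRing.ResidueField ↥A)] in
/-- the odd prime-to-`ℓ` torsion is unramified at a good prime `ℓ`. -/
theorem smul_eq_self_of_inertia {ℓ : ℕ} (hℓ : ℓ.Prime) (hA : A.LiesOverPrime ℓ)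
    (hgood : W.IsGoodPrimeFor ℓ) {τ : GQ} (hτ : τ ∈ A.inertiaSubgroupIn ℚ) {m : ℕ} (hm : Odd m)
    (hℓm : ¬ ℓ ∣ m) {P : (EQ W).Point} (hP : m • P = 0) : τ • P = P :=
  redQ_inj hℓ hA (isUnit_Δ hℓ hA hgood) hm hℓm (smul_torsion τ hP) hP
    (redQ_smul_inertia (isUnit_Δ hℓ hA hgood) hτ P)

/-- **(REL-Q̄)**: transfer of a quadratic relation for the `ℓ`-power map on the reduced curve to the
odd prime-to-`ℓ` torsion over `ℚ̄`. -/
theorem rel_Qbar {ℓ : ℕ} (hℓ : ℓ.Prime) (hA : A.LiesOverPrime ℓ) (hgood : W.IsGoodPrimeFor ℓ)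
    {σ : GQ} (hσ : A.IsFrobeniusAt σ ℓ) (a : ℤ)
    (F : (Wk A (WA W A)).Point → (Wk A (WA W A)).Point) (hF0 : F 0 = 0)
    (hFs : ∀ (x y : IsLocalRing.ResidueField ↥A) (h : (Wk A (WA W A)).Nonsingular x y),
      ∃ h', F (Point.some x y h) = Point.some (x ^ ℓ) (y ^ ℓ) h')
    (hrel : ∀ Q : (Wk A (WA W A)).Point, F (F Q) - a • F Q + (ℓ : ℤ) • Q = 0)
    {m : ℕ} (hm : Odd m) (hℓm : ¬ ℓ ∣ m) (P : (EQ W).Point) (hP : m • P = 0) :
    σ • σ • P - a • (σ • P) + ℓ • P = 0 := by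
  have hΔ := isUnit_Δ hℓ hA hgood
  set T := torsK W A m with hT
  have hT1 := torsK_hT1 (W := W) hℓ hA hℓm
  have hT2 := torsK_hT2 (W := W) (A := A) hm
  set f := redHom hΔ T hT1 hT2 with hf
  have hP1 : m • (σ • P) = 0 := smul_torsion σ hP
  have hP2 : m • (σ • σ • P) = 0 := smul_torsion σ hP1
  set p0 : T := ⟨castPt (EQ_eq W A) P, castPt_mem_torsK hP⟩ with hp0
  set p1 : T := ⟨castPt (EQ_eq W A) (σ • P), castPt_mem_torsK hP1⟩ with hp1
  set p2 : T := ⟨castPt (EQ_eq W A) (σ • σ • P), castPt_mem_torsK hP2⟩ with hp2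
  have e0 : f p0 = redQ W A hΔ P := rfl
  have e1 : f p1 = F (redQ W A hΔ P) := redQ_smul_frob hΔ hσ F hF0 hFs P
  have e2 : f p2 = F (F (redQ W A hΔ P)) := by
    have h1 : f p2 = redQ W A hΔ (σ • σ • P) := rfl
    rw [h1, redQ_smul_frob hΔ hσ F hF0 hFs (σ • P), redQ_smul_frob hΔ hσ F hF0 hFs P]
  have hz : f (p2 - a • p1 + ℓ • p0) = 0 := by
    rw [map_add, map_sub, map_zsmul, map_nsmul, e0, e1, e2, ← natCast_zsmul]
    exact hrel _
  have hz' : p2 - a • p1 + ℓ • p0 = 0 :=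
    redHom_injective hΔ T hT1 hT2 (by rw [hz, map_zero])
  have hz'' := congrArg (fun t : T => (t : (WK A (WA W A)).Point)) hz'
  simp only [hp0, hp1, hp2, AddSubgroup.coe_add, AddSubgroup.coe_sub, AddSubgroup.coe_zsmul,
    AddSubgroup.coe_nsmul, AddSubgroup.coe_zero] at hz''
  rw [← map_zsmul, ← map_nsmul, ← map_sub, ← map_add] at hz''
  exact (castPt (EQ_eq W A)).map_eq_zero_iff.mp hz''

end Equivariance

/-! ### Frobenius-fixed points reduce into the points over the prime field -/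

section Fix

open Polynomial in
omit A in
/-- an element of the residue field fixed by the `ℓ`-th power map lies in the prime field. -/
theorem exists_primeEmb_eq (A : ValuationSubring Qb) {ℓ : ℕ} (hℓ : ℓ.Prime) (hA : A.LiesOverPrime ℓ)
    {t : IsLocalRing.ResidueField ↥A} (ht : t ^ ℓ = t) : ∃ c : ZMod ℓ, primeEmb A hℓ hA c = t := by
  have : Fact ℓ.Prime := ⟨hℓ⟩
  have hroots : (X ^ ℓ - X : (ZMod ℓ)[X]).roots = Finset.univ.val := by
    have h := FiniteField.roots_X_pow_card_sub_X (ZMod ℓ)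
    rwa [ZMod.card] at h
  have hdeg : (X ^ ℓ - X : (ZMod ℓ)[X]).natDegree = ℓ :=
    FiniteField.X_pow_card_sub_X_natDegree_eq (ZMod ℓ) hℓ.one_lt
  have hcard : Multiset.card (X ^ ℓ - X : (ZMod ℓ)[X]).roots =
      (X ^ ℓ - X : (ZMod ℓ)[X]).natDegree := by
    rw [hroots, hdeg, Finset.card_val, Finset.card_univ, ZMod.card]
  have hmap := Polynomial.roots_map_of_injective_of_card_eq_natDegree
    (primeEmb A hℓ hA).injective hcard
  have hpoly : (X ^ ℓ - X : (ZMod ℓ)[X]).map (primeEmb A hℓ hA) = X ^ ℓ - X := by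
    rw [Polynomial.map_sub, Polynomial.map_pow, Polynomial.map_X]
  have hne : (X ^ ℓ - X : (IsLocalRing.ResidueField ↥A)[X]) ≠ 0 :=
    FiniteField.X_pow_card_sub_X_ne_zero _ hℓ.one_lt
  have hmem : t ∈ (X ^ ℓ - X : (IsLocalRing.ResidueField ↥A)[X]).roots := by
    rw [mem_roots hne, IsRoot.def, eval_sub, eval_pow, eval_X, ht, sub_self]
  rw [← hpoly, ← hmap, Multiset.mem_map] at hmem
  obtain ⟨c, -, hc⟩ := hmem
  exact ⟨c, hc⟩

variable [DecidableEq (IsLocalRing.ResidueField ↥A)]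

omit [DecidableEq (IsLocalRing.ResidueField ↥A)] in
theorem Wk_eq_map_primeEmb {ℓ : ℕ} (hℓ : ℓ.Prime) (hA : A.LiesOverPrime ℓ) :
    ((W.reductionMod ℓ).map (primeEmb A hℓ hA)).toAffine = Wk A (WA W A) := by
  rw [Wk, WA, WeierstrassCurve.reductionMod, WeierstrassCurve.map_map, WeierstrassCurve.map_map,
    primeEmb_comp]

omit [DecidableEq (IsLocalRing.ResidueField ↥A)] in
theorem baseChange_eq_Wk : (W.toAffine⁄(IsLocalRing.ResidueField ↥A)) = Wk A (WA W A) := by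
  change W.map (algebraMap ℤ (IsLocalRing.ResidueField ↥A)) = _
  rw [Wk, WA, WeierstrassCurve.map_map,
    show (IsLocalRing.residue ↥A).comp (Int.castRingHom ↥A) =
      algebraMap ℤ (IsLocalRing.ResidueField ↥A) from RingHom.ext_int _ _]

omit [DecidableEq (IsLocalRing.ResidueField ↥A)] in
omit W in
/-- `primeEmb` as a `ℤ`-algebra homomorphism. -/
noncomputable def primeAlgHom (A : ValuationSubring Qb) {ℓ : ℕ} (hℓ : ℓ.Prime)
    (hA : A.LiesOverPrime ℓ) : ZMod ℓ →ₐ[ℤ] IsLocalRing.ResidueField ↥A :=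
  { primeEmb A hℓ hA with
    commutes' := fun n => by
      show primeEmb A hℓ hA (algebraMap ℤ (ZMod ℓ) n) =
        algebraMap ℤ (IsLocalRing.ResidueField ↥A) n
      rw [eq_intCast (algebraMap ℤ (ZMod ℓ)) n,
        eq_intCast (algebraMap ℤ (IsLocalRing.ResidueField ↥A)) n, map_intCast] }

omit [DecidableEq (IsLocalRing.ResidueField ↥A)] in
omit W in
theorem primeAlgHom_apply (A : ValuationSubring Qb) {ℓ : ℕ} (hℓ : ℓ.Prime)
    (hA : A.LiesOverPrime ℓ) (c : ZMod ℓ) : primeAlgHom A hℓ hA c = primeEmb A hℓ hA c := rfl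

omit [DecidableEq (IsLocalRing.ResidueField ↥A)] in
omit A in
theorem reductionMod_eq (ℓ : ℕ) : (W.reductionMod ℓ).toAffine = (W.toAffine⁄(ZMod ℓ)) := rfl

variable (W) in
/-- the points over the prime field inside the points over the residue field of `A`. -/
noncomputable def incl {ℓ : ℕ} [Fact ℓ.Prime] (hℓ : ℓ.Prime) (hA : A.LiesOverPrime ℓ) :
    (W.reductionMod ℓ).toAffine.Point →+ (Wk A (WA W A)).Point :=
  (castPt (baseChange_eq_Wk (W := W) (A := A))).toAddMonoidHom.comp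
    ((Point.map (W' := W.toAffine) (S := ℤ) (F := ZMod ℓ) (K := IsLocalRing.ResidueField ↥A)
      (primeAlgHom A hℓ hA)).comp (castPt (reductionMod_eq (W := W) ℓ)).toAddMonoidHom)

theorem incl_some {ℓ : ℕ} [Fact ℓ.Prime] (hℓ : ℓ.Prime) (hA : A.LiesOverPrime ℓ) {x y : ZMod ℓ}
    (h : (W.reductionMod ℓ).toAffine.Nonsingular x y) :
    ∃ h', incl W hℓ hA (Point.some x y h) =
      Point.some (primeEmb A hℓ hA x) (primeEmb A hℓ hA y) h' := by
  have h1 : incl W hℓ hA (Point.some x y h) = castPt (baseChange_eq_Wk (W := W) (A := A))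
      (Point.map (W' := W.toAffine) (S := ℤ) (F := ZMod ℓ) (K := IsLocalRing.ResidueField ↥A)
        (primeAlgHom A hℓ hA) (castPt (reductionMod_eq (W := W) ℓ) (Point.some x y h))) := rfl
  rw [h1, castPt_some, Point.map_some, castPt_some]
  exact ⟨_, rfl⟩

theorem incl_injective {ℓ : ℕ} [Fact ℓ.Prime] (hℓ : ℓ.Prime) (hA : A.LiesOverPrime ℓ) :
    Function.Injective (incl W (A := A) hℓ hA) := by
  have h1 : ⇑(incl W (A := A) hℓ hA) = ⇑(castPt (baseChange_eq_Wk (W := W) (A := A))) ∘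
      ⇑(Point.map (W' := W.toAffine) (S := ℤ) (F := ZMod ℓ) (K := IsLocalRing.ResidueField ↥A)
        (primeAlgHom A hℓ hA)) ∘ ⇑(castPt (reductionMod_eq (W := W) ℓ)) := rfl
  rw [h1]
  exact (castPt _).injective.comp ((Point.map_injective _).comp (castPt _).injective)

/-- a point fixed by a Frobenius element reduces into the points over the prime field. -/
theorem redQ_mem_range_incl {ℓ : ℕ} [Fact ℓ.Prime] (hℓ : ℓ.Prime) (hA : A.LiesOverPrime ℓ)
    (hΔ : IsUnit (WA W A).Δ) {σ : GQ} (hσ : A.IsFrobeniusAt σ ℓ) {P : (EQ W).Point}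
    (hfix : σ • P = P) : redQ W A hΔ P ∈ (incl W hℓ hA).range := by
  rcases P with _ | ⟨x, y, h⟩
  · exact ⟨0, by rw [map_zero]; exact (redQ_zero hΔ).symm⟩
  · obtain ⟨h', e⟩ := smul_some (W := W) σ h
    have hfix' : (Point.some (σ x) (σ y) h' : (EQ W).Point) = Point.some x y h := by
      rw [← e]; exact hfix
    rw [Point.some.injEq] at hfix'
    obtain ⟨hσx, hσy⟩ := hfix'
    show redQ W A hΔ (Point.some x y h) ∈ _
    rw [redQ, castPt_some]
    by_cases hxy : x ∈ A ∧ y ∈ A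
    · rw [red_some_eq hΔ _ (⟨x, hxy.1⟩ : ↥A) (⟨y, hxy.2⟩ : ↥A) rfl rfl]
      set g : A.decompositionSubgroup ℚ := ⟨σ, hσ.mem_decompositionSubgroup⟩ with hg
      have hpow : ∀ (z : ↥A), σ (z : Qb) = (z : Qb) →
          (IsLocalRing.residue ↥A z) ^ ℓ = IsLocalRing.residue ↥A z := by
        intro z hz
        have h1 : g • z = z := Subtype.ext hz
        rw [← hσ.smul_residue_eq, ← hg, ← IsLocalRing.ResidueField.residue_smul, h1]
      obtain ⟨cx, hcx⟩ := exists_primeEmb_eq A hℓ hA (hpow ⟨x, hxy.1⟩ hσx)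
      obtain ⟨cy, hcy⟩ := exists_primeEmb_eq A hℓ hA (hpow ⟨y, hxy.2⟩ hσy)
      have hns := nonsingular_res hΔ (x := (⟨x, hxy.1⟩ : ↥A)) (y := (⟨y, hxy.2⟩ : ↥A))
        ((EQ_eq W A) ▸ h).1
      have hns0 : (W.reductionMod ℓ).toAffine.Nonsingular cx cy := by
        rw [← hcx, ← hcy, ← Wk_eq_map_primeEmb hℓ hA] at hns
        exact ((W.reductionMod ℓ).toAffine.map_nonsingular (primeEmb A hℓ hA).injective cx cy).mp
          hns
      obtain ⟨h'', e''⟩ := incl_some (W := W) hℓ hA hns0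
      refine ⟨Point.some cx cy hns0, ?_⟩
      rw [e'']
      exact some_congr hcx hcy _ _
    · rw [red_some_of_not_mem hΔ _ hxy]
      exact ⟨0, map_zero _⟩

end Fix

/-- **(FIX)**: a group of odd prime-to-`ℓ` torsion points fixed by a Frobenius element at a good
prime `ℓ` has order dividing the number of points of the reduction over the prime field. -/
theorem card_fix_dvd {ℓ : ℕ} (hℓ : ℓ.Prime) (hA : A.LiesOverPrime ℓ) (hgood : W.IsGoodPrimeFor ℓ)
    {σ : GQ} (hσ : A.IsFrobeniusAt σ ℓ) {m : ℕ} (hm : Odd m) (hℓm : ¬ ℓ ∣ m)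
    (H : AddSubgroup (EQ W).Point) (hH : ∀ P ∈ H, m • P = 0 ∧ σ • P = P) :
    Nat.card H ∣ Nat.card (W.reductionMod ℓ).toAffine.Point := by
  classical
  have : Fact ℓ.Prime := ⟨hℓ⟩
  have hΔ := isUnit_Δ hℓ hA hgood
  let f : H →+ (Wk A (WA W A)).Point := AddMonoidHom.mk' (fun P => redQ W A hΔ P.1)
    (fun P Q => redQ_add hℓ hA hΔ hm hℓm (hH _ P.2).1 (hH _ Q.2).1)
  have hf : Function.Injective f := fun P Q h =>
    Subtype.ext (redQ_inj hℓ hA hΔ hm hℓm (hH _ P.2).1 (hH _ Q.2).1 h)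
  have hle : f.range ≤ (incl W hℓ hA).range := by
    rintro _ ⟨P, rfl⟩
    exact redQ_mem_range_incl hℓ hA hΔ hσ (hH _ P.2).2
  have h1 : Nat.card H = Nat.card f.range := Nat.card_congr (AddMonoidHom.ofInjective hf).toEquiv
  have h2 : Nat.card (W.reductionMod ℓ).toAffine.Point = Nat.card (incl W hℓ hA).range :=
    Nat.card_congr (AddMonoidHom.ofInjective (incl_injective hℓ hA)).toEquiv
  rw [h1, h2]
  exact AddSubgroup.card_dvd_of_le hle

end Inst

end Fermat.Agent.ES.Q58.RedInst18
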