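/-
Programme Q (S58), Part II (RED), bridge (helper18): `RedInst18.rel_Qbar` with the relation on the
reduced curve stated on `(W.reductionMod ℓ)⁄κ_A` for an arbitrary `ZMod ℓ`-algebra structure on the
residue field `κ_A` — the shape in which the Eichler–Shimura core exports it
(`frob_relation` with `L := κ_A`).
-/
import Mathlib
import Fermat.Agent.ES.Q58.RedInst18

set_option autoImplicit false

open WeierstrassCurve WeierstrassCurve.Affine

namespace Fermat.Agent.ES.Q58.RelBridge18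

open Fermat.Agent.ES.Q58.RedHom18 Fermat.Agent.ES.Q58.RedInst18

local notation "Qb" => AlgebraicClosure ℚ
local notation "GQ" => (AlgebraicClosure ℚ ≃ₐ[ℚ] AlgebraicClosure ℚ)

variable {W : WeierstrassCurve ℤ} {A : ValuationSubring Qb}

/-- the reduced curve as a base change of the curve over the prime field. -/
theorem baseChange_reductionMod_eq {ℓ : ℕ} [Algebra (ZMod ℓ) (IsLocalRing.ResidueField ↥A)] :
    ((W.reductionMod ℓ).toAffine⁄(IsLocalRing.ResidueField ↥A)) = Wk A (WA W A) := by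
  change (W.reductionMod ℓ).map (algebraMap (ZMod ℓ) (IsLocalRing.ResidueField ↥A)) = _
  rw [Wk, WA, WeierstrassCurve.reductionMod, WeierstrassCurve.map_map, WeierstrassCurve.map_map]
  congr 1
  exact RingHom.ext_int _ _

/-- **(REL-Q̄), base-change form.**  `G` is any map on the points of `(W.reductionMod ℓ)⁄κ_A` which
is the coordinatewise `ℓ`-th power (e.g. `Point.map` of the Frobenius `ZMod ℓ`-algebra
endomorphism of `κ_A`) and satisfies `G² - a G + ℓ = 0`. -/
theorem rel_Qbar_of_baseChange [DecidableEq (IsLocalRing.ResidueField ↥A)] {ℓ : ℕ}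
    [Algebra (ZMod ℓ) (IsLocalRing.ResidueField ↥A)] (hℓ : ℓ.Prime) (hA : A.LiesOverPrime ℓ)
    (hgood : W.IsGoodPrimeFor ℓ) {σ : GQ} (hσ : A.IsFrobeniusAt σ ℓ) (a : ℤ)
    (G : ((W.reductionMod ℓ).toAffine⁄(IsLocalRing.ResidueField ↥A)).Point →
      ((W.reductionMod ℓ).toAffine⁄(IsLocalRing.ResidueField ↥A)).Point)
    (hG0 : G 0 = 0)
    (hGs : ∀ (x y : IsLocalRing.ResidueField ↥A)
      (h : ((W.reductionMod ℓ).toAffine⁄(IsLocalRing.ResidueField ↥A)).Nonsingular x y),
      ∃ h', G (Point.some x y h) = Point.some (x ^ ℓ) (y ^ ℓ) h')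
    (hrel : ∀ Q, G (G Q) - a • G Q + (ℓ : ℤ) • Q = 0)
    {m : ℕ} (hm : Odd m) (hℓm : ¬ ℓ ∣ m) (P : (EQ W).Point) (hP : m • P = 0) :
    σ • σ • P - a • (σ • P) + ℓ • P = 0 := by
  set e := castPt (baseChange_reductionMod_eq (W := W) (A := A) (ℓ := ℓ)) with he
  refine rel_Qbar hℓ hA hgood hσ a (fun Q => e (G (e.symm Q))) ?_ ?_ ?_ hm hℓm P hP
  · show e (G (e.symm 0)) = 0
    rw [map_zero, hG0, map_zero]
  · intro x y h
    show ∃ h', e (G (e.symm (Point.some x y h))) = Point.some (x ^ ℓ) (y ^ ℓ) h'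
    rw [he, castPt_symm_some]
    obtain ⟨h', e'⟩ := hGs x y (baseChange_reductionMod_eq (W := W) (A := A) (ℓ := ℓ) ▸ h)
    rw [e', castPt_some]
    exact ⟨_, rfl⟩
  · intro Q
    show e (G (e.symm (e (G (e.symm Q))))) - a • e (G (e.symm Q)) + (ℓ : ℤ) • Q = 0
    rw [AddEquiv.symm_apply_apply]
    have h1 := congrArg e (hrel (e.symm Q))
    rw [map_add, map_sub, map_zsmul, map_zsmul, AddEquiv.apply_symm_apply, map_zero] at h1
    exact h1

end Fermat.Agent.ES.Q58.RelBridge18
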