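/-
Programme Q (S58), Part II, final statement (helper18): **the Eichler–Shimura relation on the generic
fibre**.  For every prime `r` of good reduction of the integral model `W` (including `r = 2, 3`),
every Frobenius element `σ` at a place of `ℚ̄` over `r` satisfies
`σ² - a_r(W) σ + r = 0` on the `m`-torsion of `W(ℚ̄)`, `m` odd and prime to `r`.
This is literally `TraceCong20.RelQbar W`.

Proof: `RelBridge18.rel_Qbar_of_baseChange` (reduction is an injective Frobenius-equivariant
homomorphism on that torsion) applied to `FrobRel18.frob_relation` over the residue field.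
-/
import Mathlib
import Fermat.Agent.ES.Q58.RelBridge18
import Fermat.Agent.ES.Q58.FrobRel18

set_option autoImplicit false

open WeierstrassCurve WeierstrassCurve.Affine

namespace Fermat.Agent.ES.Q58.RelQbar18

open Fermat.Agent.ES.Q58.RedHom18 Fermat.Agent.ES.Q58.RedInst18 Fermat.Agent.ES.Q58.RelBridge18
open Fermat.Agent.ES.Q58.FrobRel18 Fermat.Agent.ES.EC.LiftTorsion29

local notation "Qb" => AlgebraicClosure ℚ
local notation "GQ" => (AlgebraicClosure ℚ ≃ₐ[ℚ] AlgebraicClosure ℚ)

/-- **The Eichler–Shimura relation on the generic fibre** (`TraceCong20.RelQbar W`, spelled out). -/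
theorem relQbar (W : WeierstrassCurve ℤ) :
    ∀ r : ℕ, r.Prime → W.IsGoodPrimeFor r → ∀ m : ℕ, Odd m → ¬ r ∣ m →
    ∀ (P : ValuationSubring Qb) (σ : GQ), P.LiesOverPrime r → P.IsFrobeniusAt σ r →
    ∀ Q : ((W.map (Int.castRingHom ℚ))⁄Qb).Point, m • Q = 0 →
      σ • σ • Q - W.apOfModel r • (σ • Q) + r • Q = 0 := by
  classical
  intro r hr hgood m hm hrm A σ hA hσ Q hQ
  have : Fact r.Prime := ⟨hr⟩
  let _ : Algebra (ZMod r) (IsLocalRing.ResidueField ↥A) := (primeEmb A hr hA).toAlgebra
  have hΔ : (W.reductionMod r).Δ ≠ 0 := by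
    rw [WeierstrassCurve.reductionMod, WeierstrassCurve.map_Δ, eq_intCast, Ne,
      ZMod.intCast_zmod_eq_zero_iff_dvd]
    exact hgood
  exact rel_Qbar_of_baseChange hr hA hgood hσ (W.apOfModel r)
    (frobPt r (W.reductionMod r) (IsLocalRing.ResidueField ↥A)) (map_zero _)
    (fun x y h => frobPt_some r (W.reductionMod r) (IsLocalRing.ResidueField ↥A) h)
    (fun Q' => frob_relation r (W.reductionMod r) hΔ (IsLocalRing.ResidueField ↥A) Q')
    hm hrm Q hQ

end Fermat.Agent.ES.Q58.RelQbar18
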