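/-
Programme Q (S58), comparison step (E-iii), group theory (helper20).  Mathlib only.

An abelian group `G` whose `p ^ k`-torsion has exactly `(p ^ k) ^ 2` elements for all `k ≤ n`
(`n ≠ 0`) has `G[p ^ n]` free of rank two over `ZMod (p ^ n)`: there is a basis indexed by `Fin 2`.

Proof: multiplication by `p ^ (n - 1)` maps `G[p ^ n]` ONTO `G[p]` (count kernel and range); lift an
`𝔽_p`-basis `f₀, f₁` of `G[p]` to `v₀, v₁ ∈ G[p ^ n]`; by induction on `k`, every `x` killed by
`p ^ k` lies in the span of `v₀, v₁`; so `(ZMod (p ^ n))² → G[p ^ n]` is onto, hence bijective by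
cardinality.
-/
import Mathlib

set_option autoImplicit false

namespace Fermat.Agent.ES.Q58.TorsBasis20

open Module

variable {G : Type*} [AddCommGroup G]

theorem mem_tor {m : ℕ} {x : G} : x ∈ Submodule.torsionBy ℤ G (m : ℤ) ↔ m • x = 0 := by
  rw [Submodule.mem_torsionBy_iff, natCast_zsmul]

/-- scalar multiplication by an element of `ZMod N` is multiplication by its value,
for ANY `ZMod N`-module structure. -/
theorem zmod_smul_eq {N : ℕ} [NeZero N] {M : Type*} [AddCommGroup M] [Module (ZMod N) M]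
    (c : ZMod N) (x : M) : c • x = c.val • x := by
  conv_lhs => rw [← ZMod.natCast_zmod_val c]
  rw [Nat.cast_smul_eq_nsmul]

section Surj

variable {p n : ℕ}

/-- multiplication by `p ^ (n - 1)`, from `G[p ^ n]` to `G[p ^ 1]`. -/
def mulTop (G : Type*) [AddCommGroup G] (p n : ℕ) (hn : n ≠ 0) :
    Submodule.torsionBy ℤ G ((p ^ n : ℕ) : ℤ) →+ Submodule.torsionBy ℤ G ((p ^ 1 : ℕ) : ℤ) where
  toFun x := ⟨p ^ (n - 1) • (x : G), by
    rw [mem_tor, ← mul_nsmul, mul_comm, ← pow_add]
    have : 1 + (n - 1) = n := by omega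
    rw [this]
    exact mem_tor.mp x.2⟩
  map_zero' := by
    apply Subtype.ext
    simp
  map_add' x y := by
    apply Subtype.ext
    simp [smul_add]

theorem mulTop_coe (hn : n ≠ 0) (x : Submodule.torsionBy ℤ G ((p ^ n : ℕ) : ℤ)) :
    ((mulTop G p n hn x : Submodule.torsionBy ℤ G ((p ^ 1 : ℕ) : ℤ)) : G) =
      p ^ (n - 1) • (x : G) := rfl

/-- the kernel of `mulTop` is `G[p ^ (n - 1)]`. -/
def kerEquiv (G : Type*) [AddCommGroup G] (p n : ℕ) (hn : n ≠ 0) :
    (mulTop G p n hn).ker ≃ Submodule.torsionBy ℤ G ((p ^ (n - 1) : ℕ) : ℤ) where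
  toFun x := ⟨((x : Submodule.torsionBy ℤ G ((p ^ n : ℕ) : ℤ)) : G), by
    rw [mem_tor]
    have := x.2
    rw [AddMonoidHom.mem_ker] at this
    have h2 := congrArg Subtype.val this
    rwa [mulTop_coe] at h2⟩
  invFun y := ⟨⟨(y : G), by
      rw [mem_tor]
      have h1 := mem_tor.mp y.2
      have e : p ^ n = p ^ 1 * p ^ (n - 1) := by
        rw [← pow_add]
        congr 1
        omega
      rw [e, mul_nsmul', h1, smul_zero]⟩, by
    rw [AddMonoidHom.mem_ker]
    apply Subtype.ext
    rw [mulTop_coe]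
    exact mem_tor.mp y.2⟩
  left_inv x := by
    apply Subtype.ext
    apply Subtype.ext
    rfl
  right_inv y := by
    apply Subtype.ext
    rfl

theorem mulTop_surjective [hp : Fact p.Prime] (hn : n ≠ 0)
    (hcard : ∀ k, k ≤ n →
      Nat.card (Submodule.torsionBy ℤ G ((p ^ k : ℕ) : ℤ)) = (p ^ k) ^ 2) :
    Function.Surjective (mulTop G p n hn) := by
  have hp0 : 0 < p := hp.out.pos
  have hM : Nat.card (Submodule.torsionBy ℤ G ((p ^ n : ℕ) : ℤ)) = (p ^ n) ^ 2 :=
    hcard n le_rfl
  have hK : Nat.card (mulTop G p n hn).ker = (p ^ (n - 1)) ^ 2 := by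
    rw [Nat.card_congr (kerEquiv G p n hn)]
    exact hcard (n - 1) (by omega)
  have hT : Nat.card (Submodule.torsionBy ℤ G ((p ^ 1 : ℕ) : ℤ)) = (p ^ 1) ^ 2 :=
    hcard 1 (by omega)
  have hfinT : Finite (Submodule.torsionBy ℤ G ((p ^ 1 : ℕ) : ℤ)) := by
    apply Nat.finite_of_card_ne_zero
    rw [hT]
    positivity
  have hmul := AddSubgroup.card_mul_index (mulTop G p n hn).ker
  rw [AddSubgroup.index_ker, hK, hM] at hmul
  have hR : Nat.card (mulTop G p n hn).range = (p ^ 1) ^ 2 := by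
    have e : (p ^ n) ^ 2 = (p ^ (n - 1)) ^ 2 * (p ^ 1) ^ 2 := by
      rw [← mul_pow, ← pow_add]
      have : n - 1 + 1 = n := by omega
      rw [this]
    rw [e] at hmul
    exact Nat.eq_of_mul_eq_mul_left (by positivity) hmul
  have htop : (mulTop G p n hn).range = ⊤ :=
    AddSubgroup.eq_top_of_card_eq _ (by rw [hR, hT])
  exact AddMonoidHom.range_eq_top.mp htop

end Surj

section Basis

variable {p n : ℕ}

/-- an `𝔽_p`-vector space with `p²` elements is spanned by two elements. -/
theorem exists_two_gen_aux [hp : Fact p.Prime] {V : Type*} [AddCommGroup V] [Module (ZMod p) V]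
    (hV : Nat.card V = p ^ 2) :
    ∃ f₀ f₁ : V, ∀ y : V, ∃ a b : ℕ, y = a • f₀ + b • f₁ := by
  classical
  have hfin : Finite V := by
    apply Nat.finite_of_card_ne_zero
    rw [hV]
    have := hp.out.pos
    positivity
  have : Fintype V := Fintype.ofFinite _
  have hc : Fintype.card V = p ^ Module.finrank (ZMod p) V := by
    have := Module.card_eq_pow_finrank (K := ZMod p) (V := V)
    rwa [ZMod.card] at this
  have hT' : p ^ Module.finrank (ZMod p) V = p ^ 2 := by
    rw [← hc, ← Nat.card_eq_fintype_card, hV]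
  have h2 : Module.finrank (ZMod p) V = 2 := Nat.pow_right_injective hp.out.two_le hT'
  let b := Module.finBasisOfFinrankEq (ZMod p) V h2
  refine ⟨b 0, b 1, fun y => ⟨(b.repr y 0).val, (b.repr y 1).val, ?_⟩⟩
  have hy := (b.sum_repr y).symm
  rw [Fin.sum_univ_two] at hy
  rw [← zmod_smul_eq, ← zmod_smul_eq]
  exact hy

/-- an abelian group killed by `p` with `p²` elements is spanned by two elements. -/
theorem exists_two_gen_of_killed [hp : Fact p.Prime] {V : Type*} [AddCommGroup V]
    (hk : ∀ x : V, p • x = 0) (hV : Nat.card V = p ^ 2) :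
    ∃ f₀ f₁ : V, ∀ y : V, ∃ a b : ℕ, y = a • f₀ + b • f₁ := by
  let _ : Module (ZMod p) V := AddCommGroup.zmodModule hk
  exact exists_two_gen_aux hV

/-- `G[p]` is spanned by two elements (as `#G[p] = p²`). -/
theorem exists_two_gen [hp : Fact p.Prime]
    (hT : Nat.card (Submodule.torsionBy ℤ G ((p ^ 1 : ℕ) : ℤ)) = (p ^ 1) ^ 2) :
    ∃ f₀ f₁ : Submodule.torsionBy ℤ G ((p ^ 1 : ℕ) : ℤ),
      ∀ y : Submodule.torsionBy ℤ G ((p ^ 1 : ℕ) : ℤ), ∃ a b : ℕ, y = a • f₀ + b • f₁ := by
  have e1 : ∀ (m : ℕ) (g : G), m = p → m • g = 0 → p • g = 0 := fun m g h1 h2 => h1 ▸ h2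
  refine exists_two_gen_of_killed (p := p) (fun x => ?_) ?_
  · apply Subtype.ext
    have := e1 _ _ (pow_one p) (mem_tor.mp x.2)
    simpa using this
  · rw [hT, pow_one]

/-- **`G[p ^ n]` is free of rank two over `ZMod (p ^ n)`.** -/
theorem exists_basis [hp : Fact p.Prime] (hn : n ≠ 0)
    (hcard : ∀ k, k ≤ n →
      Nat.card (Submodule.torsionBy ℤ G ((p ^ k : ℕ) : ℤ)) = (p ^ k) ^ 2)
    [Module (ZMod (p ^ n)) (Submodule.torsionBy ℤ G ((p ^ n : ℕ) : ℤ))] :
    Nonempty (Module.Basis (Fin 2) (ZMod (p ^ n))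
      (Submodule.torsionBy ℤ G ((p ^ n : ℕ) : ℤ))) := by
  classical
  have hp0 : 0 < p := hp.out.pos
  have : NeZero (p ^ n) := ⟨by positivity⟩
  have hM : Nat.card (Submodule.torsionBy ℤ G ((p ^ n : ℕ) : ℤ)) = (p ^ n) ^ 2 :=
    hcard n le_rfl
  have hfinM : Finite (Submodule.torsionBy ℤ G ((p ^ n : ℕ) : ℤ)) := by
    apply Nat.finite_of_card_ne_zero
    rw [hM]
    positivity
  obtain ⟨f₀, f₁, hf⟩ := exists_two_gen (G := G) (p := p) (hcard 1 (by omega))
  obtain ⟨v₀, hv₀⟩ := mulTop_surjective hn hcard f₀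
  obtain ⟨v₁, hv₁⟩ := mulTop_surjective hn hcard f₁
  set v : Fin 2 → Submodule.torsionBy ℤ G ((p ^ n : ℕ) : ℤ) := ![v₀, v₁] with hv
  set S : Submodule (ZMod (p ^ n)) (Submodule.torsionBy ℤ G ((p ^ n : ℕ) : ℤ)) :=
    Submodule.span (ZMod (p ^ n)) (Set.range v) with hS
  have hv₀S : v₀ ∈ S := Submodule.subset_span ⟨0, rfl⟩
  have hv₁S : v₁ ∈ S := Submodule.subset_span ⟨1, rfl⟩
  -- induction: everything killed by `p ^ k` lies in `S`
  have key : ∀ k, k ≤ n → ∀ x : Submodule.torsionBy ℤ G ((p ^ n : ℕ) : ℤ),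
      p ^ k • x = 0 → x ∈ S := by
    intro k
    induction k with
    | zero =>
      intro _ x hx
      rw [pow_zero, one_smul] at hx
      rw [hx]
      exact S.zero_mem
    | succ k ih =>
      intro hk x hx
      -- `y = p ^ k • x` is killed by `p`
      have hyT : p ^ k • (x : G) ∈ Submodule.torsionBy ℤ G ((p ^ 1 : ℕ) : ℤ) := by
        rw [mem_tor, pow_one, ← mul_nsmul, ← pow_succ]
        have := congrArg Subtype.val hx
        simpa using this
      obtain ⟨a, b, hab⟩ := hf ⟨p ^ k • (x : G), hyT⟩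
      -- the correction term
      set z : Submodule.torsionBy ℤ G ((p ^ n : ℕ) : ℤ) :=
        p ^ (n - 1 - k) • (a • v₀ + b • v₁) with hz
      have hzS : z ∈ S :=
        nsmul_mem (S.add_mem (nsmul_mem hv₀S a) (nsmul_mem hv₁S b)) _
      have hkz : p ^ k • z = p ^ k • x := by
        apply Subtype.ext
        have h1 := congrArg Subtype.val hab
        have e0 : ((f₀ : Submodule.torsionBy ℤ G ((p ^ 1 : ℕ) : ℤ)) : G) =
            p ^ (n - 1) • (v₀ : G) := by rw [← hv₀, mulTop_coe]
        have e1 : ((f₁ : Submodule.torsionBy ℤ G ((p ^ 1 : ℕ) : ℤ)) : G) =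
            p ^ (n - 1) • (v₁ : G) := by rw [← hv₁, mulTop_coe]
        simp only [Submodule.coe_add, Submodule.coe_smul_of_tower] at h1
        rw [e0, e1] at h1
        have hnk : n - 1 = k + (n - 1 - k) := by omega
        simp only [hz, Submodule.coe_add, Submodule.coe_smul_of_tower]
        rw [h1, ← mul_nsmul, mul_comm, ← pow_add, ← hnk, smul_add, smul_comm (p ^ (n - 1)) a,
          smul_comm (p ^ (n - 1)) b]
      have hxz : x - z ∈ S := by
        apply ih (by omega)
        rw [smul_sub, hkz, sub_self]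
      have : x = (x - z) + z := by abel
      rw [this]
      exact S.add_mem hxz hzS
  have htop : S = ⊤ := by
    rw [eq_top_iff]
    intro x _
    apply key n le_rfl x
    apply Subtype.ext
    have := mem_tor.mp x.2
    simpa using this
  -- the linear combination map is surjective, hence bijective
  have hsurj : Function.Surjective (Fintype.linearCombination (ZMod (p ^ n)) v) := by
    rw [← LinearMap.range_eq_top, Fintype.range_linearCombination, ← hS, htop]
  have hbij : Function.Bijective (Fintype.linearCombination (ZMod (p ^ n)) v) := by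
    apply hsurj.bijective_of_nat_card_le
    rw [Nat.card_fun, Nat.card_zmod, Nat.card_fin, hM]
  exact ⟨Module.Basis.ofEquivFun (LinearEquiv.ofBijective _ hbij).symm⟩

end Basis

end Fermat.Agent.ES.Q58.TorsBasis20
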