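/-
Programme Q (S58), comparison step (E-iii), pure algebra (helper20).

Over `R = ZMod (lam ^ n)`: two `2 × 2` matrices `A`, `B` with
`A² - a_ℓ A + ℓ = 0`, `B² - a_r B + r = 0`, `B = A ^ j`, and `X² - a_r X + r` without a root
modulo `lam`.  Then `B` is not scalar modulo `lam`, hence neither is `A`, the cyclic-vector lemma
(`CyclicVec18`) gives `tr B = a_r`, `tr A = a_ℓ`, `det A = ℓ`, and
`tr (A ^ j) = V_j (tr A, det A)` (`ES/ALG31/Lucas15.trace_pow`, on main): so
`lam ^ n ∣ a_r - V_j (a_ℓ, ℓ)`.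
-/
import Mathlib
import Fermat.Agent.ES.Q58.CyclicVec18
import Fermat.Agent.ES.ALG31.Lucas15

set_option autoImplicit false

namespace Fermat.Agent.ES.Q58.TraceAlg20

open Matrix Fermat.Agent.ES.ALG31.Lucas15 Fermat.Agent.ES.Q58.CyclicVec18

section ZModPow

variable {lam n : ℕ} [hlam : Fact lam.Prime]

/-- the reduction `ZMod (lam ^ n) → ZMod lam`. -/
noncomputable def red (lam n : ℕ) (hn : n ≠ 0) : ZMod (lam ^ n) →+* ZMod lam :=
  ZMod.castHom (dvd_pow_self lam hn) (ZMod lam)

theorem isUnit_iff_red_ne_zero (hn : n ≠ 0) (x : ZMod (lam ^ n)) :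
    IsUnit x ↔ red lam n hn x ≠ 0 := by
  constructor
  · intro h
    exact (h.map (red lam n hn)).ne_zero
  · intro h
    rw [isUnit_zmod_pow_iff lam n hn]
    rintro ⟨y, rfl⟩
    apply h
    rw [map_mul, map_natCast, ZMod.natCast_self, zero_mul]

/-- **The comparison, matrix form.** -/
theorem trace_cong_mat (hn : n ≠ 0) (A B : Matrix (Fin 2) (Fin 2) (ZMod (lam ^ n)))
    (al ar : ℤ) (l r j : ℕ)
    (hA : A * A - (al : ZMod (lam ^ n)) • A +
      (l : ZMod (lam ^ n)) • (1 : Matrix (Fin 2) (Fin 2) (ZMod (lam ^ n))) = 0)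
    (hB : B * B - (ar : ZMod (lam ^ n)) • B +
      (r : ZMod (lam ^ n)) • (1 : Matrix (Fin 2) (Fin 2) (ZMod (lam ^ n))) = 0)
    (hAB : B = A ^ j)
    (hroot : ∀ c : ZMod lam, c ^ 2 - (ar : ZMod lam) * c + (r : ZMod lam) ≠ 0) :
    (lam : ℤ) ^ n ∣ ar - lucasV al (l : ℤ) j := by
  set π := red lam n hn with hπ
  -- `B` is not scalar modulo `lam`
  have hnsB : IsUnit (B 0 1) ∨ IsUnit (B 1 0) ∨ IsUnit (B 0 0 - B 1 1) := by
    by_contra hcon
    rw [not_or, not_or, isUnit_iff_red_ne_zero hn, isUnit_iff_red_ne_zero hn,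
      isUnit_iff_red_ne_zero hn, not_not, not_not, not_not] at hcon
    obtain ⟨h01, h10, h00⟩ := hcon
    rw [← hπ] at h01 h10 h00
    apply hroot (π (B 1 1))
    have e := congrArg π (congrFun (congrFun hB 1) 1)
    simp only [Matrix.add_apply, Matrix.sub_apply, Matrix.smul_apply, Matrix.mul_apply,
      Fin.sum_univ_two, Matrix.one_apply_eq, smul_eq_mul, mul_one, Matrix.zero_apply,
      map_add, map_sub, map_mul, map_intCast, map_natCast, map_zero] at e
    rw [h01, h10, mul_zero, zero_add] at e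
    rw [← e]
    ring
  -- hence neither is `A`
  have hnsA : IsUnit (A 0 1) ∨ IsUnit (A 1 0) ∨ IsUnit (A 0 0 - A 1 1) := by
    by_contra hcon
    rw [not_or, not_or, isUnit_iff_red_ne_zero hn, isUnit_iff_red_ne_zero hn,
      isUnit_iff_red_ne_zero hn, not_not, not_not, not_not] at hcon
    obtain ⟨h01, h10, h00⟩ := hcon
    rw [← hπ] at h01 h10 h00
    rw [map_sub, sub_eq_zero] at h00
    -- the reduction of `A` is the scalar matrix `π (A 1 1)`
    have hAs : A.map π = π (A 1 1) • (1 : Matrix (Fin 2) (Fin 2) (ZMod lam)) := by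
      ext i k
      fin_cases i <;> fin_cases k <;> simp [h01, h10, h00]
    have hBs : B.map π = (π (A 1 1)) ^ j • (1 : Matrix (Fin 2) (Fin 2) (ZMod lam)) := by
      rw [hAB, Matrix.map_pow, hAs, smul_pow, one_pow]
    have b01 : π (B 0 1) = 0 := by
      have := congrFun (congrFun hBs 0) 1
      simpa using this
    have b10 : π (B 1 0) = 0 := by
      have := congrFun (congrFun hBs 1) 0
      simpa using this
    have b00 : π (B 0 0 - B 1 1) = 0 := by
      have h0 := congrFun (congrFun hBs 0) 0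
      have h1 := congrFun (congrFun hBs 1) 1
      simp only [Matrix.map_apply, Matrix.smul_apply, Matrix.one_apply_eq, smul_eq_mul,
        mul_one] at h0 h1
      rw [map_sub, h0, h1, sub_self]
    rcases hnsB with h | h | h
    · exact (isUnit_iff_red_ne_zero hn _).mp h b01
    · exact (isUnit_iff_red_ne_zero hn _).mp h b10
    · exact (isUnit_iff_red_ne_zero hn _).mp h b00
  obtain ⟨hBt, -⟩ := trace_det_of_rel_of_isUnit hB hnsB
  obtain ⟨hAt, hAd⟩ := trace_det_of_rel_of_isUnit hA hnsA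
  have key : (ar : ZMod (lam ^ n)) =
      lucasV (al : ZMod (lam ^ n)) (l : ZMod (lam ^ n)) j := by
    rw [← hBt, hAB, trace_pow, hAt, hAd]
  have h2 : (((ar - lucasV al (l : ℤ) j : ℤ)) : ZMod (lam ^ n)) = 0 := by
    have hm := map_lucasV (Int.castRingHom (ZMod (lam ^ n))) al (l : ℤ) j
    simp only [eq_intCast, Int.cast_natCast] at hm
    rw [Int.cast_sub, hm, key, sub_self]
  have h3 := (ZMod.intCast_zmod_eq_zero_iff_dvd _ _).mp h2
  simpa using h3

/-- **The comparison, module form**: `M` free of rank two over `ZMod (lam ^ n)`. -/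
theorem trace_cong_lin (hn : n ≠ 0) {M : Type*} [AddCommGroup M] [Module (ZMod (lam ^ n)) M]
    (b : Module.Basis (Fin 2) (ZMod (lam ^ n)) M) (A B : M →ₗ[ZMod (lam ^ n)] M)
    (al ar : ℤ) (l r j : ℕ)
    (hA : ∀ v, A (A v) - (al : ZMod (lam ^ n)) • A v + (l : ZMod (lam ^ n)) • v = 0)
    (hB : ∀ v, B (B v) - (ar : ZMod (lam ^ n)) • B v + (r : ZMod (lam ^ n)) • v = 0)
    (hAB : ∀ v, B v = (A ^ j) v)
    (hroot : ∀ c : ZMod lam, c ^ 2 - (ar : ZMod lam) * c + (r : ZMod lam) ≠ 0) :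
    (lam : ℤ) ^ n ∣ ar - lucasV al (l : ℤ) j := by
  have hA' : A * A - (al : ZMod (lam ^ n)) • A + (l : ZMod (lam ^ n)) • (1 : M →ₗ[ZMod (lam ^ n)] M)
      = 0 := by
    ext v
    simpa using hA v
  have hB' : B * B - (ar : ZMod (lam ^ n)) • B + (r : ZMod (lam ^ n)) • (1 : M →ₗ[ZMod (lam ^ n)] M)
      = 0 := by
    ext v
    simpa using hB v
  have hAB' : B = A ^ j := LinearMap.ext hAB
  refine trace_cong_mat hn (LinearMap.toMatrix b b A) (LinearMap.toMatrix b b B) al ar l r j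
    ?_ ?_ ?_ hroot
  · have := congrArg (LinearMap.toMatrix b b) hA'
    rw [map_add, map_sub, map_smul, map_smul, LinearMap.toMatrix_mul, LinearMap.toMatrix_one,
      map_zero] at this
    exact this
  · have := congrArg (LinearMap.toMatrix b b) hB'
    rw [map_add, map_sub, map_smul, map_smul, LinearMap.toMatrix_mul, LinearMap.toMatrix_one,
      map_zero] at this
    exact this
  · rw [hAB', LinearMap.toMatrix_pow]

end ZModPow

end Fermat.Agent.ES.Q58.TraceAlg20
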