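/-
Programme Q (S58), comparison step (E-iii), assembly (helper20).

`ECFacts.trace` of `ECIface12` from the Eichler–Shimura relation on the odd prime-to-`r` torsion of
the generic fibre (`RelQbar`, to be supplied by the reduction homomorphism + the relation in
characteristic `r`):

for a good prime `r` choose an odd prime `λ ∉ T ∪ {r}` such that `X² - a_r(W) X + r` has no root
modulo `λ` (`CardBound20.exists_aux_prime`); `K_n := ℚ(W[λⁿ])`; the Frobenius elements `σ` at `r`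
and `φ` at a good `ℓ ≠ λ` act on `W[λⁿ](ℚ̄) ≅ (ℤ/λⁿ)²` (`TorsBasis20` + `CardEq29`) through linear
maps `B`, `A` killed by `X² - a_r X + r`, `X² - a_ℓ X + ℓ`, and `B = A ^ j`; `TraceAlg20` gives
`λⁿ ∣ a_r(W) - V_j(a_ℓ(W), ℓ)`.
-/
import Mathlib
import Fermat.Agent.ES.Q58.ECIface12
import Fermat.Agent.ES.Q58.TraceAlg20
import Fermat.Agent.ES.Q58.TorsBasis20
import Fermat.Agent.ES.Q58.CardBound20
import Fermat.Agent.DivPoly.CardEq29
import Fermat.Agent.DivPoly.A1Final
import Fermat.Agent.Lib.FrobeniusExists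

set_option autoImplicit false

open WeierstrassCurve WeierstrassCurve.Affine WeierstrassCurve.Affine.Point

namespace Fermat.Agent.ES.Q58.TraceCong20

open Fermat.Agent.ES.Q58.ECIface12

local notation "Qb" => AlgebraicClosure ℚ
local notation "GQ" => (AlgebraicClosure ℚ ≃ₐ[ℚ] AlgebraicClosure ℚ)

/-- **The Eichler–Shimura relation on the generic fibre**: a Frobenius element `σ` at a good prime
`r` satisfies `σ² - a_r(W) σ + r = 0` on the `m`-torsion of `W(ℚ̄)`, `m` odd and prime to `r`. -/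
def RelQbar (W : WeierstrassCurve ℤ) : Prop :=
  ∀ r : ℕ, r.Prime → W.IsGoodPrimeFor r → ∀ m : ℕ, Odd m → ¬ r ∣ m →
    ∀ (P : ValuationSubring Qb) (σ : GQ), P.LiesOverPrime r → P.IsFrobeniusAt σ r →
    ∀ Q : ((W.map (Int.castRingHom ℚ))⁄Qb).Point, m • Q = 0 →
      σ • σ • Q - W.apOfModel r • (σ • Q) + r • Q = 0

section Field

variable {E : Affine ℚ}

/-- `x`-coordinate of a point (`0` at infinity). -/
noncomputable def xc : (E⁄Qb).Point → Qb
  | .zero => 0
  | .some x _ _ => x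

/-- `y`-coordinate of a point (`0` at infinity). -/
noncomputable def yc : (E⁄Qb).Point → Qb
  | .zero => 0
  | .some _ y _ => y

/-- two automorphisms agreeing on the coordinates of `Q` move it in the same way. -/
theorem smul_eq_smul_of_coord (g h : GQ) (Q : (E⁄Qb).Point) (hx : g (xc Q) = h (xc Q))
    (hy : g (yc Q) = h (yc Q)) : g • Q = h • Q := by
  rcases Q with _ | ⟨x, y, hQ⟩
  · rfl
  · rw [algEquiv_smul_def, algEquiv_smul_def]
    change Point.map g.toAlgHom (Point.some x y hQ) = Point.map h.toAlgHom (Point.some x y hQ)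
    rw [Point.map_some, Point.map_some]
    simp only [Point.some.injEq]
    exact ⟨hx, hy⟩

/-- the field generated by the coordinates of a finite set of points. -/
theorem exists_field (S : Set (E⁄Qb).Point) (hS : S.Finite) :
    ∃ K : IntermediateField ℚ Qb, FiniteDimensional ℚ K ∧
      ∀ g h : GQ, (∀ x ∈ K, g x = h x) → ∀ Q ∈ S, g • Q = h • Q := by
  set X : Set Qb := xc '' S ∪ yc '' S with hX
  have hXfin : X.Finite := (hS.image _).union (hS.image _)
  have : Finite X := hXfin.to_subtype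
  refine ⟨IntermediateField.adjoin ℚ X, ?_, ?_⟩
  · exact IntermediateField.finiteDimensional_adjoin
      (fun x _ => (Fermat.Agent.Lib.FrobeniusExists.isIntegral_Qbar).isIntegral x)
  · intro g h hgh Q hQ
    refine smul_eq_smul_of_coord g h Q (hgh _ ?_) (hgh _ ?_)
    · exact IntermediateField.subset_adjoin ℚ X (Or.inl ⟨Q, hQ, rfl⟩)
    · exact IntermediateField.subset_adjoin ℚ X (Or.inr ⟨Q, hQ, rfl⟩)

end Field

section Act

variable {E : Affine ℚ} (N : ℕ)

/-- the action of a Galois element on the `N`-torsion, as a `ZMod N`-linear map. -/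
noncomputable def act (g : GQ) :
    Submodule.torsionBy ℤ (E⁄Qb).Point (N : ℤ) →ₗ[ZMod N]
      Submodule.torsionBy ℤ (E⁄Qb).Point (N : ℤ) :=
  (DistribSMul.toAddMonoidHom (Submodule.torsionBy ℤ (E⁄Qb).Point (N : ℤ)) g).toZModLinearMap N

theorem act_apply (g : GQ) (v : Submodule.torsionBy ℤ (E⁄Qb).Point (N : ℤ)) :
    act N g v = g • v := rfl

theorem coe_smul_tor (g : GQ) (v : Submodule.torsionBy ℤ (E⁄Qb).Point (N : ℤ)) :
    ((g • v : Submodule.torsionBy ℤ (E⁄Qb).Point (N : ℤ)) : (E⁄Qb).Point) =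
      g • (v : (E⁄Qb).Point) := rfl

theorem act_pow_apply (g : GQ) (j : ℕ) (v : Submodule.torsionBy ℤ (E⁄Qb).Point (N : ℤ)) :
    (act N g ^ j) v = (g ^ j) • v := by
  induction j generalizing v with
  | zero => rw [pow_zero, pow_zero, one_smul, Module.End.one_apply]
  | succ j ih => rw [pow_succ, pow_succ, Module.End.mul_apply, act_apply, ih, mul_smul]

end Act

section Main

variable (W : WeierstrassCurve ℤ)

theorem delta_ne_zero {r : ℕ} (hgood : W.IsGoodPrimeFor r) :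
    ((W.map (Int.castRingHom ℚ))⁄Qb).Δ ≠ 0 := by
  intro h
  apply hgood
  have h1 : ((W.map (Int.castRingHom ℚ)).map (algebraMap ℚ Qb)).Δ = 0 := h
  rw [WeierstrassCurve.map_Δ, WeierstrassCurve.map_Δ] at h1
  have h2 := (map_eq_zero_iff _ (algebraMap ℚ Qb).injective).mp h1
  have h3 : W.Δ = 0 := by simpa using h2
  rw [h3]
  exact dvd_zero _

/-- **(E-iii) at a fixed auxiliary prime.** -/
theorem traceCong_of_rel (hrel : RelQbar W) {r : ℕ} (hr : r.Prime) (hgood : W.IsGoodPrimeFor r)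
    {lam : ℕ} (hlam : lam.Prime) (hlam2 : lam ≠ 2) (hlr : lam ≠ r)
    (hroot : ∀ c : ZMod lam, c ^ 2 - (W.apOfModel r : ZMod lam) * c + (r : ZMod lam) ≠ 0) :
    TraceCong W r lam := by
  classical
  have : Fact lam.Prime := ⟨hlam⟩
  have hΔ : ((W.map (Int.castRingHom ℚ))⁄Qb).Δ ≠ 0 := delta_ne_zero W hgood
  have hoddl : Odd lam := hlam.odd_of_ne_two hlam2
  refine ⟨{lam}, fun n => ?_⟩
  rcases Nat.eq_zero_or_pos n with rfl | hnpos
  · refine ⟨⊥, inferInstance, ?_⟩
    intros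
    rw [pow_zero]
    exact one_dvd _
  have hn : n ≠ 0 := hnpos.ne'
  have hoddN : Odd (lam ^ n) := hoddl.pow
  have hNF : ((lam ^ n : ℕ) : Qb) ≠ 0 := Nat.cast_ne_zero.mpr (pow_ne_zero _ hlam.ne_zero)
  have hfin : {P : ((W.map (Int.castRingHom ℚ))⁄Qb).Point | (lam ^ n) • P = 0}.Finite :=
    (Fermat.Agent.DivPoly.A1Final.torsion_finite_ncard_le
      (W := ((W.map (Int.castRingHom ℚ))⁄Qb)) hoddN hNF).1
  obtain ⟨K, hKfd, hK⟩ := exists_field (E := W.map (Int.castRingHom ℚ))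
    {P : ((W.map (Int.castRingHom ℚ))⁄Qb).Point | (lam ^ n) • P = 0} hfin
  refine ⟨K, hKfd, ?_⟩
  intro P σ hP hσ ℓ A φ hℓ hℓT hℓgood hA hφ i j hφσ _
  have hℓlam : ℓ ≠ lam := by simpa using hℓT
  have hℓN : ¬ ℓ ∣ lam ^ n := fun h =>
    hℓlam ((Nat.prime_dvd_prime_iff_eq hℓ hlam).mp (hℓ.dvd_of_dvd_pow h))
  have hrN : ¬ r ∣ lam ^ n := by
    intro h
    exact hlr ((Nat.prime_dvd_prime_iff_eq hr hlam).mp (hr.dvd_of_dvd_pow h)).symm
  -- a basis of the `lam ^ n`-torsion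
  have hcard : ∀ k, k ≤ n →
      Nat.card (Submodule.torsionBy ℤ ((W.map (Int.castRingHom ℚ))⁄Qb).Point
        ((lam ^ k : ℕ) : ℤ)) = (lam ^ k) ^ 2 :=
    fun k _ => Fermat.Agent.DivPoly.CardEq29.card_torsionBy_eq hΔ hoddl.pow
  obtain ⟨b⟩ := Fermat.Agent.ES.Q58.TorsBasis20.exists_basis
    (G := ((W.map (Int.castRingHom ℚ))⁄Qb).Point) (p := lam) (n := n) hn hcard
  have hv : ∀ v : Submodule.torsionBy ℤ ((W.map (Int.castRingHom ℚ))⁄Qb).Point
      ((lam ^ n : ℕ) : ℤ), (lam ^ n) • (v : ((W.map (Int.castRingHom ℚ))⁄Qb).Point) = 0 :=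
    fun v => Fermat.Agent.ES.Q58.TorsBasis20.mem_tor.mp v.2
  refine Fermat.Agent.ES.Q58.TraceAlg20.trace_cong_lin hn b (act (lam ^ n) φ) (act (lam ^ n) σ)
    (W.apOfModel ℓ) (W.apOfModel r) ℓ r j ?_ ?_ ?_ hroot
  · intro v
    apply Subtype.ext
    rw [act_apply, act_apply, Int.cast_smul_eq_zsmul, Nat.cast_smul_eq_nsmul]
    exact hrel ℓ hℓ hℓgood (lam ^ n) hoddN hℓN A φ hA hφ v (hv v)
  · intro v
    apply Subtype.ext
    rw [act_apply, act_apply, Int.cast_smul_eq_zsmul, Nat.cast_smul_eq_nsmul]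
    exact hrel r hr hgood (lam ^ n) hoddN hrN P σ hP hσ v (hv v)
  · intro v
    rw [act_pow_apply, act_apply]
    apply Subtype.ext
    exact (hK (φ ^ j) σ hφσ v (hv v)).symm

/-- **`ECFacts.trace`** from the relation on the generic fibre. -/
theorem trace_of_rel (hrel : RelQbar W) (r : ℕ) (hr : r.Prime) (hgood : W.IsGoodPrimeFor r)
    (T : Finset ℕ) : ∃ lam : ℕ, lam.Prime ∧ lam ∉ T ∧ TraceCong W r lam := by
  classical
  have hK0 : r * ∏ t ∈ T.erase 0, t ≠ 0 :=
    mul_ne_zero hr.ne_zero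
      (Finset.prod_ne_zero_iff.mpr (fun t ht => Finset.ne_of_mem_erase ht))
  obtain ⟨l, hl, hl2, hlK, hroot⟩ :=
    Fermat.Agent.ES.Q58.CardBound20.exists_aux_prime W hr _ hK0
  refine ⟨l, hl, ?_, traceCong_of_rel W hrel hr hgood hl hl2 ?_ hroot⟩
  · intro hlT
    apply hlK
    have : l ∈ T.erase 0 := Finset.mem_erase.mpr ⟨hl.ne_zero, hlT⟩
    exact Dvd.dvd.mul_left (Finset.dvd_prod_of_mem _ this) r
  · rintro rfl
    exact hlK (dvd_mul_right _ _)

end Main

end Fermat.Agent.ES.Q58.TraceCong20
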