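/-
Programme Q (S58), final glue (helper12): the EC package `ECIface12.ECFacts W` of a semistable
integral Weierstrass model `W`.

* `inertia` = `InertiaFinal25.inertia W hss` (helper25): `InertiaCong25.inertia_of` with
  (b) inertia at a good prime acts trivially on the odd prime-to-`q` torsion (`InertiaGood11`) and
  (c) at a multiplicative prime there are `λⁿ` inertia-fixed points killed by `λⁿ`
      (`NodalLift20`: `NodeCount15` + `InertiaUnit25` + lifting), the weak link being `WeakLink25`;
* `trace`   = `TraceCong20.trace_of_rel` (helper20) applied to the Eichler–Shimura relation on the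
  generic fibre `RelQbar18.relQbar` (helper18: reduction homomorphism `RedHom18`/`RedInst18`/
  `RelBridge18`; relation in characteristic `ℓ`: `FrobRel18.frob_relation` = `FrobCore2` (helper2)
  + Manin's lemma `ManinFinal14` (helper14, helper9) + `GenericAll23` (helper23)).
-/
import Mathlib
import Fermat.Agent.ES.Q58.ECIface12
import Fermat.Agent.ES.Q58.TraceCong20
import Fermat.Agent.ES.Q58.RelQbar18
import Fermat.Agent.ES.Q58.InertiaFinal25

set_option autoImplicit false

namespace Fermat.Agent.ES.Q58.ECFactsFinal12

/-- **The EC package of a semistable integral model.** -/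
theorem ecFacts (W : WeierstrassCurve ℤ) (hss : W.IsSemistableModel) :
    Fermat.Agent.ES.Q58.ECIface12.ECFacts W :=
  ⟨Fermat.Agent.ES.Q58.InertiaFinal25.inertia W hss,
    Fermat.Agent.ES.Q58.TraceCong20.trace_of_rel W (Fermat.Agent.ES.Q58.RelQbar18.relQbar W)⟩

end Fermat.Agent.ES.Q58.ECFactsFinal12
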