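/-
Programme Q (S58), brick B4 = (E9) Manin's lemma, step (iii): a Mathlib-only leaf.

* `x_ne_pow` / `x_ne_pow'` (L1): for a Weierstrass curve `W` over a field `k` of prime
  characteristic `ℓ` with `Δ ≠ 0`, the coordinate function `x` is not an `ℓ`-th power in the
  function field `W.FunctionField`.  Proof: write `z = r / s` in the coordinate ring, so
  `r ^ ℓ = x * s ^ ℓ`; norms down to `k[X]` give `N(r) ^ ℓ = X ^ 2 * N(s) ^ ℓ`, hence `ℓ ∣ 2`
  by degrees; for `ℓ = 2` compare coordinates in the basis `1, Y`.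

(The companion leaf (L2), coprime `N, D` with vanishing Wronskian are `ℓ`-th powers, is
`ES/Q58/InsepPoly9`.)
-/
import Mathlib

namespace Fermat.Agent.ES.Q58.InsepLeaves5

open Polynomial WeierstrassCurve.Affine

open scoped Polynomial.Bivariate

variable {k : Type*} [Field k]

/-! ### (L1) `x` is not an `ℓ`-th power in the function field -/

/-- Degree obstruction in `k[X]`: `p ^ n = X ^ 2 * q ^ n` with `q ≠ 0` forces `n ∣ 2`. -/
theorem dvd_two_of_pow_eq_X_sq_mul_pow {p q : k[X]} {n : ℕ} (hq : q ≠ 0)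
    (h : p ^ n = X ^ 2 * q ^ n) : n ∣ 2 := by
  have hp : p ≠ 0 := by
    rintro rfl
    rcases Nat.eq_zero_or_pos n with rfl | hn
    · simp at h
      have := congrArg natDegree h
      simp at this
    · rw [zero_pow hn.ne'] at h
      exact (mul_ne_zero (pow_ne_zero 2 X_ne_zero) (pow_ne_zero n hq)) h.symm
  have h1 := congrArg natDegree h
  rw [natDegree_pow, natDegree_mul (pow_ne_zero 2 X_ne_zero) (pow_ne_zero n hq), natDegree_pow,
    natDegree_pow, natDegree_X] at h1
  have h2 : n * (p.natDegree - q.natDegree) = 2 := by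
    rw [Nat.mul_sub]
    omega
  exact ⟨_, h2.symm⟩

/-- Degree obstruction in `k[X]`: `p ^ 2 = X * q ^ 2` forces `p = 0` and `q = 0`. -/
theorem eq_zero_of_sq_eq_X_mul_sq {p q : k[X]} (h : p ^ 2 = X * q ^ 2) : p = 0 ∧ q = 0 := by
  by_cases hq : q = 0
  · subst hq
    simp at h
    exact ⟨h, rfl⟩
  · exfalso
    have hp : p ≠ 0 := by
      rintro rfl
      rw [zero_pow two_ne_zero] at h
      exact (mul_ne_zero X_ne_zero (pow_ne_zero 2 hq)) h.symm
    have h1 := congrArg natDegree h
    rw [natDegree_pow, natDegree_mul X_ne_zero (pow_ne_zero 2 hq), natDegree_pow,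
      natDegree_X] at h1
    omega

variable (W : WeierstrassCurve.Affine k)

/-- The square of `p • 1 + q • Y` in the coordinate ring, in the basis `1, Y`. -/
theorem sq_smul_basis (p q : k[X]) :
    (p • (1 : W.CoordinateRing) + q • CoordinateRing.mk W Y) ^ 2 =
      (p ^ 2 + q ^ 2 * (X ^ 3 + C W.a₂ * X ^ 2 + C W.a₄ * X + C W.a₆)) • (1 : W.CoordinateRing) +
        (2 * p * q - q ^ 2 * (C W.a₁ * X + C W.a₃)) • CoordinateRing.mk W Y := by
  have h1 := CoordinateRing.smul_basis_mul_C (W' := W) p p q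
  have h2 := CoordinateRing.smul_basis_mul_C (W' := W) q p q
  have h3 := CoordinateRing.smul_basis_mul_Y (W' := W) (p * q) (q * q)
  have e : (p • (1 : W.CoordinateRing) + q • CoordinateRing.mk W Y) ^ 2 =
      (p • (1 : W.CoordinateRing) + q • CoordinateRing.mk W Y) * CoordinateRing.mk W (C p) +
      ((p • (1 : W.CoordinateRing) + q • CoordinateRing.mk W Y) * CoordinateRing.mk W (C q)) *
        CoordinateRing.mk W Y := by
    simp only [CoordinateRing.smul]
    ring
  rw [e, h1, h2, h3]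
  simp only [CoordinateRing.smul]
  simp only [map_add, map_sub, map_mul, map_pow, map_ofNat]
  ring

/-- Coordinates in the basis `1, Y` of the coordinate ring are unique. -/
theorem smul_basis_ext {p q p' q' : k[X]}
    (h : p • (1 : W.CoordinateRing) + q • CoordinateRing.mk W Y =
      p' • (1 : W.CoordinateRing) + q' • CoordinateRing.mk W Y) : p = p' ∧ q = q' := by
  have h0 : (p - p') • (1 : W.CoordinateRing) + (q - q') • CoordinateRing.mk W Y = 0 := by
    rw [sub_smul, sub_smul, sub_add_sub_comm, h, sub_self]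
  obtain ⟨h1, h2⟩ := CoordinateRing.smul_basis_eq_zero h0
  exact ⟨sub_eq_zero.mp h1, sub_eq_zero.mp h2⟩

/-- The norm of `x` down to `k[X]` is `X ^ 2`. -/
theorem norm_mk_C_X : Algebra.norm k[X] (CoordinateRing.mk W (C X)) = X ^ 2 := by
  have e : CoordinateRing.mk W (C X) =
      (X : k[X]) • (1 : W.CoordinateRing) + (0 : k[X]) • CoordinateRing.mk W Y := by
    simp [CoordinateRing.smul]
  rw [e, CoordinateRing.norm_smul_basis]
  ring

/-- Nonzero elements of the coordinate ring have nonzero norm. -/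
theorem norm_ne_zero_of_ne_zero {a : W.CoordinateRing} (ha : a ≠ 0) :
    Algebra.norm k[X] a ≠ 0 := by
  have : Module.Finite k[X] W.CoordinateRing := Module.Finite.of_basis (CoordinateRing.basis W)
  exact Algebra.norm_ne_zero_iff.mpr ha

/-- In the coordinate ring: `r ^ n = x * s ^ n` with `s ≠ 0` forces `n ∣ 2`. -/
theorem dvd_two_of_pow_eq_x_mul_pow {r s : W.CoordinateRing} {n : ℕ} (hs : s ≠ 0)
    (h : r ^ n = CoordinateRing.mk W (C X) * s ^ n) : n ∣ 2 := by
  have h1 := congrArg (Algebra.norm k[X]) h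
  rw [map_pow, map_mul, map_pow, norm_mk_C_X] at h1
  exact dvd_two_of_pow_eq_X_sq_mul_pow (norm_ne_zero_of_ne_zero W hs) h1

/-- In characteristic `2`, with `Δ ≠ 0`: `r ^ 2 = x * s ^ 2` in the coordinate ring forces
`s = 0`. -/
theorem eq_zero_of_sq_eq_x_mul_sq [CharP k 2] (hΔ : W.Δ ≠ 0) {r s : W.CoordinateRing}
    (h : r ^ 2 = CoordinateRing.mk W (C X) * s ^ 2) : s = 0 := by
  obtain ⟨p, q, rfl⟩ := CoordinateRing.exists_smul_basis_eq r
  obtain ⟨p', q', rfl⟩ := CoordinateRing.exists_smul_basis_eq s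
  have two0 : (2 : k[X]) = 0 := CharTwo.two_eq_zero
  have twok : (2 : k) = 0 := CharTwo.two_eq_zero
  rw [mul_comm, sq_smul_basis, sq_smul_basis, CoordinateRing.smul_basis_mul_C] at h
  obtain ⟨h1, h2⟩ := smul_basis_ext W h
  simp only [two0, zero_mul, zero_sub] at h2
  -- the linear polynomial `a₁ X + a₃` is nonzero
  have hlin : C W.a₁ * X + C W.a₃ ≠ (0 : k[X]) := by
    intro h0
    have ha1 : W.a₁ = 0 := by
      have := congrArg (fun f => coeff f 1) h0
      simpa using this
    have ha3 : W.a₃ = 0 := by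
      have := congrArg (fun f => coeff f 0) h0
      simpa using this
    apply hΔ
    have h4 : (4 : k) = 0 := by
      have : (4 : k) = 2 * 2 := by norm_num
      rw [this, twok, zero_mul]
    have h8 : (8 : k) = 0 := by
      have : (8 : k) = 2 * 4 := by norm_num
      rw [this, twok, zero_mul]
    have h27 : (27 : k) = 1 := by
      have : (27 : k) = 2 * 13 + 1 := by norm_num
      rw [this, twok, zero_mul, zero_add]
    simp only [WeierstrassCurve.Δ, WeierstrassCurve.b₂, WeierstrassCurve.b₄,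
      WeierstrassCurve.b₆, WeierstrassCurve.b₈, ha1, ha3, h4, h8, twok]
    ring
  -- hence `q ^ 2 = X * q' ^ 2`
  have hq : q ^ 2 = X * q' ^ 2 := by
    have : (q ^ 2 - X * q' ^ 2) * (C W.a₁ * X + C W.a₃) = 0 := by
      linear_combination -h2
    rcases mul_eq_zero.mp this with h3 | h3
    · exact sub_eq_zero.mp h3
    · exact absurd h3 hlin
  obtain ⟨hq0, hq0'⟩ := eq_zero_of_sq_eq_X_mul_sq hq
  subst hq0 hq0'
  have hp : p ^ 2 = X * p' ^ 2 := by
    linear_combination h1
  obtain ⟨-, hp0'⟩ := eq_zero_of_sq_eq_X_mul_sq hp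
  subst hp0'
  simp

/-- **(L1), coordinate-ring form.** For `ℓ` prime, `char k = ℓ`, `Δ ≠ 0`: there are no
`r, s` in the coordinate ring, `s ≠ 0`, with `r ^ ℓ = x * s ^ ℓ`. -/
theorem pow_ne_x_mul_pow (ℓ : ℕ) [Fact ℓ.Prime] [CharP k ℓ] (hΔ : W.Δ ≠ 0)
    {r s : W.CoordinateRing} (hs : s ≠ 0) :
    r ^ ℓ ≠ CoordinateRing.mk W (C X) * s ^ ℓ := by
  intro h
  have hdvd := dvd_two_of_pow_eq_x_mul_pow W hs h
  have hℓ : ℓ = 2 := (Nat.prime_dvd_prime_iff_eq (Fact.out : ℓ.Prime) Nat.prime_two).mp hdvd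
  subst hℓ
  exact hs (eq_zero_of_sq_eq_x_mul_sq W hΔ h)

/-- **(L1)** For `ℓ` prime, `char k = ℓ`, `Δ ≠ 0`: the function `x` is not an `ℓ`-th power in
the function field of `W`. -/
theorem x_ne_pow (ℓ : ℕ) [Fact ℓ.Prime] [CharP k ℓ] (hΔ : W.Δ ≠ 0) (z : W.FunctionField) :
    z ^ ℓ ≠ algebraMap W.CoordinateRing W.FunctionField (CoordinateRing.mk W (C X)) := by
  intro h
  obtain ⟨r, s, hs, rfl⟩ := IsFractionRing.div_surjective (A := W.CoordinateRing) z
  have hs0 : s ≠ 0 := nonZeroDivisors.ne_zero hs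
  have hs' : algebraMap W.CoordinateRing W.FunctionField s ≠ 0 := by
    intro h0
    exact hs0 ((IsFractionRing.injective W.CoordinateRing W.FunctionField)
      (h0.trans (map_zero _).symm))
  rw [div_pow, div_eq_iff (pow_ne_zero ℓ hs'), ← map_pow, ← map_pow, ← map_mul] at h
  exact pow_ne_x_mul_pow W ℓ hΔ hs0 (IsFractionRing.injective W.CoordinateRing W.FunctionField h)

/-- **(L1)**, with `x` written as the image of `X : k[X]`. -/
theorem x_ne_pow' (ℓ : ℕ) [Fact ℓ.Prime] [CharP k ℓ] (hΔ : W.Δ ≠ 0) (z : W.FunctionField) :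
    z ^ ℓ ≠ algebraMap k[X] W.FunctionField X := by
  have e : algebraMap k[X] W.FunctionField X =
      algebraMap W.CoordinateRing W.FunctionField (CoordinateRing.mk W (C X)) := by
    rw [IsScalarTower.algebraMap_apply k[X] W.CoordinateRing W.FunctionField]
    rfl
  rw [e]
  exact x_ne_pow W ℓ hΔ z

end Fermat.Agent.ES.Q58.InsepLeaves5
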