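/-
Program Q (S58), TOP-B (helper12): coefficient rings for S35/S36.

For a normalised eigenform `g` of level `M`, a finite set `S` and a prime `λ` there is a complete
DVR `O'` (char. 0, finite residue field, `λ ∈ 𝔪`) and an INJECTIVE ring hom
`iota : (chiC hg S).range →+* O'`, where `chiC hg S : heckeAlgebra M 2 S →+* ℂ` is the
eigencharacter of `g` (`ES/J7/EigenChar1`).  This is the input `(O', chig, iota)` of the frozen
S35/S36, built from `ES/J7/CompleteDVR1` (completion of the ring of integers of the Hecke field at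
a prime over `λ`).
-/
import Mathlib
import Fermat.Agent.ES.J7.CompleteDVR1
import Fermat.Agent.ES.J7.EigenChar1

set_option autoImplicit false

open CuspForm CongruenceSubgroup ModularFormClass IsLocalRing NumberField
open IsDedekindDomain HeightOneSpectrum

noncomputable section

namespace Fermat.Agent.ES.Q58.IotaRange12

open Fermat.Agent.ES.J7.CompleteDVR1 Fermat.Agent.ES.J7.EigenChar1

/-- a prime of the ring of all algebraic integers over a given prime number. -/
theorem exists_prime_over (p : ℕ) (hp : p.Prime) :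
    ∃ 𝔐 : Ideal (integralClosure ℤ ℂ), 𝔐.IsPrime ∧ (p : integralClosure ℤ ℂ) ∈ 𝔐 := by
  have hP : (Ideal.span {(p : ℤ)}).IsPrime :=
    (Ideal.span_singleton_prime (by exact_mod_cast hp.ne_zero)).mpr
      (Nat.prime_iff_prime_int.mp hp)
  have hker : RingHom.ker (algebraMap ℤ (integralClosure ℤ ℂ)) ≤ Ideal.span {(p : ℤ)} := by
    intro x hx
    rw [RingHom.mem_ker] at hx
    have : x = 0 := by
      have h1 := congrArg (fun y : integralClosure ℤ ℂ => (y : ℂ)) hx
      simpa using h1
    rw [this]
    exact Ideal.zero_mem _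
  obtain ⟨Q, -, hQ, hQP⟩ :=
    Ideal.exists_ideal_over_prime_of_isIntegral (Ideal.span {(p : ℤ)})
      (⊥ : Ideal (integralClosure ℤ ℂ)) (by rw [← RingHom.ker_eq_comap_bot]; exact hker)
  refine ⟨Q, hQ, ?_⟩
  have h1 : (p : ℤ) ∈ Q.comap (algebraMap ℤ (integralClosure ℤ ℂ)) := by
    rw [hQP]; exact Ideal.mem_span_singleton_self _
  rw [Ideal.mem_comap] at h1
  simpa using h1

section Range

variable {T : Type*} [CommRing T] (χ : T →+* integralClosure ℤ ℂ)

/-- the complex-valued character underlying `χ`. -/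
def chiCx : T →+* ℂ := (algebraMap (integralClosure ℤ ℂ) ℂ).comp χ

theorem chiCx_apply (t : T) : chiCx χ t = ((χ t : integralClosure ℤ ℂ) : ℂ) := rfl

theorem range_mem_fieldE (x : (chiCx χ).range) : (x : ℂ) ∈ fieldE χ := by
  obtain ⟨x, t, rfl⟩ := x
  exact coe_mem_fieldE χ t

/-- the range of `χ` inside the Hecke field. -/
def rangeToE : (chiCx χ).range →+* fieldE χ where
  toFun x := ⟨(x : ℂ), range_mem_fieldE χ x⟩
  map_zero' := rfl
  map_one' := rfl
  map_add' _ _ := rfl
  map_mul' _ _ := rfl

theorem isIntegral_rangeToE (x : (chiCx χ).range) : IsIntegral ℤ (rangeToE χ x) := by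
  obtain ⟨x, t, rfl⟩ := x
  have h : IsIntegral ℤ (((χ t : integralClosure ℤ ℂ) : ℂ)) := (χ t).2
  exact (isIntegral_algHom_iff ((fieldE χ).val.restrictScalars ℤ) Subtype.val_injective).mp h

/-- the range of `χ` inside the ring of integers of the Hecke field. -/
def rangeToO : (chiCx χ).range →+* 𝓞 (fieldE χ) :=
  restrictRingHom (rangeToE χ) (isIntegral_rangeToE χ)

theorem rangeToO_injective : Function.Injective (rangeToO χ) := by
  intro x y hxy
  have h1 := congrArg (fun z : 𝓞 (fieldE χ) => (((z : fieldE χ)) : ℂ)) hxy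
  exact Subtype.ext h1

end Range

section Compl

variable {R : Type*} [CommRing R] [IsDedekindDomain R] (K : Type*) [Field K] [Algebra R K]
  [IsFractionRing R K] (v : HeightOneSpectrum R)

theorem algebraMap_adicCompletionIntegers_injective :
    Function.Injective (algebraMap R (v.adicCompletionIntegers K)) := by
  intro a b hab
  have h1 := congrArg (fun z : v.adicCompletionIntegers K => (z : v.adicCompletion K)) hab
  have h2 : ∀ c : R, ((algebraMap R (v.adicCompletionIntegers K) c :
      v.adicCompletionIntegers K) : v.adicCompletion K) =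
        algebraMap K (v.adicCompletion K) (algebraMap R K c) := fun c => rfl
  simp only [h2] at h1
  exact IsFractionRing.injective R K ((algebraMap K (v.adicCompletion K)).injective h1)

end Compl

variable {M : ℕ} [NeZero M]

/-- **Coefficient ring**, character form. -/
theorem exists_iota_of_char {T : Type} [CommRing T] [Module.Finite ℤ T]
    (χ : T →+* integralClosure ℤ ℂ) (lam : ℕ) [hlam : Fact lam.Prime] :
    ∃ (O' : Type) (_ : CommRing O') (_ : IsDomain O') (_ : IsDiscreteValuationRing O')
      (_ : IsAdicComplete (maximalIdeal O') O') (_ : Finite (ResidueField O')) (_ : CharZero O')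
      (iota : (chiCx χ).range →+* O'),
      (lam : O') ∈ maximalIdeal O' ∧ Function.Injective iota := by
  obtain ⟨𝔐, h𝔐, hp𝔐⟩ := exists_prime_over lam hlam.out
  have hfin' : Finite (ResidueField
      ((primeV χ lam 𝔐 hp𝔐).adicCompletionIntegers (fieldE χ))) :=
    finite_residueField (fieldE χ) (primeV χ lam 𝔐 hp𝔐)
  refine ⟨(primeV χ lam 𝔐 hp𝔐).adicCompletionIntegers (fieldE χ), inferInstance, inferInstance,
    inferInstance, isAdicComplete (fieldE χ) (primeV χ lam 𝔐 hp𝔐), hfin',
    charZero (fieldE χ) (primeV χ lam 𝔐 hp𝔐),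
    (algebraMap (𝓞 (fieldE χ))
      ((primeV χ lam 𝔐 hp𝔐).adicCompletionIntegers (fieldE χ))).comp (rangeToO χ), ?_,
    (algebraMap_adicCompletionIntegers_injective (fieldE χ) (primeV χ lam 𝔐 hp𝔐)).comp
      (rangeToO_injective χ)⟩
  have h1 : ((lam : ℕ) : (primeV χ lam 𝔐 hp𝔐).adicCompletionIntegers (fieldE χ))
      = algebraMap (𝓞 (fieldE χ)) ((primeV χ lam 𝔐 hp𝔐).adicCompletionIntegers (fieldE χ))
        (lam : 𝓞 (fieldE χ)) := by
    rw [map_natCast]
  rw [h1, algebraMap_mem_maximalIdeal_iff]
  exact natCast_mem_primeV χ lam 𝔐 hp𝔐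

theorem chiCx_chiG {g : CuspForm (Gamma0 M) 2} (hg : g.IsNormalizedEigenform) (S : Set ℕ) :
    chiCx (chiG hg S) = chiC hg S := by
  ext t
  rw [chiCx_apply, coe_chiG]

/-- **Coefficient ring** for the eigencharacter `chiC hg S`. -/
theorem exists_iota {g : CuspForm (Gamma0 M) 2} (hg : g.IsNormalizedEigenform) (S : Set ℕ)
    (lam : ℕ) [hlam : Fact lam.Prime] :
    ∃ (O' : Type) (_ : CommRing O') (_ : IsDomain O') (_ : IsDiscreteValuationRing O')
      (_ : IsAdicComplete (maximalIdeal O') O') (_ : Finite (ResidueField O')) (_ : CharZero O')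
      (iota : (chiC hg S).range →+* O'),
      (lam : O') ∈ maximalIdeal O' ∧ Function.Injective iota := by
  have hfinT : Module.Finite ℤ (heckeAlgebra M 2 S) := Fermat.Agent.S22.result M 2 S
  have h := exists_iota_of_char (chiG hg S) lam
  rw [chiCx_chiG hg S] at h
  exact h

end Fermat.Agent.ES.Q58.IotaRange12
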