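/-
Program Q (S58), TOP-A (helper12): the level inclusion `S₂(Γ₀(M)) → S₂(Γ₀(M'))` for `M ∣ M'`.

The same function, seen as a cusp form for the smaller group `Γ₀(M') ≤ Γ₀(M)`.  It preserves
`q`-coefficients (they only depend on the underlying function) and commutes with the Prelude's
`T_ℓ` for `ℓ ∤ M'`.
-/
import Mathlib
import Fermat.Prelude.Def_CuspForm_HeckeAlgebra
import Fermat.Prelude.Def_FLTPrelim_Modularity

set_option autoImplicit false

open CongruenceSubgroup ModularFormClass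
open scoped MatrixGroups ModularForm

namespace Fermat.Agent.ES.Q58.LevelIncl12

theorem Gamma0_le_of_dvd {M M' : ℕ} (h : M ∣ M') : Gamma0 M' ≤ Gamma0 M := by
  intro A hA
  rw [Gamma0_mem] at hA ⊢
  rw [ZMod.intCast_zmod_eq_zero_iff_dvd] at hA ⊢
  exact (Int.natCast_dvd_natCast.mpr h).trans hA

theorem Gamma0_GL_le_of_dvd {M M' : ℕ} (h : M ∣ M') :
    ((Gamma0 M' : Subgroup SL(2, ℤ)) : Subgroup (GL (Fin 2) ℝ)) ≤
      ((Gamma0 M : Subgroup SL(2, ℤ)) : Subgroup (GL (Fin 2) ℝ)) := by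
  rintro _ ⟨g, hg, rfl⟩
  exact ⟨g, Gamma0_le_of_dvd h hg, rfl⟩

/-- A cusp form of level `Γ₀(M)`, seen as a cusp form of level `Γ₀(M')`, `M ∣ M'`. -/
def levelInclFun {M M' : ℕ} (h : M ∣ M') {k : ℤ} (f : CuspForm (Gamma0 M) k) :
    CuspForm (Gamma0 M') k where
  toFun := f
  slash_action_eq' γ hγ := f.slash_action_eq' γ (Gamma0_GL_le_of_dvd h hγ)
  holo' := f.holo'
  zero_at_cusps' hc := f.zero_at_cusps' (hc.mono (Gamma0_GL_le_of_dvd h))

theorem coe_levelInclFun {M M' : ℕ} (h : M ∣ M') {k : ℤ} (f : CuspForm (Gamma0 M) k) :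
    ⇑(levelInclFun h f) = ⇑f :=
  rfl

/-- The level inclusion as a linear map. -/
def levelIncl {M M' : ℕ} (h : M ∣ M') (k : ℤ) :
    CuspForm (Gamma0 M) k →ₗ[ℂ] CuspForm (Gamma0 M') k where
  toFun f := levelInclFun h f
  map_add' f g := by
    apply DFunLike.coe_injective
    rw [coe_levelInclFun, FunLike.coe_add, FunLike.coe_add, coe_levelInclFun, coe_levelInclFun]
  map_smul' c f := by
    apply DFunLike.coe_injective
    rw [coe_levelInclFun, RingHom.id_apply, FunLike.coe_smul, FunLike.coe_smul,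
      coe_levelInclFun]

@[simp] theorem coe_levelIncl {M M' : ℕ} (h : M ∣ M') (k : ℤ) (f : CuspForm (Gamma0 M) k) :
    ⇑(levelIncl h k f) = ⇑f := coe_levelInclFun h f

theorem levelIncl_injective {M M' : ℕ} (h : M ∣ M') (k : ℤ) :
    Function.Injective (levelIncl h k) := by
  intro f g hfg
  apply DFunLike.coe_injective
  have := congrArg (fun F : CuspForm (Gamma0 M') k => (⇑F : UpperHalfPlane → ℂ)) hfg
  simpa using this

theorem qCoeff_levelIncl {M M' : ℕ} (h : M ∣ M') (k : ℤ) (f : CuspForm (Gamma0 M) k) (n : ℕ) :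
    qCoeff ⇑(levelIncl h k f) n = qCoeff ⇑f n := by
  rw [coe_levelIncl]

end Fermat.Agent.ES.Q58.LevelIncl12
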