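/-
Program Q (S58), TOP-B (helper12): the `ρ`-side of the three comparisons.

`ρ : GaloisRepAdic O` over a complete DVR `O` with `λ ∈ 𝔪`, together with FROBENIUS DATA: integers
`a ℓ` with `charpoly ρ(Frob_ℓ) = X² − a_ℓ X + ℓ` for all primes `ℓ ∉ T0`.  By the two-sided generator
Chebotarev theorem every `g ∈ G_ℚ` is, on any finite `K ⊂ ℚ̄` and modulo `𝔪ⁿ`, a power of such a
Frobenius and conversely.  Consequences (the `W`-side information enters as a hypothesis `hW` in the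
literal shape of `ECIface12`):

* `charpoly_eq_of_inertiaCong` : `charpoly ρ(τ) = (X − 1)²`            (for (ii));
* `exists_frob_dvd`             : a Frobenius with `λ ∣ ℓ + 1 − a_ℓ`    (for (i));
* `trace_eq_of_traceCong`       : `tr ρ(σ) = a_r`                        (for (iii)).
-/
import Mathlib
import Fermat.Prelude.Def_GaloisRep_Adic
import Fermat.Prelude.Def_EllipticCurve_FrobeniusTrace
import Fermat.Prelude.Def_FLTPrelim_Ramification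
import Fermat.Agent.ES.ALG.RelDense9
import Fermat.Agent.ES.ALG31.TraceInv12
import Fermat.Agent.ES.ALG31.Lucas15
import Fermat.Agent.ES.N34.TraceTwo12
import Fermat.Agent.ES.J.CycloChar8
import Fermat.Agent.ES.Q58.Cheb2Sided12

set_option autoImplicit false

open Polynomial

noncomputable section

namespace Fermat.Agent.ES.Q58.RhoSide12

open Fermat.Agent.ES.ALG.RelDense9 Fermat.Agent.ES.ALG31.TraceInv12 Fermat.Agent.ES.ALG31.Lucas15
  Fermat.Agent.ES.N34.TraceTwo12 Fermat.Agent.ES.J.CycloChar8 Fermat.Agent.ES.Q58.Cheb2Sided12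

local notation "Qb" => AlgebraicClosure ℚ
local notation "GQ" => (AlgebraicClosure ℚ ≃ₐ[ℚ] AlgebraicClosure ℚ)

/-! ### Lucas sequences: two evaluations and congruences -/

theorem lucasV_add_mul {R : Type*} [CommRing R] (u v : R) (k : ℕ) :
    lucasV (u + v) (u * v) k = u ^ k + v ^ k := by
  induction k using Nat.twoStepInduction with
  | zero => rw [lucasV_zero, pow_zero, pow_zero]; norm_num
  | one => rw [lucasV_one, pow_one, pow_one]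
  | more k h0 h1 => rw [lucasV_add_two, h0, h1]; ring

theorem lucasV_two_one {R : Type*} [CommRing R] (k : ℕ) : lucasV (2 : R) 1 k = 2 := by
  have := lucasV_add_mul (1 : R) 1 k
  rw [one_pow, mul_one] at this
  rw [show (2 : R) = 1 + 1 by norm_num]
  exact this

theorem lucasV_sub_mem {R : Type*} [CommRing R] {I : Ideal R} {t t' d d' : R} (ht : t - t' ∈ I)
    (hd : d - d' ∈ I) (k : ℕ) : lucasV t d k - lucasV t' d' k ∈ I := by
  rw [← Ideal.Quotient.eq, map_lucasV, map_lucasV, Ideal.Quotient.eq.mpr ht,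
    Ideal.Quotient.eq.mpr hd]

/-! ### Frobenius data -/

section

variable {O : Type} [CommRing O] [IsLocalRing O]

/-- Frobenius data for `ρ`: `charpoly ρ(Frob_ℓ) = X² − a_ℓ X + ℓ` for the primes `ℓ ∉ T0`. -/
def FrobData (ρ : GaloisRepAdic O) (a : ℕ → ℤ) (T0 : Finset ℕ) : Prop :=
  ∀ ℓ : ℕ, ℓ.Prime → ℓ ∉ T0 → ∀ A : ValuationSubring Qb, A.LiesOverPrime ℓ →
    ∀ φ : GQ, A.IsFrobeniusAt φ ℓ →
      (ρ.ρ φ).charpoly = X ^ 2 - C ((a ℓ : ℤ) : O) * X + C ((ℓ : ℕ) : O)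

theorem FrobData.mono {ρ : GaloisRepAdic O} {a : ℕ → ℤ} {T0 T1 : Finset ℕ}
    (h : FrobData ρ a T0) (hT : T0 ⊆ T1) : FrobData ρ a T1 :=
  fun ℓ hℓ hℓT A hA φ hφ => h ℓ hℓ (fun hmem => hℓT (hT hmem)) A hA φ hφ

variable (ρ : GaloisRepAdic O)

/-- two elements of `G_ℚ` agreeing on the field cut out by `ρ mod 𝔪ⁿ` have congruent images. -/
theorem endCongr_of_eq_on {n : ℕ} {L : IntermediateField ℚ Qb}
    (hL : ∀ σ : GQ, (∀ x ∈ L, σ x = x) →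
      ∀ v : ρ.V, ρ.ρ σ v - v ∈ (IsLocalRing.maximalIdeal O ^ n) • (⊤ : Submodule O ρ.V))
    {g h : GQ} (hgh : ∀ x ∈ L, g x = h x) :
    EndCongr (IsLocalRing.maximalIdeal O ^ n) (ρ.ρ g) (ρ.ρ h) := by
  have hfix : ∀ x ∈ L, (h⁻¹ * g) x = x := fun x hx => by
    rw [AlgEquiv.mul_apply, hgh x hx]
    exact h.symm_apply_apply x
  have h1 : EndCongr (IsLocalRing.maximalIdeal O ^ n) (ρ.ρ (h⁻¹ * g)) 1 := fun v => by
    rw [Module.End.one_apply]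
    exact hL _ hfix v
  have h2 := h1.mul_left (ρ.ρ h)
  rwa [← map_mul, mul_inv_cancel_left, mul_one] at h2

/-- **Approximation by Frobenius elements**, two-sided. -/
theorem exists_frob_approx (n : ℕ) (K : IntermediateField ℚ Qb) [FiniteDimensional ℚ K]
    (g : GQ) (T : Finset ℕ) :
    ∃ (ℓ : ℕ) (A : ValuationSubring Qb) (φ : GQ) (i j : ℕ), ℓ.Prime ∧ ℓ ∉ T ∧
      A.LiesOverPrime ℓ ∧ A.IsFrobeniusAt φ ℓ ∧ (∀ x ∈ K, (φ ^ j) x = g x) ∧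
      (∀ x ∈ K, (g ^ i) x = φ x) ∧
      EndCongr (IsLocalRing.maximalIdeal O ^ n) (ρ.ρ φ ^ j) (ρ.ρ g) ∧
      EndCongr (IsLocalRing.maximalIdeal O ^ n) (ρ.ρ g ^ i) (ρ.ρ φ) := by
  obtain ⟨L, hLfin, hL⟩ := ρ.isAdicContinuous n
  have := hLfin
  obtain ⟨ℓ, A, φ, i, j, hℓ, hℓT, hA, hφ, hj, hi⟩ :=
    exists_frobenius_pow_eq_on_both (K ⊔ L) g T
  refine ⟨ℓ, A, φ, i, j, hℓ, hℓT, hA, hφ, fun x hx => hj x (le_sup_left (a := K) (b := L) hx),
    fun x hx => hi x (le_sup_left (a := K) (b := L) hx), ?_, ?_⟩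
  · rw [← map_pow]
    exact endCongr_of_eq_on ρ hL fun x hx => hj x (le_sup_right (a := K) (b := L) hx)
  · rw [← map_pow]
    exact endCongr_of_eq_on ρ hL fun x hx => hi x (le_sup_right (a := K) (b := L) hx)

variable {ρ}

theorem trace_frob {a : ℕ → ℤ} {T0 : Finset ℕ} (hF : FrobData ρ a T0) {ℓ : ℕ}
    (hℓ : ℓ.Prime) (hℓT : ℓ ∉ T0) {A : ValuationSubring Qb} (hA : A.LiesOverPrime ℓ) {φ : GQ}
    (hφ : A.IsFrobeniusAt φ ℓ) :
    LinearMap.trace O ρ.V (ρ.ρ φ) = ((a ℓ : ℤ) : O) ∧ LinearMap.det (ρ.ρ φ) = ((ℓ : ℕ) : O) :=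
  trace_det_of_charpoly ρ.finrank_eq _ (hF ℓ hℓ hℓT A hA φ hφ)

theorem trace_frob_pow {a : ℕ → ℤ} {T0 : Finset ℕ} (hF : FrobData ρ a T0) {ℓ : ℕ}
    (hℓ : ℓ.Prime) (hℓT : ℓ ∉ T0) {A : ValuationSubring Qb} (hA : A.LiesOverPrime ℓ) {φ : GQ}
    (hφ : A.IsFrobeniusAt φ ℓ) (j : ℕ) :
    LinearMap.trace O ρ.V (ρ.ρ φ ^ j) = ((lucasV (a ℓ) (ℓ : ℤ) j : ℤ) : O) := by
  rw [trace_pow_of_charpoly ρ.finrank_eq _ (hF ℓ hℓ hℓT A hA φ hφ) j]
  have := map_lucasV (Int.castRingHom O) (a ℓ) (ℓ : ℤ) j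
  rw [eq_intCast, eq_intCast, eq_intCast, Int.cast_natCast] at this
  exact this.symm

/-- an integer whose image lies in `𝔪` is divisible by the residue characteristic. -/
theorem dvd_of_intCast_mem {lam : ℕ} (hlamp : lam.Prime)
    (hlam : (lam : O) ∈ IsLocalRing.maximalIdeal O) {m : ℤ}
    (hm : (m : O) ∈ IsLocalRing.maximalIdeal O) : (lam : ℤ) ∣ m := by
  by_contra hnd
  have hcop : IsCoprime (lam : ℤ) m := by
    rw [Int.isCoprime_iff_gcd_eq_one, Int.gcd, Int.natAbs_natCast]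
    exact (Nat.Prime.coprime_iff_not_dvd hlamp).mpr fun h => hnd (Int.natCast_dvd.mpr h)
  obtain ⟨x, y, hxy⟩ := hcop
  have h1 : ((x * (lam : ℤ) + y * m : ℤ) : O) ∈ IsLocalRing.maximalIdeal O := by
    push_cast
    exact Ideal.add_mem _ (Ideal.mul_mem_left _ _ hlam) (Ideal.mul_mem_left _ _ hm)
  rw [hxy, Int.cast_one] at h1
  exact (Ideal.ne_top_iff_one _).mp (IsLocalRing.maximalIdeal.isMaximal O).ne_top h1

/-- an integer divisible by `λⁿ` has image in `𝔪ⁿ`. -/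
theorem intCast_mem_pow {lam : ℕ} (hlam : (lam : O) ∈ IsLocalRing.maximalIdeal O) {n : ℕ}
    {m : ℤ} (hm : (lam : ℤ) ^ n ∣ m) : (m : O) ∈ IsLocalRing.maximalIdeal O ^ n := by
  obtain ⟨k, rfl⟩ := hm
  push_cast
  exact Ideal.mul_mem_right _ _ (Ideal.pow_mem_pow hlam n)

end

/-! ### (i): a Frobenius at a good prime with `λ ∣ #W̃(F_ℓ)` -/

section

variable {O : Type} [CommRing O] [IsLocalRing O] {ρ : GaloisRepAdic O}

/-- If `charpoly ρ(σ) = X² ∓ (q+1)X + q`, then on every finite `K` some power of a Frobenius `φ`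
at a prime `ℓ ∉ T0` acts like `σ²`, and `λ ∣ ℓ + 1 − a_ℓ`. -/
theorem exists_frob_dvd {lam : ℕ} (hlamp : lam.Prime)
    (hlam : (lam : O) ∈ IsLocalRing.maximalIdeal O) {a : ℕ → ℤ} {T0 : Finset ℕ}
    (hF : FrobData ρ a T0) {σ : GQ} {q : ℕ}
    (hσ : (ρ.ρ σ).charpoly = X ^ 2 - C ((q : O) + 1) * X + C (q : O) ∨
      (ρ.ρ σ).charpoly = X ^ 2 + C ((q : O) + 1) * X + C (q : O))
    (K : IntermediateField ℚ Qb) [FiniteDimensional ℚ K] :
    ∃ (ℓ : ℕ) (A : ValuationSubring Qb) (φ : GQ) (j : ℕ), ℓ.Prime ∧ ℓ ∉ T0 ∧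
      A.LiesOverPrime ℓ ∧ A.IsFrobeniusAt φ ℓ ∧ ((lam : ℤ) ∣ (ℓ : ℤ) + 1 - a ℓ) ∧
      ∀ x ∈ K, (φ ^ j) x = (σ ^ 2) x := by
  obtain ⟨ℓ, A, φ, i, j, hℓ, hℓT, hA, hφ, hj, -, -, hi⟩ := exists_frob_approx ρ 1 K (σ ^ 2) T0
  refine ⟨ℓ, A, φ, j, hℓ, hℓT, hA, hφ, ?_, hj⟩
  -- trace and determinant of `ρ(σ)^(2i)`
  have hpow : ρ.ρ (σ ^ 2) ^ i = ρ.ρ σ ^ (2 * i) := by rw [map_pow, ← pow_mul]
  have htd : ∃ s : O, s ^ 2 = 1 ∧ (ρ.ρ σ).charpoly = X ^ 2 - C (s + s * (q : O)) * X +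
      C (s * (s * (q : O))) := by
    rcases hσ with h | h
    · exact ⟨1, one_pow 2, by rw [h]; simp only [one_mul]; ring_nf⟩
    · refine ⟨-1, by ring, ?_⟩
      rw [h]
      simp only [neg_mul, one_mul, neg_neg, map_neg, map_add]
      ring
  obtain ⟨s, hs, hcp⟩ := htd
  have htr : LinearMap.trace O ρ.V (ρ.ρ σ ^ (2 * i)) = 1 + (q : O) ^ (2 * i) := by
    rw [trace_pow_of_charpoly ρ.finrank_eq _ hcp, lucasV_add_mul, mul_pow, pow_mul s, hs, one_pow,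
      one_mul]
  have hdet : LinearMap.det (ρ.ρ σ ^ (2 * i)) = (q : O) ^ (2 * i) := by
    rw [map_pow, (trace_det_of_charpoly ρ.finrank_eq _ hcp).2, ← mul_assoc, ← pow_two, hs, one_mul]
  rw [hpow] at hi
  have h1 := trace_sub_mem_of_endCongr hi
  have h2 := det_sub_mem_of_endCongr hi
  rw [pow_one] at h1 h2
  obtain ⟨h3, h4⟩ := trace_frob hF hℓ hℓT hA hφ
  rw [htr, h3] at h1
  rw [hdet, h4] at h2
  apply dvd_of_intCast_mem hlamp hlam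
  have e : (((ℓ : ℤ) + 1 - a ℓ : ℤ) : O) =
      (1 + (q : O) ^ (2 * i) - ((a ℓ : ℤ) : O)) - ((q : O) ^ (2 * i) - ((ℓ : ℕ) : O)) := by
    push_cast; ring
  rw [e]
  exact Ideal.sub_mem _ h1 h2

end

/-! ### (ii) and (iii) -/

section

variable {O : Type} [CommRing O] [IsLocalRing O] {ρ : GaloisRepAdic O}

/-- (iii): the trace of `ρ(σ)` from `TraceCong`-type information. -/
theorem trace_eq_of_traceCong (hO : ∀ x : O, (∀ n, x ∈ IsLocalRing.maximalIdeal O ^ n) → x = 0)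
    {lam : ℕ} (hlam : (lam : O) ∈ IsLocalRing.maximalIdeal O) {a : ℕ → ℤ} {T0 : Finset ℕ}
    (hF : FrobData ρ a T0) (σ : GQ) (ar : ℤ)
    (hW : ∀ n : ℕ, ∃ K : IntermediateField ℚ Qb, FiniteDimensional ℚ K ∧
      ∀ (ℓ : ℕ) (A : ValuationSubring Qb) (φ : GQ), ℓ.Prime → ℓ ∉ T0 →
        A.LiesOverPrime ℓ → A.IsFrobeniusAt φ ℓ →
      ∀ i j : ℕ, (∀ x ∈ K, (φ ^ j) x = σ x) → (∀ x ∈ K, (σ ^ i) x = φ x) →
        (lam : ℤ) ^ n ∣ ar - lucasV (a ℓ) (ℓ : ℤ) j) :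
    LinearMap.trace O ρ.V (ρ.ρ σ) = (ar : O) := by
  rw [← sub_eq_zero]
  apply hO
  intro n
  obtain ⟨K, hK, hKW⟩ := hW n
  have := hK
  obtain ⟨ℓ, A, φ, i, j, hℓ, hℓT, hA, hφ, hj, hi, hcj, -⟩ := exists_frob_approx ρ n K σ T0
  have h1 := trace_sub_mem_of_endCongr hcj
  rw [trace_frob_pow hF hℓ hℓT hA hφ] at h1
  have h2 := intCast_mem_pow hlam (hKW ℓ A φ hℓ hℓT hA hφ i j hj hi)
  have e : LinearMap.trace O ρ.V (ρ.ρ σ) - (ar : O) =
      -(((lucasV (a ℓ) (ℓ : ℤ) j : ℤ) : O) - LinearMap.trace O ρ.V (ρ.ρ σ)) -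
        ((ar - lucasV (a ℓ) (ℓ : ℤ) j : ℤ) : O) := by
    push_cast; ring
  rw [e]
  exact Ideal.sub_mem _ (neg_mem h1) h2

/-- (ii): `ρ(τ)` is unipotent from `InertiaCong`-type information and `ε_λ(τ) = 1`. -/
theorem charpoly_eq_of_inertiaCong
    (hO : ∀ x : O, (∀ n, x ∈ IsLocalRing.maximalIdeal O ^ n) → x = 0)
    {lam : ℕ} [hlamp : Fact lam.Prime] (hlam : (lam : O) ∈ IsLocalRing.maximalIdeal O)
    {a : ℕ → ℤ} {T0 : Finset ℕ} (hlamT : lam ∈ T0)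
    (hF : FrobData ρ a T0) (τ : GQ) (hcyc : cyclo lam τ = 1)
    (hW : ∀ n : ℕ, ∃ K : IntermediateField ℚ Qb, FiniteDimensional ℚ K ∧
      ∀ (ℓ : ℕ) (A : ValuationSubring Qb) (φ : GQ), ℓ.Prime → ℓ ∉ T0 →
        A.LiesOverPrime ℓ → A.IsFrobeniusAt φ ℓ →
      ∀ i : ℕ, (∀ x ∈ K, φ x = (τ ^ i) x) → (lam : ℤ) ^ n ∣ (ℓ : ℤ) + 1 - a ℓ) :
    (ρ.ρ τ).charpoly = (X - 1) ^ 2 := by
  have key : ∀ n : ℕ, LinearMap.trace O ρ.V (ρ.ρ τ) - 2 ∈ IsLocalRing.maximalIdeal O ^ n ∧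
      LinearMap.det (ρ.ρ τ) - 1 ∈ IsLocalRing.maximalIdeal O ^ n := by
    intro n
    obtain ⟨K, hK, hKW⟩ := hW n
    obtain ⟨L3, hL3, hcy⟩ := cyclo_sub_one_mem lam n
    have := hK
    have := hL3
    obtain ⟨ℓ, A, φ, i, j, hℓ, hℓT, hA, hφ, hj, hi, hcj, -⟩ :=
      exists_frob_approx ρ n (K ⊔ L3) τ T0
    have hℓlam : ℓ ≠ lam := fun h => hℓT (h ▸ hlamT)
    -- `λⁿ ∣ ℓ + 1 − a_ℓ`
    have hd1 : (lam : ℤ) ^ n ∣ (ℓ : ℤ) + 1 - a ℓ :=
      hKW ℓ A φ hℓ hℓT hA hφ i fun x hx => (hi x (le_sup_left (a := K) (b := L3) hx)).symm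
    -- `λⁿ ∣ ℓ − 1`
    have hd2 : (lam : ℤ) ^ n ∣ (ℓ : ℤ) - 1 := by
      have hfix : ∀ x ∈ L3, ((τ ^ i)⁻¹ * φ) x = x := fun x hx => by
        rw [AlgEquiv.mul_apply, ← hi x (le_sup_right (a := K) (b := L3) hx)]
        exact (τ ^ i).symm_apply_apply x
      have h1 := hcy _ hfix
      rw [map_mul, map_inv, map_pow, hcyc, one_pow, inv_one, one_mul,
        cyclo_of_isFrobeniusAt lam hℓ hℓlam A hA hφ] at h1
      rw [Ideal.mem_span_singleton] at h1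
      have h2 : ((lam : ℤ_[lam]) ^ n) ∣ (((ℓ : ℤ) - 1 : ℤ) : ℤ_[lam]) := by
        push_cast; exact h1
      exact (PadicInt.pow_p_dvd_int_iff n _).mp h2
    have hd3 : (lam : ℤ) ^ n ∣ a ℓ - 2 := by
      have : a ℓ - 2 = ((ℓ : ℤ) - 1) - ((ℓ : ℤ) + 1 - a ℓ) := by ring
      rw [this]
      exact dvd_sub hd2 hd1
    have ha : ((a ℓ : ℤ) : O) - 2 ∈ IsLocalRing.maximalIdeal O ^ n := by
      have := intCast_mem_pow hlam hd3
      push_cast at this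
      exact this
    have hl : ((ℓ : ℕ) : O) - 1 ∈ IsLocalRing.maximalIdeal O ^ n := by
      have := intCast_mem_pow hlam hd2
      push_cast at this
      exact this
    obtain ⟨h3, h4⟩ := trace_frob hF hℓ hℓT hA hφ
    constructor
    · have h1 := trace_sub_mem_of_endCongr hcj
      rw [trace_pow_end ρ.finrank_eq, h3, h4] at h1
      have h2 := lucasV_sub_mem ha hl j
      rw [lucasV_two_one] at h2
      have e : LinearMap.trace O ρ.V (ρ.ρ τ) - 2 =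
          (lucasV ((a ℓ : ℤ) : O) ((ℓ : ℕ) : O) j - 2) -
            (lucasV ((a ℓ : ℤ) : O) ((ℓ : ℕ) : O) j - LinearMap.trace O ρ.V (ρ.ρ τ)) := by ring
      rw [e]
      exact Ideal.sub_mem _ h2 h1
    · have h1 := det_sub_mem_of_endCongr hcj
      rw [map_pow, h4] at h1
      have h2 : ((ℓ : ℕ) : O) ^ j - 1 ∈ IsLocalRing.maximalIdeal O ^ n := by
        rw [← Ideal.Quotient.eq] at hl ⊢
        rw [map_pow, hl, map_one, one_pow]
      have e : LinearMap.det (ρ.ρ τ) - 1 =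
          (((ℓ : ℕ) : O) ^ j - 1) - (((ℓ : ℕ) : O) ^ j - LinearMap.det (ρ.ρ τ)) := by ring
      rw [e]
      exact Ideal.sub_mem _ h2 h1
  refine charpoly_eq_of_trace_det ρ.finrank_eq _ ?_ ?_
  · rw [← sub_eq_zero]
    exact hO _ fun n => (key n).1
  · rw [← sub_eq_zero]
    exact hO _ fun n => (key n).2

end

end Fermat.Agent.ES.Q58.RhoSide12
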