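/-
Program Q (S58), TOP-A (helper12): the modular-forms half of S58, with no Galois theory.

`s58_of_local`: let `W` be an integral Weierstrass model which is modular of a level `N`
divisible by all bad primes and not divisible by `8`.  Assume the three LOCAL FACTS for every
newform `g` (Prelude sense) of a level `M ∣ N` whose good coefficients are those of `W`:

* (i)   a prime `q ∥ M` is bad for `W`;
* (ii)  no prime square divides `M`;
* (iii) `a_r(g) = a_r(W)` at the good primes `r ∣ N` (with `r ∤ M`).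

Then `W` is modular of level `rad Δ = W.conductorLevel`.

Proof: minimal-level descent (the least `M ∣ N` at which the good eigensystem of `f` occurs
carries a newform, by the very definition of `CuspForm.IsNewform`), `M ∣ rad Δ` from (i), (ii),
and stabilisation to level `rad Δ` WITHOUT any degeneracy operator: the common eigenspace
`{h ∈ S₂(Γ₀(rad Δ)) : T_ℓ h = a_ℓ(g) h ∀ ℓ ∤ rad Δ}` is Hecke stable, contains the level
inclusion of `g`, hence contains a normalised eigenform (`EigenformOfCommon23`).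
-/
import Mathlib
import Fermat.Prelude.Def_WeierstrassCurve_ConductorLevel
import Fermat.Prelude.Def_FLTPrelim_ModularRep
import Fermat.Prelude.Def_CuspForm_Newforms
import Fermat.Prelude.Thm_CuspForm_heckeTLin_comm
import Fermat.Prelude.Thm_CuspForm_heckeTLin_heckeULin_comm
import Fermat.Agent.ES.LR.EigenformOfCommon23
import Fermat.Agent.ES.J7.EigenVec1
import Fermat.Agent.S49.QExp
import Fermat.Agent.ES.Q58.LevelIncl12

set_option autoImplicit false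

open CuspForm CongruenceSubgroup ModularFormClass WeierstrassCurve

namespace Fermat.Agent.ES.Q58.TopA12

open Fermat.Agent.ES.Q58.LevelIncl12

/-! ### (A0) corner cases -/

/-- `N ≠ 0` as soon as `8 ∤ N`. -/
theorem level_ne_zero {N : ℕ} (hN3 : ∀ q : ℕ, q.Prime → ¬ q ^ 3 ∣ N) : N ≠ 0 := by
  rintro rfl
  exact hN3 2 Nat.prime_two (dvd_zero _)

/-- `Δ ≠ 0` as soon as every bad prime divides `N ≠ 0`. -/
theorem disc_ne_zero {W : WeierstrassCurve ℤ} {N : ℕ} (hN0 : N ≠ 0)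
    (hbad : ∀ ℓ : ℕ, ℓ.Prime → (ℓ : ℤ) ∣ W.Δ → ℓ ∣ N) : W.Δ ≠ 0 := by
  intro h0
  obtain ⟨ℓ, hℓN, hℓ⟩ := Nat.exists_infinite_primes (N + 1)
  have hdvd : ℓ ∣ N := hbad ℓ hℓ (by rw [h0]; exact dvd_zero _)
  have hle : ℓ ≤ N := Nat.le_of_dvd (Nat.pos_of_ne_zero hN0) hdvd
  omega

/-! ### (A1) minimal-level descent -/

/-- Below every normalised eigenform `f` of level `N ≠ 0` there is a newform `g` (in the Prelude's
sense) of a level `M ∣ N` with the same coefficients at the primes not dividing `N`. -/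
theorem exists_newform_below {N : ℕ} (hN0 : N ≠ 0) {f : CuspForm (Gamma0 N) 2}
    (hf : f.IsNormalizedEigenform) :
    ∃ (M : ℕ) (_ : M ∣ N) (g : CuspForm (Gamma0 M) 2), g.IsNewform ∧
      ∀ ℓ : ℕ, ℓ.Prime → ¬ ℓ ∣ N → qCoeff g ℓ = qCoeff f ℓ := by
  classical
  have hex : ∃ M : ℕ, M ∣ N ∧ GoodEigensystemOccursAt f M :=
    ⟨N, dvd_rfl, GoodEigensystemOccursAt.refl hf⟩
  obtain ⟨hMN, g, hg, hgf⟩ := Nat.find_spec hex
  refine ⟨Nat.find hex, hMN, g, ⟨hg, ?_⟩, hgf⟩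
  intro M' hM' hne hocc
  obtain ⟨g', hg', hg'g⟩ := hocc
  have hM0 : Nat.find hex ≠ 0 := fun h0 => hN0 (by rw [h0] at hMN; exact zero_dvd_iff.mp hMN)
  have hlt : M' < Nat.find hex :=
    lt_of_le_of_ne (Nat.le_of_dvd (Nat.pos_of_ne_zero hM0) hM') hne
  refine Nat.find_min hex hlt ⟨hM'.trans hMN, g', hg', ?_⟩
  intro ℓ hℓ hℓN
  rw [hg'g ℓ hℓ (fun h => hℓN (h.trans hMN)), hgf ℓ hℓ hℓN]

/-! ### (A2) a squarefree level all of whose primes are bad divides `rad Δ` -/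

theorem dvd_conductorLevel {W : WeierstrassCurve ℤ} (hΔ : W.Δ ≠ 0) {M : ℕ}
    (hsq : ∀ q : ℕ, q.Prime → ¬ q ^ 2 ∣ M)
    (hbadM : ∀ q : ℕ, q.Prime → q ∣ M → (q : ℤ) ∣ W.Δ) : M ∣ W.conductorLevel := by
  have hsf : Squarefree M := by
    rw [Nat.squarefree_iff_prime_squarefree]
    intro q hq hqq
    exact hsq q hq (by rwa [pow_two])
  rw [← Nat.prod_primeFactors_of_squarefree hsf]
  refine Finset.prod_primes_dvd _ (fun q hq => (Nat.prime_of_mem_primeFactors hq).prime) ?_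
  intro q hq
  have hqp := Nat.prime_of_mem_primeFactors hq
  exact (W.prime_dvd_conductorLevel_iff hΔ hqp).mpr
    (hbadM q hqp (Nat.dvd_of_mem_primeFactors hq))

/-! ### (A3) stabilisation: the common eigenspace at the higher level -/

/-- The common eigenspace of the `T_ℓ`, `ℓ ∤ R`, with eigenvalues `a ℓ`. -/
def eigSpace (R : ℕ) (a : ℕ → ℂ) : Submodule ℂ (CuspForm (Gamma0 R) 2) where
  carrier := {h | ∀ (ℓ : ℕ) (hℓ : ℓ.Prime) (hℓR : ¬ ℓ ∣ R), CuspForm.heckeTLin 2 hℓ hℓR h = a ℓ • h}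
  add_mem' := by
    intro x y hx hy ℓ hℓ hℓR
    rw [map_add, hx ℓ hℓ hℓR, hy ℓ hℓ hℓR, smul_add]
  zero_mem' := by
    intro ℓ hℓ hℓR
    rw [map_zero, smul_zero]
  smul_mem' := by
    intro c x hx ℓ hℓ hℓR
    rw [map_smul, hx ℓ hℓ hℓR, smul_comm]

theorem mem_eigSpace {R : ℕ} {a : ℕ → ℂ} {h : CuspForm (Gamma0 R) 2} :
    h ∈ eigSpace R a ↔
      ∀ (ℓ : ℕ) (hℓ : ℓ.Prime) (hℓR : ¬ ℓ ∣ R), CuspForm.heckeTLin 2 hℓ hℓR h = a ℓ • h :=
  Iff.rfl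

theorem heckeTLin_mem_eigSpace {R : ℕ} {a : ℕ → ℂ} {ℓ' : ℕ} (hℓ' : ℓ'.Prime) (hℓ'R : ¬ ℓ' ∣ R)
    {h : CuspForm (Gamma0 R) 2} (hh : h ∈ eigSpace R a) :
    CuspForm.heckeTLin 2 hℓ' hℓ'R h ∈ eigSpace R a := by
  intro ℓ hℓ hℓR
  have hc := CuspForm.heckeTLin_comm 2 hℓ hℓR hℓ' hℓ'R
  have : CuspForm.heckeTLin 2 hℓ hℓR (CuspForm.heckeTLin 2 hℓ' hℓ'R h) =
      CuspForm.heckeTLin 2 hℓ' hℓ'R (CuspForm.heckeTLin 2 hℓ hℓR h) := by
    have := congrArg (fun T : Module.End ℂ (CuspForm (Gamma0 R) 2) => T h) hc.eq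
    simpa [Module.End.mul_apply] using this
  rw [this, hh ℓ hℓ hℓR, map_smul]

theorem heckeULin_mem_eigSpace {R : ℕ} [NeZero R] {a : ℕ → ℂ} {q : ℕ} (hqR : q ∣ R)
    {h : CuspForm (Gamma0 R) 2} (hh : h ∈ eigSpace R a) :
    CuspForm.heckeULin 2 hqR h ∈ eigSpace R a := by
  intro ℓ hℓ hℓR
  have hc := CuspForm.heckeTLin_heckeULin_comm 2 hℓ hℓR hqR
  have : CuspForm.heckeTLin 2 hℓ hℓR (CuspForm.heckeULin 2 hqR h) =
      CuspForm.heckeULin 2 hqR (CuspForm.heckeTLin 2 hℓ hℓR h) := by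
    have := congrArg (fun T : Module.End ℂ (CuspForm (Gamma0 R) 2) => T h) hc.eq
    simpa [Module.End.mul_apply] using this
  rw [this, hh ℓ hℓ hℓR, map_smul]

/-- The level inclusion commutes with `T_ℓ`, `ℓ ∤ R`. -/
theorem levelIncl_heckeTLin {M R : ℕ} (hMR : M ∣ R) {ℓ : ℕ} (hℓ : ℓ.Prime) (hℓR : ¬ ℓ ∣ R)
    (g : CuspForm (Gamma0 M) 2) :
    CuspForm.heckeTLin 2 hℓ hℓR (levelIncl hMR 2 g) =
      levelIncl hMR 2 (CuspForm.heckeTLin 2 hℓ (fun h => hℓR (h.trans hMR)) g) := by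
  apply DFunLike.coe_injective
  rw [CuspForm.coe_heckeTLin_apply, coe_levelIncl, coe_levelIncl, CuspForm.coe_heckeTLin_apply]

theorem levelIncl_mem_eigSpace {M R : ℕ} (hMR : M ∣ R) {g : CuspForm (Gamma0 M) 2}
    (hg : g.IsNormalizedEigenform) :
    levelIncl hMR 2 g ∈ eigSpace R (fun ℓ => qCoeff g ℓ) := by
  intro ℓ hℓ hℓR
  rw [levelIncl_heckeTLin hMR hℓ hℓR,
    Fermat.Agent.ES.J7.EigenVec1.heckeTLin_eq_smul hg hℓ (fun h => hℓR (h.trans hMR)), map_smul]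

/-- **Stabilisation.**  A normalised eigenform of level `M ∣ R` has a companion normalised
eigenform of level `R` with the same coefficients at all primes not dividing `R`. -/
theorem exists_eigenform_of_dvd {M R : ℕ} [NeZero R] (hMR : M ∣ R) {g : CuspForm (Gamma0 M) 2}
    (hg : g.IsNormalizedEigenform) :
    ∃ f' : CuspForm (Gamma0 R) 2, f'.IsNormalizedEigenform ∧
      ∀ ℓ : ℕ, ℓ.Prime → ¬ ℓ ∣ R → qCoeff f' ℓ = qCoeff g ℓ := by
  have hne : eigSpace R (fun ℓ => qCoeff g ℓ) ≠ ⊥ := by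
    intro hbot
    have hmem := levelIncl_mem_eigSpace hMR hg
    rw [hbot, Submodule.mem_bot] at hmem
    have h0 : g = 0 := levelIncl_injective hMR 2 (by rw [hmem, map_zero])
    exact hg.ne_zero h0
  obtain ⟨f', hf'V, hf'⟩ :=
    Fermat.Agent.ES.LR.EigenformOfCommon23.exists_normalizedEigenform_mem
      (eigSpace R (fun ℓ => qCoeff g ℓ)) hne
      (fun ℓ hℓ hℓR h hh => heckeTLin_mem_eigSpace hℓ hℓR hh)
      (fun ℓ _ hℓR h hh => heckeULin_mem_eigSpace hℓR hh)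
  refine ⟨f', hf', fun ℓ hℓ hℓR => ?_⟩
  exact Fermat.Agent.ES.LR.EigenformOfCommon23.qCoeff_eq_of_heckeTLin_eq_smul hf' hℓ hℓR
    (hf'V ℓ hℓ hℓR)

/-! ### (A4) TOP-A -/

/-- The three local facts about a newform `g` of level `M ∣ N` whose coefficients at the good
primes not dividing `N` are those of `W`. -/
structure LocalFacts (W : WeierstrassCurve ℤ) (N : ℕ) : Prop where
  /-- (i) a prime exactly dividing the level of the newform is bad for `W`. -/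
  bad_of_exact : ∀ (M : ℕ) (_ : M ∣ N) (g : CuspForm (Gamma0 M) 2), g.IsNewform →
    (∀ ℓ : ℕ, ℓ.Prime → W.IsGoodPrimeFor ℓ → ¬ ℓ ∣ N → qCoeff g ℓ = (W.apOfModel ℓ : ℂ)) →
    ∀ q : ℕ, q.Prime → q ∣ M → ¬ q ^ 2 ∣ M → (q : ℤ) ∣ W.Δ
  /-- (ii) the level of the newform is squarefree. -/
  not_sq : ∀ (M : ℕ) (_ : M ∣ N) (g : CuspForm (Gamma0 M) 2), g.IsNewform →
    (∀ ℓ : ℕ, ℓ.Prime → W.IsGoodPrimeFor ℓ → ¬ ℓ ∣ N → qCoeff g ℓ = (W.apOfModel ℓ : ℂ)) →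
    ∀ q : ℕ, q.Prime → ¬ q ^ 2 ∣ M
  /-- (iii) the coefficients at the good primes dividing `N` but not `M`. -/
  coeff_good : ∀ (M : ℕ) (_ : M ∣ N) (g : CuspForm (Gamma0 M) 2), g.IsNewform →
    (∀ ℓ : ℕ, ℓ.Prime → W.IsGoodPrimeFor ℓ → ¬ ℓ ∣ N → qCoeff g ℓ = (W.apOfModel ℓ : ℂ)) →
    ∀ r : ℕ, r.Prime → W.IsGoodPrimeFor r → r ∣ N → ¬ r ∣ M → qCoeff g r = (W.apOfModel r : ℂ)

/-- **TOP-A of S58.** -/
theorem s58_of_local (W : WeierstrassCurve ℤ) (N : ℕ)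
    (hN : W.IsModularModelOfLevel N) (hbad : ∀ ℓ : ℕ, ℓ.Prime → (ℓ : ℤ) ∣ W.Δ → ℓ ∣ N)
    (hN3 : ∀ q : ℕ, q.Prime → ¬ q ^ 3 ∣ N) (hloc : LocalFacts W N) :
    W.IsModularModelOfLevel W.conductorLevel := by
  have hN0 : N ≠ 0 := level_ne_zero hN3
  have hΔ : W.Δ ≠ 0 := disc_ne_zero hN0 hbad
  obtain ⟨f, hf, hfW⟩ := hN
  obtain ⟨M, hMN, g, hg, hgf⟩ := exists_newform_below hN0 hf
  have hgW : ∀ ℓ : ℕ, ℓ.Prime → W.IsGoodPrimeFor ℓ → ¬ ℓ ∣ N →
      qCoeff g ℓ = (W.apOfModel ℓ : ℂ) := fun ℓ hℓ hgood hℓN => by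
    rw [hgf ℓ hℓ hℓN, hfW ℓ hℓ hgood hℓN]
  have hsq := hloc.not_sq M hMN g hg hgW
  have hMR : M ∣ W.conductorLevel :=
    dvd_conductorLevel hΔ hsq
      (fun q hq hqM => hloc.bad_of_exact M hMN g hg hgW q hq hqM (hsq q hq))
  obtain ⟨f', hf', hf'g⟩ := exists_eigenform_of_dvd hMR hg.1
  refine ⟨f', hf', fun r hr hgood hrR => ?_⟩
  rw [hf'g r hr hrR]
  have hrM : ¬ r ∣ M := fun h => hrR (h.trans hMR)
  by_cases hrN : r ∣ N
  · exact hloc.coeff_good M hMN g hg hgW r hr hgood hrN hrM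
  · exact hgW r hr hgood hrN

end Fermat.Agent.ES.Q58.TopA12
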