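/-
Program Q (S58), TOP-B (helper12): the three local facts of `TopA12.LocalFacts` from the EC package
`ECIface12.ECFacts` and the representations attached to a newform by S35 and by the internal form
of S36 (`S36Chain12.s36_of_fixBarAll`, which needs no hypothesis on residual representations).

For a newform `g` of level `M ∣ N` whose coefficients at the good primes `ℓ ∤ N` are `a_ℓ(W)` and a
prime `λ`, `IotaRange12.exists_iota` provides `(O', iota)`, `S := M.primeFactors ∪ {λ}`, and the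
attached `ρ` has FROBENIUS DATA `a_ℓ(W)` outside `S ∪ primes(N) ∪ primes(Δ) ∪ T` (`frobData`).  The
three facts then follow from `RhoSide12` with the `W`-side information in the shapes of `ECIface12`.
-/
import Mathlib
import Fermat.Agent.S35
import Fermat.Agent.ES.P36.S36Chain12
import Fermat.Agent.ES.P36.OpenFin13
import Fermat.Agent.ES.J.S30Skeleton8
import Fermat.Agent.ES.Q58.ECIface12
import Fermat.Agent.ES.Q58.RhoSide12
import Fermat.Agent.ES.Q58.IotaRange12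
import Fermat.Agent.ES.Q58.TopA12

set_option autoImplicit false
set_option synthInstance.maxHeartbeats 400000

open Polynomial CuspForm CongruenceSubgroup ModularFormClass WeierstrassCurve IsLocalRing

noncomputable section

namespace Fermat.Agent.ES.Q58.TopB12

open Fermat.Agent.ES.Q58.ECIface12 Fermat.Agent.ES.Q58.RhoSide12 Fermat.Agent.ES.Q58.IotaRange12
  Fermat.Agent.ES.Q58.TopA12 Fermat.Agent.ES.J7.EigenChar1 Fermat.Agent.ES.ALG31.Lucas15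
  Fermat.Agent.ES.J.CycloChar8

local notation "Qb" => AlgebraicClosure ℚ
local notation "GQ" => (AlgebraicClosure ℚ ≃ₐ[ℚ] AlgebraicClosure ℚ)

/-! ### bookkeeping -/

/-- the primes excluded on the `ρ`-side. -/
def exclSet (W : WeierstrassCurve ℤ) (N M lam : ℕ) (T : Finset ℕ) : Finset ℕ :=
  (M.primeFactors ∪ {lam}) ∪ N.primeFactors ∪ W.Δ.natAbs.primeFactors ∪ T

theorem lam_mem_exclSet (W : WeierstrassCurve ℤ) (N M lam : ℕ) (T : Finset ℕ) :
    lam ∈ exclSet W N M lam T := by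
  simp [exclSet]

theorem not_mem_of_not_mem_exclSet {W : WeierstrassCurve ℤ} {N M lam : ℕ} {T : Finset ℕ} {ℓ : ℕ}
    (h : ℓ ∉ exclSet W N M lam T) :
    ℓ ∉ M.primeFactors ∪ {lam} ∧ ℓ ∉ N.primeFactors ∧ ℓ ∉ W.Δ.natAbs.primeFactors ∧ ℓ ∉ T := by
  simp only [exclSet, Finset.mem_union, not_or] at h
  exact ⟨fun hmem => (Finset.mem_union.mp hmem).elim h.1.1.1.1 h.1.1.1.2, h.1.1.2, h.1.2, h.2⟩

theorem good_of_not_mem {W : WeierstrassCurve ℤ} (hΔ : W.Δ ≠ 0) {ℓ : ℕ} (hℓ : ℓ.Prime)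
    (h : ℓ ∉ W.Δ.natAbs.primeFactors) : W.IsGoodPrimeFor ℓ := by
  intro hdvd
  apply h
  rw [Nat.mem_primeFactors]
  exact ⟨hℓ, Int.natCast_dvd.mp hdvd, Int.natAbs_ne_zero.mpr hΔ⟩

theorem not_dvd_of_not_mem {N : ℕ} (hN0 : N ≠ 0) {ℓ : ℕ} (hℓ : ℓ.Prime)
    (h : ℓ ∉ N.primeFactors) : ¬ ℓ ∣ N := fun hdvd =>
  h (Nat.mem_primeFactors.mpr ⟨hℓ, hdvd, hN0⟩)

variable {W : WeierstrassCurve ℤ} {N M : ℕ} [NeZero M]

/-- **Frobenius data** of a representation attached (in the S35/S36 sense) to `g`. -/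
theorem frobData {g : CuspForm (Gamma0 M) 2} (hg : g.IsNormalizedEigenform) (hMN : M ∣ N)
    (hN0 : N ≠ 0) (hΔ : W.Δ ≠ 0)
    (hgW : ∀ ℓ : ℕ, ℓ.Prime → W.IsGoodPrimeFor ℓ → ¬ ℓ ∣ N → qCoeff g ℓ = (W.apOfModel ℓ : ℂ))
    (lam : ℕ) (T : Finset ℕ)
    {O' : Type} [CommRing O'] (iota : (chiC hg (↑(M.primeFactors ∪ {lam}) : Set ℕ)).range →+* O')
    {O'' : Type} [CommRing O''] [IsLocalRing O''] [Algebra O' O''] (ρ : GaloisRepAdic O'')
    (hcp : ∀ (ℓ : ℕ) (hℓ : ℓ.Prime) (hℓM : ¬ ℓ ∣ M)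
      (hℓS : ℓ ∉ (↑(M.primeFactors ∪ {lam}) : Set ℕ)),
      ∀ A : ValuationSubring Qb, A.LiesOverPrime ℓ → ∀ σ : GQ, A.IsFrobeniusAt σ ℓ →
        LinearMap.charpoly (ρ.ρ σ) =
          X ^ 2 - C (algebraMap O' O'' ((iota.comp
            (chiC hg (↑(M.primeFactors ∪ {lam}) : Set ℕ)).rangeRestrict)
              (CuspForm.heckeAlgebra.T hℓ hℓM hℓS))) * X + C ((ℓ : O''))) :
    FrobData ρ (fun ℓ => W.apOfModel ℓ) (exclSet W N M lam T) := by
  intro ℓ hℓ hℓT A hA φ hφ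
  obtain ⟨h1, h2, h3, -⟩ := not_mem_of_not_mem_exclSet hℓT
  have hℓN : ¬ ℓ ∣ N := not_dvd_of_not_mem hN0 hℓ h2
  have hℓM : ¬ ℓ ∣ M := fun h => hℓN (h.trans hMN)
  have hℓS : ℓ ∉ (↑(M.primeFactors ∪ {lam}) : Set ℕ) := by exact_mod_cast h1
  rw [hcp ℓ hℓ hℓM hℓS A hA φ hφ]
  have hval : (chiC hg (↑(M.primeFactors ∪ {lam}) : Set ℕ)).rangeRestrict
      (CuspForm.heckeAlgebra.T hℓ hℓM hℓS) = ((W.apOfModel ℓ : ℤ) :
        (chiC hg (↑(M.primeFactors ∪ {lam}) : Set ℕ)).range) := by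
    apply Subtype.ext
    rw [RingHom.coe_rangeRestrict, chiC_T hg hℓ hℓM hℓS, hgW ℓ hℓ (good_of_not_mem hΔ hℓ h3) hℓN]
    simp
  rw [RingHom.comp_apply, hval, map_intCast, map_intCast]

/-- the bundle of instances and facts produced by S35 for `g`, `λ`. -/
theorem exists_rho35 {g : CuspForm (Gamma0 M) 2} (hg : g.IsNewform) (hMN : M ∣ N)
    (hN0 : N ≠ 0) (hΔ : W.Δ ≠ 0)
    (hgW : ∀ ℓ : ℕ, ℓ.Prime → W.IsGoodPrimeFor ℓ → ¬ ℓ ∣ N → qCoeff g ℓ = (W.apOfModel ℓ : ℂ))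
    (lam : ℕ) [hlam : Fact lam.Prime] (T : Finset ℕ) :
    ∃ (O'' : Type) (_ : CommRing O'') (_ : IsDomain O'') (_ : IsDiscreteValuationRing O'')
      (ρ : GaloisRepAdic O''),
      (∀ x : O'', (∀ n, x ∈ maximalIdeal O'' ^ n) → x = 0) ∧
      (lam : O'') ∈ maximalIdeal O'' ∧
      FrobData ρ (fun ℓ => W.apOfModel ℓ) (exclSet W N M lam T) ∧
      (∀ q : ℕ, q.Prime → q ≠ lam → q ∣ M → ¬ q ^ 2 ∣ M →
        ∀ A : ValuationSubring Qb, A.LiesOverPrime q → ∀ σ : GQ, A.IsFrobeniusAt σ q →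
          LinearMap.charpoly (ρ.ρ σ) = X ^ 2 - C ((q : O'') + 1) * X + C ((q : O'')) ∨
          LinearMap.charpoly (ρ.ρ σ) = X ^ 2 + C ((q : O'') + 1) * X + C ((q : O''))) ∧
      (∀ r : ℕ, r.Prime → ¬ r ∣ M → r ≠ lam →
        ∀ A : ValuationSubring Qb, A.LiesOverPrime r → ∀ σ : GQ, A.IsFrobeniusAt σ r →
          ∀ ar : ℤ, LinearMap.trace O'' ρ.V (ρ.ρ σ) = (ar : O'') → qCoeff g r = (ar : ℂ)) ∧
      Function.Injective (Int.cast : ℤ → O'') := by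
  classical
  set S : Finset ℕ := M.primeFactors ∪ {lam} with hS
  obtain ⟨O', i1, i2, i3, i4, i5, i6, iota, hlamO', hiota⟩ :=
    exists_iota hg.1 (↑S : Set ℕ) lam
  have hlamS : lam ∈ S := by simp [hS]
  have hMS : ∀ q : ℕ, q.Prime → q ∣ M → q ∈ S := fun q hq hqM => by
    rw [hS, Finset.mem_union]
    exact Or.inl (Nat.mem_primeFactors.mpr ⟨hq, hqM, NeZero.ne M⟩)
  obtain ⟨O'', j1, j2, j3, j4, j5, j6, j7, j8, j9, hinj, ρ, hcp, h2⟩ :=
    Fermat.Agent.S35.result hg lam S O' hlamO' (chiC hg.1 (↑S : Set ℕ))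
      (fun ℓ hℓ hℓM hℓS => chiC_T hg.1 hℓ hℓM hℓS) iota hlamS hMS
  have hlamO'' : (lam : O'') ∈ maximalIdeal O'' := by
    rw [mem_maximalIdeal, mem_nonunits_iff] at hlamO' ⊢
    intro h
    apply hlamO'
    exact isUnit_of_map_unit (algebraMap O' O'') _ (by rwa [map_natCast])
  refine ⟨O'', j1, j2, j3, ρ, Fermat.Agent.ES.J.S30Skeleton8.eq_zero_of_forall_mem_pow, hlamO'',
    frobData hg.1 hMN hN0 hΔ hgW lam T iota ρ hcp, h2, ?_, Int.cast_injective⟩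
  intro r hr hrM hrlam A hA σ hσ ar htr
  have hrS : r ∉ (↑S : Set ℕ) := by
    rw [hS]
    simp only [Finset.coe_union, Finset.coe_singleton, Set.union_singleton, Set.mem_insert_iff,
      Finset.mem_coe, Nat.mem_primeFactors, not_or, not_and]
    exact ⟨hrlam, fun _ h => absurd h hrM⟩
  have h3 := (trace_det_of_charpoly ρ.finrank_eq _ (hcp r hr hrM hrS A hA σ hσ)).1
  rw [htr] at h3
  -- transfer back to `ℂ`
  have h4 : algebraMap O' O'' ((ar : ℤ) : O') = (ar : O'') := map_intCast _ _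
  rw [← h4] at h3
  have h5 := hinj h3
  rw [RingHom.comp_apply, ← map_intCast iota] at h5
  have h6 := hiota h5
  have h7 := congrArg (fun x : (chiC hg.1 (↑S : Set ℕ)).range => (x : ℂ)) h6
  simp only [RingHom.coe_rangeRestrict, chiC_T hg.1 hr hrM hrS] at h7
  rw [← h7]
  simp

/-- the bundle of instances and facts produced by the internal S36 for `g`, `λ`. -/
theorem exists_rho36 {g : CuspForm (Gamma0 M) 2} (hg : g.IsNewform) (hMN : M ∣ N)
    (hN0 : N ≠ 0) (hΔ : W.Δ ≠ 0)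
    (hgW : ∀ ℓ : ℕ, ℓ.Prime → W.IsGoodPrimeFor ℓ → ¬ ℓ ∣ N → qCoeff g ℓ = (W.apOfModel ℓ : ℂ))
    (lam : ℕ) [hlam : Fact lam.Prime] (T : Finset ℕ) :
    ∃ (O'' : Type) (_ : CommRing O'') (_ : IsDomain O'') (_ : IsDiscreteValuationRing O'')
      (ρ : GaloisRepAdic O''),
      (∀ x : O'', (∀ n, x ∈ maximalIdeal O'' ^ n) → x = 0) ∧
      (lam : O'') ∈ maximalIdeal O'' ∧
      FrobData ρ (fun ℓ => W.apOfModel ℓ) (exclSet W N M lam T) ∧
      (∀ q : ℕ, q.Prime → q ≠ lam → M.factorization q = 2 → ¬ ρ.IsUnipotentOnInertiaAt q) := by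
  classical
  set S : Finset ℕ := M.primeFactors ∪ {lam} with hS
  obtain ⟨O', i1, i2, i3, i4, i5, i6, iota, hlamO', hiota⟩ :=
    exists_iota hg.1 (↑S : Set ℕ) lam
  have hlamS : lam ∈ S := by simp [hS]
  have hMS : ∀ q : ℕ, q.Prime → q ∣ M → q ∈ S := fun q hq hqM => by
    rw [hS, Finset.mem_union]
    exact Or.inl (Nat.mem_primeFactors.mpr ⟨hq, hqM, NeZero.ne M⟩)
  obtain ⟨O'', j1, j2, j3, j4, j5, j6, j7, j8, j9, hinj, ρ, hcp, h2⟩ :=
    Fermat.Agent.ES.P36.S36Chain12.s36_of_fixBarAll Fermat.Agent.ES.P36.ItemsOf13.cP_c0_ne_zero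
      Fermat.Agent.ES.P36.OpenFin13.fixBarAll_c0 hg lam S O' hlamO' (chiC hg.1 (↑S : Set ℕ))
      (fun ℓ hℓ hℓM hℓS => chiC_T hg.1 hℓ hℓM hℓS) iota hlamS hMS
  have hlamO'' : (lam : O'') ∈ maximalIdeal O'' := by
    rw [mem_maximalIdeal, mem_nonunits_iff] at hlamO' ⊢
    intro h
    apply hlamO'
    exact isUnit_of_map_unit (algebraMap O' O'') _ (by rwa [map_natCast])
  exact ⟨O'', j1, j2, j3, ρ, Fermat.Agent.ES.J.S30Skeleton8.eq_zero_of_forall_mem_pow, hlamO'',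
    frobData hg.1 hMN hN0 hΔ hgW lam T iota ρ hcp, h2⟩

end Fermat.Agent.ES.Q58.TopB12
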