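/-
Program Q (S58), TOP-B (helper12): `ECFacts W ⇒ LocalFacts W N`, and S58 from `ECFacts W`.

* (i)  `q ∥ M`, `q` good: S35 gives `charpoly ρ(σ_q) = X² ∓ (q+1)X + q`, so `tr ρ(σ_q) = ±(q+1)`;
  `TraceCong` at `r = q` + `RhoSide12.trace_eq_of_traceCong` give `tr ρ(σ_q) = a_q(W)`; hence
  `a_q(W) = ±(q+1)` in `ℤ`, against the trivial bound `CardBound20.apOfModel_ne`.
* (ii) `q² ∣ M`: `v_q(M) = 2` by `hN3`; the internal S36 gives `ρ` not unipotent on inertia at `q`;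
  `InertiaCong` + `RhoSide12.charpoly_eq_of_inertiaCong` give `charpoly ρ(τ) = (X−1)²`.
* (iii) `r ∣ N` good, `r ∤ M`: `TraceCong` + `RhoSide12.trace_eq_of_traceCong` give
  `tr ρ(σ_r) = a_r(W)`, and S35 gives `tr ρ(σ_r) = a_r(g)`.
-/
import Mathlib
import Fermat.Agent.ES.Q58.TopB12
import Fermat.Agent.ES.Q58.CardBound20
import Fermat.Agent.Lib.FrobeniusExists
import Fermat.Agent.ES.FROB.FrobFacts12

set_option autoImplicit false
set_option synthInstance.maxHeartbeats 400000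

open Polynomial CuspForm CongruenceSubgroup ModularFormClass WeierstrassCurve IsLocalRing

noncomputable section

namespace Fermat.Agent.ES.Q58.LocalOfEC12

open Fermat.Agent.ES.Q58.ECIface12 Fermat.Agent.ES.Q58.RhoSide12 Fermat.Agent.ES.Q58.TopA12
  Fermat.Agent.ES.Q58.TopB12 Fermat.Agent.ES.J.CycloChar8

local notation "Qb" => AlgebraicClosure ℚ
local notation "GQ" => (AlgebraicClosure ℚ ≃ₐ[ℚ] AlgebraicClosure ℚ)

/-- a prime larger than a bound and outside a finite set. -/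
theorem exists_prime_gt_not_mem (T : Finset ℕ) (b : ℕ) :
    ∃ lam : ℕ, lam.Prime ∧ lam ∉ T ∧ b < lam := by
  obtain ⟨lam, hge, hlam⟩ := Nat.exists_infinite_primes (max (T.sup id) b + 1)
  refine ⟨lam, hlam, fun hmem => ?_, by omega⟩
  have : lam ≤ T.sup id := Finset.le_sup (f := id) hmem
  omega

/-- a Frobenius element at every prime. -/
theorem exists_frob (q : ℕ) (hq : q.Prime) :
    ∃ (P : ValuationSubring Qb) (σ : GQ), P.LiesOverPrime q ∧ P.IsFrobeniusAt σ q := by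
  obtain ⟨P, hP⟩ := Fermat.Agent.Lib.FrobeniusExists.exists_valuationSubring_liesOverPrime q hq
  obtain ⟨σ, hσ⟩ := Fermat.Agent.ES.FROB.FrobFacts12.exists_isFrobeniusAt_of q hq P hP
  exact ⟨P, σ, hP, hσ⟩

variable {W : WeierstrassCurve ℤ} {N : ℕ}

/-- **TOP-B.** -/
theorem localFacts_of_ec (hN0 : N ≠ 0) (hΔ : W.Δ ≠ 0) (hN3 : ∀ q : ℕ, q.Prime → ¬ q ^ 3 ∣ N)
    (hEC : ECFacts W) : LocalFacts W N := by
  refine ⟨?_, ?_, ?_⟩
  · -- (i)
    intro M hMN g hg hgW q hq hqM hq2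
    by_contra hgood
    have : NeZero M := ⟨fun h0 => hN0 (by rw [h0] at hMN; exact zero_dvd_iff.mp hMN)⟩
    obtain ⟨lam, hlam, hlamT, T, hTn⟩ := hEC.trace q hq hgood {q}
    have hqlam : q ≠ lam := fun h => hlamT (by rw [h]; simp)
    have : Fact lam.Prime := ⟨hlam⟩
    obtain ⟨O'', _, _, _, ρ, hO, hlamO, hF, h35, -, hinj⟩ :=
      exists_rho35 hg hMN hN0 hΔ hgW lam T
    obtain ⟨P, σ, hP, hσ⟩ := exists_frob q hq
    -- `tr ρ(σ) = a_q(W)`
    have htr : LinearMap.trace O'' ρ.V (ρ.ρ σ) = ((W.apOfModel q : ℤ) : O'') := by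
      refine trace_eq_of_traceCong hO hlamO hF σ (W.apOfModel q) fun n => ?_
      obtain ⟨K, hKfin, hK⟩ := hTn n
      refine ⟨K, hKfin, fun ℓ A φ hℓ hℓT hA hφ i j hj hi => ?_⟩
      obtain ⟨-, -, h3, h4⟩ := not_mem_of_not_mem_exclSet hℓT
      exact hK P σ hP hσ ℓ A φ hℓ h4 (good_of_not_mem hΔ hℓ h3) hA hφ i j hj hi
    -- `tr ρ(σ) = ±(q + 1)`
    obtain ⟨hne1, hne2⟩ := Fermat.Agent.ES.Q58.CardBound20.apOfModel_ne W hq
    rcases h35 q hq hqlam hqM hq2 P hP σ hσ with hcp | hcp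
    · have h1 := (Fermat.Agent.ES.ALG31.Lucas15.trace_det_of_charpoly ρ.finrank_eq _ hcp).1
      rw [htr] at h1
      apply hne1
      apply hinj
      rw [h1]
      push_cast
      ring
    · have hcp' : LinearMap.charpoly (ρ.ρ σ) =
          X ^ 2 - C (-((q : O'') + 1)) * X + C ((q : O'')) := by
        rw [hcp, map_neg]; ring
      have h1 := (Fermat.Agent.ES.ALG31.Lucas15.trace_det_of_charpoly ρ.finrank_eq _ hcp').1
      rw [htr] at h1
      apply hne2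
      apply hinj
      rw [h1]
      push_cast
      ring
  · -- (ii)
    intro M hMN g hg hgW q hq hq2
    have hM0 : M ≠ 0 := fun h0 => hN0 (by rw [h0] at hMN; exact zero_dvd_iff.mp hMN)
    have : NeZero M := ⟨hM0⟩
    have hfact : M.factorization q = 2 := by
      have h2 : 2 ≤ M.factorization q := (hq.pow_dvd_iff_le_factorization hM0).mp hq2
      have h3 : ¬ 3 ≤ M.factorization q := fun h =>
        hN3 q hq (((hq.pow_dvd_iff_le_factorization hM0).mpr h).trans hMN)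
      omega
    obtain ⟨T1, hT1⟩ := hEC.inertia q hq
    obtain ⟨lam, hlam, hlamT, hlt⟩ := exists_prime_gt_not_mem T1 q
    have hqlam : q ≠ lam := by omega
    have : Fact lam.Prime := ⟨hlam⟩
    obtain ⟨T, hTn⟩ := hT1 lam hlam hlamT
    obtain ⟨O'', _, _, _, ρ, hO, hlamO, hF, h36⟩ := exists_rho36 hg hMN hN0 hΔ hgW lam T
    apply h36 q hq hqlam hfact
    intro P hP τ hτ
    refine charpoly_eq_of_inertiaCong hO hlamO (lam_mem_exclSet W N M lam T) hF τ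
      (cyclo_of_mem_inertia lam hq hqlam P hP hτ) fun n => ?_
    obtain ⟨K, hKfin, hK⟩ := hTn n
    refine ⟨K, hKfin, fun ℓ A φ hℓ hℓT hA hφ i hi => ?_⟩
    obtain ⟨-, -, h3, h4⟩ := not_mem_of_not_mem_exclSet hℓT
    exact hK P hP τ hτ ℓ A φ hℓ h4 (good_of_not_mem hΔ hℓ h3) hA hφ i hi
  · -- (iii)
    intro M hMN g hg hgW r hr hgood hrN hrM
    have : NeZero M := ⟨fun h0 => hN0 (by rw [h0] at hMN; exact zero_dvd_iff.mp hMN)⟩
    obtain ⟨lam, hlam, hlamT, T, hTn⟩ := hEC.trace r hr hgood {r}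
    have hrlam : r ≠ lam := fun h => hlamT (by rw [h]; simp)
    have : Fact lam.Prime := ⟨hlam⟩
    obtain ⟨O'', _, _, _, ρ, hO, hlamO, hF, -, h5, -⟩ := exists_rho35 hg hMN hN0 hΔ hgW lam T
    obtain ⟨P, σ, hP, hσ⟩ := exists_frob r hr
    refine h5 r hr hrM hrlam P hP σ hσ (W.apOfModel r) ?_
    refine trace_eq_of_traceCong hO hlamO hF σ (W.apOfModel r) fun n => ?_
    obtain ⟨K, hKfin, hK⟩ := hTn n
    refine ⟨K, hKfin, fun ℓ A φ hℓ hℓT hA hφ i j hj hi => ?_⟩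
    obtain ⟨-, -, h3, h4⟩ := not_mem_of_not_mem_exclSet hℓT
    exact hK P σ hP hσ ℓ A φ hℓ h4 (good_of_not_mem hΔ hℓ h3) hA hφ i j hj hi

/-- **S58 from the EC package.** -/
theorem s58_of_ecFacts (W : WeierstrassCurve ℤ) (N : ℕ) (hN : W.IsModularModelOfLevel N)
    (hbad : ∀ ℓ : ℕ, ℓ.Prime → (ℓ : ℤ) ∣ W.Δ → ℓ ∣ N)
    (hN3 : ∀ q : ℕ, q.Prime → ¬ q ^ 3 ∣ N) (hEC : ECFacts W) :
    W.IsModularModelOfLevel W.conductorLevel :=
  s58_of_local W N hN hbad hN3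
    (localFacts_of_ec (level_ne_zero hN3) (disc_ne_zero (level_ne_zero hN3) hbad) hN3 hEC)

end Fermat.Agent.ES.Q58.LocalOfEC12
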