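import Mathlib

/-!
# Ring-hom version of `WeierstrassCurve.Affine.Point.map`, and the Frobenius on points

`mapHom f h : W.Point →+ W'.Point` for a field hom `f : F →+* F'` with `W.map f = W'`
(Mathlib's `Point.map` needs an algebra hom over the ring of definition; Frobenius is not linear
over a general base field).
-/

set_option autoImplicit false

namespace Fermat.Agent.ES.Q58.MapHom2

open WeierstrassCurve WeierstrassCurve.Affine WeierstrassCurve.Affine.Point

variable {F F' F'' : Type*} [Field F] [Field F'] [Field F''] [DecidableEq F] [DecidableEq F']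
  [DecidableEq F'']

/-- auxiliary: the map to `W.map f` -/
noncomputable def mapAux (f : F →+* F') (W : Affine F) : W.Point →+ (W.map f).toAffine.Point where
  toFun P := match P with
    | 0 => 0
    | .some x y h => .some (f x) (f y) ((W.map_nonsingular f.injective x y).mpr h)
  map_zero' := rfl
  map_add' := by
    rintro (_ | ⟨x₁, y₁, h₁⟩) (_ | ⟨x₂, y₂, h₂⟩)
    any_goals rfl
    by_cases hxy : x₁ = x₂ ∧ y₁ = W.negY x₂ y₂
    · rw [add_of_Y_eq hxy.left hxy.right]
      exact (add_of_Y_eq (congr_arg f hxy.left) (by rw [hxy.right, map_negY])).symm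
    · have hxy' : ¬(f x₁ = f x₂ ∧ f y₁ = (W.map f).toAffine.negY (f x₂) (f y₂)) := by
        rintro ⟨h1, h2⟩
        rw [map_negY] at h2
        exact hxy ⟨f.injective h1, f.injective h2⟩
      rw [add_some hxy]
      refine Eq.trans ?_ (add_some hxy').symm
      simp only [← map_addX, ← map_addY, ← map_slope]

/-- the group homomorphism on points induced by a field homomorphism `f` with `W.map f = W'`. -/
noncomputable def mapHom (f : F →+* F') {W : Affine F} {W' : Affine F'} (h : W.map f = W') :
    W.Point →+ W'.Point := by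
  subst h
  exact mapAux f W

theorem mapHom_zero (f : F →+* F') {W : Affine F} {W' : Affine F'} (h : W.map f = W') :
    mapHom f h (0 : W.Point) = 0 := map_zero _

theorem mapHom_some (f : F →+* F') {W : Affine F} {W' : Affine F'} (h : W.map f = W')
    {x y : F} (hxy : W.Nonsingular x y) :
    ∃ h' : W'.Nonsingular (f x) (f y), mapHom f h (.some x y hxy) = .some (f x) (f y) h' := by
  subst h
  exact ⟨_, rfl⟩

theorem mapHom_xRep (f : F →+* F') {W : Affine F} {W' : Affine F'} (h : W.map f = W')
    (P : W.Point) (i : Fin 2) : (mapHom f h P).xRep i = f (P.xRep i) := by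
  rcases P with _ | ⟨x, y, hxy⟩
  · rw [← zero_def, mapHom_zero, xRep_zero]
    fin_cases i <;> simp
  · obtain ⟨h', e⟩ := mapHom_some f h hxy
    rw [e, xRep_some, xRep_some]
    fin_cases i <;> simp

theorem mapHom_injective (f : F →+* F') {W : Affine F} {W' : Affine F'} (h : W.map f = W') :
    Function.Injective (mapHom f h) := by
  rintro (_ | ⟨x₁, y₁, h₁⟩) (_ | ⟨x₂, y₂, h₂⟩) e
  · rfl
  · exfalso
    obtain ⟨h', e'⟩ := mapHom_some f h h₂
    rw [← zero_def, mapHom_zero, e'] at e
    exact (some_ne_zero _) e.symm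
  · exfalso
    obtain ⟨h', e'⟩ := mapHom_some f h h₁
    rw [← zero_def, mapHom_zero, e'] at e
    exact (some_ne_zero _) e
  · obtain ⟨h₁', e₁⟩ := mapHom_some f h h₁
    obtain ⟨h₂', e₂⟩ := mapHom_some f h h₂
    rw [e₁, e₂] at e
    have := some.inj e
    have hx : x₁ = x₂ := f.injective this.1
    have hy : y₁ = y₂ := f.injective this.2
    subst hx hy
    rfl

/-- composition -/
theorem mapHom_comp (f : F →+* F') (g : F' →+* F'') {W : Affine F} {W' : Affine F'}
    {W'' : Affine F''} (h : W.map f = W') (h' : W'.map g = W'')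
    (h'' : W.map (g.comp f) = W'') (P : W.Point) :
    mapHom g h' (mapHom f h P) = mapHom (g.comp f) h'' P := by
  rcases P with _ | ⟨x, y, hxy⟩
  · rw [← zero_def, mapHom_zero, mapHom_zero, mapHom_zero]
  · obtain ⟨h1, e1⟩ := mapHom_some f h hxy
    obtain ⟨h2, e2⟩ := mapHom_some g h' h1
    obtain ⟨h3, e3⟩ := mapHom_some (g.comp f) h'' hxy
    rw [e1, e2, e3]
    rfl

/-- two `mapHom`s with the same underlying ring hom agree -/
theorem mapHom_congr {f g : F →+* F'} (hfg : ∀ z, f z = g z) {W : Affine F} {W' : Affine F'}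
    (h : W.map f = W') (h' : W.map g = W') (P : W.Point) : mapHom f h P = mapHom g h' P := by
  have : f = g := RingHom.ext hfg
  subst this
  rfl

end Fermat.Agent.ES.Q58.MapHom2
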