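import Mathlib

/-!
# Integer-valued functions satisfying the parallelogram law, and the Frobenius relation algebra

(E8) of the S58 EC-ES core.
-/

set_option autoImplicit false

namespace Fermat.Agent.ES.Q58.QuadForm2

section General

variable {M : Type*} [AddCommGroup M] (q : M → ℤ)

/-- the parallelogram law -/
def PL : Prop := ∀ a b : M, q (a + b) + q (a - b) = 2 * q a + 2 * q b

/-- the associated pairing -/
def B (a b : M) : ℤ := q (a + b) - q a - q b

variable {q}

theorem PL.zero (h : PL q) : q 0 = 0 := by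
  have := h 0 0
  simp only [add_zero, sub_zero] at this
  linarith

theorem PL.neg (h : PL q) (a : M) : q (-a) = q a := by
  have := h 0 a
  simp only [zero_add, zero_sub] at this
  have h0 := h.zero
  linarith

theorem PL.cube (h : PL q) (a b c : M) :
    q (a + b + c) = q (a + b) + q (a + c) + q (b + c) - q a - q b - q c := by
  have h1 := h (a + b) c
  have h2 := h a (b - c)
  have h3 := h (a + c) b
  have h4 := h b c
  have e1 : a + (b - c) = a + b - c := by abel
  have e2 : a - (b - c) = a + c - b := by abel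
  have e3 : a + c + b = a + b + c := by abel
  rw [e1, e2] at h2
  rw [e3] at h3
  linarith

theorem B_comm (a b : M) : B q a b = B q b a := by
  simp only [B, add_comm a b]; ring

theorem PL.B_add_left (h : PL q) (a a' b : M) : B q (a + a') b = B q a b + B q a' b := by
  simp only [B]
  have := h.cube a a' b
  linarith

theorem PL.B_add_right (h : PL q) (a b b' : M) : B q a (b + b') = B q a b + B q a b' := by
  rw [B_comm, h.B_add_left, B_comm b a, B_comm b' a]

/-- `B · b` as an additive hom -/
def PL.Bhom (h : PL q) (b : M) : M →+ ℤ where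
  toFun a := B q a b
  map_zero' := by
    have := h.B_add_left 0 0 b
    simp only [add_zero] at this
    linarith
  map_add' a a' := h.B_add_left a a' b

theorem PL.B_zsmul_left (h : PL q) (n : ℤ) (a b : M) : B q (n • a) b = n * B q a b := by
  have := map_zsmul (h.Bhom b) n a
  simpa [PL.Bhom] using this

theorem PL.B_zsmul_right (h : PL q) (n : ℤ) (a b : M) : B q a (n • b) = n * B q a b := by
  rw [B_comm, h.B_zsmul_left, B_comm]

theorem PL.B_self (h : PL q) (a : M) : B q a a = 2 * q a := by
  have := h a a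
  simp only [sub_self, h.zero] at this
  simp only [B]
  linarith

theorem PL.add (_h : PL q) (a b : M) : q (a + b) = q a + q b + B q a b := by
  simp only [B]; ring

theorem PL.zsmul (h : PL q) (n : ℤ) (a : M) : q (n • a) = n ^ 2 * q a := by
  have h1 : B q (n • a) (n • a) = 2 * q (n • a) := h.B_self _
  rw [h.B_zsmul_left, h.B_zsmul_right, h.B_self] at h1
  linarith

/-- expansion for three terms with integer coefficients -/
theorem PL.expand3 (h : PL q) (u v w : M) (β γ : ℤ) :
    q (u + β • v + γ • w) = q u + β ^ 2 * q v + γ ^ 2 * q w + β * B q u v + γ * B q u w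
      + β * γ * B q v w := by
  rw [h.add, h.add, h.zsmul, h.zsmul, h.B_add_left, h.B_zsmul_right, h.B_zsmul_right,
    h.B_zsmul_left, h.B_zsmul_right]
  ring

/-- nonnegativity gives Cauchy–Schwarz; here only: `q ≥ 0`, `q a = 0` ⇒ `B a b = 0`. -/
theorem PL.B_eq_zero_of_q_eq_zero (h : PL q) (hpos : ∀ a, 0 ≤ q a) {a : M} (ha : q a = 0) (b : M) :
    B q a b = 0 := by
  -- 0 ≤ q (n • a + b) = n * B a b + q b for all n
  have key : ∀ n : ℤ, 0 ≤ n * B q a b + q b := by
    intro n
    have := hpos (n • a + b)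
    rw [h.add, h.zsmul, ha, h.B_zsmul_left] at this
    linarith
  by_contra hne
  rcases lt_or_gt_of_ne hne with hlt | hgt
  · have := key (q b + 1)
    have hb := hpos b
    nlinarith
  · have := key (-(q b + 1))
    have hb := hpos b
    nlinarith

end General

section Frobenius

open Polynomial

/-- **(E8)** the Frobenius relation algebra on `ℤ[T]`. -/
theorem frob_algebra (D : ℤ[X] → ℤ) (hPL : PL D) (ℓ : ℤ) (h1 : D 1 = 1)
    (hT : ∀ g : ℤ[X], D (X * g) = ℓ * D g)
    (hM : D ((1 + X) * (1 - X)) = D (1 + X) * D (1 - X)) :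
    D (X ^ 2 - C (1 + ℓ - D (1 - X)) * X + C ℓ) = 0 := by
  set a : ℤ := 1 + ℓ - D (1 - X) with ha
  -- u = X², v = X, w = 1
  have dv : D X = ℓ := by
    have := hT 1
    rwa [mul_one, h1, mul_one] at this
  have du : D (X ^ 2) = ℓ ^ 2 := by
    have := hT X
    rw [dv] at this
    rw [pow_two, this]; ring
  -- B(v, w) = a
  have e1 : (1 : ℤ[X]) - X = 1 + (-1 : ℤ) • X := by simp [sub_eq_add_neg]
  have bvw : B D X 1 = a := by
    have : D (1 - X) = D 1 + D X - B D 1 X := by
      rw [e1, hPL.add, hPL.zsmul, hPL.B_zsmul_right]; ring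
    rw [B_comm]
    rw [ha, this, h1, dv]; ring
  have d1p : D (1 + X) = 1 + ℓ + a := by
    rw [hPL.add, h1, dv, B_comm, bvw]
  have d1m : D (1 - X) = 1 + ℓ - a := by rw [ha]; ring
  -- B(u, v) = ℓ a
  have buv : B D (X ^ 2) X = ℓ * a := by
    have : D (X ^ 2 + X) = ℓ * D (1 + X) := by
      have := hT (1 + X)
      rw [← this]; congr 1; ring
    simp only [B]
    rw [this, d1p, du, dv]; ring
  -- B(u, w) = a² − 2ℓ
  have buw : B D (X ^ 2) 1 = a ^ 2 - 2 * ℓ := by
    have e2 : ((1 : ℤ[X]) + X) * (1 - X) = 1 + (-1 : ℤ) • X ^ 2 := by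
      simp [sub_eq_add_neg]; ring
    have : D ((1 + X) * (1 - X)) = D 1 + D (X ^ 2) - B D 1 (X ^ 2) := by
      rw [e2, hPL.add, hPL.zsmul, hPL.B_zsmul_right]; ring
    rw [hM, d1p, d1m, h1, du, B_comm] at this
    linarith
  have e3 : (X : ℤ[X]) ^ 2 - C a * X + C ℓ = X ^ 2 + (-a) • X + ℓ • (1 : ℤ[X]) := by
    simp [sub_eq_add_neg, Polynomial.smul_eq_C_mul]
  rw [e3, hPL.expand3, du, dv, h1, buv, buw, bvw]
  ring

end Frobenius

end Fermat.Agent.ES.Q58.QuadForm2
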