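import Fermat.Agent.ES.Q58.PLGlue2
import Fermat.Agent.ES.Q58.QuadForm2
import Fermat.Agent.ES.Q58.MapHom2

/-!
# The degree function on a subgroup of points with rational x-coordinates

Abstract version of (E2)/(E6): `c : k[X] →+* K'` injective, `W' = W.map (c.comp C)`,
`H ≤ W'(K')` a subgroup all of whose points have `c(k(x))`-rational x-coordinate.
`deg R := ht U V` is a well-defined function `H → ℤ` satisfying the exact parallelogram law.
-/

set_option autoImplicit false

namespace Fermat.Agent.ES.Q58.OddDeg2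

open Polynomial WeierstrassCurve WeierstrassCurve.Affine WeierstrassCurve.Affine.Point
open Fermat.Agent.ES.Q58.PLPoly2 Fermat.Agent.ES.Q58.PLGlue2 Fermat.Agent.ES.Q58.QuadForm2
open Fermat.Agent.ES.Q58.MapHom2

variable {k : Type*} [Field k] {K' : Type*} [Field K']

/-- a point has rational x-coordinate -/
def IsRat (c : k[X] →+* K') {W' : Affine K'} (R : W'.Point) : Prop := ∃ U V : k[X], XRat c R U V

/-- the degree of the x-coordinate (junk value `0` if not rational) -/
noncomputable def deg (c : k[X] →+* K') {W' : Affine K'} (R : W'.Point) : ℤ := by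
  classical
  exact if h : IsRat c R then (ht h.choose h.choose_spec.choose : ℤ) else 0

variable {c : k[X] →+* K'} (hc : Function.Injective c)

include hc in
theorem deg_eq {W' : Affine K'} {R : W'.Point} {U V : k[X]} (h : XRat c R U V) :
    deg c R = ht U V := by
  classical
  have hR : IsRat c R := ⟨U, V, h⟩
  simp only [deg, dif_pos hR]
  exact_mod_cast XRat.ht_unique hc hR.choose_spec.choose_spec h

theorem deg_nonneg {W' : Affine K'} (R : W'.Point) : 0 ≤ deg c R := by
  classical
  simp only [deg]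
  split_ifs
  · exact Int.natCast_nonneg _
  · exact le_rfl

theorem xRat_zero {W' : Affine K'} : XRat c (0 : W'.Point) 1 0 := by
  refine ⟨isCoprime_one_left, ?_⟩
  rw [xRep_zero]; simp

include hc in
theorem deg_zero {W' : Affine K'} : deg c (0 : W'.Point) = 0 := by
  rw [deg_eq hc xRat_zero]; simp [ht]

theorem XRat.neg {W' : Affine K'} {R : W'.Point} {U V : k[X]} (h : XRat c R U V) :
    XRat c (-R) U V := by
  refine ⟨h.1, ?_⟩
  rw [xRep_neg]; exact h.2

include hc in
/-- **(E6)** the exact parallelogram law on a subgroup of rational points. -/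
theorem deg_PL [DecidableEq K'] (W : WeierstrassCurve k) (hΔ : W.Δ ≠ 0) {W' : Affine K'}
    (hW' : W.map (c.comp C) = W') (H : AddSubgroup W'.Point) (hH : ∀ R ∈ H, IsRat c R) :
    PL (fun R : H => deg c (R : W'.Point)) := by
  intro R S
  obtain ⟨U₁, V₁, h₁⟩ := hH R R.2
  obtain ⟨U₂, V₂, h₂⟩ := hH S S.2
  obtain ⟨U₃, V₃, h₃⟩ := hH (R + S : H) (R + S).2
  obtain ⟨U₄, V₄, h₄⟩ := hH (R - S : H) (R - S).2
  have h₃' : XRat c ((R : W'.Point) + (S : W'.Point)) U₃ V₃ := by
    simpa only [AddSubgroup.coe_add] using h₃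
  have h₄' : XRat c ((R : W'.Point) - (S : W'.Point)) U₄ V₄ := by
    simpa only [AddSubgroup.coe_sub] using h₄
  have key := parallelogram_points hc W hΔ hW' h₁ h₂ h₃' h₄'
  show deg c ((R + S : H) : W'.Point) + deg c ((R - S : H) : W'.Point)
    = 2 * deg c (R : W'.Point) + 2 * deg c (S : W'.Point)
  rw [AddSubgroup.coe_add, AddSubgroup.coe_sub]
  rw [deg_eq hc h₁, deg_eq hc h₂, deg_eq hc h₃', deg_eq hc h₄']
  exact_mod_cast key

/-- **Frobenius scaling.** If `f : K' →+* K'` satisfies `f (c P) = c (P ^ n)` for all `P`, then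
`deg` is multiplied by `n` under the induced map on points. -/
theorem XRat.map_pow [DecidableEq K'] {W' W'' : Affine K'} (f : K' →+* K') (hf : W'.map f = W'') (n : ℕ)
    (hfc : ∀ P : k[X], f (c P) = c (P ^ n)) {R : W'.Point} {U V : k[X]} (h : XRat c R U V) :
    XRat c (mapHom f hf R) (U ^ n) (V ^ n) := by
  refine ⟨h.1.pow, ?_⟩
  rw [mapHom_xRep, mapHom_xRep, ← hfc, ← hfc, ← map_mul, ← map_mul, h.2]

theorem ht_pow (U V : k[X]) (n : ℕ) : ht (U ^ n) (V ^ n) = n * ht U V := by
  simp only [ht, natDegree_pow]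
  rcases le_total U.natDegree V.natDegree with h | h
  · rw [max_eq_right h, max_eq_right (Nat.mul_le_mul_left n h)]
  · rw [max_eq_left h, max_eq_left (Nat.mul_le_mul_left n h)]

include hc in
theorem deg_map_pow [DecidableEq K'] {W' W'' : Affine K'} (f : K' →+* K') (hf : W'.map f = W'') (n : ℕ)
    (hfc : ∀ P : k[X], f (c P) = c (P ^ n)) {R : W'.Point} (hR : IsRat c R) :
    deg c (mapHom f hf R) = n * deg c R := by
  obtain ⟨U, V, h⟩ := hR
  rw [deg_eq hc h, deg_eq hc (XRat.map_pow f hf n hfc h), ht_pow]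
  push_cast; ring

end Fermat.Agent.ES.Q58.OddDeg2
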