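import Fermat.Agent.ES.Q58.PLForms2

/-!
# The add–sub relation on x-coordinates of a Weierstrass curve (all cases)
-/

set_option autoImplicit false

namespace Fermat.Agent.ES.Q58.PLCurve2

open WeierstrassCurve WeierstrassCurve.Affine WeierstrassCurve.Affine.Point
open Fermat.Agent.ES.Q58.PLForms2

variable {F : Type*} [Field F] [DecidableEq F] {W : Affine F}

/-- the duplication relation, generic case -/
theorem dbl_some_of_Y_ne {x y : F} (h : W.Nonsingular x y) (hy : y ≠ W.negY x y) :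
    ∃ c : F, c ≠ 0 ∧ fh W x 1 = c ∧
      gh W x 1 = c * W.addX x x (W.slope x x y y) := by
  have heq := (equation_iff _ _).mp h.1
  have hψ : y - W.negY x y ≠ 0 := sub_ne_zero.mpr hy
  have hψ' : 2 * y + W.a₁ * x + W.a₃ ≠ 0 := by
    intro h0; apply hψ; simp only [negY]; linear_combination h0
  refine ⟨(2 * y + W.a₁ * x + W.a₃) ^ 2, pow_ne_zero _ hψ', ?_, ?_⟩
  · simp only [fh, b₂, b₄, b₆]
    linear_combination (-4 : F) * heq
  · rw [slope_of_Y_ne rfl hy]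
    have e : y - W.negY x y = 2 * y + W.a₁ * x + W.a₃ := by simp only [negY]; ring
    rw [e]
    have hℓ : (3 * x ^ 2 + 2 * W.a₂ * x + W.a₄ - W.a₁ * y) / (2 * y + W.a₁ * x + W.a₃)
        * (2 * y + W.a₁ * x + W.a₃) = 3 * x ^ 2 + 2 * W.a₂ * x + W.a₄ - W.a₁ * y :=
      div_mul_cancel₀ _ hψ'
    generalize (3 * x ^ 2 + 2 * W.a₂ * x + W.a₄ - W.a₁ * y) / (2 * y + W.a₁ * x + W.a₃) = ℓ
      at hℓ ⊢
    simp only [gh, addX, b₄, b₆, b₈]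
    linear_combination (8 * x + W.a₁ ^ 2 + 4 * W.a₂) * heq
      - ((3 * x ^ 2 + 2 * W.a₂ * x + W.a₄ - W.a₁ * y) + (2 * y + W.a₁ * x + W.a₃) * ℓ
          + W.a₁ * (2 * y + W.a₁ * x + W.a₃)) * hℓ

omit [DecidableEq F] in
/-- the duplication relation at a 2-torsion point -/
theorem dbl_some_of_Y_eq {x y : F} (h : W.Nonsingular x y) (hy : y = W.negY x y) :
    fh W x 1 = 0 ∧ gh W x 1 ≠ 0 := by
  have heq := (equation_iff _ _).mp h.1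
  have hψ : 2 * y + W.a₁ * x + W.a₃ = 0 := by
    simp only [negY] at hy; linear_combination hy
  have hns := ((nonsingular_iff' _ _).mp h).2
  have hM : W.a₁ * y - (3 * x ^ 2 + 2 * W.a₂ * x + W.a₄) ≠ 0 := by
    rcases hns with h1 | h1
    · exact h1
    · exact absurd hψ h1
  refine ⟨?_, ?_⟩
  · simp only [fh, b₂, b₄, b₆]
    linear_combination (-4 : F) * heq + (2 * y + W.a₁ * x + W.a₃) * hψ
  · have : gh W x 1 = (W.a₁ * y - (3 * x ^ 2 + 2 * W.a₂ * x + W.a₄)) ^ 2 := by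
      simp only [gh, b₄, b₆, b₈]
      linear_combination (8 * x + W.a₁ ^ 2 + 4 * W.a₂) * heq
        + (W.a₁ * (3 * x ^ 2 + 2 * W.a₂ * x + W.a₄ - W.a₁ * y)
            - (W.a₂ + 2 * x) * (2 * y + W.a₁ * x + W.a₃)) * hψ
    rw [this]
    exact pow_ne_zero _ hM

/-- **Duplication relation** on `xRep`. -/
theorem dbl_rel (P : W.Point) :
    ∃ c : F, c ≠ 0 ∧ fh W (P.xRep 0) (P.xRep 1) = c * (P + P).xRep 1 ∧
      gh W (P.xRep 0) (P.xRep 1) = c * (P + P).xRep 0 := by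
  rcases P with _ | ⟨x, y, h⟩
  · refine ⟨1, one_ne_zero, ?_, ?_⟩
    · simp [← zero_def, fh]
    · simp [← zero_def, gh]
  · by_cases hy : y = W.negY x y
    · obtain ⟨h1, h2⟩ := dbl_some_of_Y_eq h hy
      refine ⟨gh W x 1, h2, ?_, ?_⟩
      · rw [add_self_of_Y_eq hy]; simp [h1]
      · rw [add_self_of_Y_eq hy]; simp
    · obtain ⟨c, hc, h1, h2⟩ := dbl_some_of_Y_ne h hy
      refine ⟨c, hc, ?_, ?_⟩
      · rw [add_self_of_Y_ne hy]; simp [h1]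
      · rw [add_self_of_Y_ne hy]; simp [h2]

/-- the generic case of the add–sub relation -/
theorem addsub_of_X_ne {x₁ y₁ x₂ y₂ : F} (h₁ : W.Nonsingular x₁ y₁) (h₂ : W.Nonsingular x₂ y₂)
    (hx : x₁ ≠ x₂) :
    G1 W x₁ 1 x₂ 1 = (x₁ - x₂) ^ 2 * (W.addX x₁ x₂ (W.slope x₁ x₂ y₁ y₂)
        + W.addX x₁ x₂ (W.slope x₁ x₂ y₁ (W.negY x₂ y₂))) ∧
    G2 W x₁ 1 x₂ 1 = (x₁ - x₂) ^ 2 * (W.addX x₁ x₂ (W.slope x₁ x₂ y₁ y₂)
        * W.addX x₁ x₂ (W.slope x₁ x₂ y₁ (W.negY x₂ y₂))) := by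
  have e₁ := (equation_iff _ _).mp h₁.1
  have e₂ := (equation_iff _ _).mp h₂.1
  have hd : x₁ - x₂ ≠ 0 := sub_ne_zero.mpr hx
  rw [slope_of_X_ne hx, slope_of_X_ne hx]
  simp only [G1, G2, addX, negY, b₂, b₄, b₆, b₈]
  constructor
  · field_simp
    linear_combination (-2 : F) * e₁ - 2 * e₂
  · field_simp
    linear_combination
      (-(-x₁^3 + 2*x₁^2*x₂ - x₁^2*W.a₂ + 2*x₁*x₂^2 + x₁*x₂*W.a₁^2 + 4*x₁*x₂*W.a₂
        + x₁*y₁*W.a₁ + x₁*W.a₁*W.a₃ + x₁*W.a₄ - 2*x₂^3 - x₂^2*W.a₁^2 - 2*x₂^2*W.a₂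
        - 2*x₂*y₂*W.a₁ - x₂*W.a₁*W.a₃ + y₁^2 + y₁*W.a₃ - 2*y₂^2 - 2*y₂*W.a₃ + W.a₆)) * e₁
      - (-4*x₁^3 + 2*x₁^2*x₂ - x₁^2*W.a₁^2 - 4*x₁^2*W.a₂ + 2*x₁*x₂^2 + x₁*x₂*W.a₁^2
        + 4*x₁*x₂*W.a₂ - x₁*W.a₁*W.a₃ - 2*x₁*W.a₄ - x₂^3 - x₂^2*W.a₂ + x₂*y₂*W.a₁
        + x₂*W.a₁*W.a₃ + x₂*W.a₄ + y₂^2 + y₂*W.a₃ - W.a₆) * e₂


/-- **The add–sub relation** on `xRep`, all cases. -/
theorem addsub_rel (P Q : W.Point) :
    ∃ c : F, c ≠ 0 ∧
      G0 (P.xRep 0) (P.xRep 1) (Q.xRep 0) (Q.xRep 1) = c * ((P + Q).xRep 1 * (P - Q).xRep 1) ∧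
      G1 W (P.xRep 0) (P.xRep 1) (Q.xRep 0) (Q.xRep 1)
        = c * ((P + Q).xRep 0 * (P - Q).xRep 1 + (P - Q).xRep 0 * (P + Q).xRep 1) ∧
      G2 W (P.xRep 0) (P.xRep 1) (Q.xRep 0) (Q.xRep 1)
        = c * ((P + Q).xRep 0 * (P - Q).xRep 0) := by
  rcases P with _ | ⟨x₁, y₁, h₁⟩
  · -- P = 0
    refine ⟨1, one_ne_zero, ?_, ?_, ?_⟩
    all_goals
      rw [← zero_def, zero_add, zero_sub, xRep_neg, xRep_zero]
      simp only [G0, G1, G2, Matrix.cons_val_zero, Matrix.cons_val_one]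
      ring
  rcases Q with _ | ⟨x₂, y₂, h₂⟩
  · -- Q = 0
    refine ⟨1, one_ne_zero, ?_, ?_, ?_⟩
    all_goals
      rw [← zero_def, add_zero, sub_zero, xRep_zero]
      simp only [G0, G1, G2, Matrix.cons_val_zero, Matrix.cons_val_one]
      ring
  by_cases hx : x₁ = x₂
  · subst hx
    -- same x-coordinate: Q = P or Q = -P
    have hQ : some x₁ y₂ h₂ = some x₁ y₁ h₁ ∨ some x₁ y₂ h₂ = -some x₁ y₁ h₁ := by
      rcases Y_eq_of_X_eq h₂.1 h₁.1 rfl with h | h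
      · left; subst h; rfl
      · right; rw [neg_some]; subst h; rfl
    obtain ⟨c, hc, hf, hg⟩ := dbl_rel (some x₁ y₁ h₁)
    have hx2 : (some x₁ y₂ h₂).xRep = (some x₁ y₁ h₁).xRep := by
      rw [xRep_some, xRep_some]
    rw [hx2]
    rw [G1_diag, G2_diag, hf, hg]
    have h0 : G0 ((some x₁ y₁ h₁).xRep 0) ((some x₁ y₁ h₁).xRep 1) ((some x₁ y₁ h₁).xRep 0)
        ((some x₁ y₁ h₁).xRep 1) = 0 := by simp [G0]
    rw [h0]
    refine ⟨c, hc, ?_, ?_, ?_⟩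
    · rcases hQ with h | h
      · rw [h, sub_self, xRep_zero]; simp
      · rw [h, add_neg_cancel, xRep_zero]; simp
    · rcases hQ with h | h
      · rw [h, sub_self, xRep_zero]; simp
      · rw [h, add_neg_cancel, sub_neg_eq_add, xRep_zero]; simp
    · rcases hQ with h | h
      · rw [h, sub_self, xRep_zero]; simp
      · rw [h, add_neg_cancel, sub_neg_eq_add, xRep_zero]; simp
  · -- generic case
    obtain ⟨e1, e2⟩ := addsub_of_X_ne h₁ h₂ hx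
    have hd : (x₁ - x₂) ^ 2 ≠ 0 := pow_ne_zero _ (sub_ne_zero.mpr hx)
    have hsub : some x₁ y₁ h₁ - some x₂ y₂ h₂
        = some x₁ y₁ h₁ + some x₂ (W.negY x₂ y₂) ((nonsingular_neg _ _).mpr h₂) := by
      rw [sub_eq_add_neg, neg_some]
    refine ⟨(x₁ - x₂) ^ 2, hd, ?_, ?_, ?_⟩
    all_goals
      rw [hsub, add_of_X_ne hx, add_of_X_ne hx]
      simp only [xRep_some, Matrix.cons_val_zero, Matrix.cons_val_one]
    · simp only [G0]; ring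
    · rw [e1]; ring
    · rw [e2]

end Fermat.Agent.ES.Q58.PLCurve2
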