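import Mathlib

/-!
# Biquadratic forms of the Kummer line of a Weierstrass curve (characteristic free)

`G0, G1, G2` are the bihomogeneous forms of bidegree `(2,2)` with
`(1 : x₃ + x₄ : x₃ x₄) = (G0 : G1 : G2)(x₁, x₂)` for `x₃, x₄ = x(P ± Q)`.
Pointwise lemma: over a field with `Δ ≠ 0` they have no common zero on `ℙ¹ × ℙ¹`.
-/

set_option autoImplicit false

namespace Fermat.Agent.ES.Q58.PLForms2

variable {R : Type*} [CommRing R]

def G0 (u₁ v₁ u₂ v₂ : R) : R := (u₁ * v₂ - u₂ * v₁) ^ 2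

def G1 (W : WeierstrassCurve R) (u₁ v₁ u₂ v₂ : R) : R :=
  2 * u₁ * u₂ * (u₁ * v₂ + u₂ * v₁) + W.b₂ * u₁ * u₂ * v₁ * v₂
    + W.b₄ * v₁ * v₂ * (u₁ * v₂ + u₂ * v₁) + W.b₆ * v₁ ^ 2 * v₂ ^ 2

def G2 (W : WeierstrassCurve R) (u₁ v₁ u₂ v₂ : R) : R :=
  u₁ ^ 2 * u₂ ^ 2 - W.b₄ * u₁ * u₂ * v₁ * v₂ - W.b₆ * v₁ * v₂ * (u₁ * v₂ + u₂ * v₁)
    - W.b₈ * v₁ ^ 2 * v₂ ^ 2

/-- homogeneous duplication forms -/
def fh (W : WeierstrassCurve R) (u v : R) : R :=
  4 * u ^ 3 * v + W.b₂ * u ^ 2 * v ^ 2 + 2 * W.b₄ * u * v ^ 3 + W.b₆ * v ^ 4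

def gh (W : WeierstrassCurve R) (u v : R) : R :=
  u ^ 4 - W.b₄ * u ^ 2 * v ^ 2 - 2 * W.b₆ * u * v ^ 3 - W.b₈ * v ^ 4

theorem G1_diag (W : WeierstrassCurve R) (u v : R) : G1 W u v u v = fh W u v := by
  simp only [G1, fh]; ring

theorem G2_diag (W : WeierstrassCurve R) (u v : R) : G2 W u v u v = gh W u v := by
  simp only [G2, gh]; ring

theorem G1_smul (W : WeierstrassCurve R) (c u₁ v₁ u₂ v₂ : R) :
    G1 W u₁ v₁ (c * u₂) (c * v₂) = c ^ 2 * G1 W u₁ v₁ u₂ v₂ := by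
  simp only [G1]; ring

theorem G2_smul (W : WeierstrassCurve R) (c u₁ v₁ u₂ v₂ : R) :
    G2 W u₁ v₁ (c * u₂) (c * v₂) = c ^ 2 * G2 W u₁ v₁ u₂ v₂ := by
  simp only [G2]; ring

/-- The integral Bezout identity between the duplication forms. -/
theorem bezout (W : WeierstrassCurve R) (u v : R) :
    (12 * u ^ 3 - W.b₂ * u ^ 2 * v - 10 * W.b₄ * u * v ^ 2 + (W.b₂ * W.b₄ - 27 * W.b₆) * v ^ 3)
        * fh W u v
      - v * (48 * u ^ 2 + 8 * W.b₂ * u * v + (32 * W.b₄ - W.b₂ ^ 2) * v ^ 2) * gh W u v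
      = W.Δ * v ^ 7 := by
  simp only [fh, gh, WeierstrassCurve.Δ, WeierstrassCurve.b₂, WeierstrassCurve.b₄,
    WeierstrassCurve.b₆, WeierstrassCurve.b₈]
  ring

section Field

variable {κ : Type*} [Field κ]

/-- the duplication forms have no common zero on `ℙ¹` when `Δ ≠ 0`. -/
theorem dup_no_common_zero (W : WeierstrassCurve κ) (hΔ : W.Δ ≠ 0) {u v : κ}
    (huv : u ≠ 0 ∨ v ≠ 0) (hf : fh W u v = 0) (hg : gh W u v = 0) : False := by
  by_cases hv : v = 0
  · subst hv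
    have hu : u ≠ 0 := by simpa using huv
    simp only [gh] at hg
    have : u ^ 4 = 0 := by linear_combination hg
    exact hu (pow_eq_zero_iff (by norm_num) |>.mp this)
  · have h := bezout W u v
    rw [hf, hg] at h
    have : W.Δ * v ^ 7 = 0 := by rw [← h]; ring
    rcases mul_eq_zero.mp this with h1 | h1
    · exact hΔ h1
    · exact hv (pow_eq_zero_iff (by norm_num) |>.mp h1)

/-- **Pointwise lemma.** -/
theorem no_common_zero (W : WeierstrassCurve κ) (hΔ : W.Δ ≠ 0) {u₁ v₁ u₂ v₂ : κ}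
    (h₁ : u₁ ≠ 0 ∨ v₁ ≠ 0) (h₂ : u₂ ≠ 0 ∨ v₂ ≠ 0)
    (h0 : G0 u₁ v₁ u₂ v₂ = 0) (h1 : G1 W u₁ v₁ u₂ v₂ = 0) (h2 : G2 W u₁ v₁ u₂ v₂ = 0) :
    False := by
  have hdet : u₁ * v₂ - u₂ * v₁ = 0 := by
    simpa [G0] using h0
  -- (u₂, v₂) = c • (u₁, v₁)
  obtain ⟨c, hc, hu, hv⟩ : ∃ c : κ, c ≠ 0 ∧ u₂ = c * u₁ ∧ v₂ = c * v₁ := by
    rcases h₁ with hu₁ | hv₁
    · refine ⟨u₂ / u₁, ?_, by field_simp, ?_⟩
      · intro h
        have hu₂ : u₂ = 0 := by
          rcases div_eq_zero_iff.mp h with h | h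
          · exact h
          · exact absurd h hu₁
        have hv₂ : v₂ ≠ 0 := by
          rcases h₂ with h | h
          · exact absurd hu₂ h
          · exact h
        rw [hu₂] at hdet
        have : u₁ * v₂ = 0 := by linear_combination hdet
        rcases mul_eq_zero.mp this with h | h
        · exact hu₁ h
        · exact hv₂ h
      · field_simp
        linear_combination hdet
    · refine ⟨v₂ / v₁, ?_, ?_, by field_simp⟩
      · intro h
        have hv₂ : v₂ = 0 := by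
          rcases div_eq_zero_iff.mp h with h | h
          · exact h
          · exact absurd h hv₁
        have hu₂ : u₂ ≠ 0 := by
          rcases h₂ with h | h
          · exact h
          · exact absurd hv₂ h
        rw [hv₂] at hdet
        have : u₂ * v₁ = 0 := by linear_combination -hdet
        rcases mul_eq_zero.mp this with h | h
        · exact hu₂ h
        · exact hv₁ h
      · field_simp
        linear_combination -hdet
  subst hu hv
  rw [G1_smul, G1_diag] at h1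
  rw [G2_smul, G2_diag] at h2
  have hc2 : c ^ 2 ≠ 0 := pow_ne_zero _ hc
  exact dup_no_common_zero W hΔ h₁ ((mul_eq_zero.mp h1).resolve_left hc2)
    ((mul_eq_zero.mp h2).resolve_left hc2)

end Field

end Fermat.Agent.ES.Q58.PLForms2
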