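import Fermat.Agent.ES.Q58.PLPoly2
import Fermat.Agent.ES.Q58.PLCurve2

/-!
# The exact parallelogram law for points with `k(x)`-rational x-coordinate

`c : k[X] →+* K'` an injective ring hom into a field, `W : Affine k` with `Δ ≠ 0`,
`W' = W.map (c.comp C)`.  `XRat c R U V` : the x-coordinate of `R ∈ W'(K')` is `c U / c V`
(projectively), `U, V` coprime.  Then `ht` is well defined and satisfies the exact
parallelogram law.
-/

set_option autoImplicit false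

namespace Fermat.Agent.ES.Q58.PLGlue2

open Polynomial WeierstrassCurve WeierstrassCurve.Affine WeierstrassCurve.Affine.Point
open Fermat.Agent.ES.Q58.PLForms2 Fermat.Agent.ES.Q58.PLPoly2 Fermat.Agent.ES.Q58.PLCurve2

variable {k : Type*} [Field k] {K' : Type*} [Field K']

/-- cross-multiplied form of the parallelogram law -/
theorem parallelogram_cross (W : WeierstrassCurve k) (hΔ : W.Δ ≠ 0)
    {U₁ V₁ U₂ V₂ U₃ V₃ U₄ V₄ : k[X]}
    (h₁ : IsCoprime U₁ V₁) (h₂ : IsCoprime U₂ V₂) (h₃ : IsCoprime U₃ V₃) (h₄ : IsCoprime U₄ V₄)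
    (h01 : G0 U₁ V₁ U₂ V₂ * (U₃ * V₄ + U₄ * V₃) = G1 (Wt W) U₁ V₁ U₂ V₂ * (V₃ * V₄))
    (h02 : G0 U₁ V₁ U₂ V₂ * (U₃ * U₄) = G2 (Wt W) U₁ V₁ U₂ V₂ * (V₃ * V₄))
    (h12 : G1 (Wt W) U₁ V₁ U₂ V₂ * (U₃ * U₄) = G2 (Wt W) U₁ V₁ U₂ V₂ * (U₃ * V₄ + U₄ * V₃)) :
    ht U₃ V₃ + ht U₄ V₄ = 2 * ht U₁ V₁ + 2 * ht U₂ V₂ := by
  by_cases g0 : G0 U₁ V₁ U₂ V₂ = 0
  · by_cases g1 : G1 (Wt W) U₁ V₁ U₂ V₂ = 0
    · by_cases g2 : G2 (Wt W) U₁ V₁ U₂ V₂ = 0
      · exfalso
        exact prim3_forms W hΔ h₁ h₂ X prime_X (g0 ▸ dvd_zero _) (g1 ▸ dvd_zero _)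
          (g2 ▸ dvd_zero _)
      · refine parallelogram W hΔ h₁ h₂ h₃ h₄ (e := G2 (Wt W) U₁ V₁ U₂ V₂) (e' := U₃ * U₄) g2 ?_ ?_ ?_
        · rw [← h02]; ring
        · rw [← h12]; ring
        · ring
    · refine parallelogram W hΔ h₁ h₂ h₃ h₄ (e := G1 (Wt W) U₁ V₁ U₂ V₂)
        (e' := U₃ * V₄ + U₄ * V₃) g1 ?_ ?_ ?_
      · rw [← h01]; ring
      · ring
      · rw [h12]; ring
  · refine parallelogram W hΔ h₁ h₂ h₃ h₄ (e := G0 U₁ V₁ U₂ V₂) (e' := V₃ * V₄) g0 ?_ ?_ ?_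
    · ring
    · rw [h01]; ring
    · rw [h02]; ring

/-- proportional nonzero vectors of a field -/
theorem exists_smul_of_cross {u v a b : K'} (huv : u ≠ 0 ∨ v ≠ 0) (hab : a ≠ 0 ∨ b ≠ 0)
    (h : u * b = v * a) : ∃ t : K', t ≠ 0 ∧ u = t * a ∧ v = t * b := by
  rcases hab with ha | hb
  · have hu : u ≠ 0 := by
      intro hu
      rcases huv with h' | h'
      · exact h' hu
      · rw [hu, zero_mul] at h
        rcases mul_eq_zero.mp h.symm with h'' | h''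
        · exact h' h''
        · exact ha h''
    refine ⟨u / a, div_ne_zero hu ha, by field_simp, ?_⟩
    field_simp
    linear_combination -h
  · have hv : v ≠ 0 := by
      intro hv
      rcases huv with h' | h'
      · rw [hv, zero_mul] at h
        rcases mul_eq_zero.mp h with h'' | h''
        · exact h' h''
        · exact hb h''
      · exact h' hv
    refine ⟨v / b, div_ne_zero hv hb, ?_, by field_simp⟩
    field_simp
    linear_combination h

section XRat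

variable (c : k[X] →+* K')

/-- the x-coordinate of `R` is `c U / c V` projectively, with `U, V` coprime -/
def XRat {W' : Affine K'} (R : W'.Point) (U V : k[X]) : Prop :=
  IsCoprime U V ∧ R.xRep 0 * c V = R.xRep 1 * c U

variable {c}

theorem XRat.exists_smul (hc : Function.Injective c) {W' : Affine K'} {R : W'.Point}
    {U V : k[X]} (h : XRat c R U V) :
    ∃ t : K', t ≠ 0 ∧ R.xRep 0 = t * c U ∧ R.xRep 1 = t * c V := by
  have hR : R.xRep 0 ≠ 0 ∨ R.xRep 1 ≠ 0 := by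
    rcases R with _ | ⟨x, y, hxy⟩
    · left; rw [← zero_def, xRep_zero]; simp
    · right; rw [xRep_some]; simp
  have hUV : c U ≠ 0 ∨ c V ≠ 0 := by
    rcases ne_zero_of_isCoprime h.1 with h' | h'
    · left; exact fun h0 => h' (hc (by rw [h0, _root_.map_zero]))
    · right; exact fun h0 => h' (hc (by rw [h0, _root_.map_zero]))
  exact exists_smul_of_cross hR hUV h.2

/-- the height does not depend on the representative -/
theorem XRat.ht_unique (hc : Function.Injective c) {W' : Affine K'} {R : W'.Point}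
    {U V U' V' : k[X]} (h : XRat c R U V) (h' : XRat c R U' V') : ht U V = ht U' V' := by
  obtain ⟨t, ht0, e0, e1⟩ := h.exists_smul hc
  obtain ⟨t', ht0', e0', e1'⟩ := h'.exists_smul hc
  -- U V' = U' V
  have hcross : U * V' = U' * V := by
    apply hc
    rw [map_mul, map_mul]
    have h1 : t * c U = t' * c U' := e0.symm.trans e0'
    have h2 : t * c V = t' * c V' := e1.symm.trans e1'
    have : (t * t') * (c U * c V') = (t * t') * (c U' * c V) := by
      calc (t * t') * (c U * c V') = (t * c U) * (t' * c V') := by ring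
        _ = (t' * c U') * (t * c V) := by rw [h1, h2]
        _ = (t * t') * (c U' * c V) := by ring
    exact mul_left_cancel₀ (mul_ne_zero ht0 ht0') this
  -- U ∣ U', U' ∣ U, hence associated
  have hUU' : U ∣ U' := by
    have : U ∣ U' * V := ⟨V', hcross.symm⟩
    exact h.1.dvd_of_dvd_mul_right this
  have hU'U : U' ∣ U := by
    have : U' ∣ U * V' := ⟨V, hcross⟩
    exact h'.1.dvd_of_dvd_mul_right this
  have hVV' : V ∣ V' := by
    have : V ∣ U * V' := ⟨U', by rw [hcross]; ring⟩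
    exact h.1.symm.dvd_of_dvd_mul_left this
  have hV'V : V' ∣ V := by
    have : V' ∣ U' * V := ⟨U, by rw [← hcross]; ring⟩
    exact h'.1.symm.dvd_of_dvd_mul_left this
  have eU : U.natDegree = U'.natDegree := by
    by_cases hU : U = 0
    · have : U' = 0 := by rw [hU] at hUU'; exact zero_dvd_iff.mp hUU'
      rw [hU, this]
    · have hU' : U' ≠ 0 := fun h0 => hU (by rw [h0] at hU'U; exact zero_dvd_iff.mp hU'U)
      exact le_antisymm (natDegree_le_of_dvd hUU' hU') (natDegree_le_of_dvd hU'U hU)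
  have eV : V.natDegree = V'.natDegree := by
    by_cases hV : V = 0
    · have : V' = 0 := by rw [hV] at hVV'; exact zero_dvd_iff.mp hVV'
      rw [hV, this]
    · have hV' : V' ≠ 0 := fun h0 => hV (by rw [h0] at hV'V; exact zero_dvd_iff.mp hV'V)
      exact le_antisymm (natDegree_le_of_dvd hVV' hV') (natDegree_le_of_dvd hV'V hV)
  simp only [ht, eU, eV]

/-- **Exact parallelogram law** for points with rational x-coordinates. -/
theorem parallelogram_points [DecidableEq K'] (hc : Function.Injective c) (W : WeierstrassCurve k)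
    (hΔ : W.Δ ≠ 0) {W' : Affine K'} (hW' : W.map (c.comp C) = W') {P Q : W'.Point}
    {U₁ V₁ U₂ V₂ U₃ V₃ U₄ V₄ : k[X]}
    (h₁ : XRat c P U₁ V₁) (h₂ : XRat c Q U₂ V₂) (h₃ : XRat c (P + Q) U₃ V₃)
    (h₄ : XRat c (P - Q) U₄ V₄) :
    ht U₃ V₃ + ht U₄ V₄ = 2 * ht U₁ V₁ + 2 * ht U₂ V₂ := by
  subst hW'
  obtain ⟨t₁, ht₁, a₁, b₁⟩ := h₁.exists_smul hc
  obtain ⟨t₂, ht₂, a₂, b₂⟩ := h₂.exists_smul hc
  obtain ⟨t₃, ht₃, a₃, b₃⟩ := h₃.exists_smul hc
  obtain ⟨t₄, ht₄, a₄, b₄⟩ := h₄.exists_smul hc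
  obtain ⟨c₀, hc₀, r0, r1, r2⟩ := addsub_rel P Q
  rw [a₁, b₁, a₂, b₂] at r0 r1 r2
  rw [b₃, b₄] at r0
  rw [a₃, b₃, a₄, b₄] at r1
  rw [a₃, a₄] at r2
  -- the forms over `k[X]`
  set g0 := G0 U₁ V₁ U₂ V₂ with hg0
  set g1 := G1 (Wt W) U₁ V₁ U₂ V₂ with hg1
  set g2 := G2 (Wt W) U₁ V₁ U₂ V₂ with hg2
  have m0 : c g0 = G0 (c U₁) (c V₁) (c U₂) (c V₂) := map_G0 c _ _ _ _
  have m1 : c g1 = G1 (W.map (c.comp C)) (c U₁) (c V₁) (c U₂) (c V₂) := map_G1 c (Wt W) _ _ _ _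
  have m2 : c g2 = G2 (W.map (c.comp C)) (c U₁) (c V₁) (c U₂) (c V₂) := map_G2 c (Wt W) _ _ _ _
  set μ := t₁ ^ 2 * t₂ ^ 2 with hμ
  set ν := c₀ * t₃ * t₄ with hν
  have hμ0 : μ ≠ 0 := mul_ne_zero (pow_ne_zero _ ht₁) (pow_ne_zero _ ht₂)
  have hν0 : ν ≠ 0 := mul_ne_zero (mul_ne_zero hc₀ ht₃) ht₄
  have s0 : μ * c g0 = ν * c (V₃ * V₄) := by
    rw [m0, map_mul]
    have : G0 (t₁ * c U₁) (t₁ * c V₁) (t₂ * c U₂) (t₂ * c V₂)
        = μ * G0 (c U₁) (c V₁) (c U₂) (c V₂) := by simp only [G0, hμ]; ring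
    rw [← this, r0, hν]; ring
  have s1 : μ * c g1 = ν * c (U₃ * V₄ + U₄ * V₃) := by
    rw [m1, map_add, map_mul, map_mul]
    have : G1 (W.map (c.comp C)) (t₁ * c U₁) (t₁ * c V₁) (t₂ * c U₂) (t₂ * c V₂)
        = μ * G1 (W.map (c.comp C)) (c U₁) (c V₁) (c U₂) (c V₂) := by simp only [G1, hμ]; ring
    rw [← this, r1, hν]; ring
  have s2 : μ * c g2 = ν * c (U₃ * U₄) := by
    rw [m2, map_mul]
    have : G2 (W.map (c.comp C)) (t₁ * c U₁) (t₁ * c V₁) (t₂ * c U₂) (t₂ * c V₂)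
        = μ * G2 (W.map (c.comp C)) (c U₁) (c V₁) (c U₂) (c V₂) := by simp only [G2, hμ]; ring
    rw [← this, r2, hν]; ring
  have cross : ∀ A B A' B' : k[X], μ * c A = ν * c A' → μ * c B = ν * c B' →
      A * B' = B * A' := by
    intro A B A' B' hA hB
    apply hc
    rw [map_mul, map_mul]
    have : (μ * ν) * (c A * c B') = (μ * ν) * (c B * c A') := by
      calc (μ * ν) * (c A * c B') = (μ * c A) * (ν * c B') := by ring
        _ = (ν * c A') * (μ * c B) := by rw [hA, hB]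
        _ = (μ * ν) * (c B * c A') := by ring
    exact mul_left_cancel₀ (mul_ne_zero hμ0 hν0) this
  exact parallelogram_cross W hΔ h₁.1 h₂.1 h₃.1 h₄.1 (cross _ _ _ _ s0 s1) (cross _ _ _ _ s0 s2)
    (cross _ _ _ _ s1 s2)

end XRat

end Fermat.Agent.ES.Q58.PLGlue2
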