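/-
Blue-sky programme S58, comparison step (helper20): **an auxiliary prime at which a given quadratic relation has
no root** (Mathlib only; no Dirichlet, no Hasse).

* `exists_coprime_jacobiSym_eq_neg_one` : for a non-square integer `D` and `K ≠ 0` there is `b > 0` coprime to
  `2 K D` with Jacobi symbol `J(D | b) = -1` (CRT + quadratic reciprocity);
* `exists_prime_jacobiSym_eq_neg_one` : hence an odd prime `l ∤ K D` with `J(D | l) = -1`;
* `not_isSquare_sq_sub_four_mul` : `a² − 4 r` is not a perfect square for a prime `r` unless `a = ±(r + 1)`;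
* `exists_prime_no_root` : for a prime `r` and `a ≠ ±(r + 1)` there is an odd prime `l ∤ K` such that
  `X² − a X + r` has no root in `ZMod l`; consequently a `2 × 2` matrix over `ℤ / lⁿ` killed by `X² − a X + r`
  is not a scalar modulo `l`.
-/
import Mathlib

set_option autoImplicit false

namespace Fermat.Agent.ES.Q58.QuadNonRes20

open scoped NumberTheorySymbols

open ZMod

/-- `J(c | b) = 1` for an odd `c` dividing `T` when `b ≡ 1 mod 4` and `b ≡ 1 mod T`. -/
theorem jacobiSym_eq_one_of_odd {b T c : ℕ} (hb4 : b % 4 = 1) (hbT : b % T = 1 % T) (hc : c ∣ T)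
    (hodd : Odd c) : J((c : ℤ) | b) = 1 := by
  have hbc : b % c = 1 % c := by
    have h1 : b ≡ 1 [MOD T] := hbT
    exact h1.of_dvd hc
  have hbodd : Odd b := by
    rw [Nat.odd_iff]; omega
  rw [← jacobiSym.quadratic_reciprocity_one_mod_four hb4 hodd]
  rw [jacobiSym.mod_left]
  have : ((b : ℤ) % (c : ℤ)) = ((1 : ℤ) % (c : ℤ)) := by
    exact_mod_cast hbc
  rw [this, ← jacobiSym.mod_left, jacobiSym.one_left]

/-- `J(c | b) = 1` for a squarefree `c` dividing `T` when `b ≡ 1 mod 8` and `b ≡ 1 mod T`. -/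
theorem jacobiSym_eq_one_of_squarefree {b T c : ℕ} (hb8 : b % 8 = 1) (hbT : b % T = 1 % T)
    (hc : c ∣ T) (hsq : Squarefree c) : J((c : ℤ) | b) = 1 := by
  have hb4 : b % 4 = 1 := by omega
  have hbodd : Odd b := by rw [Nat.odd_iff]; omega
  rcases Nat.even_or_odd c with hev | hodd
  · obtain ⟨c₁, hc₁⟩ := hev
    have hc2 : c = 2 * c₁ := by omega
    have hc₁odd : Odd c₁ := by
      rw [← Nat.not_even_iff_odd]
      rintro ⟨d, hd⟩
      have : 2 * 2 ∣ c := ⟨d, by omega⟩
      have := hsq 2 this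
      simp at this
    have hc₁T : c₁ ∣ T := (Dvd.intro_left 2 hc2.symm).trans hc
    rw [hc2]
    push_cast
    rw [jacobiSym.mul_left, jacobiSym.at_two hbodd, jacobiSym_eq_one_of_odd hb4 hbT hc₁T hc₁odd,
      mul_one, ZMod.χ₈_nat_eq_if_mod_eight]
    have h2 : b % 2 ≠ 0 := by omega
    simp [h2, hb8]
  · exact jacobiSym_eq_one_of_odd hb4 hbT hc hodd

/-- **CRT + reciprocity**: a non-square integer has Jacobi symbol `-1` at some `b` coprime to `2 K D`. -/
theorem exists_coprime_jacobiSym_eq_neg_one {D : ℤ} (hD : ¬ IsSquare D) (K : ℕ) (hK : K ≠ 0) :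
    ∃ b : ℕ, b ≠ 0 ∧ Nat.Coprime b (2 * K * D.natAbs) ∧ J(D | b) = -1 := by
  have hD0 : D ≠ 0 := by
    rintro rfl
    exact hD ⟨0, by simp⟩
  set n := D.natAbs with hn
  have hn0 : n ≠ 0 := Int.natAbs_ne_zero.mpr hD0
  obtain ⟨s₀, m, hms, hsq⟩ := Nat.sq_mul_squarefree n
  have hm0 : m ≠ 0 := by
    rintro rfl
    simp at hms
    exact hn0 hms.symm
  have hs0 : s₀ ≠ 0 := by
    rintro rfl
    simp at hms
    exact hn0 hms.symm
  set T := 2 * K * n with hT
  have hT0 : T ≠ 0 := by positivity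
  have hnT : n ∣ T := Dvd.intro_left _ rfl
  have hmT : m ∣ T := (Dvd.intro _ hms |>.trans hnT |> fun h => (dvd_pow_self m two_ne_zero).trans h)
  have hsT : s₀ ∣ T := (Dvd.intro_left _ hms).trans hnT
  -- `D = ε · m² · s₀`
  have hDdecomp : D = D.sign * ((m : ℤ) ^ 2 * (s₀ : ℤ)) := by
    have h1 : (D.natAbs : ℤ) = (m : ℤ) ^ 2 * (s₀ : ℤ) := by
      rw [← hn, ← hms]; push_cast; ring
    rw [← h1, Int.sign_mul_natAbs]
  -- the Jacobi symbol of `D` at a `b` coprime to `m`
  have hJ : ∀ b : ℕ, Nat.Coprime m b → J(D | b) = J(D.sign | b) * J((s₀ : ℤ) | b) := by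
    intro b hmb
    have hg : ((m : ℤ)).gcd (b : ℤ) = 1 := by
      rw [Int.gcd_natCast_natCast]; exact hmb
    conv_lhs => rw [hDdecomp]
    rw [jacobiSym.mul_left, jacobiSym.mul_left, jacobiSym.sq_one' hg, one_mul]
  by_cases hodd : ∃ ω : ℕ, ω.Prime ∧ ω ≠ 2 ∧ ω ∣ s₀
  · -- an odd prime divides the squarefree part
    obtain ⟨ω, hω, hω2, hωs⟩ := hodd
    have : Fact ω.Prime := ⟨hω⟩
    obtain ⟨t, T', hωT', hTT'⟩ := Nat.exists_eq_pow_mul_and_not_dvd hT0 ω hω.ne_one
    have hT'0 : T' ≠ 0 := by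
      rintro rfl
      simp at hTT'
      exact hT0 hTT'
    have hcop : Nat.Coprime (8 * T') ω := by
      rw [Nat.coprime_comm, Nat.Prime.coprime_iff_not_dvd hω]
      intro h
      rcases (Nat.Prime.dvd_mul hω).mp h with h8 | h'
      · have : ω ∣ 2 ^ 3 := by simpa using h8
        have := (Nat.prime_dvd_prime_iff_eq hω Nat.prime_two).mp (hω.dvd_of_dvd_pow this)
        exact hω2 this
      · exact hωT' h'
    -- a non-residue modulo `ω`
    have hchar : ringChar (ZMod ω) ≠ 2 := by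
      rw [ZMod.ringChar_zmod_n]; exact hω2
    obtain ⟨x, hx⟩ := FiniteField.exists_nonsquare hchar
    obtain ⟨b, hb1, hb2⟩ := Nat.chineseRemainder hcop 1 x.val
    have hb8T : b % (8 * T') = 1 % (8 * T') := hb1
    have hb8 : b % 8 = 1 := by
      have h1 : b ≡ 1 [MOD 8] := (Nat.ModEq.of_dvd (Dvd.intro _ rfl) hb1)
      exact h1
    have hbT' : b % T' = 1 % T' := (Nat.ModEq.of_dvd (Dvd.intro_left _ rfl) hb1)
    have hb4 : b % 4 = 1 := by omega
    have hbodd : Odd b := by rw [Nat.odd_iff]; omega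
    have hb0 : b ≠ 0 := by rintro rfl; simp at hb8
    have hbx : ((b : ℕ) : ZMod ω) = x := by
      have := (ZMod.natCast_eq_natCast_iff b x.val ω).mpr hb2
      rw [this, ZMod.natCast_zmod_val]
    have hx0 : x ≠ 0 := by
      rintro rfl
      exact hx ⟨0, by simp⟩
    have hωb : ¬ ω ∣ b := by
      intro h
      apply hx0
      rw [← hbx]
      exact (ZMod.natCast_eq_zero_iff b ω).mpr h
    have hcopT' : Nat.Coprime b T' := by
      have h1 : Nat.Coprime b (8 * T') := by
        have : b ≡ 1 [MOD 8 * T'] := hb1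
        rw [Nat.coprime_comm]
        have h2 := (Nat.ModEq.gcd_eq this)
        rw [Nat.Coprime, Nat.gcd_comm, h2]
        simp
      exact Nat.Coprime.coprime_mul_left_right h1
    have hcopω : Nat.Coprime b ω := by
      rw [Nat.coprime_comm, Nat.Prime.coprime_iff_not_dvd hω]; exact hωb
    have hcopT : Nat.Coprime b T := by
      rw [hTT']
      exact Nat.Coprime.mul_right (Nat.Coprime.pow_right _ hcopω) hcopT'
    refine ⟨b, hb0, hcopT, ?_⟩
    have hmb : Nat.Coprime m b := (Nat.Coprime.coprime_dvd_right hmT hcopT).symm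
    rw [hJ b hmb]
    -- the sign
    have hsign : J(D.sign | b) = 1 := by
      rcases lt_trichotomy D 0 with h | h | h
      · rw [Int.sign_eq_neg_one_of_neg h, jacobiSym.at_neg_one hbodd, ZMod.χ₄_nat_one_mod_four hb4]
      · exact absurd h hD0
      · rw [Int.sign_eq_one_of_pos h, jacobiSym.one_left]
    rw [hsign, one_mul]
    -- `s₀ = ω · u'`
    obtain ⟨u', hu'⟩ := hωs
    have hu'sq : Squarefree u' := Squarefree.of_mul_right (hu' ▸ hsq : Squarefree (ω * u'))
    have hωu' : ¬ ω ∣ u' := by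
      intro h
      obtain ⟨v, hv⟩ := h
      have : ω * ω ∣ s₀ := ⟨v, by rw [hu', hv]; ring⟩
      have := hsq ω this
      exact hω.one_lt.ne' (Nat.isUnit_iff.mp this)
    have hu'T' : u' ∣ T' := by
      have h1 : u' ∣ ω ^ t * T' := by
        rw [← hTT']; exact (Dvd.intro_left _ hu'.symm).trans hsT
      have h2 : Nat.Coprime u' (ω ^ t) :=
        Nat.Coprime.pow_right _ ((Nat.Prime.coprime_iff_not_dvd hω).mpr hωu').symm
      exact h2.dvd_of_dvd_mul_left h1
    rw [hu']
    push_cast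
    rw [jacobiSym.mul_left, jacobiSym_eq_one_of_squarefree hb8 hbT' hu'T' hu'sq, mul_one]
    have hωodd : Odd ω := hω.odd_of_ne_two hω2
    rw [← jacobiSym.quadratic_reciprocity_one_mod_four hb4 hωodd,
      ← jacobiSym.legendreSym.to_jacobiSym, legendreSym.eq_neg_one_iff]
    have : (((b : ℕ) : ℤ) : ZMod ω) = x := by
      rw [Int.cast_natCast]; exact hbx
    rw [this]
    exact hx
  · -- the squarefree part is `1` or `2`
    have hs12 : s₀ = 1 ∨ s₀ = 2 := by
      by_contra hcon
      rw [not_or] at hcon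
      apply hodd
      -- a prime factor different from `2`, or `4 ∣ s₀`
      by_cases h2 : ∀ p : ℕ, p.Prime → p ∣ s₀ → p = 2
      · exfalso
        obtain ⟨k, hpow⟩ : ∃ k : ℕ, s₀ = 2 ^ k :=
          ⟨_, Nat.eq_prime_pow_of_unique_prime_dvd hs0 (fun {d} hd hds => h2 d hd hds)⟩
        have hle : k ≤ 1 := by
          by_contra hgt
          rw [not_le] at hgt
          have : 2 * 2 ∣ s₀ := by
            rw [hpow]
            calc 2 * 2 = 2 ^ 2 := by norm_num
              _ ∣ 2 ^ k := pow_dvd_pow 2 hgt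
          have := hsq 2 this
          simp at this
        interval_cases k
        · rw [pow_zero] at hpow; exact hcon.1 hpow
        · rw [pow_one] at hpow; exact hcon.2 hpow
      · push Not at h2
        obtain ⟨p, hp, hps, hp2⟩ := h2
        exact ⟨p, hp, hp2, hps⟩
    obtain ⟨t, T', h2T', hTT'⟩ := Nat.exists_eq_pow_mul_and_not_dvd hT0 2 (by norm_num)
    have hT'0 : T' ≠ 0 := by
      rintro rfl
      simp at hTT'
      exact hT0 hTT'
    have hT'odd : Odd T' := by
      rw [← Nat.not_even_iff_odd]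
      intro h
      exact h2T' h.two_dvd
    have hcop : Nat.Coprime 8 T' := by
      have : Nat.Coprime 2 T' := (Nat.Prime.coprime_iff_not_dvd Nat.prime_two).mpr h2T'
      have h8 : (8 : ℕ) = 2 ^ 3 := by norm_num
      rw [h8]
      exact Nat.Coprime.pow_left 3 this
    -- the residue modulo `8`
    have key : ∀ r₀ : ℕ, r₀ % 2 = 1 → r₀ < 8 →
        (∀ b : ℕ, b % 8 = r₀ → J(D.sign | b) * J((s₀ : ℤ) | b) = -1) →
        ∃ b : ℕ, b ≠ 0 ∧ Nat.Coprime b (2 * K * D.natAbs) ∧ J(D | b) = -1 := by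
      intro r₀ hr₀ hr₀8 hval
      obtain ⟨b, hb1, hb2⟩ := Nat.chineseRemainder hcop r₀ 1
      have hb8 : b % 8 = r₀ := by
        have : b % 8 = r₀ % 8 := hb1
        rw [this, Nat.mod_eq_of_lt hr₀8]
      have hb0 : b ≠ 0 := by rintro rfl; simp at hb8; omega
      have hb2' : b % 2 = 1 := by omega
      have hcopT' : Nat.Coprime b T' := by
        have : b ≡ 1 [MOD T'] := hb2
        have h2 := (Nat.ModEq.gcd_eq this)
        rw [Nat.Coprime, h2]
        simp
      have hcop2 : Nat.Coprime b 2 := by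
        rw [Nat.coprime_comm, Nat.Prime.coprime_iff_not_dvd Nat.prime_two]
        omega
      have hcopT : Nat.Coprime b T := by
        rw [hTT']
        exact Nat.Coprime.mul_right (Nat.Coprime.pow_right _ hcop2) hcopT'
      refine ⟨b, hb0, hcopT, ?_⟩
      have hmb : Nat.Coprime m b := (Nat.Coprime.coprime_dvd_right hmT hcopT).symm
      rw [hJ b hmb]
      exact hval b hb8
    rcases hs12 with h1 | h2
    · -- `s₀ = 1`: `D = -m²`
      have hneg : D < 0 := by
        rcases lt_trichotomy D 0 with h | h | h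
        · exact h
        · exact absurd h hD0
        · exfalso
          apply hD
          refine ⟨(m : ℤ), ?_⟩
          rw [hDdecomp, Int.sign_eq_one_of_pos h, h1]
          push_cast; ring
      refine key 7 (by norm_num) (by norm_num) fun b hb8 => ?_
      have hbodd : Odd b := by rw [Nat.odd_iff]; omega
      rw [Int.sign_eq_neg_one_of_neg hneg, h1, jacobiSym.at_neg_one hbodd,
        ZMod.χ₄_nat_three_mod_four (by omega)]
      simp
    · -- `s₀ = 2`
      refine key 5 (by norm_num) (by norm_num) fun b hb8 => ?_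
      have hbodd : Odd b := by rw [Nat.odd_iff]; omega
      have hb2 : b % 2 ≠ 0 := by omega
      have hχ8 : χ₈ (b : ZMod 8) = -1 := by
        rw [ZMod.χ₈_nat_eq_if_mod_eight]
        simp [hb2, hb8]
      have hχ4 : χ₄ (b : ZMod 4) = 1 := ZMod.χ₄_nat_one_mod_four (by omega)
      rw [h2]
      rcases lt_trichotomy D 0 with h | h | h
      · rw [Int.sign_eq_neg_one_of_neg h, jacobiSym.at_neg_one hbodd, hχ4]
        push_cast
        rw [jacobiSym.at_two hbodd, hχ8]
        simp
      · exact absurd h hD0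
      · rw [Int.sign_eq_one_of_pos h, jacobiSym.one_left]
        push_cast
        rw [jacobiSym.at_two hbodd, hχ8]
        simp

/-- **An odd prime `l ∤ K D` at which the non-square `D` is a non-residue.** -/
theorem exists_prime_jacobiSym_eq_neg_one {D : ℤ} (hD : ¬ IsSquare D) (K : ℕ) (hK : K ≠ 0) :
    ∃ l : ℕ, l.Prime ∧ l ≠ 2 ∧ ¬ l ∣ K ∧ ¬ (l : ℤ) ∣ D ∧ J(D | l) = -1 := by
  obtain ⟨b, -, hcop, hJ⟩ := exists_coprime_jacobiSym_eq_neg_one hD K hK
  obtain ⟨l, hl, hlb, hJl⟩ := jacobiSym.eq_neg_one_at_prime_divisor_of_eq_neg_one hJ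
  have hlT : ¬ l ∣ 2 * K * D.natAbs := fun h =>
    hl.one_lt.ne' (Nat.eq_one_of_dvd_coprimes hcop hlb h)
  refine ⟨l, hl, ?_, ?_, ?_, hJl⟩
  · rintro rfl
    exact hlT (Dvd.dvd.mul_right (Dvd.intro _ rfl) _)
  · intro h
    exact hlT (Dvd.dvd.mul_right (Dvd.dvd.mul_left h 2) _)
  · intro h
    exact hlT (Dvd.dvd.mul_left (Int.natCast_dvd.mp h) _)

/-- `a² − 4 r` is not a perfect square for a prime `r` unless `a = ±(r + 1)`. -/
theorem not_isSquare_sq_sub_four_mul {r : ℕ} (hr : r.Prime) {a : ℤ} (h1 : a ≠ (r : ℤ) + 1)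
    (h2 : a ≠ -((r : ℤ) + 1)) : ¬ IsSquare (a ^ 2 - 4 * (r : ℤ)) := by
  rintro ⟨m, hm⟩
  have hprod : (a - m) * (a + m) = 4 * (r : ℤ) := by linear_combination hm
  have hev : Even ((a - m) * (a + m)) := by
    rw [hprod]; exact ⟨2 * (r : ℤ), by ring⟩
  have hiff : Even (a - m) ↔ Even (a + m) := by rw [Int.even_sub, Int.even_add]
  have hev1 : Even (a - m) := by
    rcases Int.even_mul.mp hev with h | h
    · exact h
    · exact hiff.mpr h
  have hev2 : Even (a + m) := hiff.mp hev1
  obtain ⟨x, hx⟩ := hev1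
  obtain ⟨y, hy⟩ := hev2
  have hxy : x * y = (r : ℤ) := by
    have : (x + x) * (y + y) = 4 * (r : ℤ) := by rw [← hx, ← hy]; exact hprod
    linarith
  have ha : a = x + y := by linarith
  have hnat : x.natAbs * y.natAbs = r := by
    have := congrArg Int.natAbs hxy
    rwa [Int.natAbs_mul, Int.natAbs_natCast] at this
  have hcase : x.natAbs = 1 ∨ y.natAbs = 1 := by
    rcases (Nat.dvd_prime hr).mp (Dvd.intro _ hnat) with h | h
    · exact Or.inl h
    · right
      rw [h] at hnat
      have hr0 : 0 < r := hr.pos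
      exact Nat.eq_of_mul_eq_mul_left hr0 (by rw [hnat, mul_one])
  rcases hcase with h | h
  · rcases Int.natAbs_eq x with hx1 | hx1 <;> rw [h] at hx1
    · apply h1
      have : y = (r : ℤ) := by rw [hx1] at hxy; simpa using hxy
      rw [ha, hx1, this]; push_cast; ring
    · apply h2
      have : y = -(r : ℤ) := by rw [hx1] at hxy; push_cast at hxy; linarith
      rw [ha, hx1, this]; push_cast; ring
  · rcases Int.natAbs_eq y with hy1 | hy1 <;> rw [h] at hy1
    · apply h1
      have : x = (r : ℤ) := by rw [hy1] at hxy; simpa using hxy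
      rw [ha, hy1, this]; push_cast; ring
    · apply h2
      have : x = -(r : ℤ) := by rw [hy1] at hxy; push_cast at hxy; linarith
      rw [ha, hy1, this]; push_cast; ring

/-- **The auxiliary prime**: for a prime `r` and `a ≠ ±(r + 1)` there is an odd prime `l ∤ K` such that
`X² − a X + r` has no root modulo `l`. -/
theorem exists_prime_no_root {r : ℕ} (hr : r.Prime) {a : ℤ} (h1 : a ≠ (r : ℤ) + 1)
    (h2 : a ≠ -((r : ℤ) + 1)) (K : ℕ) (hK : K ≠ 0) :
    ∃ l : ℕ, l.Prime ∧ l ≠ 2 ∧ ¬ l ∣ K ∧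
      ∀ c : ZMod l, c ^ 2 - (a : ZMod l) * c + (r : ZMod l) ≠ 0 := by
  obtain ⟨l, hl, hl2, hlK, -, hJ⟩ :=
    exists_prime_jacobiSym_eq_neg_one (not_isSquare_sq_sub_four_mul hr h1 h2) K hK
  refine ⟨l, hl, hl2, hlK, fun c hc => ?_⟩
  apply ZMod.nonsquare_of_jacobiSym_eq_neg_one hJ
  refine ⟨2 * c - (a : ZMod l), ?_⟩
  push_cast
  linear_combination (-4 : ZMod l) * hc

/-- the same, for an endomorphism: an additive endomorphism `B` of a module over `ZMod l` killed by
`X² − a X + r` (with no root modulo `l`) is not a scalar, unless the module is trivial. -/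
theorem not_scalar_of_no_root {l : ℕ} (hl : l.Prime) {a : ℤ} {r : ℕ}
    (hroot : ∀ c : ZMod l, c ^ 2 - (a : ZMod l) * c + (r : ZMod l) ≠ 0)
    {V : Type*} [AddCommGroup V] [Module (ZMod l) V] (B : V →ₗ[ZMod l] V)
    (hB : ∀ v : V, B (B v) - (a : ZMod l) • B v + (r : ZMod l) • v = 0)
    (c : ZMod l) (hc : ∀ v : V, B v = c • v) : ∀ v : V, v = 0 := by
  have : Fact l.Prime := ⟨hl⟩
  intro v
  have h := hB v
  rw [hc (B v), hc v, smul_smul, smul_smul, ← sub_smul, ← add_smul] at h
  have hne : c * c - (a : ZMod l) * c + (r : ZMod l) ≠ 0 := by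
    have := hroot c
    rwa [sq] at this
  exact (smul_eq_zero.mp h).resolve_left hne

end Fermat.Agent.ES.Q58.QuadNonRes20
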