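/-
Programme S58 (paper phase), EC-ES core, pure algebra brick (helper18).  Mathlib only.

`M` an abelian group, `d : M → ℤ` with the EXACT parallelogram law
  (PL)  `d (x + y) + d (x - y) = 2 * d x + 2 * d y`.
Then `d 0 = 0`, `d (-x) = d x`, the polar form `polar d x y = d (x + y) - d x - d y` is biadditive
and symmetric, `d (n • x) = n ^ 2 * d x`, and

* `quad_rel` : for `e0 e1 e2 : M` (think `e_i = φ^i P₀`, `d = deg x`) with
  `d e0 = 1`, `d e1 = ℓ`, `d e2 = ℓ ^ 2`, `d (e1 + e2) = ℓ * d (e0 + e1)` (multiplicativity along `φ`)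
  and `d (e0 - e2) = d (e0 - e1) * d (e0 + e1)` (multiplicativity for `1 - φ² = (1 - φ)(1 + φ)`),
  one has, with `a := 1 + ℓ - d (e0 - e1)`,
      `d (e2 - a • e1 + ℓ • e0) = 0`.
  With Manin's lemma `d (e0 - e1) = #E(F_ℓ)` this is `deg x ((φ² - a_ℓ φ + ℓ) P₀) = 0`.
-/
import Mathlib

set_option autoImplicit false

namespace Fermat.Agent.ES.Q58.QuadRel18

variable {M : Type*} [AddCommGroup M]

/-- the polar form of `d`. -/
def polar (d : M → ℤ) (x y : M) : ℤ := d (x + y) - d x - d y

section PL

variable {d : M → ℤ}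

theorem polar_comm (x y : M) : polar d x y = polar d y x := by
  unfold polar
  rw [add_comm x y]
  ring

theorem d_add (x y : M) : d (x + y) = d x + d y + polar d x y := by
  unfold polar
  ring

variable (hPL : ∀ x y : M, d (x + y) + d (x - y) = 2 * d x + 2 * d y)

include hPL

theorem d_zero : d 0 = 0 := by
  have h := hPL 0 0
  simp only [add_zero, sub_zero] at h
  linarith

theorem d_neg (x : M) : d (-x) = d x := by
  have h := hPL 0 x
  have h0 := d_zero hPL
  rw [zero_add, zero_sub, h0] at h
  linarith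

theorem d_sub (x y : M) : d (x - y) = 2 * d x + 2 * d y - d (x + y) := by
  have h := hPL x y
  linarith

theorem d_two (x : M) : d (x + x) = 4 * d x := by
  have h := hPL x x
  rw [sub_self, d_zero hPL] at h
  linarith

/-- the three-term identity. -/
theorem d_add_add (x y z : M) :
    d (x + y + z) = d (x + y) + d (x + z) + d (y + z) - d x - d y - d z := by
  have h1 := hPL (x + y) z
  have h2 := hPL (x - z) y
  have h3 := hPL x (y + z)
  have e2a : x - z + y = x + y - z := by abel
  have e2b : x - z - y = x - (y + z) := by abel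
  have e3 : x + (y + z) = x + y + z := by abel
  rw [e2a, e2b] at h2
  rw [e3] at h3
  have h4 := d_sub hPL x z
  linarith

theorem polar_add_left (x z y : M) : polar d (x + z) y = polar d x y + polar d z y := by
  unfold polar
  have h := d_add_add hPL x z y
  linarith

theorem polar_add_right (y x z : M) : polar d y (x + z) = polar d y x + polar d y z := by
  rw [polar_comm y (x + z), polar_add_left hPL, polar_comm x y, polar_comm z y]

theorem polar_self (x : M) : polar d x x = 2 * d x := by
  unfold polar
  rw [d_two hPL]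
  ring

/-- `polar d · y` as an additive homomorphism. -/
def polarHom (y : M) : M →+ ℤ where
  toFun x := polar d x y
  map_zero' := by
    show polar d 0 y = 0
    unfold polar
    rw [zero_add, d_zero hPL]
    ring
  map_add' x z := polar_add_left hPL x z y

theorem polar_zsmul_left (n : ℤ) (x y : M) : polar d (n • x) y = n * polar d x y := by
  have h := map_zsmul (polarHom hPL y) n x
  simpa [polarHom] using h

theorem polar_zsmul_right (n : ℤ) (x y : M) : polar d x (n • y) = n * polar d x y := by
  rw [polar_comm x (n • y), polar_zsmul_left hPL, polar_comm y x]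

theorem polar_neg_left (x y : M) : polar d (-x) y = - polar d x y := by
  have h := polar_zsmul_left hPL (-1) x y
  simpa using h

theorem polar_neg_right (x y : M) : polar d x (-y) = - polar d x y := by
  rw [polar_comm x (-y), polar_neg_left hPL, polar_comm y x]

theorem d_sub' (x y : M) : d (x - y) = d x + d y - polar d x y := by
  rw [sub_eq_add_neg, d_add (d := d), d_neg hPL, polar_neg_right hPL]
  ring

theorem d_zsmul (n : ℤ) (x : M) : d (n • x) = n ^ 2 * d x := by
  have h1 := polar_self hPL (n • x)
  rw [polar_zsmul_left hPL, polar_zsmul_right hPL, polar_self hPL] at h1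
  have : 2 * d (n • x) = 2 * (n ^ 2 * d x) := by
    rw [← h1]
    ring
  linarith

/-- **The relation from the Gram matrix.** -/
theorem quad_rel (e0 e1 e2 : M) (ℓ : ℤ)
    (h0 : d e0 = 1) (h1 : d e1 = ℓ) (h2 : d e2 = ℓ ^ 2)
    (h12 : d (e1 + e2) = ℓ * d (e0 + e1))
    (hprod : d (e0 - e2) = d (e0 - e1) * d (e0 + e1)) :
    d (e2 - (1 + ℓ - d (e0 - e1)) • e1 + ℓ • e0) = 0 := by
  set t : ℤ := polar d e0 e1 with ht
  -- `d (e0 ± e1)`
  have hp : d (e0 + e1) = 1 + ℓ + t := by rw [d_add (d := d), h0, h1]
  have hm : d (e0 - e1) = 1 + ℓ - t := by rw [d_sub' hPL, h0, h1]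
  -- `B(e1, e2) = ℓ t`
  have hB12 : polar d e1 e2 = ℓ * t := by
    have := d_add (d := d) e1 e2
    rw [h12, hp, h1, h2] at this
    linarith
  -- `B(e0, e2) = t² - 2ℓ`
  have hB02 : polar d e0 e2 = t ^ 2 - 2 * ℓ := by
    have := d_sub' hPL e0 e2
    rw [hprod, hm, hp, h0, h2] at this
    linarith
  have ha : (1 + ℓ - d (e0 - e1)) = t := by rw [hm]; ring
  rw [ha]
  -- expand
  have e : e2 - t • e1 + ℓ • e0 = (e2 + (-t) • e1) + ℓ • e0 := by
    rw [neg_smul, sub_eq_add_neg]
  rw [e, d_add (d := d), d_add (d := d), d_zsmul hPL, d_zsmul hPL, polar_add_left hPL,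
    polar_zsmul_right hPL, polar_zsmul_right hPL, polar_zsmul_left hPL, polar_zsmul_right hPL,
    h0, h1, h2, polar_comm e2 e1, hB12, polar_comm e2 e0, hB02, polar_comm e1 e0, ← ht]
  ring

end PL

end Fermat.Agent.ES.Q58.QuadRel18
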